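import Fermat.Agent.LP.Iface
import Fermat.Agent.GT.Loc.N1Conc

/-!
# Project LP (S44), module PL-LOC: definitions

`p` an odd prime, `N0` a level prime to `p` with `4 ∣ N0`, `A` a valuation subring of `Q̄` above `p`,
`L` a good field (`GT.Brg.GoodField`: finite over `ℚ`, inside the inertia field of `A`, stable under the
decomposition group), `R = RL A L = A ∩ L` (a DVR with uniformizer `p`).

* `tauL p N0 L hr0 ε = h₂ ^ ε` (`ε = ± 1`) the parameter of the chart, `chL p N0 A L hr0 ε` the chart;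
  the two vertical valuation subrings of `FF L (p * N0)` are `gaussO R (p * N0)` and `Val.Ozero' R p N0`.
* `toQb L N : FF L N →+* FF Q̄ N`.
* `NodeOut` : the output of the parts (B), (C), (D) (Picard-Lefschetz formula at the nodes, with an exponent
  `r0` which does not depend on the node).
-/

set_option autoImplicit false
set_option synthInstance.maxHeartbeats 400000

noncomputable section

namespace Fermat.Agent.LP.PL

open Fermat.Agent.GR Fermat.Agent.GR.E Fermat.Agent.GR.D.Vert Fermat.Agent.GS Fermat.Agent.GT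
  Fermat.Agent.GT.Brg Fermat.Agent.C36.Unit ModularCurve

/-- extension of the constants to `Q̄`. -/
abbrev toQb (L : IntermediateField ℚ Qb) (N : ℕ) : FF L N →+* FF Qb N := mapFF (algebraMap L Qb) N

variable (p N0 : ℕ) [NeZero (p * N0)]

/-- the parameter `h₂ ^ ε` of the chart. -/
abbrev tauL (L : IntermediateField ℚ Qb) (hr0 : BaseCase.two.r ∣ N0) (ε : ℤ) : FF L (p * N0) :=
  Val.up (Val.dvd_q0 p N0) (BaseCase.two.tF L hr0 ^ ε)

/-- the chart. -/
abbrev chL (A : ValuationSubring Qb) (L : IntermediateField ℚ Qb) (hr0 : BaseCase.two.r ∣ N0)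
    (ε : ℤ) : Subalgebra (RL A L) (FF L (p * N0)) :=
  chart (RL A L) ({tauL p N0 L hr0 ε} : Set (FF L (p * N0)))

/-- the uniformizer `p` of `RL A L`, in `FF L (p * N0)`. -/
abbrev piL (A : ValuationSubring Qb) (L : IntermediateField ℚ Qb) : FF L (p * N0) :=
  algebraMap (RL A L) (FF L (p * N0)) ((p : ℕ) : RL A L)

/-- OUTPUT of the parts (B), (C), (D): there is an exponent `r0` such that, at every regular node
`X₁ X₂ = p G` of the chart of `h₂` over `RL A L` (all the nodes lie in this chart) and for every `V ≤ 𝒪`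
centered at this node, `u2 / X₂ ^ r0` is a unit of `V` times a `p`-th power. -/
def NodeOut (A : ValuationSubring Qb) (L : IntermediateField ℚ Qb)
    [IsDiscreteValuationRing (RL A L)] (hr0 : BaseCase.two.r ∣ N0)
    (𝒪 : ValuationSubring (FF Qb (p * N0))) (u2 : FF Qb (p * N0)) : Prop :=
  ∃ r0 : ℤ,
    ∀ (𝔪 : Ideal (chL p N0 A L hr0 1)) [𝔪.IsPrime], 𝔪.IsMaximal →
      vert ((p : ℕ) : RL A L) (gaussO (RL A L) (p * N0)) (chL p N0 A L hr0 1) ≤ 𝔪 →
      vert ((p : ℕ) : RL A L) (Val.Ozero' (RL A L) p N0) (chL p N0 A L hr0 1) ≤ 𝔪 →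
      ∀ X₁ X₂ G : chL p N0 A L hr0 1,
        (X₁ : FF L (p * N0)) / piL p N0 A L ∈ gaussO (RL A L) (p * N0) →
        (X₂ : FF L (p * N0)) / piL p N0 A L ∈ Val.Ozero' (RL A L) p N0 →
        G ∉ 𝔪 → X₁ * X₂ = algebraMap (RL A L) (chL p N0 A L hr0 1) ((p : ℕ) : RL A L) * G →
        ∀ V : ValuationSubring (FF Qb (p * N0)), V ≤ 𝒪 →
          (∀ x ∈ locAt (chL p N0 A L hr0 1) 𝔪, toQb L (p * N0) x ∈ V) →
          PDivAt V p (u2 / toQb L (p * N0) (X₂ : FF L (p * N0)) ^ r0)

end Fermat.Agent.LP.PL
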