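import Fermat.Agent.LP.PL.Loc.NodeBConc
import Fermat.Agent.LP.PL.Form.Tower4
import Fermat.Agent.GT.Base

/-!
# LP-PL-LOC, file `AsmArt`: (ART) `Gal(K / K ∩ Q̄ ^ I)` is the image of the inertia group

`K` a finite normal extension of `ℚ` in `Q̄`, `L = K ⊓ inertField A`.  Every element of
`TowGrp L K = Gal(K/L)` is the restriction of an element of the inertia group of `A`; a choice of
lifts is an `InertFam A L K s 1`.
-/

set_option autoImplicit false
set_option synthInstance.maxHeartbeats 400000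

noncomputable section

namespace Fermat.Agent.LP.PL

open Fermat.Agent.GR Fermat.Agent.GR.E Fermat.Agent.GS ModularCurve IntermediateField

/-- the base field attached to `K`. -/
abbrev baseL (A : ValuationSubring Qb) (K : IntermediateField ℚ Qb) : IntermediateField ℚ Qb :=
  K ⊓ GT.inertField A

theorem baseL_le (A : ValuationSubring Qb) (K : IntermediateField ℚ Qb) : baseL A K ≤ K :=
  inf_le_left

theorem inertFixed_baseL (A : ValuationSubring Qb) (K : IntermediateField ℚ Qb) :
    GT.InertFixed A (baseL A K) := GT.inertFixed_iff.2 inf_le_right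

/-- (ART). -/
theorem AsmArt_exists_lift (A : ValuationSubring Qb) (K : IntermediateField ℚ Qb) [Normal ℚ K]
    [FiniteDimensional ℚ K] (τ : TowGrp (baseL A K) K) :
    ∃ σ ∈ A.inertiaSubgroupIn ℚ, ∀ x : K, σ (x : Qb) = ((τ : K ≃ₐ[ℚ] K) x : Qb) := by
  set H : Subgroup (K ≃ₐ[ℚ] K) := (A.inertiaSubgroupIn ℚ).map (AlgEquiv.restrictNormalHom K) with hH
  have h1 : (τ : K ≃ₐ[ℚ] K) ∈ (IntermediateField.fixedField H).fixingSubgroup := by
    rw [IntermediateField.mem_fixingSubgroup_iff]
    intro x hx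
    apply τ.2 x
    refine IntermediateField.mem_inf.2 ⟨x.2, GT.mem_inertField.2 fun σ hσ => ?_⟩
    have h2 : (AlgEquiv.restrictNormalHom K σ) x = x :=
      (IntermediateField.mem_fixedField_iff H x).1 hx _ ⟨σ, hσ, rfl⟩
    have h3 := AlgEquiv.restrictNormal_commutes σ K x
    have h4 : (AlgEquiv.restrictNormal σ K) x = x := h2
    rw [h4] at h3
    exact h3.symm
  rw [IntermediateField.fixingSubgroup_fixedField] at h1
  obtain ⟨σ, hσ, hστ⟩ := h1
  refine ⟨σ, hσ, fun x => ?_⟩
  rw [← hστ]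
  exact (AlgEquiv.restrictNormal_commutes σ K x).symm

/-- a choice of inertia lifts. -/
def inertLift (A : ValuationSubring Qb) (K : IntermediateField ℚ Qb) [Normal ℚ K]
    [FiniteDimensional ℚ K] (τ : TowGrp (baseL A K) K) : Qb ≃ₐ[ℚ] Qb :=
  (AsmArt_exists_lift A K τ).choose

theorem inertLift_mem (A : ValuationSubring Qb) (K : IntermediateField ℚ Qb) [Normal ℚ K]
    [FiniteDimensional ℚ K] (τ : TowGrp (baseL A K) K) :
    inertLift A K τ ∈ A.inertiaSubgroupIn ℚ := (AsmArt_exists_lift A K τ).choose_spec.1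

theorem inertLift_apply (A : ValuationSubring Qb) (K : IntermediateField ℚ Qb) [Normal ℚ K]
    [FiniteDimensional ℚ K] (τ : TowGrp (baseL A K) K) (x : K) :
    inertLift A K τ (x : Qb) = ((τ : K ≃ₐ[ℚ] K) x : Qb) :=
  (AsmArt_exists_lift A K τ).choose_spec.2 x

theorem resL_inertLift (A : ValuationSubring Qb) (K : IntermediateField ℚ Qb) [Normal ℚ K]
    [FiniteDimensional ℚ K] (τ : TowGrp (baseL A K) K) :
    resL K (inertLift A K τ) = ((τ : K ≃ₐ[ℚ] K) : K ≃+* K) := by
  ext x
  show algebraMap K Qb (resL K (inertLift A K τ) x) = _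
  rw [algebraMap_resL]
  exact inertLift_apply A K τ x

/-- the family of inertia lifts is an `InertFam`. -/
theorem inertFam_inertLift (A : ValuationSubring Qb) (K : IntermediateField ℚ Qb) [Normal ℚ K]
    [FiniteDimensional ℚ K] : InertFam A (baseL A K) K (inertLift A K) 1 where
  memA τ := (inertia_spec A (inertLift_mem A K τ)).1
  inert τ := (inertia_spec A (inertLift_mem A K τ)).2
  one x hx := inertLift_apply A K 1 ⟨x, hx⟩
  perm τ := by
    refine ⟨Equiv.mulLeft τ, fun k x hx => ?_⟩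
    have h1 := inertLift_apply A K k ⟨x, hx⟩
    have h1' : inertLift A K k x = (((k : K ≃ₐ[ℚ] K) ⟨x, hx⟩ : K) : Qb) := h1
    rw [h1', inertLift_apply A K τ]
    exact (inertLift_apply A K (τ * k) ⟨x, hx⟩).symm
  fixed x hx hfix := by
    refine IntermediateField.mem_inf.2 ⟨hx, GT.mem_inertField.2 fun σ hσ => ?_⟩
    have hσL : σ ∈ (baseL A K).fixingSubgroup := by
      rw [IntermediateField.mem_fixingSubgroup_iff]
      intro y hy
      exact GT.mem_inertField.1 (IntermediateField.mem_inf.1 hy).2 σ hσ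
    obtain ⟨τ, hτ⟩ := TowGrp.exists_restrict (baseL_le A K) hσL
    have h1 := hτ ⟨x, hx⟩
    have h2 := inertLift_apply A K τ ⟨x, hx⟩
    have h1' : σ x = (((τ : K ≃ₐ[ℚ] K) ⟨x, hx⟩ : K) : Qb) := h1
    rw [h1', ← h2]
    exact hfix τ

end Fermat.Agent.LP.PL
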