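import Fermat.Agent.LP.PL.Loc.NodeBChart
import Fermat.Agent.GS.Bridge.Gal
import Fermat.Agent.GS.Abs.Cert
import Fermat.Agent.GR.C.LinDisj
import Fermat.Agent.GR.E.BR7

/-!
# LP-PL-LOC, file `NodeBConc`: the concrete instance of the norm trick

`L ≤ L2` number fields in `Q̄`, `L2` normal, `s : κ → Gal(Q̄/ℚ)` a finite family of elements of the
inertia group of `A` whose restrictions to `L2` form the group `Gal(L2 / L)` (`InertFam`).
`R = A ∩ L`, `R2 = A ∩ L2`, `C = chart R {t}`, `C2 = chart R2 {t}`.  At a node `𝔪2` of `C2`, every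
element of `locAt C2 𝔪2` is integral over `locAt C 𝔪`, `𝔪 = 𝔪2 ∩ C`.
-/

set_option autoImplicit false
set_option synthInstance.maxHeartbeats 400000

noncomputable section

namespace Fermat.Agent.LP.PL

open Fermat.Agent.GR Fermat.Agent.GR.E Fermat.Agent.GS ModularCurve IntermediateField

/-- coefficient inclusion `FF L N → FF L2 N`. -/
abbrev upFF {L L2 : IntermediateField ℚ Qb} (hL : L ≤ L2) (N : ℕ) : FF L N →+* FF L2 N :=
  mapFF (IntermediateField.inclusion hL : L →+* L2) N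

/-- a finite family of inertia elements whose restrictions to `L2` form `Gal(L2 / L)`. -/
structure InertFam (A : ValuationSubring Qb) (L L2 : IntermediateField ℚ Qb) {κ : Type*}
    (s : κ → Qb ≃ₐ[ℚ] Qb) (i₀ : κ) : Prop where
  memA : ∀ i x, s i x ∈ A ↔ x ∈ A
  inert : ∀ i, ∀ x ∈ A, s i x - x ∈ A.nonunits
  one : ∀ x ∈ L2, s i₀ x = x
  perm : ∀ i, ∃ π : Equiv.Perm κ, ∀ k, ∀ x ∈ L2, s i (s k x) = s (π k) x
  fixed : ∀ x ∈ L2, (∀ i, s i x = x) → x ∈ L

variable {A : ValuationSubring Qb} {L L2 : IntermediateField ℚ Qb} [Normal ℚ L2] {κ : Type*}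
  {s : κ → Qb ≃ₐ[ℚ] Qb} {i₀ : κ}

/-- the action on `FF L2 N`. -/
abbrev famFF (L2 : IntermediateField ℚ Qb) [Normal ℚ L2] (s : κ → Qb ≃ₐ[ℚ] Qb) (N : ℕ) (i : κ) :
    FF L2 N ≃+* FF L2 N := mapFFEquiv (resL L2 (s i)) N

theorem NodeBConc_ext {N : ℕ} {x y : FF L2 N}
    (h : ∀ n, algebraMap L2 Qb ((x : LaurentSeries L2).coeff n) =
      algebraMap L2 Qb ((y : LaurentSeries L2).coeff n)) : x = y := by
  apply Subtype.ext
  apply HahnSeries.ext
  funext n
  exact (algebraMap L2 Qb).injective (h n)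

theorem NodeBConc_coeff (N : ℕ) (i : κ) (x : FF L2 N) (n : ℤ) :
    algebraMap L2 Qb ((famFF L2 s N i x : LaurentSeries L2).coeff n) =
      s i (algebraMap L2 Qb ((x : LaurentSeries L2).coeff n)) := by
  rw [coe_mapFFEquiv, coeffMap_coeff]
  exact algebraMap_resL L2 (s i) _

theorem InertFam.hid (hs : InertFam A L L2 s i₀) (N : ℕ) (e : FF L2 N) : famFF L2 s N i₀ e = e := by
  apply NodeBConc_ext
  intro n
  rw [NodeBConc_coeff]
  exact hs.one _ (SetLike.coe_mem _)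

theorem InertFam.hperm (hs : InertFam A L L2 s i₀) (N : ℕ) (i : κ) :
    ∃ π : Equiv.Perm κ, ∀ k (e : FF L2 N),
      famFF L2 s N i (famFF L2 s N k e) = famFF L2 s N (π k) e := by
  obtain ⟨π, hπ⟩ := hs.perm i
  refine ⟨π, fun k e => ?_⟩
  apply NodeBConc_ext
  intro n
  rw [NodeBConc_coeff, NodeBConc_coeff, NodeBConc_coeff]
  exact hπ k _ (SetLike.coe_mem _)

theorem InertFam.hfix (hs : InertFam A L L2 s i₀) (hL : L ≤ L2) (N : ℕ) (x : FF L2 N)
    (hx : ∀ i, famFF L2 s N i x = x) : ∃ f : FF L N, upFF hL N f = x := by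
  have hc : ∀ n : ℤ, (coeffMap (algebraMap L2 Qb) (x : LaurentSeries L2)).coeff n ∈
      Set.range (algebraMap L Qb) := by
    intro n
    rw [coeffMap_coeff]
    have h1 : algebraMap L2 Qb ((x : LaurentSeries L2).coeff n) ∈ L := by
      apply hs.fixed _ (SetLike.coe_mem _)
      intro i
      have h3 := NodeBConc_coeff (s := s) N i x n
      rw [hx i] at h3
      exact h3.symm
    exact ⟨⟨_, h1⟩, rfl⟩
  obtain ⟨f₀, hf₀⟩ := C.exists_coeffMap_eq (K := L) _ hc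
  have hf₀m : f₀ ∈ FF L N := by
    apply C.mem_FF_of_coeffMap_mem (Ω := Qb)
    rw [hf₀]
    exact E.coeffMap_mem_FF _ _ x.2
  refine ⟨⟨f₀, hf₀m⟩, ?_⟩
  apply NodeBConc_ext
  intro n
  have h2 := congrArg (fun g : LaurentSeries Qb => g.coeff n) hf₀
  simp only [coeffMap_coeff] at h2
  rw [← h2]
  show algebraMap L2 Qb ((coeffMap (IntermediateField.inclusion hL : L →+* L2) f₀).coeff n) = _
  rw [coeffMap_coeff]
  rfl

/-! ### constants -/

theorem NodeBConc_coeff_const {K : Type*} [Field K] (R : ValuationSubring K) (N : ℕ) (r : R)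
    (n : ℤ) : ((algebraMap R (FF K N) r : FF K N) : LaurentSeries K).coeff n =
      if n = 0 then (r : K) else 0 := by
  rw [BR7_coe_algebraMap, HahnSeries.C_apply, HahnSeries.coeff_single]
  split_ifs <;> rfl

theorem NodeBConc_chart_closed {R F : Type*} [CommRing R] [Field F] [Algebra R F] (S : Set F)
    (x : F) (hx : IsIntegral (chart R S) x) : x ∈ chart R S := by
  have h2 : IsIntegral (integralClosure (Algebra.adjoin R S) F) x := hx
  exact mem_chart.mpr (isIntegral_trans (A := integralClosure (Algebra.adjoin R S) F) x h2)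

theorem InertFam.hδR (hs : InertFam A L L2 s i₀) (N : ℕ) (i : κ)
    (r : A.comap (algebraMap L2 Qb)) : ∃ r' : A.comap (algebraMap L2 Qb),
      famFF L2 s N i (algebraMap (A.comap (algebraMap L2 Qb)) (FF L2 N) r) =
        algebraMap (A.comap (algebraMap L2 Qb)) (FF L2 N) r' := by
  refine ⟨⟨resL L2 (s i) r, (resL_mem_iff A L2 (hs.memA i) _).2 r.2⟩, ?_⟩
  apply NodeBConc_ext
  intro n
  rw [NodeBConc_coeff, NodeBConc_coeff_const, NodeBConc_coeff_const]
  split_ifs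
  · exact (algebraMap_resL L2 (s i) _).symm
  · simp

theorem InertFam.hdesc (hs : InertFam A L L2 s i₀) (hL : L ≤ L2) (N : ℕ)
    (r' : A.comap (algebraMap L2 Qb))
    (h : ∀ i, famFF L2 s N i (algebraMap (A.comap (algebraMap L2 Qb)) (FF L2 N) r') =
      algebraMap (A.comap (algebraMap L2 Qb)) (FF L2 N) r') :
    ∃ r : A.comap (algebraMap L Qb),
      upFF hL N (algebraMap (A.comap (algebraMap L Qb)) (FF L N) r) =
        algebraMap (A.comap (algebraMap L2 Qb)) (FF L2 N) r' := by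
  have h1 : algebraMap L2 Qb (r' : L2) ∈ L := by
    apply hs.fixed _ (SetLike.coe_mem _)
    intro i
    have h2 := NodeBConc_coeff (s := s) N i
      (algebraMap (A.comap (algebraMap L2 Qb)) (FF L2 N) r') 0
    rw [h i, NodeBConc_coeff_const, if_pos rfl] at h2
    exact h2.symm
  refine ⟨⟨⟨_, h1⟩, r'.2⟩, ?_⟩
  apply NodeBConc_ext
  intro n
  show algebraMap L2 Qb ((coeffMap (IntermediateField.inclusion hL : L →+* L2) _).coeff n) = _
  rw [coeffMap_coeff, NodeBConc_coeff_const, NodeBConc_coeff_const]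
  split_ifs
  · rfl
  · simp

/-- `R2` is integral over `R`. -/
theorem InertFam.const_isIntegralElem [Fintype κ] (hs : InertFam A L L2 s i₀) (hL : L ≤ L2) (N : ℕ)
    (r' : A.comap (algebraMap L2 Qb)) :
    ((upFF hL N).comp (algebraMap (A.comap (algebraMap L Qb)) (FF L N))).IsIntegralElem
      (algebraMap (A.comap (algebraMap L2 Qb)) (FF L2 N) r') :=
  NodeBChart_const (upFF hL N) (famFF L2 s N) i₀ (hs.hid N) (hs.hperm N) (hs.hδR N)
    (hs.hdesc hL N) r'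

/-- **(B2b), concrete, general prime**: `t` the base function of the chart (`h` or `h⁻¹`), `𝔪2` a
prime of `C2 = chart R2 {t}` stable under the family. -/
theorem InertFam.isIntegralElem_of_mem_locAt [Fintype κ] (hs : InertFam A L L2 s i₀) (hL : L ≤ L2)
    (N : ℕ) (t : FF L N)
    (hδC : ∀ i, ∀ x ∈ chart (A.comap (algebraMap L2 Qb)) ({upFF hL N t} : Set (FF L2 N)),
      famFF L2 s N i x ∈ chart (A.comap (algebraMap L2 Qb)) ({upFF hL N t} : Set (FF L2 N)))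
    (𝔪2 : Ideal (chart (A.comap (algebraMap L2 Qb)) ({upFF hL N t} : Set (FF L2 N))))
    [𝔪2.IsPrime]
    (hδ𝔪 : ∀ i (x : chart (A.comap (algebraMap L2 Qb)) ({upFF hL N t} : Set (FF L2 N))),
      (⟨famFF L2 s N i x, hδC i x x.2⟩ :
        chart (A.comap (algebraMap L2 Qb)) ({upFF hL N t} : Set (FF L2 N))) ∈ 𝔪2 → x ∈ 𝔪2)
    (𝔪 : Ideal (chart (A.comap (algebraMap L Qb)) ({t} : Set (FF L N)))) [𝔪.IsPrime]
    (h𝔪 : ∀ (c : chart (A.comap (algebraMap L Qb)) ({t} : Set (FF L N)))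
      (hc : upFF hL N c ∈ chart (A.comap (algebraMap L2 Qb)) ({upFF hL N t} : Set (FF L2 N))),
      c ∈ 𝔪 → (⟨upFF hL N c, hc⟩ :
        chart (A.comap (algebraMap L2 Qb)) ({upFF hL N t} : Set (FF L2 N))) ∈ 𝔪2)
    {x : FF L2 N}
    (hx : x ∈ locAt (chart (A.comap (algebraMap L2 Qb)) ({upFF hL N t} : Set (FF L2 N))) 𝔪2) :
    ((upFF hL N).comp (algebraMap
      (locAt (chart (A.comap (algebraMap L Qb)) ({t} : Set (FF L N))) 𝔪) (FF L N))).IsIntegralElem
      x :=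
  PL.isIntegralElem_of_mem_locAt (upFF hL N) _ (NodeBConc_chart_closed _) _
    (fun _ hy => isIntegralElem_of_mem_chart (upFF hL N) t (hs.const_isIntegralElem hL N) hy)
    (famFF L2 s N) i₀ (hs.hid N) (hs.hperm N) (hs.hfix hL N) hδC 𝔪2 hδ𝔪 𝔪 h𝔪 hx

/-! ### nodes -/

theorem InertFam.chartAut (hs : InertFam A L L2 s i₀) {p N : ℕ} {h2 : FF L2 N}
    {w2 : FF L2 N ≃ₐ[L2] FF L2 N} {𝒪₁ 𝒪₂ : ValuationSubring (FF L2 N)}
    (MD : NodalModelData (A.comap (algebraMap L2 Qb)) p N h2 w2 𝒪₁ 𝒪₂) (i : κ) :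
    ChartAut (A.comap (algebraMap L2 Qb)) 𝒪₁ 𝒪₂ h2 (famFF L2 s N i) :=
  MD.aut _ (resL_mem_iff A L2 (hs.memA i))

theorem InertFam.frobLike (hs : InertFam A L L2 s i₀) {p N : ℕ} {h2 : FF L2 N}
    {w2 : FF L2 N ≃ₐ[L2] FF L2 N} {𝒪₁ 𝒪₂ : ValuationSubring (FF L2 N)}
    (MD : NodalModelData (A.comap (algebraMap L2 Qb)) p N h2 w2 𝒪₁ 𝒪₂)
    {ϖ2 : A.comap (algebraMap L2 Qb)} (hϖ2 : Irreducible ϖ2) (i : κ) :
    FrobLike ϖ2 𝒪₁ 𝒪₂ (chart (A.comap (algebraMap L2 Qb)) ({h2} : Set (FF L2 N)))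
      (famFF L2 s N i) 1 ∧
    FrobLike ϖ2 𝒪₁ 𝒪₂ (chart (A.comap (algebraMap L2 Qb)) ({h2⁻¹} : Set (FF L2 N)))
      (famFF L2 s N i) 1 := by
  refine MD.inert _ (resL_mem_iff A L2 (hs.memA i)) (fun x hx => ?_) ϖ2 hϖ2
  have := resL_cong A L2 (σ := s i) (c := 1) (by simpa using hs.inert i) x hx
  simpa using this

theorem InertFam.map_mem_chart0 [IsDiscreteValuationRing (A.comap (algebraMap L2 Qb))]
    (hs : InertFam A L L2 s i₀) {p N : ℕ} {h2 : FF L2 N}
    {w2 : FF L2 N ≃ₐ[L2] FF L2 N} {𝒪₁ 𝒪₂ : ValuationSubring (FF L2 N)}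
    (MD : NodalModelData (A.comap (algebraMap L2 Qb)) p N h2 w2 𝒪₁ 𝒪₂) (i : κ) :
    ∀ x ∈ chart (A.comap (algebraMap L2 Qb)) ({h2} : Set (FF L2 N)),
      famFF L2 s N i x ∈ chart (A.comap (algebraMap L2 Qb)) ({h2} : Set (FF L2 N)) := fun x hx =>
  (hs.chartAut MD i).map_mem_chart (S := {h2}) (by
    intro y hy
    rw [Set.mem_singleton_iff] at hy ⊢
    rw [hy, (hs.chartAut MD i).fix]) hx

theorem InertFam.map_mem_chart1 [IsDiscreteValuationRing (A.comap (algebraMap L2 Qb))]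
    (hs : InertFam A L L2 s i₀) {p N : ℕ} {h2 : FF L2 N}
    {w2 : FF L2 N ≃ₐ[L2] FF L2 N} {𝒪₁ 𝒪₂ : ValuationSubring (FF L2 N)}
    (MD : NodalModelData (A.comap (algebraMap L2 Qb)) p N h2 w2 𝒪₁ 𝒪₂) (i : κ) :
    ∀ x ∈ chart (A.comap (algebraMap L2 Qb)) ({h2⁻¹} : Set (FF L2 N)),
      famFF L2 s N i x ∈ chart (A.comap (algebraMap L2 Qb)) ({h2⁻¹} : Set (FF L2 N)) := fun x hx =>
  (hs.chartAut MD i).map_mem_chart (S := {h2⁻¹}) (by
    intro y hy
    rw [Set.mem_singleton_iff] at hy ⊢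
    rw [hy, map_inv₀, (hs.chartAut MD i).fix]) hx

/-- **(B2b), concrete, at a node** of `C2 = chart R2 {t2}`, `t2 = upFF t` (use it with `t2 = h2`,
`t = h` and with `t2 = h2⁻¹`, `t = h⁻¹`; `hδC`, `hF` from `InertFam.map_mem_chart0/1`,
`InertFam.frobLike`). -/
theorem InertFam.isIntegralElem_node [Fintype κ] (hs : InertFam A L L2 s i₀) (hL : L ≤ L2)
    (N : ℕ) (t : FF L N) (t2 : FF L2 N) (ht : upFF hL N t = t2)
    (hδC : ∀ i, ∀ x ∈ chart (A.comap (algebraMap L2 Qb)) ({t2} : Set (FF L2 N)),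
      famFF L2 s N i x ∈ chart (A.comap (algebraMap L2 Qb)) ({t2} : Set (FF L2 N)))
    {ϖ2 : A.comap (algebraMap L2 Qb)} {𝒪₁ 𝒪₂ : ValuationSubring (FF L2 N)}
    (hF : ∀ i, FrobLike ϖ2 𝒪₁ 𝒪₂ (chart (A.comap (algebraMap L2 Qb)) ({t2} : Set (FF L2 N)))
      (famFF L2 s N i) 1)
    (𝔪2 : Ideal (chart (A.comap (algebraMap L2 Qb)) ({t2} : Set (FF L2 N)))) [𝔪2.IsPrime]
    (h₁ : vert ϖ2 𝒪₁ (chart (A.comap (algebraMap L2 Qb)) ({t2} : Set (FF L2 N))) ≤ 𝔪2)
    (h₂ : vert ϖ2 𝒪₂ (chart (A.comap (algebraMap L2 Qb)) ({t2} : Set (FF L2 N))) ≤ 𝔪2)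
    (𝔪 : Ideal (chart (A.comap (algebraMap L Qb)) ({t} : Set (FF L N)))) [𝔪.IsPrime]
    (h𝔪 : ∀ (c : chart (A.comap (algebraMap L Qb)) ({t} : Set (FF L N)))
      (hc : upFF hL N c ∈ chart (A.comap (algebraMap L2 Qb)) ({t2} : Set (FF L2 N))),
      c ∈ 𝔪 → (⟨upFF hL N c, hc⟩ :
        chart (A.comap (algebraMap L2 Qb)) ({t2} : Set (FF L2 N))) ∈ 𝔪2)
    {x : FF L2 N}
    (hx : x ∈ locAt (chart (A.comap (algebraMap L2 Qb)) ({t2} : Set (FF L2 N))) 𝔪2) :
    ((upFF hL N).comp (algebraMap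
      (locAt (chart (A.comap (algebraMap L Qb)) ({t} : Set (FF L N))) 𝔪) (FF L N))).IsIntegralElem
      x := by
  subst ht
  exact hs.isIntegralElem_of_mem_locAt hL N t hδC 𝔪2
    (fun i x hx => NodeBInt_mem_of_frobLike (hF i) (hδC i) 𝔪2 h₁ h₂ x hx) 𝔪 h𝔪 hx

/-- `upFF` maps `chart R {t}` into `chart R2 {upFF t}`. -/
theorem upFF_mem_chart (A : ValuationSubring Qb) (hL : L ≤ L2) (N : ℕ) (t : FF L N) {c : FF L N}
    (hc : c ∈ chart (A.comap (algebraMap L Qb)) ({t} : Set (FF L N))) :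
    upFF hL N c ∈ chart (A.comap (algebraMap L2 Qb)) ({upFF hL N t} : Set (FF L2 N)) := by
  have hadj : ∀ y ∈ Algebra.adjoin (A.comap (algebraMap L Qb)) ({t} : Set (FF L N)),
      upFF hL N y ∈ Algebra.adjoin (A.comap (algebraMap L2 Qb)) ({upFF hL N t} : Set (FF L2 N)) := by
    intro y hy
    induction hy using Algebra.adjoin_induction with
    | mem z hz =>
      rw [Set.mem_singleton_iff] at hz
      rw [hz]
      exact Algebra.subset_adjoin rfl
    | algebraMap r =>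
      have e : upFF hL N (algebraMap (A.comap (algebraMap L Qb)) (FF L N) r) =
          algebraMap (A.comap (algebraMap L2 Qb)) (FF L2 N)
            ⟨IntermediateField.inclusion hL (r : L), r.2⟩ := by
        apply NodeBConc_ext
        intro n
        show algebraMap L2 Qb ((coeffMap (IntermediateField.inclusion hL : L →+* L2) _).coeff n) = _
        rw [coeffMap_coeff, NodeBConc_coeff_const, NodeBConc_coeff_const]
        split_ifs
        · rfl
        · simp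
      rw [e]
      exact Subalgebra.algebraMap_mem _ _
    | add y z _ _ hy hz => rw [map_add]; exact add_mem hy hz
    | mul y z _ _ hy hz => rw [map_mul]; exact mul_mem hy hz
  rw [mem_chart] at hc ⊢
  obtain ⟨P, hP, hPc⟩ := hc
  let j : Algebra.adjoin (A.comap (algebraMap L Qb)) ({t} : Set (FF L N)) →+*
      Algebra.adjoin (A.comap (algebraMap L2 Qb)) ({upFF hL N t} : Set (FF L2 N)) :=
    ((upFF hL N).comp (algebraMap _ (FF L N))).codRestrict
      (Algebra.adjoin (A.comap (algebraMap L2 Qb)) ({upFF hL N t} : Set (FF L2 N))).toSubring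
      (fun y => hadj y y.2)
  refine ⟨P.map j, hP.map _, ?_⟩
  rw [Polynomial.eval₂_map]
  have e : (algebraMap (Algebra.adjoin (A.comap (algebraMap L2 Qb))
      ({upFF hL N t} : Set (FF L2 N))) (FF L2 N)).comp j =
      (upFF hL N).comp (algebraMap _ (FF L N)) := by
    ext y
    rfl
  rw [e, ← Polynomial.hom_eval₂, hPc, map_zero]

end Fermat.Agent.LP.PL
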