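import Fermat.Agent.LP.PL.Loc.NodeB
import Fermat.Agent.LP.PL.Loc.NodeBConc
import Fermat.Agent.LP.Nod.BrMain

/-!
# LP-PL-LOC, file `AsmLevel`: NODE-p over every big enough normal number field `K`

`y ∈ FF Q̄ (p N1)` a Kummer function, deep on both components.  There is a number field `K₀` such that
for every finite normal `K ⊇ K₀`: `ζ ∈ K`, `y` has coefficients in `K` and at every closed point of the
special fibre of both charts over `A ∩ K` there is `α ≠ 0` with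
`(α ^ p y - 1) / ((ζ - 1) ^ p ϖ)` in the local ring.
-/

set_option autoImplicit false
set_option synthInstance.maxHeartbeats 400000

noncomputable section

namespace Fermat.Agent.LP.PL

open Fermat.Agent.GR Fermat.Agent.GR.E Fermat.Agent.GS ModularCurve IntermediateField
open Fermat.Agent.LP

/-- NODE-p over `K` for the function `yK` and the coordinate `hK`. -/
def NodePK (A : ValuationSubring Qb) (p N : ℕ) (K : IntermediateField ℚ Qb)
    (ζK : A.comap (algebraMap K Qb)) (hK yK : FF K N) : Prop :=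
  ∀ ϖ : A.comap (algebraMap K Qb), Irreducible ϖ →
    (∀ (𝔪 : Ideal (chart (A.comap (algebraMap K Qb)) ({hK} : Set (FF K N)))) [𝔪.IsPrime],
      𝔪.IsMaximal →
      algebraMap (A.comap (algebraMap K Qb)) (chart (A.comap (algebraMap K Qb))
        ({hK} : Set (FF K N))) ϖ ∈ 𝔪 →
      ∃ α : FF K N, α ≠ 0 ∧
        (α ^ p * yK - 1) / algebraMap (A.comap (algebraMap K Qb)) (FF K N) ((ζK - 1) ^ p * ϖ) ∈
          locAt (chart (A.comap (algebraMap K Qb)) ({hK} : Set (FF K N))) 𝔪) ∧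
    (∀ (𝔪 : Ideal (chart (A.comap (algebraMap K Qb)) ({hK⁻¹} : Set (FF K N)))) [𝔪.IsPrime],
      𝔪.IsMaximal →
      algebraMap (A.comap (algebraMap K Qb)) (chart (A.comap (algebraMap K Qb))
        ({hK⁻¹} : Set (FF K N))) ϖ ∈ 𝔪 →
      ∃ α : FF K N, α ≠ 0 ∧
        (α ^ p * yK - 1) / algebraMap (A.comap (algebraMap K Qb)) (FF K N) ((ζK - 1) ^ p * ϖ) ∈
          locAt (chart (A.comap (algebraMap K Qb)) ({hK⁻¹} : Set (FF K N))) 𝔪)

theorem mapFF_upFF {L L2 : IntermediateField ℚ Qb} (hL : L ≤ L2) (N : ℕ) (x : FF L N) :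
    mapFF (algebraMap L2 Qb) N (upFF hL N x) = mapFF (algebraMap L Qb) N x := by
  apply Subtype.ext
  apply HahnSeries.ext
  funext n
  rfl

set_option maxHeartbeats 2000000 in
theorem AsmLevel_nodeP (A : ValuationSubring Qb) (p N1 : ℕ) (hp : p.Prime)
    (hA : A.LiesOverPrime p) [NeZero (p * N1)] (hcop : p.Coprime N1) (H : LaurentSeries ℤ)
    (hM : HasNodalModel A p N1 H)
    (w : FF Qb (p * N1) ≃ₐ[Qb] FF Qb (p * N1)) (hw : IsWQ Qb p N1 w) (y : FF Qb (p * N1))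
    (hK : IsKummer (N := p * N1) p (y : LaurentSeries Qb))
    (h1 : DeepAt (p * N1) p A y) (h2 : DeepAt (p * N1) p A (w y : FF Qb (p * N1)))
    {ζ : Qb} (hζ : IsPrimitiveRoot ζ p) :
    ∃ K₀ : IntermediateField ℚ Qb, FiniteDimensional ℚ K₀ ∧
      ∀ (K : IntermediateField ℚ Qb) [FiniteDimensional ℚ K] [Normal ℚ K], K₀ ≤ K →
        ζ ∈ K ∧ (∃ yK : FF K (p * N1), mapFF (algebraMap K Qb) (p * N1) yK = y) ∧
        ∀ (ζK : A.comap (algebraMap K Qb)) (yK : FF K (p * N1)),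
          algebraMap K Qb (ζK : K) = ζ → mapFF (algebraMap K Qb) (p * N1) yK = y →
          NodePK A p (p * N1) K ζK ⟨baseFn K H, hM.mem K⟩ yK := by
  classical
  have hn0 : p ≠ 0 := hp.ne_zero
  have : NeZero p := ⟨hn0⟩
  obtain ⟨hy0, hmem, hdivQ⟩ := hK
  have hyQ0 : y ≠ 0 := fun h => hy0 (by rw [h]; rfl)
  obtain ⟨d, hd0, hd, a, b, ha, hb, hpa, hib, hab, z₁, hz₁, hz₁0, h₁⟩ :=
    BrMain_depth_ne_zero hn0 hA (h1.change_root hζ hp.pos)
  obtain ⟨d', hd0', hd', a', b', ha', hb', hpa', hib', hab', z₂, hz₂, hz₂0, h₂⟩ :=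
    BrMain_depth_ne_zero hn0 hA (h2.change_root hζ hp.pos)
  have := hM.finDim
  obtain ⟨m0, a0, b0, ha0i, hb0i, hs0⟩ := exists_certificate
    (⟨baseFn Qb H, hM.mem Qb⟩ : FF Qb (p * N1)) hM.transc p (Nat.pos_of_ne_zero hn0) y hyQ0 hdivQ
  have := BR7_finiteDimensional_inv (⟨baseFn Qb H, hM.mem Qb⟩ : FF Qb (p * N1)) hM.finDim
  obtain ⟨m1, a1, b1, ha1i, hb1i, hs1⟩ := exists_certificate
    (⟨baseFn Qb H, hM.mem Qb⟩ : FF Qb (p * N1))⁻¹ (BR7_transcendental_inv hM.transc) p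
    (Nat.pos_of_ne_zero hn0) y hyQ0 hdivQ
  obtain ⟨K₀, hK₀fin, -, hK₀⟩ := BrMain_exists_level (p * N1)
    (({y, ⟨a, ha⟩, ⟨b, hb⟩, ⟨z₁, hz₁⟩, ⟨a', ha'⟩, ⟨b', hb'⟩, ⟨z₂, hz₂⟩,
        algebraMap Qb (FF Qb (p * N1)) ζ, algebraMap Qb (FF Qb (p * N1)) d,
        algebraMap Qb (FF Qb (p * N1)) d'} : Finset (FF Qb (p * N1))) ∪
      ((Finset.univ.image a0 ∪ Finset.univ.image b0) ∪
        (Finset.univ.image a1 ∪ Finset.univ.image b1)))
  refine ⟨K₀, hK₀fin, ?_⟩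
  intro L _ _ hK₀L
  have hL : ∀ u ∈ (({y, ⟨a, ha⟩, ⟨b, hb⟩, ⟨z₁, hz₁⟩, ⟨a', ha'⟩, ⟨b', hb'⟩, ⟨z₂, hz₂⟩,
        algebraMap Qb (FF Qb (p * N1)) ζ, algebraMap Qb (FF Qb (p * N1)) d,
        algebraMap Qb (FF Qb (p * N1)) d'} : Finset (FF Qb (p * N1))) ∪
      ((Finset.univ.image a0 ∪ Finset.univ.image b0) ∪
        (Finset.univ.image a1 ∪ Finset.univ.image b1))),
      ∃ x : FF L (p * N1), mapFF (algebraMap L Qb) (p * N1) x = u := by
    intro u hu
    obtain ⟨x, hx⟩ := hK₀ u hu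
    exact ⟨upFF hK₀L (p * N1) x, by rw [mapFF_upFF, hx]⟩
  clear hK₀
  obtain ⟨yL₀, hyL₀⟩ := hL y (by simp)
  obtain ⟨aL, haL⟩ := hL ⟨a, ha⟩ (by simp)
  obtain ⟨bL, hbL⟩ := hL ⟨b, hb⟩ (by simp)
  obtain ⟨z₁L, hz₁L⟩ := hL ⟨z₁, hz₁⟩ (by simp)
  obtain ⟨aL', haL'⟩ := hL ⟨a', ha'⟩ (by simp)
  obtain ⟨bL', hbL'⟩ := hL ⟨b', hb'⟩ (by simp)
  obtain ⟨z₂L, hz₂L⟩ := hL ⟨z₂, hz₂⟩ (by simp)
  obtain ⟨ζx, hζx⟩ := hL (algebraMap Qb (FF Qb (p * N1)) ζ) (by simp)
  obtain ⟨dx, hdx⟩ := hL (algebraMap Qb (FF Qb (p * N1)) d) (by simp)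
  obtain ⟨dx', hdx'⟩ := hL (algebraMap Qb (FF Qb (p * N1)) d') (by simp)
  obtain ⟨ζL₀, hζL₀⟩ := BrMain_const_descent L _ ζx ζ hζx
  obtain ⟨dL, hdL⟩ := BrMain_const_descent L _ dx d hdx
  obtain ⟨dL', hdL'⟩ := BrMain_const_descent L _ dx' d' hdx'
  have hda0 : ∀ i, ∃ x : FF L (p * N1), mapFF (algebraMap L Qb) (p * N1) x = a0 i := fun i =>
    hL _ (Finset.mem_union_right _ (Finset.mem_union_left _ (Finset.mem_union_left _
      (Finset.mem_image_of_mem _ (Finset.mem_univ i)))))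
  have hdb0 : ∀ i, ∃ x : FF L (p * N1), mapFF (algebraMap L Qb) (p * N1) x = b0 i := fun i =>
    hL _ (Finset.mem_union_right _ (Finset.mem_union_left _ (Finset.mem_union_right _
      (Finset.mem_image_of_mem _ (Finset.mem_univ i)))))
  have hda1 : ∀ i, ∃ x : FF L (p * N1), mapFF (algebraMap L Qb) (p * N1) x = a1 i := fun i =>
    hL _ (Finset.mem_union_right _ (Finset.mem_union_right _ (Finset.mem_union_left _
      (Finset.mem_image_of_mem _ (Finset.mem_univ i)))))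
  have hdb1 : ∀ i, ∃ x : FF L (p * N1), mapFF (algebraMap L Qb) (p * N1) x = b1 i := fun i =>
    hL _ (Finset.mem_union_right _ (Finset.mem_union_right _ (Finset.mem_union_right _
      (Finset.mem_image_of_mem _ (Finset.mem_univ i)))))
  clear hL
  refine ⟨by rw [← hζL₀]; exact ζL₀.2, ⟨yL₀, hyL₀⟩, ?_⟩
  intro ζK yL hζL hyL
  have hinj : Function.Injective (mapFF (algebraMap L Qb) (p * N1)) :=
    (mapFF (algebraMap L Qb) (p * N1)).injective
  have hh := BR7_mapFF_baseFn L (p * N1) H (hM.mem L) (hM.mem Qb)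
  have c0 : Certificate L (⟨baseFn L H, hM.mem L⟩ : FF L (p * N1)) p yL := by
    apply BR7_cert_descent L (p * N1) p _ _ m0 a0 b0 _ _ hs0 hda0 hdb0
    · rw [hh, hyL]; exact ha0i
    · rw [hh, hyL]; exact hb0i
  have c1 : Certificate L (⟨baseFn L H, hM.mem L⟩ : FF L (p * N1))⁻¹ p yL := by
    apply BR7_cert_descent L (p * N1) p _ _ m1 a1 b1 _ _ hs1 hda1 hdb1
    · rw [map_inv₀, hh, hyL]; exact ha1i
    · rw [map_inv₀, hh, hyL]; exact hb1i
  have hdvr := isDiscreteValuationRing_comap A p hp hA L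
  have hpA := BR5_not_isUnit_natCast A p hA L
  obtain ⟨ι⟩ := nonempty_Qbar_hom
  obtain ⟨wL, hwL⟩ : ∃ w : FF L (p * N1) ≃ₐ[L] FF L (p * N1), IsWQ L p N1 w :=
    ⟨_, isWQ_wQ (ι.comp (algebraMap L Qb)) hcop⟩
  obtain ⟨𝒪₁, 𝒪₂, MD⟩ := hM.model L hdvr wL hwL
  have hne : ∀ (x : FF L (p * N1)) (u : FF Qb (p * N1)),
      mapFF (algebraMap L Qb) (p * N1) x = u → u ≠ 0 → x ≠ 0 := by
    rintro x u rfl hu rfl
    exact hu (map_zero _)
  have hwy0 : ((w y : FF Qb (p * N1)) : LaurentSeries Qb) ≠ 0 := by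
    intro h
    apply hyQ0
    have : w y = 0 := Subtype.ext h
    simpa using this
  have hb0 : b ≠ 0 := by
    rintro rfl
    rw [div_zero] at h₁
    exact (mul_ne_zero hy0 (pow_ne_zero _ hz₁0)) h₁.symm
  have hb0' : b' ≠ 0 := by
    rintro rfl
    rw [div_zero] at h₂
    exact (mul_ne_zero hwy0 (pow_ne_zero _ hz₂0)) h₂.symm
  have e₁ : aL / bL = yL * z₁L ^ p := by
    apply hinj
    rw [map_div₀, map_mul, map_pow, haL, hbL, hyL, hz₁L]
    exact Subtype.ext h₁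
  have e₂ : aL' / bL' = wL yL * z₂L ^ p := by
    apply hinj
    rw [map_div₀, map_mul, map_pow, haL', hbL', hz₂L, hwL.mapFF_comm ι (algebraMap L Qb) hcop hw, hyL]
    exact Subtype.ext h₂
  have cv : ∀ (x : FF L (p * N1)) (u : FF Qb (p * N1)),
      mapFF (algebraMap L Qb) (p * N1) x = u →
      coeffMap (algebraMap L Qb) (x : LaurentSeries L) = (u : LaurentSeries Qb) := by
    rintro x u rfl
    rfl
  -- the constants
  have hdA : dL ∈ A.comap (algebraMap L Qb) := by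
    rw [ValuationSubring.mem_comap, hdL]
    exact A.nonunits_subset hd
  have hdA' : dL' ∈ A.comap (algebraMap L Qb) := by
    rw [ValuationSubring.mem_comap, hdL']
    exact A.nonunits_subset hd'
  have hζR : IsPrimitiveRoot ζK p := by
    have hinj2 : Function.Injective
        ((algebraMap L Qb).comp (A.comap (algebraMap L Qb)).subtype) :=
      (algebraMap L Qb).injective.comp Subtype.val_injective
    refine IsPrimitiveRoot.of_map_of_injective ?_ hinj2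
    show IsPrimitiveRoot (algebraMap L Qb (ζK : L)) p
    rw [hζL]
    exact hζ
  have hnu : ∀ (x : L) (hx : x ∈ A.comap (algebraMap L Qb)), algebraMap L Qb x ∈ A.nonunits →
      ¬ IsUnit (⟨x, hx⟩ : A.comap (algebraMap L Qb)) := by
    intro x hx hx'
    have h3 : x ∈ (A.comap (algebraMap L Qb)).nonunits := (BR7_mem_nonunits_comap _ _ _).2 hx'
    have h4 := (ValuationSubring.coe_mem_nonunits_iff
      (a := (⟨x, hx⟩ : A.comap (algebraMap L Qb)))).1 h3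
    exact h4
  have hcst : ∀ (x : L) (hx : x ∈ A.comap (algebraMap L Qb)),
      algebraMap L Qb (((ζK - 1) ^ p * ⟨x, hx⟩ :
        A.comap (algebraMap L Qb)) : L) = (ζ - 1) ^ p * algebraMap L Qb x := by
    intro x hx
    have : (((ζK - 1) ^ p * ⟨x, hx⟩ :
        A.comap (algebraMap L Qb)) : L) = ((ζK : L) - 1) ^ p * x := rfl
    rw [this, map_mul, map_pow, map_sub, map_one, hζL]
  intro ϖ hϖ
  exact node_coreP (algebraMap L Qb) A p (p * N1) _ wL 𝒪₁ 𝒪₂ MD hp hpA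
    ζK ⟨dL, hdA⟩ ⟨dL', hdA'⟩ hζR
    (fun h => hd0 (by rw [← hdL, show dL = 0 from congrArg Subtype.val h]; exact map_zero _))
    (hnu _ _ (by rw [hdL]; exact hd))
    (fun h => hd0' (by rw [← hdL', show dL' = 0 from congrArg Subtype.val h]; exact map_zero _))
    (hnu _ _ (by rw [hdL']; exact hd'))
    yL z₁L z₂L aL bL aL' bL'
    (hne _ _ hz₁L (fun h => hz₁0 (congrArg Subtype.val h)))
    (hne _ _ hz₂L (fun h => hz₂0 (congrArg Subtype.val h)))
    (hne _ _ hbL (fun h => hb0 (congrArg Subtype.val h)))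
    (hne _ _ hbL' (fun h => hb0' (congrArg Subtype.val h))) e₁ e₂
    (by rw [cv _ _ haL]; exact hpa) (by rw [cv _ _ hbL]; exact hib)
    (by rw [cv _ _ haL, cv _ _ hbL, hcst, hdL]; exact hab)
    (by rw [cv _ _ haL']; exact hpa') (by rw [cv _ _ hbL']; exact hib')
    (by rw [cv _ _ haL', cv _ _ hbL', hcst, hdL']; exact hab') c0 c1 ϖ hϖ

end Fermat.Agent.LP.PL
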