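import Fermat.Agent.LP.PL.Abs.Main

/-!
# PL-LOC, file `PsiAbs`: descent of an Artin-Schreier generator by norms of idempotents

Twin of `exists_asGen_fixed` / `chart_asGen` WITHOUT the hypothesis that the order of the group `Δ`
is prime to `p`.  Instead we assume `(PSI)`: `δ t₁ ≡ t₁` modulo `Small` for all `δ ∈ Δ`.
`e_k = 1 - (t₁ - k) ^ (p - 1)` is idempotent modulo `Small`, `ε_k = ∏_i δ_i e_k ≡ e_k ^ |Δ| ≡ e_k`,
`t = ∑_k k ε_k` is fixed by `Δ` and `t ≡ ∑_k k e_k ≡ t₁`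
(`X = ∑_k k (1 - (X - k) ^ (p - 1))` in `𝔽_p[X]`).
-/

set_option autoImplicit false

namespace Fermat.Agent.LP.PL

open Polynomial

variable {B E₁ : Type*} [CommRing B] [Field E₁] [Algebra B E₁] {p : ℕ}

/-- The interpolation identity in `𝔽_p[X]`. -/
theorem Psi_interp_zmod (hp : p.Prime) :
    (∑ k ∈ Finset.range p, C (k : ZMod p) * (1 - (X - C (k : ZMod p)) ^ (p - 1)) - X :
      (ZMod p)[X]) = 0 := by
  have : Fact p.Prime := ⟨hp⟩
  apply Polynomial.eq_zero_of_natDegree_lt_card_of_eval_eq_zero' _ (Finset.univ : Finset (ZMod p))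
  · intro a _
    rw [eval_sub, eval_X, eval_finsetSum, sub_eq_zero]
    rw [Finset.sum_eq_single a.val]
    · simp only [eval_mul, eval_C, eval_sub, eval_one, eval_pow, eval_X, ZMod.natCast_val,
        ZMod.cast_id', id_eq, sub_self]
      rw [zero_pow (Nat.sub_ne_zero_of_lt hp.one_lt)]
      ring
    · intro k hk hka
      have hne : a - (k : ZMod p) ≠ 0 := by
        intro h
        apply hka
        rw [sub_eq_zero] at h
        rw [h, ZMod.val_natCast, Nat.mod_eq_of_lt (Finset.mem_range.1 hk)]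
      simp only [eval_mul, eval_C, eval_sub, eval_one, eval_pow, eval_X]
      rw [ZMod.pow_card_sub_one_eq_one hne]
      ring
    · intro h
      exact absurd (Finset.mem_range.2 (ZMod.val_lt a)) h
  · rw [Finset.card_univ, ZMod.card]
    have h1 : (∑ k ∈ Finset.range p,
        C (k : ZMod p) * (1 - (X - C (k : ZMod p)) ^ (p - 1))).natDegree ≤ p - 1 := by
      apply Polynomial.natDegree_sum_le_of_forall_le
      intro k _
      refine (natDegree_C_mul_le _ _).trans ((natDegree_sub_le _ _).trans (max_le ?_ ?_))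
      · simp
      · refine (natDegree_pow_le).trans ?_
        rw [natDegree_X_sub_C, mul_one]
    have h2 : (X : (ZMod p)[X]).natDegree ≤ p - 1 := by
      rw [natDegree_X]
      have := hp.two_le
      omega
    have := (natDegree_sub_le _ _).trans (max_le h1 h2)
    have h3 := hp.two_le
    omega

/-- The interpolation identity in `ℤ[X]`. -/
theorem Psi_interp_int (hp : p.Prime) :
    ∃ H : ℤ[X], (∑ k ∈ Finset.range p, C (k : ℤ) * (1 - (X - C (k : ℤ)) ^ (p - 1)) - X : ℤ[X])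
      = C (p : ℤ) * H := by
  have h := Psi_interp_zmod hp
  have hd : C (p : ℤ) ∣
      (∑ k ∈ Finset.range p, C (k : ℤ) * (1 - (X - C (k : ℤ)) ^ (p - 1)) - X : ℤ[X]) := by
    rw [Polynomial.C_dvd_iff_dvd_coeff]
    intro i
    rw [← ZMod.intCast_zmod_eq_zero_iff_dvd]
    have e : ((∑ k ∈ Finset.range p, C (k : ℤ) * (1 - (X - C (k : ℤ)) ^ (p - 1)) - X : ℤ[X]).map
        (Int.castRingHom (ZMod p))) = 0 := by
      rw [← h]
      simp [Polynomial.map_sum]
    have h2 : (Int.castRingHom (ZMod p)) (coeff (∑ k ∈ Finset.range p,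
        C (k : ℤ) * (1 - (X - C (k : ℤ)) ^ (p - 1)) - X : ℤ[X]) i) = 0 := by
      rw [← coeff_map, e, coeff_zero]
    rwa [eq_intCast] at h2
  exact hd

/-- A polynomial with integer coefficients in an integral element is integral. -/
theorem Psi_isIntegral_aeval {t : E₁} (ht : IsIntegral B t) (H : ℤ[X]) :
    IsIntegral B (aeval t H) := by
  induction H using Polynomial.induction_on' with
  | add a b ha hb =>
    rw [map_add]
    exact ha.add hb
  | monomial n a =>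
    rw [aeval_monomial]
    refine IsIntegral.mul ?_ (ht.pow n)
    rw [eq_intCast]
    exact isIntegral_intCast a

/-- The idempotents. -/
noncomputable def PsiE (p : ℕ) (t : E₁) (k : ℕ) : E₁ := 1 - (t - (k : E₁)) ^ (p - 1)

theorem PsiE_isIntegral {t : E₁} (ht : IsIntegral B t) (k : ℕ) : IsIntegral B (PsiE p t k) :=
  isIntegral_one.sub ((ht.sub (isIntegral_natCast k)).pow _)

/-- `∑_k k e_k ≡ t`. -/
theorem PsiE_sum (hp : p.Prime) {t : E₁} (ht : IsIntegral B t) :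
    Small B p (∑ k ∈ Finset.range p, (k : E₁) * PsiE p t k - t) := by
  obtain ⟨H, hH⟩ := Psi_interp_int hp
  have := congrArg (aeval t) hH
  simp only [map_sub, map_sum, map_mul, aeval_X, map_one, map_pow, eq_intCast,
    Int.cast_natCast, map_natCast] at this
  unfold PsiE
  rw [this]
  exact small_natCast.mul_right (Psi_isIntegral_aeval ht H)

/-- `a ^ n - b ^ n` is small if `a - b` is. -/
theorem Psi_small_pow_sub_pow {a b : E₁} (ha : IsIntegral B a) (hb : IsIntegral B b)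
    (h : Small B p (a - b)) (n : ℕ) : Small B p (a ^ n - b ^ n) := by
  rw [← Commute.geom_sum₂_mul (Commute.all a b) n]
  exact h.mul_left (IsIntegral.sum _ fun i _ => (ha.pow _).mul (hb.pow _))

/-- `e_k` depends only on `t` modulo `Small`. -/
theorem PsiE_congr {t t' : E₁} (ht : IsIntegral B t) (ht' : IsIntegral B t')
    (h : Small B p (t' - t)) (k : ℕ) : Small B p (PsiE p t' k - PsiE p t k) := by
  have h1 : Small B p ((t - (k : E₁)) - (t' - (k : E₁))) := by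
    have := h.neg
    have e : (t - (k : E₁)) - (t' - (k : E₁)) = -(t' - t) := by ring
    rw [e]
    exact this
  have h2 := Psi_small_pow_sub_pow (ht.sub (isIntegral_natCast k)) (ht'.sub (isIntegral_natCast k))
    h1 (p - 1)
  have e : PsiE p t' k - PsiE p t k = (t - (k : E₁)) ^ (p - 1) - (t' - (k : E₁)) ^ (p - 1) := by
    unfold PsiE
    ring
  rw [e]
  exact h2

/-- integers satisfy `n ^ p ≡ n`. -/
theorem Psi_small_intCast (hp : p.Prime) (n : ℤ) : Small B p (((n : E₁)) ^ p - (n : E₁)) := by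
  have : Fact p.Prime := ⟨hp⟩
  have h : (p : ℤ) ∣ n ^ p - n := by
    rw [← ZMod.intCast_zmod_eq_zero_iff_dvd]
    push_cast
    rw [ZMod.pow_card, sub_self]
  obtain ⟨m, hm⟩ := h
  have e : ((n : E₁)) ^ p - (n : E₁) = (p : E₁) * (m : E₁) := by
    exact_mod_cast congrArg (Int.cast : ℤ → E₁) hm
  rw [e]
  exact small_natCast.mul_right (isIntegral_intCast m)

/-- `e_k` is idempotent modulo `Small`. -/
theorem PsiE_idem (hp : p.Prime) {t : E₁} (ht : IsIntegral B t) (has : Small B p (t ^ p - t))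
    (k : ℕ) : Small B p (PsiE p t k ^ 2 - PsiE p t k) := by
  have hx : IsIntegral B (t - (k : E₁)) := ht.sub (isIntegral_natCast k)
  have h1 : Small B p ((t - (k : E₁)) ^ p - (t - (k : E₁))) := by
    have := Descent_as_add hp ht (isIntegral_intCast (-(k : ℤ))) has
      (Psi_small_intCast hp (-(k : ℤ)))
    have e : t + ((-(k : ℤ) : ℤ) : E₁) = t - (k : E₁) := by
      push_cast
      ring
    rwa [e] at this
  have e : PsiE p t k ^ 2 - PsiE p t k
      = (t - (k : E₁)) ^ (p - 2) * ((t - (k : E₁)) ^ p - (t - (k : E₁))) := by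
    unfold PsiE
    obtain ⟨m, rfl⟩ : ∃ m, p = m + 2 := ⟨p - 2, by have := hp.two_le; omega⟩
    have e1 : m + 2 - 1 = m + 1 := by omega
    have e2 : m + 2 - 2 = m := by omega
    rw [e1, e2]
    ring
  rw [e]
  exact h1.mul_left (hx.pow _)

/-- powers of an idempotent. -/
theorem Psi_small_pow {e : E₁} (he : IsIntegral B e) (h : Small B p (e ^ 2 - e)) (n : ℕ) :
    Small B p (e ^ (n + 1) - e) := by
  induction n with
  | zero =>
    rw [zero_add, pow_one, sub_self]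
    exact small_zero
  | succ n ih =>
    have e1 : e ^ (n + 1 + 1) - e = e * (e ^ (n + 1) - e) + (e ^ 2 - e) := by ring
    rw [e1]
    exact (ih.mul_left he).add h

/-- a product of elements congruent to `e`. -/
theorem Psi_small_prod {ι : Type*} (s : Finset ι) (f : ι → E₁) {e : E₁} (he : IsIntegral B e)
    (hf : ∀ i ∈ s, IsIntegral B (f i)) (h : ∀ i ∈ s, Small B p (f i - e)) :
    Small B p (∏ i ∈ s, f i - e ^ s.card) := by
  classical
  induction s using Finset.induction_on with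
  | empty =>
    rw [Finset.prod_empty, Finset.card_empty, pow_zero, sub_self]
    exact small_zero
  | insert a s ha ih =>
    rw [Finset.prod_insert ha, Finset.card_insert_of_notMem ha]
    have e1 : f a * ∏ i ∈ s, f i - e ^ (s.card + 1)
        = f a * (∏ i ∈ s, f i - e ^ s.card) + (f a - e) * e ^ s.card := by ring
    rw [e1]
    exact ((ih (fun i hi => hf i (Finset.mem_insert_of_mem hi))
      (fun i hi => h i (Finset.mem_insert_of_mem hi))).mul_left
        (hf a (Finset.mem_insert_self a s))).add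
      ((h a (Finset.mem_insert_self a s)).mul_right (he.pow _))

/-- An element congruent to an Artin-Schreier generator is an Artin-Schreier generator. -/
theorem ASGen.of_small (hp : p.Prime) {g : E₁ ≃+* E₁}
    (hgB : ∀ b : B, g (algebraMap B E₁ b) = algebraMap B E₁ b) {t₁ t : E₁} (T : ASGen B p g t₁)
    (h : Small B p (t - t₁)) : ASGen B p g t := by
  have hs : IsIntegral B (t - t₁) := h.isIntegral
  have ht : IsIntegral B t := by
    have := hs.add T.int
    rwa [sub_add_cancel] at this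
  refine ⟨ht, ?_, ?_⟩
  · have h1 : Small B p ((t - t₁) ^ p - (t - t₁)) := by
      have e : (t - t₁) ^ p = (t - t₁) * (t - t₁) ^ (p - 1) := by
        rw [← pow_succ', Nat.sub_add_cancel hp.one_le]
      rw [e]
      exact (h.mul_right (hs.pow _)).sub h
    have := Descent_as_add hp T.int hs T.as h1
    rwa [add_sub_cancel] at this
  · have e : g t - t - 1 = (g t₁ - t₁ - 1) + (g (t - t₁) - (t - t₁)) := by
      rw [map_sub]
      ring
    rw [e]
    exact T.shift.add ((h.map hgB).sub h)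

/-- **DESCENT BY NORMS OF IDEMPOTENTS**: from an Artin-Schreier generator `t₁` with `δ t₁ ≡ t₁` for all
`δ ∈ Δ` to one which is fixed by `Δ`; no hypothesis on the order of `Δ`. -/
theorem Psi_exists_asGen_fixed (hp : p.Prime) (g : E₁ ≃+* E₁)
    (hgB : ∀ b : B, g (algebraMap B E₁ b) = algebraMap B E₁ b) {ι : Type*} [Fintype ι] [Nonempty ι]
    (δ : ι → E₁ ≃+* E₁)
    (hδB : ∀ i (b : B), δ i (algebraMap B E₁ b) = algebraMap B E₁ b)
    (hperm : ∀ i, ∃ π : Equiv.Perm ι, ∀ k e, δ i (δ k e) = δ (π k) e)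
    {t₁ : E₁} (T : ASGen B p g t₁) (hpsi : ∀ i, Small B p (δ i t₁ - t₁)) :
    ∃ t : E₁, (∀ i, δ i t = t) ∧ ASGen B p g t ∧ Small B p (t - t₁) := by
  classical
  have hint : ∀ i, IsIntegral B (δ i t₁) := fun i => isIntegral_map (hδB i) T.int
  have hδe : ∀ i k, δ i (PsiE p t₁ k) = PsiE p (δ i t₁) k := by
    intro i k
    unfold PsiE
    rw [map_sub, map_one, map_pow, map_sub, map_natCast]
  have hsmall : Small B p
      (∑ k ∈ Finset.range p, (k : E₁) * ∏ i, δ i (PsiE p t₁ k) - t₁) := by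
    have e : ∑ k ∈ Finset.range p, (k : E₁) * ∏ i, δ i (PsiE p t₁ k) - t₁
        = ∑ k ∈ Finset.range p, (k : E₁) * (∏ i, δ i (PsiE p t₁ k) - PsiE p t₁ k)
          + (∑ k ∈ Finset.range p, (k : E₁) * PsiE p t₁ k - t₁) := by
      simp only [mul_sub, Finset.sum_sub_distrib]
      ring
    rw [e]
    refine (Small.sum _ _ fun k _ => Small.mul_left (isIntegral_natCast k) ?_).add
      (PsiE_sum hp T.int)
    have h1 := Psi_small_prod (B := B) (p := p) Finset.univ (fun i => δ i (PsiE p t₁ k))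
      (PsiE_isIntegral T.int k)
      (fun i _ => by rw [hδe]; exact PsiE_isIntegral (hint i) k)
      (fun i _ => by rw [hδe]; exact PsiE_congr T.int (hint i) (hpsi i) k)
    obtain ⟨n, hn⟩ : ∃ n, (Finset.univ : Finset ι).card = n + 1 :=
      ⟨(Finset.univ : Finset ι).card - 1, by
        have : 0 < (Finset.univ : Finset ι).card := Finset.card_pos.2 Finset.univ_nonempty
        omega⟩
    rw [hn] at h1
    have h2 := Psi_small_pow (PsiE_isIntegral T.int k) (PsiE_idem hp T.int T.as k) n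
    have := h1.add h2
    rwa [sub_add_sub_cancel] at this
  refine ⟨∑ k ∈ Finset.range p, (k : E₁) * ∏ i, δ i (PsiE p t₁ k), ?_,
    ASGen.of_small hp hgB T hsmall, hsmall⟩
  intro i
  obtain ⟨π, hπ⟩ := hperm i
  rw [map_sum]
  refine Finset.sum_congr rfl fun k _ => ?_
  rw [map_mul, map_natCast, map_prod]
  congr 1
  rw [← Equiv.prod_comp π (fun j => δ j (PsiE p t₁ k))]
  exact Finset.prod_congr rfl fun j _ => hπ j _

/-- `t₁ ^ p - t₁ = h - lam (...)`: variant of `Descent_small_as` with `h` small (instead of `h / lam`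
integral). -/
theorem Psi_small_as (hp : p.Prime) (hp2 : p ≠ 2) (hp0 : (p : E₁) ≠ 0) {ζ : E₁}
    (hζ : IsPrimitiveRoot ζ p) {Z h : E₁} (hZ : Z ^ p = 1 + (ζ - 1) ^ p * h)
    (hh : Small B p h) :
    Small B p (((Z - 1) / (ζ - 1)) ^ p - (Z - 1) / (ζ - 1)) := by
  have hlam : IsIntegral B (ζ - 1) := (Descent_isIntegral_zeta hp hζ).sub isIntegral_one
  have hlam0 : ζ - 1 ≠ 0 := sub_ne_zero.2 (hζ.ne_one hp.one_lt)
  have hh' : IsIntegral B h := hh.isIntegral
  have ht := Descent_isIntegral hp hp2 hp0 hζ hZ hh'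
  obtain ⟨s, γ, hs, hγ, hxi, e⟩ := Descent_core hp hp2 hζ hZ hh'
  have hx : Z - 1 = (ζ - 1) * ((Z - 1) / (ζ - 1)) := by
    rw [mul_div_cancel₀ _ hlam0]
  generalize (Z - 1) / (ζ - 1) = t₁ at hx e ht ⊢
  have key : t₁ ^ p - t₁ = h - (ζ - 1) * ((s - t₁ * γ + (ζ - 1) * s * t₁ * γ) * t₁) := by
    rw [hx] at e
    linear_combination -e
  rw [key]
  exact hh.sub (Descent_small_lam_mul hp hζ
    ((((hs.sub (ht.mul hγ)).add (((hlam.mul hs).mul ht).mul hγ))).mul ht))

/-- `g t₁ - t₁ - 1 = lam t₁`: variant of `Descent_small_shift` with `h` integral. -/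
theorem Psi_small_shift (hp : p.Prime) (hp2 : p ≠ 2) (hp0 : (p : E₁) ≠ 0) {ζ : E₁}
    (hζ : IsPrimitiveRoot ζ p) (g : E₁ ≃+* E₁) (hgζ : g ζ = ζ) {Z h : E₁}
    (hZ : Z ^ p = 1 + (ζ - 1) ^ p * h) (hh : IsIntegral B h) (hgZ : g Z = ζ * Z) :
    Small B p (g ((Z - 1) / (ζ - 1)) - (Z - 1) / (ζ - 1) - 1) := by
  have hlam0 : ζ - 1 ≠ 0 := sub_ne_zero.2 (hζ.ne_one hp.one_lt)
  have ht := Descent_isIntegral hp hp2 hp0 hζ hZ hh
  have key : g ((Z - 1) / (ζ - 1)) - (Z - 1) / (ζ - 1) - 1 = (ζ - 1) * ((Z - 1) / (ζ - 1)) := by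
    rw [map_div₀, map_sub, map_sub, map_one, hgζ, hgZ]
    field_simp
    ring
  rw [key]
  exact Descent_small_lam_mul hp hζ ht

/-- `t₁ = (Z - 1) / lam` is an Artin-Schreier generator as soon as `Z ^ p = 1 + lam ^ p h`, `h` small. -/
theorem Psi_asGen_root (hp : p.Prime) (hp2 : p ≠ 2) (hp0 : (p : E₁) ≠ 0) {ζ : E₁}
    (hζ : IsPrimitiveRoot ζ p) (g : E₁ ≃+* E₁) (hgζ : g ζ = ζ) {Z h : E₁}
    (hZ : Z ^ p = 1 + (ζ - 1) ^ p * h) (hh : Small B p h) (hgZ : g Z = ζ * Z) :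
    ASGen B p g ((Z - 1) / (ζ - 1)) :=
  ⟨Descent_isIntegral hp hp2 hp0 hζ hZ hh.isIntegral, Psi_small_as hp hp2 hp0 hζ hZ hh,
    Psi_small_shift hp hp2 hp0 hζ g hgζ hZ hh.isIntegral hgZ⟩

/-- **(P3')**: twin of `exists_asGen`, with `(PSI)` instead of `hcard`, `h` small. -/
theorem Psi_exists_asGen (hp : p.Prime) (hp2 : p ≠ 2) (hp0 : (p : E₁) ≠ 0) {ζ : E₁}
    (hζ : IsPrimitiveRoot ζ p) (g : E₁ ≃+* E₁)
    (hgB : ∀ b : B, g (algebraMap B E₁ b) = algebraMap B E₁ b) (hgζ : g ζ = ζ)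
    {ι : Type*} [Fintype ι] [Nonempty ι] (δ : ι → E₁ ≃+* E₁)
    (hδB : ∀ i (b : B), δ i (algebraMap B E₁ b) = algebraMap B E₁ b)
    (hperm : ∀ i, ∃ π : Equiv.Perm ι, ∀ k e, δ i (δ k e) = δ (π k) e)
    {Z h : E₁} (hZ : Z ^ p = 1 + (ζ - 1) ^ p * h) (hh : Small B p h) (hgZ : g Z = ζ * Z)
    (hpsi : ∀ i, Small B p (δ i ((Z - 1) / (ζ - 1)) - (Z - 1) / (ζ - 1))) :
    ∃ t : E₁, (∀ i, δ i t = t) ∧ ASGen B p g t ∧ Small B p (t - (Z - 1) / (ζ - 1)) :=
  Psi_exists_asGen_fixed hp g hgB δ hδB hperm (Psi_asGen_root hp hp2 hp0 hζ g hgζ hZ hh hgZ) hpsi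

section chart

variable {R : Type*} [CommRing R] {F E : Type*} [Field F] [Field E] [Algebra R F] [Algebra R E]

/-- `E₁` as an algebra over a subalgebra `B` of `F`, through `ψ ∘ φ`. -/
@[reducible] def algBE₁ (φ : F →ₐ[R] E) {E₁ : Type*} [Field E₁] (ψ : E →+* E₁)
    (B : Subalgebra R F) : Algebra B E₁ :=
  ((ψ.comp (φ : F →+* E)).comp (algebraMap B F)).toAlgebra

/-- **EXPORT 3'**: twin of `chart_asGen`; no hypothesis on the order of the group `δ`; `h` small;
`(PSI)`: `δ t₁ ≡ t₁` modulo `Small`, `t₁ = (Z - 1) / lam`. -/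
theorem Psi_chart_asGen {p : ℕ} (hp : p.Prime) (hp2 : p ≠ 2) (B : Subalgebra R F) (φ : F →ₐ[R] E)
    (g : E ≃+* E) (hgφ : ∀ f : F, g (φ f) = φ f)
    {E₁ : Type*} [Field E₁] (hp0 : (p : E₁) ≠ 0) (ψ : E →+* E₁) (g₁ : E₁ ≃+* E₁)
    (hg₁ : ∀ e : E, ψ (g e) = g₁ (ψ e)) {ζ : E₁} (hζ : IsPrimitiveRoot ζ p) (hg₁ζ : g₁ ζ = ζ)
    {ι : Type*} [Fintype ι] [Nonempty ι] (δ : ι → E₁ ≃+* E₁)
    (hδψ : ∀ i (e : E), δ i (ψ e) = ψ e) (hδfix : ∀ x : E₁, (∀ i, δ i x = x) → ∃ e : E, ψ e = x)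
    (hperm : ∀ i, ∃ π : Equiv.Perm ι, ∀ k e, δ i (δ k e) = δ (π k) e)
    {Z h : E₁} (hZ : Z ^ p = 1 + (ζ - 1) ^ p * h)
    (hh : @Small B E₁ _ _ (algBE₁ φ ψ B) p h) (hgZ : g₁ Z = ζ * Z)
    (hpsi : ∀ i, @Small B E₁ _ _ (algBE₁ φ ψ B) p (δ i ((Z - 1) / (ζ - 1)) - (Z - 1) / (ζ - 1))) :
    ∃ t : E, @ASGen B E _ _ (algBE φ B) p g t ∧
      @Small B E₁ _ _ (algBE₁ φ ψ B) p (ψ t - (Z - 1) / (ζ - 1)) := by
  letI := algBE φ B
  letI : Algebra B E₁ := algBE₁ φ ψ B
  let ψ' : E →ₐ[B] E₁ := { ψ with commutes' := fun _ => rfl }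
  have hgB : ∀ b : B, g₁ (algebraMap B E₁ b) = algebraMap B E₁ b := by
    intro b
    change g₁ (ψ (φ (b : F))) = ψ (φ (b : F))
    rw [← hg₁, hgφ]
  obtain ⟨t₁, ht₁, T₁, hs⟩ := Psi_exists_asGen (B := B) hp hp2 hp0 hζ g₁ hgB hg₁ζ δ
    (fun i b => hδψ i _) hperm hZ hh hgZ hpsi
  obtain ⟨t, rfl⟩ := hδfix t₁ ht₁
  exact ⟨t, ASGen.of_map ψ' hp0 hg₁ T₁, hs⟩

/-- `Small` over `B` through `ψ ∘ φ`, without instances. -/
theorem Psi_small_iff {p : ℕ} (B : Subalgebra R F) (φ : F →ₐ[R] E) {E₁ : Type*} [Field E₁]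
    (hp0 : (p : E₁) ≠ 0) (ψ : E →+* E₁) (e : E₁) :
    @Small B E₁ _ _ (algBE₁ φ ψ B) p e ↔
      ((ψ.comp (φ : F →+* E)).comp (algebraMap B F)).IsIntegralElem e ∧
      ∃ k : ℕ, ((ψ.comp (φ : F →+* E)).comp (algebraMap B F)).IsIntegralElem (e ^ k / (p : E₁)) := by
  letI : Algebra B E₁ := algBE₁ φ ψ B
  exact small_iff hp0

end chart

end Fermat.Agent.LP.PL
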