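import Fermat.Agent.LP.PL.Loc.PsiComp
import Fermat.Agent.GS.Abs.LocNode
import Fermat.Agent.GS.Abs.Cert
import Fermat.Agent.LP.Nod.Zeta

/-!
# LP-PL-LOC, LOC-PSI, file `PsiLoc`: `PsiCtx`, `PsiAut` for local rings of charts and Gauss rings;
the closed point cut out by a valuation subring with trivial residue extension (the cusp)

`R` a DVR with uniformizer `ϖ` (here: `A ∩ K`, `K` a big number field), `F = F_K`.
-/

set_option autoImplicit false

namespace Fermat.Agent.LP.PL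

open Fermat.Agent.GR.E Fermat.Agent.GS

variable {R : Type*} [CommRing R] [IsDomain R] [IsDiscreteValuationRing R]
variable {F : Type*} [Field F] [Algebra R F] {ϖ ζ : R} {p : ℕ}

omit [IsDomain R] [IsDiscreteValuationRing R] [Algebra R F] in
/-- an element integral over a ring mapping to a valuation subring lies in it. -/
theorem PsiLoc_mem_of_isIntegralElem {B : Type*} [CommRing B] (f : B →+* F)
    (W : ValuationSubring F) (hf : ∀ b, f b ∈ W) {x : F} (hx : f.IsIntegralElem x) : x ∈ W := by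
  obtain ⟨P, hP, hPx⟩ := hx
  let g : B →+* W := f.codRestrict W.toSubring hf
  have h1 : IsIntegral W x := by
    refine ⟨P.map g, hP.map g, ?_⟩
    rw [Polynomial.eval₂_map]
    exact hPx
  obtain ⟨y, rfl⟩ := (IsIntegrallyClosed.isIntegral_iff (R := W) (K := F)).1 h1
  exact y.2

omit [IsDomain R] [IsDiscreteValuationRing R] [Algebra R F] in
theorem PsiLoc_inv_mem {W : ValuationSubring F} {y : F} (hy : y ∈ W) (hy' : y ∉ W.nonunits) :
    y⁻¹ ∈ W := by
  have h1 : W.valuation y ≤ 1 := (W.valuation_le_one_iff _).2 hy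
  have h2 : ¬ W.valuation y < 1 := fun h => hy' ((ValuationSubring.mem_nonunits_iff W).2 h)
  have h3 : W.valuation y = 1 := le_antisymm h1 (not_lt.1 h2)
  rw [← W.valuation_le_one_iff, map_inv₀, h3, inv_one]

omit [IsDomain R] [IsDiscreteValuationRing R] [Algebra R F] in
theorem PsiLoc_add_mem_nonunits {W : ValuationSubring F} {x y : F} (hx : x ∈ W.nonunits)
    (hy : y ∈ W.nonunits) : x + y ∈ W.nonunits := by
  rw [ValuationSubring.mem_nonunits_iff] at hx hy ⊢
  exact lt_of_le_of_lt (W.valuation.map_add x y) (max_lt hx hy)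

omit [IsDomain R] [IsDiscreteValuationRing R] [Algebra R F] in
theorem PsiLoc_mul_mem_nonunits {W : ValuationSubring F} {x y : F} (hx : x ∈ W.nonunits)
    (hy : y ∈ W) : x * y ∈ W.nonunits := by
  rw [ValuationSubring.mem_nonunits_iff] at hx ⊢
  have h1 : W.valuation y ≤ 1 := (W.valuation_le_one_iff _).2 hy
  rw [map_mul]
  exact lt_of_le_of_lt (mul_le_of_le_one_right' h1) hx

theorem PsiLoc_dvd_of_not_isUnit (hϖ : Irreducible ϖ) {r : R} (hr : ¬ IsUnit r) : ϖ ∣ r := by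
  have h1 : r ∈ IsLocalRing.maximalIdeal R := (IsLocalRing.mem_maximalIdeal r).2 hr
  rw [hϖ.maximalIdeal_eq, Ideal.mem_span_singleton] at h1
  exact h1

/-- constants: the part of `PsiCtx` which only depends on `R`. -/
theorem PsiLoc_const (hinj : Function.Injective (algebraMap R F)) (hϖ : Irreducible ϖ)
    (hp : p.Prime) (hpR : ¬ IsUnit (p : R)) (hζ : IsPrimitiveRoot ζ p) :
    (∃ r : R, (algebraMap R F ζ - 1) / algebraMap R F ϖ = algebraMap R F r) ∧
    ∃ (n : ℕ) (r : R), algebraMap R F ϖ ^ n / (p : F) = algebraMap R F r := by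
  have hϖ0 : algebraMap R F ϖ ≠ 0 := fun h => hϖ.ne_zero (hinj (by rw [h, map_zero]))
  have hpϖ : ϖ ∣ (p : R) := PsiLoc_dvd_of_not_isUnit hϖ hpR
  constructor
  · obtain ⟨r, hr⟩ := (LP.punif_of_primitiveRoot hϖ.prime hp hpϖ hζ).dvd
    refine ⟨r, ?_⟩
    rw [div_eq_iff hϖ0, ← map_one (algebraMap R F), ← map_sub, hr, map_mul, mul_comm]
  · by_cases hp0 : (p : R) = 0
    · refine ⟨0, 0, ?_⟩
      have : (p : F) = 0 := by rw [← map_natCast (algebraMap R F), hp0, map_zero]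
      rw [this, div_zero, map_zero]
    · obtain ⟨n, u, hu⟩ := IsDiscreteValuationRing.eq_unit_mul_pow_irreducible hp0 hϖ
      refine ⟨n, ((u⁻¹ : Rˣ) : R), ?_⟩
      have hpF : (p : F) = algebraMap R F u * algebraMap R F ϖ ^ n := by
        rw [← map_natCast (algebraMap R F), hu, map_mul, map_pow]
      have hu0 : algebraMap R F u ≠ 0 := fun h => u.ne_zero (hinj (by rw [h, map_zero]))
      have huu : algebraMap R F u * algebraMap R F ((u⁻¹ : Rˣ) : R) = 1 := by
        rw [← map_mul, Units.mul_inv, map_one]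
      rw [hpF, div_eq_iff (mul_ne_zero hu0 (pow_ne_zero n hϖ0))]
      linear_combination (-(algebraMap R F ϖ ^ n)) * huu

/-- `PsiCtx` for the local ring of an integrally closed chart at a point of the special fibre. -/
theorem PsiCtx_locAt (hinj : Function.Injective (algebraMap R F)) (hϖ : Irreducible ϖ)
    (hp : p.Prime) (hpR : ¬ IsUnit (p : R)) (hζ : IsPrimitiveRoot ζ p) {C : Subalgebra R F}
    (hcl : ∀ x : F, IsIntegral C x → x ∈ C) (𝔪 : Ideal C) [𝔪.IsPrime]
    (hϖ𝔪 : algebraMap R C ϖ ∈ 𝔪) :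
    PsiCtx p (algebraMap R F ζ) (algebraMap R F ϖ) (locAt C 𝔪).toSubring := by
  obtain ⟨⟨r, hr⟩, n, r', hr'⟩ := PsiLoc_const (F := F) hinj hϖ hp hpR hζ
  have hϖ0 : algebraMap R F ϖ ≠ 0 := fun h => hϖ.ne_zero (hinj (by rw [h, map_zero]))
  let e : (locAt C 𝔪).toSubring ≃+* locAt C 𝔪 :=
    { toFun := fun x => ⟨x.1, x.2⟩
      invFun := fun x => ⟨x.1, x.2⟩
      left_inv := fun _ => rfl
      right_inv := fun _ => rfl
      map_mul' := fun _ _ => rfl
      map_add' := fun _ _ => rfl }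
  refine ⟨?_, ?_, (locAt C 𝔪).algebraMap_mem ζ, (locAt C 𝔪).algebraMap_mem ϖ, ?_, ?_, ⟨n, ?_⟩⟩
  · let _ : Algebra C (locAt C 𝔪) := (Subalgebra.inclusion (le_locAt C 𝔪)).toRingHom.toAlgebra
    have hloc : IsLocalization.AtPrime (locAt C 𝔪) 𝔪 := isLocalization_locAt 𝔪
    have hlocal : IsLocalRing (locAt C 𝔪) := IsLocalization.AtPrime.isLocalRing (locAt C 𝔪) 𝔪
    exact e.symm.isLocalRing
  · intro x hx
    refine LocNode_closed 𝔪 hcl x ?_
    obtain ⟨P, hP, hPx⟩ := hx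
    refine ⟨P.map (e : (locAt C 𝔪).toSubring →+* locAt C 𝔪), hP.map _, ?_⟩
    rw [Polynomial.eval₂_map]
    exact hPx
  · intro h
    have h3 : (algebraMap R C ϖ : C) ≠ 0 := fun h0 => hϖ0 (congrArg Subtype.val h0)
    exact (inv_mem_locAt_iff 𝔪 h3).1 h hϖ𝔪
  · rw [hr]
    exact (locAt C 𝔪).algebraMap_mem r
  · rw [hr']
    exact (locAt C 𝔪).algebraMap_mem r'

/-- `PsiCtx` for a Gauss valuation ring. -/
theorem PsiCtx_val (hinj : Function.Injective (algebraMap R F)) (hϖ : Irreducible ϖ)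
    (hp : p.Prime) (hpR : ¬ IsUnit (p : R)) (hζ : IsPrimitiveRoot ζ p) {𝒪 : ValuationSubring F}
    (hG : GaussRing ϖ 𝒪) (hR : ∀ r : R, algebraMap R F r ∈ 𝒪) :
    PsiCtx p (algebraMap R F ζ) (algebraMap R F ϖ) 𝒪.toSubring := by
  obtain ⟨⟨r, hr⟩, n, r', hr'⟩ := PsiLoc_const (F := F) hinj hϖ hp hpR hζ
  refine ⟨inferInstanceAs (IsLocalRing 𝒪), ?_, hR ζ, hR ϖ, hG.inv_not_mem, ?_, ⟨n, ?_⟩⟩
  · intro x hx
    exact PsiLoc_mem_of_isIntegralElem (algebraMap 𝒪.toSubring F) 𝒪 (fun b => b.2) hx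
  · rw [hr]
    exact hR r
  · rw [hr']
    exact hR r'

/-- `PsiAut` for an automorphism preserving `R` and a subring `S ⊇ R`. -/
theorem PsiAut_of (hinj : Function.Injective (algebraMap R F)) (hϖ : Irreducible ϖ)
    {τ : F ≃+* F} (hτR : ∀ r : R, ∃ r' : R, τ (algebraMap R F r) = algebraMap R F r')
    (hτR' : ∀ r : R, ∃ r' : R, τ.symm (algebraMap R F r) = algebraMap R F r')
    {c : ℕ} (hτζ : τ (algebraMap R F ζ) = algebraMap R F ζ ^ c) {S : Subring F}
    (hRS : ∀ r : R, algebraMap R F r ∈ S) (hS : ∀ x ∈ S, τ x ∈ S) :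
    PsiAut τ (algebraMap R F ζ) (algebraMap R F ϖ) c S := by
  have hϖ0 : algebraMap R F ϖ ≠ 0 := fun h => hϖ.ne_zero (hinj (by rw [h, map_zero]))
  refine ⟨hS, hτζ, ?_⟩
  obtain ⟨r', hr'⟩ := hτR ϖ
  have hnu : ¬ IsUnit r' := by
    intro hu
    obtain ⟨s, hs⟩ := hu.exists_right_inv
    obtain ⟨s', hs'⟩ := hτR' s
    apply hϖ.not_isUnit
    refine IsUnit.of_mul_eq_one s' (hinj ?_)
    rw [map_mul, map_one, ← hs', ← τ.symm_apply_apply (algebraMap R F ϖ), hr', ← map_mul,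
      ← map_mul, hs, map_one, map_one]
  obtain ⟨t, ht⟩ := PsiLoc_dvd_of_not_isUnit hϖ hnu
  rw [hr', ht, map_mul, mul_div_cancel_left₀ _ hϖ0]
  exact hRS t

omit [IsDomain R] [IsDiscreteValuationRing R] in
/-- an automorphism preserving `C` and `𝔪` preserves the local ring. -/
theorem PsiLoc_map_locAt {C : Subalgebra R F} {τ : F ≃+* F} (hτC : ∀ x ∈ C, τ x ∈ C)
    (𝔪 : Ideal C) [𝔪.IsPrime] (h𝔪 : ∀ x : C, (⟨τ x, hτC x x.2⟩ : C) ∈ 𝔪 → x ∈ 𝔪) {x : F}
    (hx : x ∈ locAt C 𝔪) : τ x ∈ locAt C 𝔪 := by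
  obtain ⟨s, hs, hxs⟩ := hx
  refine ⟨⟨τ s, hτC _ s.2⟩, fun h => hs (h𝔪 s h), ?_⟩
  show τ x * τ s ∈ C
  rw [← map_mul]
  exact hτC _ hxs

/-! ### the point cut out by a valuation subring -/

omit [IsDomain R] [IsDiscreteValuationRing R] in
/-- a chart is contained in every valuation subring containing `R` and the coordinate. -/
theorem PsiLoc_chart_le {S : Set F} {W : ValuationSubring F} (hR : ∀ r : R, algebraMap R F r ∈ W)
    (hS : ∀ s ∈ S, s ∈ W) : ∀ x ∈ chart R S, x ∈ W := by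
  intro x hx
  have hle : Algebra.adjoin R S ≤
      ({ W.toSubring.toSubsemiring with algebraMap_mem' := hR } : Subalgebra R F) :=
    Algebra.adjoin_le hS
  exact PsiLoc_mem_of_isIntegralElem (algebraMap (Algebra.adjoin R S) F) W
    (fun b => hle b.2) (mem_chart.1 hx)

/-- the centre of `W` on `C`. -/
def centre (C : Subalgebra R F) (W : ValuationSubring F) (hCW : ∀ x ∈ C, x ∈ W) : Ideal C :=
  (IsLocalRing.maximalIdeal W).comap
    ((C.toSubring.subtype.codRestrict W.toSubring (fun x => hCW x x.2) : C.toSubring →+* W))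

omit [IsDomain R] [IsDiscreteValuationRing R] in
theorem mem_centre {C : Subalgebra R F} {W : ValuationSubring F} (hCW : ∀ x ∈ C, x ∈ W) (x : C) :
    x ∈ centre C W hCW ↔ (x : F) ∈ W.nonunits := by
  rw [ValuationSubring.mem_nonunits_iff_exists_mem_maximalIdeal]
  constructor
  · intro h
    exact ⟨hCW x x.2, h⟩
  · rintro ⟨_, h⟩
    exact h

omit [IsDomain R] [IsDiscreteValuationRing R] in
theorem centre_isPrime {C : Subalgebra R F} {W : ValuationSubring F} (hCW : ∀ x ∈ C, x ∈ W) :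
    (centre C W hCW).IsPrime := by
  rw [Ideal.isPrime_iff]
  constructor
  · intro h
    have h1 : (1 : C) ∈ centre C W hCW := by rw [h]; trivial
    rw [mem_centre, ValuationSubring.mem_nonunits_iff] at h1
    have h2 : W.valuation ((1 : C) : F) = 1 := by
      rw [show ((1 : C) : F) = 1 from rfl, map_one]
    rw [h2] at h1
    exact lt_irrefl _ h1
  · intro x y hxy
    by_contra hcon
    obtain ⟨hx, hy⟩ := not_or.1 hcon
    rw [mem_centre] at hx hy hxy
    have hx' := PsiLoc_inv_mem (hCW x x.2) hx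
    have h1 : ((x * y : C) : F) * (x : F)⁻¹ ∈ W.nonunits := PsiLoc_mul_mem_nonunits hxy hx'
    have hx0 : (x : F) ≠ 0 := by
      intro h0
      apply hx
      rw [h0, ValuationSubring.mem_nonunits_iff, map_zero]
      exact zero_lt_one
    have h2 : ((x * y : C) : F) * (x : F)⁻¹ = y := by
      rw [show ((x * y : C) : F) = (x : F) * y from rfl]
      field_simp
    rw [h2] at h1
    exact hy h1

/-- the centre is a maximal ideal if the residue field of `W` is the residue field of `R`. -/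
theorem centre_isMaximal (hϖ : Irreducible ϖ) {C : Subalgebra R F} {W : ValuationSubring F}
    (hCW : ∀ x ∈ C, x ∈ W) (hϖW : algebraMap R F ϖ ∈ W.nonunits)
    (hres : ∀ x ∈ C, ∃ r : R, x - algebraMap R F r ∈ W.nonunits) :
    (centre C W hCW).IsMaximal := by
  have hP := centre_isPrime hCW
  rw [Ideal.isMaximal_iff]
  refine ⟨fun h => hP.ne_top ((Ideal.eq_top_iff_one _).2 h), fun J x hJ hx hxJ => ?_⟩
  obtain ⟨r, hr⟩ := hres x x.2
  have h1 : x - algebraMap R C r ∈ centre C W hCW := (mem_centre hCW _).2 hr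
  have h2 : algebraMap R C r ∈ J := by
    have := J.sub_mem hxJ (hJ h1)
    rwa [sub_sub_cancel] at this
  have hu : IsUnit r := by
    by_contra hnu
    obtain ⟨t, ht⟩ := PsiLoc_dvd_of_not_isUnit hϖ hnu
    apply hx
    rw [mem_centre]
    have h3 : algebraMap R F r ∈ W.nonunits := by
      rw [ht, map_mul]
      exact PsiLoc_mul_mem_nonunits hϖW (hCW _ (C.algebraMap_mem t))
    have h4 := PsiLoc_add_mem_nonunits hr h3
    rwa [sub_add_cancel] at h4
  obtain ⟨s, hs⟩ := hu.exists_left_inv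
  have h5 := J.mul_mem_left (algebraMap R C s) h2
  rwa [← map_mul, hs, map_one] at h5

omit [IsDomain R] [IsDiscreteValuationRing R] in
theorem locAt_centre_le {C : Subalgebra R F} {W : ValuationSubring F} (hCW : ∀ x ∈ C, x ∈ W)
    [(centre C W hCW).IsPrime] : ∀ x ∈ locAt C (centre C W hCW), x ∈ W := by
  rintro x ⟨s, hs, hxs⟩
  rw [mem_centre] at hs
  have hs' := PsiLoc_inv_mem (hCW s s.2) hs
  have hs0 : (s : F) ≠ 0 := by
    intro h0
    apply hs
    rw [h0, ValuationSubring.mem_nonunits_iff, map_zero]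
    exact zero_lt_one
  have : x = (x * s) * (s : F)⁻¹ := by field_simp
  rw [this]
  exact W.mul_mem _ _ (hCW _ hxs) hs'

omit [IsDomain R] [IsDiscreteValuationRing R] in
/-- copy of `GS.mem_vert` (forward direction) without the assumptions on `R`. -/
theorem PsiLoc_of_mem_vert {𝒪 : ValuationSubring F} {C : Subalgebra R F} (hle : ∀ x ∈ C, x ∈ 𝒪)
    {x : C} (hx : x ∈ vert ϖ 𝒪 C) : (x : F) / algebraMap R F ϖ ∈ 𝒪 := by
  refine Submodule.span_induction (p := fun (y : C) _ => (y : F) / algebraMap R F ϖ ∈ 𝒪)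
    (fun y hy => hy) ?_ ?_ ?_ hx
  · simp
  · intro y z _ _ hy hz
    have : ((y + z : C) : F) / algebraMap R F ϖ
        = (y : F) / algebraMap R F ϖ + (z : F) / algebraMap R F ϖ := by
      push_cast; ring
    rw [this]
    exact add_mem hy hz
  · intro a y _ hy
    have : ((a • y : C) : F) / algebraMap R F ϖ = (a : F) * ((y : F) / algebraMap R F ϖ) := by
      rw [smul_eq_mul]; push_cast; ring
    rw [this]
    exact mul_mem (hle _ a.2) hy

omit [IsDomain R] [IsDiscreteValuationRing R] in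
/-- a point of the special fibre of a nodal chart lies on one of the two components. -/
theorem PsiLoc_vert_le_or {𝒪₁ 𝒪₂ : ValuationSubring F} {C : Subalgebra R F}
    (hC : SatChart2 ϖ 𝒪₁ 𝒪₂ C) (hϖ0 : algebraMap R F ϖ ≠ 0) (𝔪 : Ideal C) [𝔪.IsPrime]
    (hϖ𝔪 : algebraMap R C ϖ ∈ 𝔪) :
    vert ϖ 𝒪₁ C ≤ 𝔪 ∨ vert ϖ 𝒪₂ C ≤ 𝔪 := by
  by_contra hcon
  obtain ⟨h1, h2⟩ := not_or.1 hcon
  obtain ⟨a, ha, ha𝔪⟩ := SetLike.not_le_iff_exists.1 h1
  obtain ⟨b, hb, hb𝔪⟩ := SetLike.not_le_iff_exists.1 h2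
  replace ha := PsiLoc_of_mem_vert hC.le₁ ha
  replace hb := PsiLoc_of_mem_vert hC.le₂ hb
  have e1 : ((a * b : C) : F) / algebraMap R F ϖ = (a : F) / algebraMap R F ϖ * b := by
    rw [show ((a * b : C) : F) = (a : F) * b from rfl]
    ring
  have e2 : ((a * b : C) : F) / algebraMap R F ϖ = (a : F) * ((b : F) / algebraMap R F ϖ) := by
    rw [show ((a * b : C) : F) = (a : F) * b from rfl]
    ring
  have h3 : ((a * b : C) : F) / algebraMap R F ϖ ∈ C :=
    hC.sat _ (a * b).2 (by rw [e1]; exact 𝒪₁.mul_mem _ _ ha (hC.le₁ _ b.2))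
      (by rw [e2]; exact 𝒪₂.mul_mem _ _ (hC.le₂ _ a.2) hb)
  have h4 : a * b = algebraMap R C ϖ * ⟨_, h3⟩ := by
    apply Subtype.ext
    show ((a * b : C) : F) = algebraMap R F ϖ * (((a * b : C) : F) / algebraMap R F ϖ)
    field_simp
  have h5 : a * b ∈ 𝔪 := by
    rw [h4]
    exact 𝔪.mul_mem_right _ hϖ𝔪
  rcases (inferInstance : 𝔪.IsPrime).mem_or_mem h5 with h | h
  · exact ha𝔪 h
  · exact hb𝔪 h

end Fermat.Agent.LP.PL
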