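import Fermat.Agent.LP.PL.Loc.PsiW
import Fermat.Agent.LP.PL.Loc.PsiLoc
import Fermat.Agent.LP.PL.Form.OverL
import Fermat.Agent.GR.E.BR7

/-!
# LP-PL-LOC, LOC-PSI, file `PsiCuspW`: the valuation subring of `F1 K N z1` at the cusp `∞`

`cuspW A K N z1 = {x ∈ F1 K N z1 ⊆ K((q)) : ord x > 0 or (ord x = 0 and x₀ ∈ A)}`.
These are the concrete inputs `W`, `hpW`, `hCcW`, `hres`, `hδW` of `Psi_node_asGen`.
-/

set_option autoImplicit false
set_option synthInstance.maxHeartbeats 400000

noncomputable section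

namespace Fermat.Agent.LP.PL

open Fermat.Agent.GR Fermat.Agent.GR.E Fermat.Agent.GS ModularCurve IntermediateField

variable (A : ValuationSubring Qbar) (K : IntermediateField ℚ Qbar) (N : ℕ)
  (z1 : LaurentSeries Qbar)

/-- the coefficient inclusion `F1 K N z1 → Q̄((q))`. -/
def serQ : F1 K N z1 →+* LaurentSeries Qbar :=
  (coeffMap (algebraMap K Qbar)).comp (F1 K N z1).toSubfield.subtype

theorem serQ_apply (x : F1 K N z1) :
    serQ K N z1 x = coeffMap (algebraMap K Qbar) (x : LaurentSeries K) := rfl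

/-- the valuation subring at the cusp `∞`. -/
def cuspW : ValuationSubring (F1 K N z1) := (serW A).comap (serQ K N z1)

variable {A K N z1}

theorem mem_cuspW {x : F1 K N z1} : x ∈ cuspW A K N z1 ↔
    (∀ n : ℤ, n < 0 → (x : LaurentSeries K).coeff n = 0) ∧
      algebraMap K Qbar ((x : LaurentSeries K).coeff 0) ∈ A := by
  unfold cuspW
  rw [ValuationSubring.mem_comap, mem_serW, serQ_apply]
  simp only [coeffMap_coeff, map_eq_zero]

theorem mem_cuspW_nonunits {x : F1 K N z1} : x ∈ (cuspW A K N z1).nonunits ↔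
    (∀ n : ℤ, n < 0 → (x : LaurentSeries K).coeff n = 0) ∧
      algebraMap K Qbar ((x : LaurentSeries K).coeff 0) ∈ A.nonunits := by
  unfold cuspW
  rw [BR7_mem_nonunits_comap, mem_serW_nonunits, serQ_apply]
  simp only [coeffMap_coeff, map_eq_zero]

/-- `hpW`. -/
theorem natCast_mem_cuspW_nonunits {p : ℕ} (hA : A.LiesOverPrime p) :
    ((p : ℕ) : F1 K N z1) ∈ (cuspW A K N z1).nonunits := by
  unfold cuspW
  rw [BR7_mem_nonunits_comap, map_natCast]
  have e : ((p : ℕ) : LaurentSeries Qbar) = HahnSeries.C ((p : ℕ) : Qbar) := (map_natCast _ p).symm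
  rw [e, C_mem_serW_nonunits]
  exact hA

variable (ψ : FF K N →+* F1 K N z1)
  (hψ : ∀ f : FF K N, ((ψ f : F1 K N z1) : LaurentSeries K) = (f : LaurentSeries K))

include hψ

/-- the constants of `A ∩ K` lie in `W`. -/
theorem const_mem_cuspW (r : A.comap (algebraMap K Qbar)) :
    ψ (algebraMap (A.comap (algebraMap K Qbar)) (FF K N) r) ∈ cuspW A K N z1 := by
  rw [mem_cuspW, hψ, BR7_coe_algebraMap]
  refine ⟨fun n hn => ?_, ?_⟩
  · rw [HahnSeries.C_apply, HahnSeries.coeff_single_of_ne hn.ne]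
  · rw [HahnSeries.C_apply, HahnSeries.coeff_single_same]
    exact r.2

/-- `hCcW`: a chart whose coordinate lies in `W` is contained in `W`. -/
theorem chart_le_cuspW {t : FF K N} (ht : ψ t ∈ cuspW A K N z1) :
    ∀ x ∈ chart (A.comap (algebraMap K Qbar)) ({t} : Set (FF K N)), ψ x ∈ cuspW A K N z1 := by
  intro x hx
  have := PsiLoc_chart_le (R := A.comap (algebraMap K Qbar)) (S := ({t} : Set (FF K N)))
    (W := (cuspW A K N z1).comap ψ) (fun r => const_mem_cuspW ψ hψ r)
    (fun s hs => by rw [Set.mem_singleton_iff] at hs; rw [hs]; exact ht) x hx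
  exact this

/-- `hres`: the residue field of `W` is the residue field of `A ∩ K` (on elements of `W`). -/
theorem exists_const_sub_mem {x : FF K N} (hx : ψ x ∈ cuspW A K N z1) :
    ∃ r : A.comap (algebraMap K Qbar),
      ψ (x - algebraMap (A.comap (algebraMap K Qbar)) (FF K N) r) ∈ (cuspW A K N z1).nonunits := by
  rw [mem_cuspW, hψ] at hx
  refine ⟨⟨(x : LaurentSeries K).coeff 0, hx.2⟩, ?_⟩
  rw [mem_cuspW_nonunits, hψ]
  have e : ((x - algebraMap (A.comap (algebraMap K Qbar)) (FF K N)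
      ⟨(x : LaurentSeries K).coeff 0, hx.2⟩ : FF K N) : LaurentSeries K) =
      (x : LaurentSeries K) - HahnSeries.C ((x : LaurentSeries K).coeff 0) := by
    rw [← BR7_coe_algebraMap (A.comap (algebraMap K Qbar)) N ⟨(x : LaurentSeries K).coeff 0, hx.2⟩]
    rfl
  rw [e]
  refine ⟨fun n hn => ?_, ?_⟩
  · rw [HahnSeries.coeff_sub, hx.1 n hn, HahnSeries.C_apply, HahnSeries.coeff_single_of_ne hn.ne,
      sub_zero]
  · rw [HahnSeries.coeff_sub, HahnSeries.C_apply, HahnSeries.coeff_single_same, sub_self, map_zero]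
    rw [ValuationSubring.mem_nonunits_iff_or]
    exact Or.inl rfl

omit hψ

/-- `hδW`: an automorphism of `F1 K N z1` acting on the coefficients through the restriction `τ` of an
element `σ` of the inertia group acts trivially on the residue field of `W`. -/
theorem sub_mem_cuspW_nonunits {σ : Qbar ≃ₐ[ℚ] Qbar} (hσ : ∀ a ∈ A, σ a - a ∈ A.nonunits)
    {τ : K →+* K} (hτ : ∀ x : K, algebraMap K Qbar (τ x) = σ (algebraMap K Qbar x))
    (δ : F1 K N z1 ≃+* F1 K N z1)
    (hδ : ∀ x : F1 K N z1, ((δ x : F1 K N z1) : LaurentSeries K) = coeffMap τ (x : LaurentSeries K))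
    {e : F1 K N z1} (he : e ∈ cuspW A K N z1) : δ e - e ∈ (cuspW A K N z1).nonunits := by
  rw [mem_cuspW] at he
  rw [mem_cuspW_nonunits]
  have e : ((δ e - e : F1 K N z1) : LaurentSeries K) =
      coeffMap τ (e : LaurentSeries K) - (e : LaurentSeries K) := by
    rw [← hδ]
    rfl
  rw [e]
  refine ⟨fun n hn => ?_, ?_⟩
  · rw [HahnSeries.coeff_sub, coeffMap_coeff, he.1 n hn, map_zero, sub_zero]
  · rw [HahnSeries.coeff_sub, coeffMap_coeff, map_sub, hτ]
    exact hσ _ he.2

end Fermat.Agent.LP.PL
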