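import Fermat.Agent.LP.PL.Loc.PsiAbs

/-!
# LP-PL-LOC, LOC-PSI, file `PsiShift`: the action of an inertia automorphism on `t₁ = (Z - 1) / lam`
-/

set_option autoImplicit false

namespace Fermat.Agent.LP.PL

variable {B E₁ : Type*} [CommRing B] [Field E₁] [Algebra B E₁] {p : ℕ}

/-- `(1 + lam t) ^ c = 1 + lam (c t + lam m)` with `m` integral. -/
theorem Psi_one_add_pow {lam t : E₁} (hlam : IsIntegral B lam) (ht : IsIntegral B t) (c : ℕ) :
    ∃ m : E₁, IsIntegral B m ∧ (1 + lam * t) ^ c = 1 + lam * ((c : E₁) * t + lam * m) := by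
  induction c with
  | zero => exact ⟨0, isIntegral_zero, by simp⟩
  | succ c ih =>
    obtain ⟨m, hm, e⟩ := ih
    have hc : IsIntegral B (c : E₁) := natCast_mem (integralClosure B E₁) c
    refine ⟨m + t * ((c : E₁) * t + lam * m), hm.add (ht.mul ((hc.mul ht).add (hlam.mul hm))), ?_⟩
    rw [pow_succ, e]
    push_cast
    ring

/-- **SHIFT**: `σ Z = Z ^ c (1 + lam (k + s))`, `s` small, implies `c (σ t₁ - t₁) ≡ k`. -/
theorem Psi_shift (hp : p.Prime) {ζ : E₁} (hζ : IsPrimitiveRoot ζ p) (σ : E₁ ≃+* E₁)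
    (hσB : ∀ b : B, σ (algebraMap B E₁ b) = algebraMap B E₁ b) {c : ℕ} (hσζ : σ ζ = ζ ^ c)
    {Z s : E₁} (ht : IsIntegral B ((Z - 1) / (ζ - 1))) {k : ℕ} (hs : Small B p s)
    (hσZ : σ Z = Z ^ c * (1 + (ζ - 1) * ((k : E₁) + s))) :
    Small B p ((c : E₁) * (σ ((Z - 1) / (ζ - 1)) - (Z - 1) / (ζ - 1)) - (k : E₁)) := by
  have hlam0 : ζ - 1 ≠ 0 := sub_ne_zero.2 (hζ.ne_one hp.one_lt)
  have hlam : IsIntegral B (ζ - 1) := (Descent_isIntegral_zeta hp hζ).sub isIntegral_one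
  have hZ : Z = 1 + (ζ - 1) * ((Z - 1) / (ζ - 1)) := by
    rw [mul_div_cancel₀ _ hlam0]
    ring
  generalize (Z - 1) / (ζ - 1) = t at ht hZ ⊢
  obtain ⟨m₁, hm₁, e₁⟩ := Psi_one_add_pow hlam (isIntegral_one (R := B) (B := E₁)) c
  obtain ⟨m₂, hm₂, e₂⟩ := Psi_one_add_pow hlam ht c
  have hσlam : σ (ζ - 1) = (ζ - 1) * ((c : E₁) + (ζ - 1) * m₁) := by
    have h1 : ζ ^ c = (1 + (ζ - 1) * 1) ^ c := by
      congr 1
      ring
    rw [map_sub, map_one, hσζ, h1, e₁]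
    ring
  have hσZ' : σ Z = 1 + σ (ζ - 1) * σ t := by
    rw [← map_mul, ← map_one σ, ← map_add, map_one, ← hZ]
  have hZc : Z ^ c = 1 + (ζ - 1) * ((c : E₁) * t + (ζ - 1) * m₂) := by
    rw [← e₂, ← hZ]
  have key : (ζ - 1) * ((c : E₁) * (σ t - t) - (k : E₁)) =
      (ζ - 1) * ((ζ - 1) * (-m₁ * σ t + m₂ + ((c : E₁) * t + (ζ - 1) * m₂) * ((k : E₁) + s)) + s) := by
    linear_combination hσZ - hσZ' - σ t * hσlam + (1 + (ζ - 1) * ((k : E₁) + s)) * hZc
  rw [mul_left_cancel₀ hlam0 key]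
  have hc : IsIntegral B (c : E₁) := natCast_mem (integralClosure B E₁) c
  have hk : IsIntegral B (k : E₁) := natCast_mem (integralClosure B E₁) k
  have hσt : IsIntegral B (σ t) := isIntegral_map hσB ht
  exact (Descent_small_lam_mul hp hζ (((hm₁.neg.mul hσt).add hm₂).add
    (((hc.mul ht).add (hlam.mul hm₂)).mul (hk.add hs.isIntegral)))).add hs

/-- an automorphism maps `ζ` to a primitive root. -/
theorem Psi_not_dvd (hp : p.Prime) {ζ : E₁} (hζ : IsPrimitiveRoot ζ p) (σ : E₁ ≃+* E₁) {c : ℕ}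
    (hσζ : σ ζ = ζ ^ c) : ¬ p ∣ c := by
  intro h
  rw [(hζ.pow_eq_one_iff_dvd c).2 h, ← map_one σ] at hσζ
  exact hζ.ne_one hp.one_lt (σ.injective hσζ)

/-- integers prime to `p` are invertible modulo `Small`. -/
theorem Psi_small_of_natCast_mul (hp : p.Prime) {c : ℕ} (hc : ¬ p ∣ c) {e : E₁}
    (he : IsIntegral B e) (h : Small B p ((c : E₁) * e)) : Small B p e := by
  have hcop : Nat.Coprime p c := (Nat.Prime.coprime_iff_not_dvd hp).2 hc
  obtain ⟨a, b, hab⟩ := Nat.isCoprime_iff_coprime.2 hcop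
  have h1 : (a : E₁) * (p : E₁) + (b : E₁) * (c : E₁) = 1 := by
    have := congrArg (Int.cast : ℤ → E₁) hab
    push_cast at this
    exact this
  have ha : IsIntegral B (a : E₁) := intCast_mem (integralClosure B E₁) a
  have hb : IsIntegral B (b : E₁) := intCast_mem (integralClosure B E₁) b
  have h2 : e = (p : E₁) * ((a : E₁) * e) + (b : E₁) * ((c : E₁) * e) := by
    linear_combination (-e) * h1
  rw [h2]
  exact (small_natCast.mul_right (ha.mul he)).add (Small.mul_left hb h)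

/-- `k = 0` if `e` lies in the maximal ideal of a valuation subring above `p`. -/
theorem Psi_k_zero_of_val (hp : p.Prime) {W : ValuationSubring E₁}
    (hBW : ∀ b : B, algebraMap B E₁ b ∈ W) (hpW : (p : E₁) ∈ W.nonunits) {e : E₁}
    (he : e ∈ W.nonunits) {c k : ℕ} (hk : k < p) (h : Small B p ((c : E₁) * e - (k : E₁))) :
    k = 0 := by
  by_contra hk0
  have h1 : W.valuation ((c : E₁) * e - (k : E₁)) < 1 :=
    (ValuationSubring.mem_nonunits_iff W).1 (h.mem_nonunits hBW hpW)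
  have hmul : ∀ (x y : E₁), x ∈ W → W.valuation y < 1 → W.valuation (x * y) < 1 := by
    intro x y hx hy
    rw [mul_comm, map_mul]
    exact mul_lt_one_of_lt_of_le hy ((W.valuation_le_one_iff _).2 hx)
  have h2 : W.valuation ((c : E₁) * e) < 1 :=
    hmul _ _ (natCast_mem W c) ((ValuationSubring.mem_nonunits_iff W).1 he)
  have h3 : W.valuation (k : E₁) < 1 := by
    have e1 : (k : E₁) = (c : E₁) * e - ((c : E₁) * e - (k : E₁)) := by ring
    rw [e1]
    exact Valuation.map_sub_lt _ h2 h1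
  have hcop : Nat.Coprime p k :=
    (Nat.Prime.coprime_iff_not_dvd hp).2 fun hd => hk0 (Nat.eq_zero_of_dvd_of_lt hd hk)
  obtain ⟨a, b, hab⟩ := Nat.isCoprime_iff_coprime.2 hcop
  have h4 : (a : E₁) * (p : E₁) + (b : E₁) * (k : E₁) = 1 := by
    have := congrArg (Int.cast : ℤ → E₁) hab
    push_cast at this
    exact this
  have h5 : W.valuation (1 : E₁) < 1 := by
    rw [← h4]
    exact Valuation.map_add_lt _
      (hmul _ _ (intCast_mem W a) ((ValuationSubring.mem_nonunits_iff W).1 hpW))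
      (hmul _ _ (intCast_mem W b) h3)
  rw [map_one] at h5
  exact lt_irrefl _ h5

/-- the Artin-Schreier generator upstairs. -/
theorem Psi_asGen (hp : p.Prime) (hp2 : p ≠ 2) (hp0 : (p : E₁) ≠ 0) {ζ : E₁}
    (hζ : IsPrimitiveRoot ζ p) (g : E₁ ≃+* E₁) (hgζ : g ζ = ζ) {Z h : E₁}
    (hZ : Z ^ p = 1 + (ζ - 1) ^ p * h) (hh : Small B p h) (hgZ : g Z = ζ * Z) :
    ASGen B p g ((Z - 1) / (ζ - 1)) :=
  ⟨Descent_isIntegral hp hp2 hp0 hζ hZ hh.isIntegral, Psi_small_as hp hp2 hp0 hζ hZ hh,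
    Psi_small_shift hp hp2 hp0 hζ g hgζ hZ hh.isIntegral hgZ⟩

end Fermat.Agent.LP.PL
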