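import Fermat.Agent.LP.PL.Loc.PsiComp
import Fermat.Agent.LP.PL.Loc.PsiShift

/-!
# LP-PL-LOC, LOC-PSI, file `PsiMain`: inertia acts trivially on `t₁` modulo `Small`  (abstract)

* `F` = `F_K = FF K N`, `K` a big normal number field; `E₁ = F1 K N z1 = F_K(z1)`; `ψ : F → E₁`.
* `Sg` / `σ` : an element of the inertia group acting on the coefficients of `F` / `E₁`.
* `S` = local ring of the chart over `R_K` at a node, `Sc` = local ring at the reduction of the cusp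
  `∞`, `O` = a Gauss valuation ring containing both.
* `W` = the valuation subring `{ord_q > 0} ∪ {ord_q = 0, leading coefficient in A}` of `E₁`.
* `B` = the local ring of the chart over `R_L`, `L = K ∩ Q̄ ^ I`, at the node below.
-/

set_option autoImplicit false

namespace Fermat.Agent.LP.PL

variable {B F E₁ : Type*} [CommRing B] [Field F] [Field E₁] [Algebra B E₁] {p : ℕ}

theorem PsiMain_ne (hp : p.Prime) {ζ ϖ : F} (hζ : IsPrimitiveRoot ζ p) {S : Subring F}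
    (H : PsiCtx p ζ ϖ S) : (p : F) ≠ 0 ∧ ζ - 1 ≠ 0 ∧ ϖ ≠ 0 := by
  have : NeZero p := ⟨hp.ne_zero⟩
  refine ⟨(hζ.neZero').out, sub_ne_zero.2 (hζ.ne_one hp.one_lt), ?_⟩
  rintro rfl
  exact H.unif_inv (by rw [inv_zero]; exact S.zero_mem)

theorem PsiMain_Zpow (ψ : F →+* E₁) {ζ ϖ y α : F} {z : E₁} (hz : z ^ p = ψ y)
    (hlam : ζ - 1 ≠ 0) (hϖ : ϖ ≠ 0) :
    (ψ α * z) ^ p
      = 1 + (ψ ζ - 1) ^ p * ψ (ϖ * ((α ^ p * y - 1) / ((ζ - 1) ^ p * ϖ))) := by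
  have e : α ^ p * y = 1 + (ζ - 1) ^ p * (ϖ * ((α ^ p * y - 1) / ((ζ - 1) ^ p * ϖ))) := by
    field_simp
    ring
  have e' := congrArg ψ e
  rw [mul_pow, hz, ← map_pow, ← map_mul, e']
  simp only [map_add, map_one, map_mul, map_pow, map_sub]

theorem PsiMain_sigmaZ (ψ : F →+* E₁) (Sg : F ≃+* F) (σ : E₁ ≃+* E₁)
    (hσψ : ∀ f, σ (ψ f) = ψ (Sg f)) {ζ ϖ x α : F} {z : E₁} {c : ℕ} (k : ℕ)
    (hσz : σ z = z ^ c * ψ x) (hα0 : α ≠ 0) (hlam : ζ - 1 ≠ 0) (hϖ : ϖ ≠ 0) :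
    σ (ψ α * z) = (ψ α * z) ^ c * (1 + (ψ ζ - 1) *
      ((k : E₁) + ψ (ϖ * (((Sg α / α ^ c * x - 1) / (ζ - 1) - (k : F)) / ϖ)))) := by
  have e : Sg α / α ^ c * x
      = 1 + (ζ - 1) * ((k : F) + ϖ * (((Sg α / α ^ c * x - 1) / (ζ - 1) - (k : F)) / ϖ)) := by
    field_simp
    ring
  have e2 : ψ (Sg α / α ^ c * x) = 1 + (ψ ζ - 1) *
      ((k : E₁) + ψ (ϖ * (((Sg α / α ^ c * x - 1) / (ζ - 1) - (k : F)) / ϖ))) := by
    conv_lhs => rw [e]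
    simp only [map_add, map_one, map_mul, map_sub, map_natCast]
  rw [← e2, map_mul, hσψ, hσz, map_mul, map_div₀, map_pow, mul_pow]
  have h0 : ψ α ≠ 0 := (map_ne_zero ψ).2 hα0
  field_simp

theorem PsiMain_small (hp0 : (p : E₁) ≠ 0) (ψ : F →+* E₁) {ζ ϖ : F} {S : Subring F}
    (H : PsiCtx p ζ ϖ S) (hSB : ∀ x ∈ S, IsIntegral B (ψ x)) {γ : F} (hγ : γ ∈ S) :
    Small B p (ψ (ϖ * γ)) := by
  obtain ⟨n, hn⟩ := H.unif_pow
  refine (small_iff hp0).2 ⟨hSB _ (S.mul_mem H.unif hγ), n, ?_⟩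
  have e : ψ (ϖ * γ) ^ n / (p : E₁) = ψ (ϖ ^ n / (p : F) * γ ^ n) := by
    rw [← map_pow, ← map_natCast ψ, ← map_div₀]
    congr 1
    ring
  rw [e]
  exact hSB _ (S.mul_mem hn (S.pow_mem hγ n))

theorem PsiMain_mul_mem {W : ValuationSubring E₁} {x y : E₁} (hx : x ∈ W) (hy : y ∈ W.nonunits) :
    x * y ∈ W.nonunits := by
  rw [ValuationSubring.mem_nonunits_iff] at hy ⊢
  rw [map_mul]
  exact lt_of_le_of_lt (mul_le_of_le_one_left' ((W.valuation_le_one_iff x).2 hx)) hy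

theorem PsiMain_add_mem {W : ValuationSubring E₁} {x y : E₁} (hx : x ∈ W.nonunits)
    (hy : y ∈ W.nonunits) : x + y ∈ W.nonunits := by
  rw [ValuationSubring.mem_nonunits_iff] at *
  exact Valuation.map_add_lt _ hx hy

theorem PsiMain_neg_mem {W : ValuationSubring E₁} {x : E₁} (hx : x ∈ W.nonunits) :
    -x ∈ W.nonunits := by
  rw [ValuationSubring.mem_nonunits_iff] at *
  rwa [Valuation.map_neg]

theorem PsiMain_mem_of_nonunits {W : ValuationSubring E₁} {x : E₁} (hx : x ∈ W.nonunits) :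
    x ∈ W := by
  rw [ValuationSubring.mem_nonunits_iff] at hx
  exact (W.valuation_le_one_iff x).1 hx.le

theorem PsiMain_natCast (hp : p.Prime) {W : ValuationSubring E₁} (hpW : (p : E₁) ∈ W.nonunits)
    {k : ℕ} (hk : k < p) (h : (k : E₁) ∈ W.nonunits) : k = 0 := by
  by_contra h0
  have hcop : Nat.Coprime k p :=
    ((Nat.Prime.coprime_iff_not_dvd hp).2 (fun h => h0 (Nat.eq_zero_of_dvd_of_lt h hk))).symm
  obtain ⟨a, b, hab⟩ := (Nat.isCoprime_iff_coprime.2 hcop)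
  have e : (a : E₁) * (k : E₁) + (b : E₁) * (p : E₁) = 1 := by exact_mod_cast congrArg (Int.cast : ℤ → E₁) hab
  have h1 : (1 : E₁) ∈ W.nonunits := by
    rw [← e]
    exact PsiMain_add_mem (PsiMain_mul_mem (intCast_mem W a) h) (PsiMain_mul_mem (intCast_mem W b) hpW)
  rw [ValuationSubring.mem_nonunits_iff, map_one] at h1
  exact lt_irrefl _ h1

theorem PsiMain_val (hp : p.Prime) (W : ValuationSubring E₁) (hpW : (p : E₁) ∈ W.nonunits)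
    {lam t t' m0 m s : E₁} {c k : ℕ} (hk : k < p) (hlam0 : lam ≠ 0) (hlam : lam ∈ W.nonunits)
    (ht : t ∈ W) (htt : t' - t ∈ W.nonunits) (hm0 : m0 ∈ W) (hm : m ∈ W) (hs : s ∈ W.nonunits)
    (e : 1 + lam * ((c : E₁) + lam * m0) * t'
      = (1 + lam * ((c : E₁) * t + lam * m)) * (1 + lam * ((k : E₁) + s))) : k = 0 := by
  have key : (k : E₁) = (c : E₁) * (t' - t)
      + (m0 * t' - m - ((c : E₁) * t + lam * m) * ((k : E₁) + s)) * lam + -s := by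
    apply mul_left_cancel₀ hlam0
    linear_combination (-1 : E₁) * e
  have ht' : t' ∈ W := by
    have := add_mem (PsiMain_mem_of_nonunits htt) ht
    rwa [sub_add_cancel] at this
  have hlamW := PsiMain_mem_of_nonunits hlam
  have hsW := PsiMain_mem_of_nonunits hs
  apply PsiMain_natCast hp hpW hk
  rw [key]
  refine PsiMain_add_mem (PsiMain_add_mem (PsiMain_mul_mem (natCast_mem W c) htt)
    (PsiMain_mul_mem ?_ hlam)) (PsiMain_neg_mem hs)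
  exact sub_mem (sub_mem (mul_mem hm0 ht') hm)
    (mul_mem (add_mem (mul_mem (natCast_mem W c) ht) (mul_mem hlamW hm))
      (add_mem (natCast_mem W k) hsW))

/-- the residue at the cusp vanishes.  (Apply `Psi_shift`, `Descent_isIntegral`, `Psi_k_zero_of_val`
with `B := Sc`, `Algebra Sc E₁ := (ψ.comp Sc.subtype).toAlgebra`, `Z = ψ α * z`,
`σ Z = Z ^ c * ψ (Sg α / α ^ c * x)`; `ψ (ϖ β)` is `Small` by `unif_pow` and `small_iff`.) -/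
theorem Psi_cusp (hp : p.Prime) (hp2 : p ≠ 2) (ψ : F →+* E₁) (Sg : F ≃+* F) (σ : E₁ ≃+* E₁)
    (hσψ : ∀ f, σ (ψ f) = ψ (Sg f)) {ζ ϖ : F} (hζ : IsPrimitiveRoot ζ p) {c : ℕ}
    {Sc : Subring F} (Hc : PsiCtx p ζ ϖ Sc) (Ac : PsiAut Sg ζ ϖ c Sc)
    (W : ValuationSubring E₁) (hW : ∀ x ∈ Sc, ψ x ∈ W) (hpW : (p : E₁) ∈ W.nonunits)
    (hσW : ∀ e ∈ W, σ e - e ∈ W.nonunits)
    {z : E₁} {x y : F} (hz : z ^ p = ψ y) (hσz : σ z = z ^ c * ψ x)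
    {α : F} (hα0 : α ≠ 0) (hα : (α ^ p * y - 1) / ((ζ - 1) ^ p * ϖ) ∈ Sc) {k : ℕ} (hk : k < p)
    (h : ((Sg α / α ^ c * x - 1) / (ζ - 1) - (k : F)) / ϖ ∈ Sc) : k = 0 := by
  obtain ⟨hp0F, hlam, hϖ⟩ := PsiMain_ne hp hζ Hc
  have hp0 : (p : E₁) ≠ 0 := by
    rw [← map_natCast ψ]
    exact (map_ne_zero ψ).2 hp0F
  have hζ' : IsPrimitiveRoot (ψ ζ) p := hζ.map_of_injective ψ.injective
  let _ : Algebra Sc E₁ := (ψ.comp Sc.subtype).toAlgebra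
  have hV : ∀ b : Sc, algebraMap Sc E₁ b ∈ W := fun b => hW b b.2
  have hSB : ∀ x ∈ Sc, IsIntegral Sc (ψ x) := fun x hx =>
    (isIntegral_algebraMap (R := Sc) (A := E₁) (x := ⟨x, hx⟩))
  have hZ := PsiMain_Zpow (p := p) ψ (ζ := ζ) (ϖ := ϖ) (α := α) hz hlam hϖ
  have ht := Descent_isIntegral (B := Sc) hp hp2 hp0 hζ' hZ (hSB _ (Sc.mul_mem Hc.unif hα))
  have htW := Small_mem_of_isIntegral ht hV
  have hσZ := PsiMain_sigmaZ ψ Sg σ hσψ (ζ := ζ) (ϖ := ϖ) k hσz hα0 hlam hϖ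
  have hsW := (PsiMain_small (B := Sc) hp0 ψ Hc hSB h).mem_nonunits hV hpW
  have hlamW : ψ ζ - 1 ∈ W.nonunits := by
    have := (Descent_small_lam_mul (B := Sc) hp hζ' isIntegral_one).mem_nonunits hV hpW
    rwa [mul_one] at this
  have hlam' : ψ ζ - 1 ≠ 0 := sub_ne_zero.2 (hζ'.ne_one hp.one_lt)
  have hlamInt : IsIntegral Sc (ψ ζ - 1) := (Descent_isIntegral_zeta hp hζ').sub isIntegral_one
  obtain ⟨m, hm, hmc⟩ := Psi_one_add_pow (B := Sc) hlamInt ht c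
  obtain ⟨m0, hm0, hm0c⟩ := Psi_one_add_pow (B := Sc) hlamInt (isIntegral_one (R := Sc) (B := E₁)) c
  have hZt : 1 + (ψ ζ - 1) * ((ψ α * z - 1) / (ψ ζ - 1)) = ψ α * z := by
    field_simp
    ring
  have hσlam : σ (ψ ζ - 1) = (ψ ζ - 1) * ((c : E₁) + (ψ ζ - 1) * m0) := by
    rw [map_sub, map_one, hσψ, Ac.zeta, map_pow]
    have e1 : 1 + (ψ ζ - 1) * 1 = ψ ζ := by ring
    rw [e1] at hm0c
    rw [hm0c]
    ring
  have hσZ' : σ (ψ α * z) = 1 + (ψ ζ - 1) * ((c : E₁) + (ψ ζ - 1) * m0)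
      * σ ((ψ α * z - 1) / (ψ ζ - 1)) := by
    conv_lhs => rw [← hZt]
    rw [map_add, map_one, map_mul, hσlam]
  rw [hZt] at hmc
  refine PsiMain_val (c := c) hp W hpW hk hlam' hlamW htW (hσW _ htW) (Small_mem_of_isIntegral hm0 hV)
    (Small_mem_of_isIntegral hm hV) hsW ?_
  rw [← hσZ', hσZ, hmc]

/-- **PSI** (abstract): `σ t₁ ≡ t₁`.  (`Sg y = y ^ c * x ^ p` by injectivity of `ψ`;
`b := Sg α / α ^ c * x` satisfies `b ^ p = Sg u / u ^ c`, `u = α ^ p * y`; `Psi_exists_k` at `S` and at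
`Sc`; `Psi_cusp`; `Psi_k_eq` in `O`; `Psi_shift` with `k = 0`; `Psi_not_dvd`,
`Psi_small_of_natCast_mul`.) -/
theorem Psi_small_sub (hp : p.Prime) (hp2 : p ≠ 2) (ψ : F →+* E₁) (Sg : F ≃+* F) (σ : E₁ ≃+* E₁)
    (hσψ : ∀ f, σ (ψ f) = ψ (Sg f))
    (hσB : ∀ b : B, σ (algebraMap B E₁ b) = algebraMap B E₁ b)
    {ζ ϖ : F} (hζ : IsPrimitiveRoot ζ p) {c : ℕ}
    {S Sc O : Subring F} (H : PsiCtx p ζ ϖ S) (Hc : PsiCtx p ζ ϖ Sc) (HO : PsiCtx p ζ ϖ O)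
    (A : PsiAut Sg ζ ϖ c S) (Ac : PsiAut Sg ζ ϖ c Sc) (AO : PsiAut Sg ζ ϖ c O)
    (hSO : S ≤ O) (hScO : Sc ≤ O)
    (hSB : ∀ x ∈ S, IsIntegral B (ψ x))
    (W : ValuationSubring E₁) (hW : ∀ x ∈ Sc, ψ x ∈ W) (hpW : (p : E₁) ∈ W.nonunits)
    (hσW : ∀ e ∈ W, σ e - e ∈ W.nonunits)
    {z : E₁} {x y : F} (hz : z ^ p = ψ y) (hσz : σ z = z ^ c * ψ x)
    {α αc : F} (hα0 : α ≠ 0) (hαc0 : αc ≠ 0)
    (hα : (α ^ p * y - 1) / ((ζ - 1) ^ p * ϖ) ∈ S)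
    (hαc : (αc ^ p * y - 1) / ((ζ - 1) ^ p * ϖ) ∈ Sc) :
    Small B p (σ ((ψ α * z - 1) / (ψ ζ - 1)) - (ψ α * z - 1) / (ψ ζ - 1)) := by
  obtain ⟨hp0F, hlam, hϖ⟩ := PsiMain_ne hp hζ H
  have hp0 : (p : E₁) ≠ 0 := by
    rw [← map_natCast ψ]
    exact (map_ne_zero ψ).2 hp0F
  have hζ' : IsPrimitiveRoot (ψ ζ) p := hζ.map_of_injective ψ.injective
  -- `y ≠ 0`
  have hy0 : y ≠ 0 := by
    rintro rfl
    apply H.unif_inv
    have h1 : ϖ⁻¹ = -((ζ - 1) ^ p * ((α ^ p * 0 - 1) / ((ζ - 1) ^ p * ϖ))) := by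
      field_simp
      ring
    rw [h1]
    exact S.neg_mem (S.mul_mem (S.pow_mem (S.sub_mem H.zeta S.one_mem) p) hα)
  -- `Sg y = y ^ c * x ^ p`
  have hSgy : Sg y = y ^ c * x ^ p := by
    apply ψ.injective
    rw [← hσψ, ← hz, map_pow, hσz, mul_pow, ← pow_mul, mul_comm c p, pow_mul, hz, map_mul, map_pow,
      map_pow]
  have hb : ∀ a : F, a ≠ 0 → (Sg a / a ^ c * x) ^ p = Sg (a ^ p * y) / (a ^ p * y) ^ c := by
    intro a ha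
    rw [map_mul, map_pow, hSgy, mul_pow, div_pow, mul_pow, ← pow_mul, ← pow_mul, mul_comm c p]
    have h1 : a ^ (p * c) ≠ 0 := pow_ne_zero _ ha
    have h2 : y ^ c ≠ 0 := pow_ne_zero _ hy0
    field_simp
  obtain ⟨k, hk, hkS⟩ := Psi_exists_k hp hp2 hζ H A hα (hb α hα0)
  obtain ⟨kc, hkc, hkSc⟩ := Psi_exists_k hp hp2 hζ Hc Ac hαc (hb αc hαc0)
  have hkc0 : kc = 0 :=
    Psi_cusp hp hp2 ψ Sg σ hσψ hζ Hc Ac W hW hpW hσW hz hσz hαc0 hαc hkc hkSc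
  have hkk : k = kc :=
    Psi_k_eq hp hp2 hζ HO AO hα0 hαc0 (hSO hα) (hScO hαc) hk hkc (hSO hkS) (hScO hkSc)
  have hZ := PsiMain_Zpow (p := p) ψ (ζ := ζ) (ϖ := ϖ) (α := α) hz hlam hϖ
  have ht := Descent_isIntegral (B := B) hp hp2 hp0 hζ' hZ (hSB _ (S.mul_mem H.unif hα))
  have hσZ := PsiMain_sigmaZ ψ Sg σ hσψ (ζ := ζ) (ϖ := ϖ) k hσz hα0 hlam hϖ
  have hs := PsiMain_small (B := B) hp0 ψ H hSB hkS
  have hσζ : σ (ψ ζ) = ψ ζ ^ c := by rw [hσψ, A.zeta, map_pow]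
  have h1 := Psi_shift hp hζ' σ hσB hσζ ht hs hσZ
  rw [hkk, hkc0, Nat.cast_zero, sub_zero] at h1
  exact Psi_small_of_natCast_mul hp (Psi_not_dvd hp hζ' σ hσζ) ((isIntegral_map hσB ht).sub ht) h1

end Fermat.Agent.LP.PL
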