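import Fermat.Agent.LP.PL.Loc.PsiLoc
import Fermat.Agent.LP.PL.Loc.PsiMain

/-!
# LP-PL-LOC, LOC-PSI, file `PsiNode`: the Artin-Schreier generator upstairs and the action of the
inertia group on it (semi-abstract: charts over a DVR)

* `R = A ∩ K`, `F = F_K`, `E₂ = F_K(z1)`, `ψ : F → E₂`;
* `C` the chart containing the node `𝔪`, `Cc` the chart containing the reduction of the cusp `∞`;
* `W` the valuation subring of `E₂` of the series `x` with `ord x > 0` or `ord x = 0`, `x₀ ∈ A`;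
* `B` = local ring of the chart over `A ∩ L` at the node below `𝔪`.
-/

set_option autoImplicit false

namespace Fermat.Agent.LP.PL

open Fermat.Agent.GR.E Fermat.Agent.GS

variable {R : Type*} [CommRing R] [IsDomain R] [IsDiscreteValuationRing R]
variable {F : Type*} [Field F] [Algebra R F] {ϖ ζ : R} {p : ℕ}
variable {E₂ : Type*} [Field E₂] {B : Type*} [CommRing B] [Algebra B E₂]

omit [IsDomain R] [IsDiscreteValuationRing R] [Algebra R F] in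
/-- nonunits of a comap. -/
theorem PsiNode_mem_comap_nonunits (ψ : F →+* E₂) (W : ValuationSubring E₂) {x : F} :
    x ∈ (W.comap ψ).nonunits ↔ ψ x ∈ W.nonunits := by
  rw [ValuationSubring.mem_nonunits_iff_or, ValuationSubring.mem_nonunits_iff_or,
    ValuationSubring.mem_comap, map_inv₀, map_eq_zero]

omit [IsDomain R] [IsDiscreteValuationRing R] [Algebra R F] in
theorem PsiNode_of_pow_mem (W : ValuationSubring E₂) {x : E₂} {n : ℕ}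
    (h : x ^ n ∈ W.nonunits) : x ∈ W.nonunits := by
  rw [ValuationSubring.mem_nonunits_iff] at h ⊢
  by_contra hx
  rw [not_lt] at hx
  rw [map_pow] at h
  exact absurd h (not_lt.2 (one_le_pow₀ hx))

omit [IsDomain R] [IsDiscreteValuationRing R] [Algebra R F] in
theorem PsiNode_mul_mem (W : ValuationSubring E₂) {x y : E₂} (hx : x ∈ W.nonunits) (hy : y ∈ W) :
    x * y ∈ W.nonunits := by
  rw [ValuationSubring.mem_nonunits_iff] at hx ⊢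
  rw [← ValuationSubring.valuation_le_one_iff] at hy
  rw [map_mul]
  exact lt_of_le_of_lt (mul_le_of_le_one_right' hy) hx

theorem Psi_node_asGen (hinj : Function.Injective (algebraMap R F)) (hϖ : Irreducible ϖ)
    (hp : p.Prime) (hp2 : p ≠ 2) (hpR : ¬ IsUnit (p : R)) (hζ : IsPrimitiveRoot ζ p)
    {𝒪₁ 𝒪₂ : ValuationSubring F} (hG₁ : GaussRing ϖ 𝒪₁) (hG₂ : GaussRing ϖ 𝒪₂)
    {C Cc : Subalgebra R F} (hC : NodalChart ϖ 𝒪₁ 𝒪₂ C) (hCc : NodalChart ϖ 𝒪₁ 𝒪₂ Cc)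
    (𝔪 : Ideal C) [𝔪.IsPrime] (h₁ : vert ϖ 𝒪₁ C ≤ 𝔪) (h₂ : vert ϖ 𝒪₂ C ≤ 𝔪)
    (ψ : F →+* E₂) (W : ValuationSubring E₂) (hCcW : ∀ x ∈ Cc, ψ x ∈ W)
    (hpW : (p : E₂) ∈ W.nonunits)
    (hres : ∀ x ∈ Cc, ∃ r : R, ψ (x - algebraMap R F r) ∈ W.nonunits)
    (hSB : ∀ x ∈ locAt C 𝔪, IsIntegral B (ψ x))
    {y : F}
    (hnode : ∃ α : F, α ≠ 0 ∧
      (α ^ p * y - 1) / algebraMap R F ((ζ - 1) ^ p * ϖ) ∈ locAt C 𝔪)
    (hcusp : ∀ (𝔫 : Ideal Cc) [𝔫.IsPrime], 𝔫.IsMaximal → algebraMap R Cc ϖ ∈ 𝔫 →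
      ∃ α : F, α ≠ 0 ∧ (α ^ p * y - 1) / algebraMap R F ((ζ - 1) ^ p * ϖ) ∈ locAt Cc 𝔫)
    {z : E₂} (hz : z ^ p = ψ y)
    (g₂ : E₂ ≃+* E₂) (hg₂ψ : ∀ f, g₂ (ψ f) = ψ f)
    (hg₂z : g₂ z = ψ (algebraMap R F ζ) * z)
    {κ : Type*} (δ : κ → E₂ ≃+* E₂) (Sg : κ → F ≃+* F) (hδψ : ∀ i f, δ i (ψ f) = ψ (Sg i f))
    (hδB : ∀ i (b : B), δ i (algebraMap B E₂ b) = algebraMap B E₂ b)
    {h : F} (haut : ∀ i, ChartAut R 𝒪₁ 𝒪₂ h (Sg i))
    (hSgC : ∀ i, ∀ x ∈ C, Sg i x ∈ C) (hSgCc : ∀ i, ∀ x ∈ Cc, Sg i x ∈ Cc)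
    (hfrob : ∀ i, FrobLike ϖ 𝒪₁ 𝒪₂ C (Sg i) 1)
    (hδW : ∀ i, ∀ e ∈ W, δ i e - e ∈ W.nonunits)
    (hδz : ∀ i, ∃ (c : ℕ) (x : F), Sg i (algebraMap R F ζ) = algebraMap R F ζ ^ c ∧
      δ i z = z ^ c * ψ x) :
    ∃ t₁ : E₂, ASGen B p g₂ t₁ ∧ ∀ i, Small B p (δ i t₁ - t₁) := by
  classical
  -- constants
  have hζF : IsPrimitiveRoot (algebraMap R F ζ) p := hζ.map_of_injective hinj
  have hpF : (p : F) ≠ 0 := by
    have : NeZero p := ⟨hp.ne_zero⟩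
    exact (hζF.neZero' ).ne
  have hp0 : (p : E₂) ≠ 0 := by
    rw [← map_natCast ψ]
    exact (map_ne_zero ψ).2 hpF
  have hϖ0 : algebraMap R F ϖ ≠ 0 := hG₁.ne_zero
  have hlam0 : algebraMap R F ζ - 1 ≠ 0 := sub_ne_zero.2 (hζF.ne_one hp.one_lt)
  have hmap : algebraMap R F ((ζ - 1) ^ p * ϖ) =
      (algebraMap R F ζ - 1) ^ p * algebraMap R F ϖ := by
    rw [map_mul, map_pow, map_sub, map_one]
  rw [hmap] at hnode
  obtain ⟨-, n, r, hnr⟩ := PsiLoc_const (F := F) hinj hϖ hp hpR hζ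
  have hnr' : algebraMap R F ϖ ^ n = (p : F) * algebraMap R F r := by
    rw [← hnr, mul_div_cancel₀ _ hpF]
  -- the cusp
  have hCcW2 : ∀ x ∈ Cc, x ∈ W.comap ψ := fun x hx => hCcW x hx
  have hϖW : ψ (algebraMap R F ϖ) ∈ W.nonunits := by
    apply PsiNode_of_pow_mem W (n := n)
    rw [← map_pow, hnr', map_mul, map_natCast]
    exact PsiNode_mul_mem W hpW (hCcW _ (Cc.algebraMap_mem r))
  have hϖW2 : algebraMap R F ϖ ∈ (W.comap ψ).nonunits :=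
    (PsiNode_mem_comap_nonunits ψ W).2 hϖW
  have hprime : (centre Cc (W.comap ψ) hCcW2).IsPrime := centre_isPrime hCcW2
  have hmax : (centre Cc (W.comap ψ) hCcW2).IsMaximal :=
    centre_isMaximal hϖ hCcW2 hϖW2 fun x hx => by
      obtain ⟨r, hr⟩ := hres x hx
      exact ⟨r, (PsiNode_mem_comap_nonunits ψ W).2 hr⟩
  have hϖ𝔫 : algebraMap R Cc ϖ ∈ centre Cc (W.comap ψ) hCcW2 :=
    (mem_centre hCcW2 _).2 hϖW2
  obtain ⟨αc, hαc0, hαc⟩ := hcusp (centre Cc (W.comap ψ) hCcW2) hmax hϖ𝔫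
  rw [hmap] at hαc
  obtain ⟨α, hα0, hα⟩ := hnode
  have hϖ𝔪 : algebraMap R C ϖ ∈ 𝔪 := h₁ (algebraMap_mem_vert hG₁ C)
  -- the component through the cusp
  obtain ⟨𝒪, hG, hle, hlec, hR𝒪, hmem𝒪⟩ : ∃ 𝒪 : ValuationSubring F, GaussRing ϖ 𝒪 ∧
      (∀ x ∈ locAt C 𝔪, x ∈ 𝒪) ∧ (∀ x ∈ locAt Cc (centre Cc (W.comap ψ) hCcW2), x ∈ 𝒪) ∧
      (∀ r : R, algebraMap R F r ∈ 𝒪) ∧ ∀ i x, x ∈ 𝒪 → Sg i x ∈ 𝒪 := by
    rcases PsiLoc_vert_le_or hCc.toSatChart2 hϖ0 (centre Cc (W.comap ψ) hCcW2) hϖ𝔫 with hv | hv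
    · exact ⟨𝒪₁, hG₁, LocNode_le hG₁ hC.le₁ 𝔪 h₁, LocNode_le hG₁ hCc.le₁ _ hv,
        fun r => hC.le₁ _ (C.algebraMap_mem r), fun i x hx => ((haut i).mem₁ x).2 hx⟩
    · exact ⟨𝒪₂, hG₂, LocNode_le hG₂ hC.le₂ 𝔪 h₂, LocNode_le hG₂ hCc.le₂ _ hv,
        fun r => hC.le₂ _ (C.algebraMap_mem r), fun i x hx => ((haut i).mem₂ x).2 hx⟩
  have H := PsiCtx_locAt (F := F) hinj hϖ hp hpR hζ hC.closed 𝔪 hϖ𝔪
  have Hc := PsiCtx_locAt (F := F) hinj hϖ hp hpR hζ hCc.closed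
    (centre Cc (W.comap ψ) hCcW2) hϖ𝔫
  have HO := PsiCtx_val (F := F) hinj hϖ hp hpR hζ hG hR𝒪
  have hW : ∀ x ∈ (locAt Cc (centre Cc (W.comap ψ) hCcW2)).toSubring, ψ x ∈ W :=
    fun x hx => locAt_centre_le hCcW2 x hx
  refine ⟨(ψ α * z - 1) / (ψ (algebraMap R F ζ) - 1), ?_, fun i => ?_⟩
  · -- the Artin-Schreier generator
    obtain ⟨β, hβ⟩ : ∃ β, β = (α ^ p * y - 1) /
        ((algebraMap R F ζ - 1) ^ p * algebraMap R F ϖ) := ⟨_, rfl⟩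
    rw [← hβ] at hα
    have hd0 : (algebraMap R F ζ - 1) ^ p * algebraMap R F ϖ ≠ 0 :=
      mul_ne_zero (pow_ne_zero _ hlam0) hϖ0
    have hy : α ^ p * y = 1 + (algebraMap R F ζ - 1) ^ p * (algebraMap R F ϖ * β) := by
      rw [hβ]
      field_simp
      ring
    have hϖβ : algebraMap R F ϖ * β ∈ locAt C 𝔪 :=
      (locAt C 𝔪).mul_mem ((locAt C 𝔪).algebraMap_mem ϖ) hα
    refine Psi_asGen hp hp2 hp0 (hζF.map_of_injective ψ.injective) g₂ (hg₂ψ _)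
      (h := ψ (algebraMap R F ϖ * β)) ?_ ?_ ?_
    · rw [mul_pow, hz, ← map_pow, ← map_mul, hy, map_add, map_one, map_mul, map_pow, map_sub,
        map_one]
    · rw [small_iff hp0]
      refine ⟨hSB _ hϖβ, n, ?_⟩
      have e : ψ (algebraMap R F ϖ * β) ^ n / (p : E₂) = ψ (algebraMap R F r * β ^ n) := by
        rw [← map_pow, ← map_natCast ψ, ← map_div₀, mul_pow, hnr']
        congr 1
        field_simp
      rw [e]
      exact hSB _ ((locAt C 𝔪).mul_mem ((locAt C 𝔪).algebraMap_mem r) ((locAt C 𝔪).pow_mem hα n))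
    · rw [map_mul, hg₂ψ, hg₂z]
      ring
  · -- the action of the inertia group
    obtain ⟨c, x, hc, hx⟩ := hδz i
    have A := PsiAut_of (F := F) (ϖ := ϖ) hinj hϖ (haut i).mapR (haut i).mapR_symm hc
      (S := (locAt C 𝔪).toSubring) (fun r => (locAt C 𝔪).algebraMap_mem r)
      (fun x hx => PsiLoc_map_locAt (hSgC i) 𝔪 (fun s hmem => by
        obtain ⟨y₁, hy₁C, y₂, hy₂C, hy₁, hy₂, hxy⟩ := hfrob i s s.2
        have e : s = (⟨Sg i s, hSgC i _ s.2⟩ : C) - ((⟨y₁, hy₁C⟩ : C) + ⟨y₂, hy₂C⟩) := by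
          apply Subtype.ext
          push_cast
          rw [← hxy, pow_one]
          ring
        rw [e]
        exact 𝔪.sub_mem hmem
          (𝔪.add_mem (h₁ ((mem_vert hC.le₁ _).2 hy₁)) (h₂ ((mem_vert hC.le₂ _).2 hy₂)))) hx)
    have Ac := PsiAut_of (F := F) (ϖ := ϖ) hinj hϖ (haut i).mapR (haut i).mapR_symm hc
      (S := (locAt Cc (centre Cc (W.comap ψ) hCcW2)).toSubring)
      (fun r => (locAt Cc _).algebraMap_mem r)
      (fun x hx => PsiLoc_map_locAt (hSgCc i) _ (fun x hx => by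
        rw [mem_centre, PsiNode_mem_comap_nonunits] at hx ⊢
        have h1 := hδW i (ψ x) (hCcW _ x.2)
        rw [hδψ] at h1
        have h2 := W.nonunits.sub_mem hx h1
        rwa [sub_sub_cancel] at h2) hx)
    have AO := PsiAut_of (F := F) (ϖ := ϖ) hinj hϖ (haut i).mapR (haut i).mapR_symm hc
      (S := 𝒪.toSubring) hR𝒪 (fun x hx => hmem𝒪 i x hx)
    exact Psi_small_sub hp hp2 ψ (Sg i) (δ i) (hδψ i) (hδB i) hζF H Hc HO A Ac AO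
      (fun x hx => hle x hx) (fun x hx => hlec x hx) (fun x hx => hSB x hx) W hW hpW (hδW i)
      hz hx hα0 hαc0 hα hαc

end Fermat.Agent.LP.PL
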