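import Fermat.Agent.LP.PL.Loc.AsmNode
import Fermat.Agent.LP.PL.Loc.AsmLevel
import Fermat.Agent.LP.PL.Loc.PsiNode
import Fermat.Agent.LP.PL.Loc.PsiCuspW
import Fermat.Agent.LP.PL.Loc.PsiAbs
import Fermat.Agent.LP.PL.Form.Tower2

/-!
# LP-PL-LOC, file `AsmMain`: the Artin-Schreier generator at every node  (assembly of (B))

`L ≤ K`, `K` finite normal over `ℚ`, `Gal(K/L)` = image of the inertia group (`InertFam`).
At every node `𝔪` of the chart over `A ∩ L` there is `t ∈ F1 L N z1` with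
`ASGen (locAt C 𝔪) p gL t`.
-/

set_option autoImplicit false
set_option synthInstance.maxHeartbeats 400000

noncomputable section

namespace Fermat.Agent.LP.PL

open Fermat.Agent.GR Fermat.Agent.GR.E Fermat.Agent.GS ModularCurve IntermediateField
open Fermat.Agent.LP

section abs

variable {R F E : Type*} [CommRing R] [Field F] [Field E] [Algebra R F] [Algebra R E]

/-- descent of the Artin-Schreier generator (end of the proof of `Psi_chart_asGen`). -/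
theorem AsmMain_descend {p : ℕ} (hp : p.Prime) (B : Subalgebra R F) (φ : F →ₐ[R] E)
    (g : E ≃+* E) (hgφ : ∀ f : F, g (φ f) = φ f)
    {E₁ : Type*} [Field E₁] (hp0 : (p : E₁) ≠ 0) (ψ : E →+* E₁) (g₁ : E₁ ≃+* E₁)
    (hg₁ : ∀ e : E, ψ (g e) = g₁ (ψ e))
    {ι : Type*} [Fintype ι] [Nonempty ι] (δ : ι → E₁ ≃+* E₁)
    (hδψ : ∀ i (e : E), δ i (ψ e) = ψ e) (hδfix : ∀ x : E₁, (∀ i, δ i x = x) → ∃ e : E, ψ e = x)
    (hperm : ∀ i, ∃ π : Equiv.Perm ι, ∀ k e, δ i (δ k e) = δ (π k) e)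
    {t₁ : E₁} (T : @ASGen B E₁ _ _ (algBE₁ φ ψ B) p g₁ t₁)
    (hpsi : ∀ i, @Small B E₁ _ _ (algBE₁ φ ψ B) p (δ i t₁ - t₁)) :
    ∃ t : E, @ASGen B E _ _ (algBE φ B) p g t := by
  letI := algBE φ B
  letI : Algebra B E₁ := algBE₁ φ ψ B
  let ψ' : E →ₐ[B] E₁ := { ψ with commutes' := fun _ => rfl }
  have hgB : ∀ b : B, g₁ (algebraMap B E₁ b) = algebraMap B E₁ b := by
    intro b
    change g₁ (ψ (φ (b : F))) = ψ (φ (b : F))
    rw [← hg₁, hgφ]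
  obtain ⟨t₂, ht₂, T₂, -⟩ := Psi_exists_asGen_fixed (B := B) hp g₁ hgB δ
    (fun i b => hδψ i _) hperm T hpsi
  obtain ⟨t, rfl⟩ := hδfix t₂ ht₂
  exact ⟨t, ASGen.of_map ψ' hp0 hg₁ T₂⟩

end abs

variable {A : ValuationSubring Qb} {L K : IntermediateField ℚ Qb} [Normal ℚ K]
  [FiniteDimensional ℚ K] {s : TowGrp L K → Qb ≃ₐ[ℚ] Qb}

theorem AsmMain_coe_incL (L : IntermediateField ℚ Qb) (N : ℕ) (z1 : LaurentSeries Qb)
    (f : FF L N) : ((incL L N z1 f : F1 L N z1) : LaurentSeries L) = (f : LaurentSeries L) := rfl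

theorem AsmMain_fix (hL : L ≤ K)
    (hlift : ∀ (τ : TowGrp L K) (x : K), s τ (x : Qb) = ((τ : K ≃ₐ[ℚ] K) x : Qb)) :
    ∀ i, ∀ x ∈ L, s i x = x := by
  intro i x hx
  have h1 := hlift i ⟨x, hL hx⟩
  rw [i.2 ⟨x, hL hx⟩ hx] at h1
  exact h1

theorem AsmMain_coe_famFF
    (hlift : ∀ (τ : TowGrp L K) (x : K), s τ (x : Qb) = ((τ : K ≃ₐ[ℚ] K) x : Qb)) (N : ℕ)
    (τ : TowGrp L K) (f : FF K N) :
    ((famFF K s N τ f : FF K N) : LaurentSeries K) =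
      coeffMap (((τ : K ≃ₐ[ℚ] K) : K →+* K)) (f : LaurentSeries K) := by
  rw [coe_mapFFEquiv]
  apply HahnSeries.ext
  funext n
  rw [coeffMap_coeff, coeffMap_coeff]
  apply (algebraMap K Qb).injective
  have := algebraMap_resL K (s τ) ((f : LaurentSeries K).coeff n)
  exact this.trans (hlift τ _)

theorem AsmMain_upF1_incL (hL : L ≤ K) (N : ℕ) (z1 : LaurentSeries Qb) (f : FF L N) :
    upF1 hL N z1 (incL L N z1 f) = incL K N z1 (upFF hL N f) := rfl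

theorem AsmMain_incL_const (A : ValuationSubring Qb) (K : IntermediateField ℚ Qb) (N : ℕ)
    (z1 : LaurentSeries Qb) (r : A.comap (algebraMap K Qb)) :
    incL K N z1 (algebraMap (A.comap (algebraMap K Qb)) (FF K N) r) =
      algebraMap K (F1 K N z1) (r : K) :=
  (incL K N z1).commutes (r : K)

set_option maxHeartbeats 4000000 in
/-- **(B)**: the Artin-Schreier generator at a node of the chart over `A ∩ L`. -/
theorem Asm_node_asGen {p N : ℕ} (hp : p.Prime) (hp2 : p ≠ 2) (hA : A.LiesOverPrime p)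
    (hL : L ≤ K) (hs : InertFam A L K s 1)
    (hlift : ∀ (τ : TowGrp L K) (x : K), s τ (x : Qb) = ((τ : K ≃ₐ[ℚ] K) x : Qb))
    {ζ : Qb} {u1 z1 : LaurentSeries Qb} (hζK : ζ ∈ K)
    (hline : LineData p N ζ L u1) (hz : IsCoverRoot p N ζ L u1 z1)
    {g : F1Q N z1 ≃ₐ[Qb] F1Q N z1} (hg : IsDeck N ζ z1 g)
    {gL : F1 L N z1 ≃ₐ[L] F1 L N z1} (hgL : ∀ x, toQ L N z1 (gL x) = g (toQ L N z1 x))
    [IsDiscreteValuationRing (A.comap (algebraMap K Qb))]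
    [IsDiscreteValuationRing (A.comap (algebraMap L Qb))]
    {hK : FF K N} {wK : FF K N ≃ₐ[K] FF K N} {𝒪₁' 𝒪₂' : ValuationSubring (FF K N)}
    (MD : NodalModelData (A.comap (algebraMap K Qb)) p N hK wK 𝒪₁' 𝒪₂')
    (ζK : A.comap (algebraMap K Qb)) (hζK' : algebraMap K Qb (ζK : K) = ζ)
    (yK : FF K N) (hyK : coeffMap (algebraMap K Qb) (yK : LaurentSeries K) = z1 ^ p)
    (hnode : NodePK A p N K ζK hK yK)
    (t : FF L N) (ht : upFF hL N t = hK)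
    {ϖ : A.comap (algebraMap L Qb)} {𝒪₁ 𝒪₂ : ValuationSubring (FF L N)}
    (hG₁ : GaussRing ϖ 𝒪₁) (hG₂ : GaussRing ϖ 𝒪₂)
    (hle₁ : ∀ x ∈ chart (A.comap (algebraMap L Qb)) ({t} : Set (FF L N)), x ∈ 𝒪₁)
    (hle₂ : ∀ x ∈ chart (A.comap (algebraMap L Qb)) ({t} : Set (FF L N)), x ∈ 𝒪₂)
    (hO₁ : ∀ f ∈ 𝒪₁, upFF hL N f ∈ 𝒪₁') (hO₂ : ∀ f ∈ 𝒪₂, upFF hL N f ∈ 𝒪₂')
    (𝔪 : Ideal (chart (A.comap (algebraMap L Qb)) ({t} : Set (FF L N)))) [𝔪.IsPrime]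
    (h𝔪 : 𝔪.IsMaximal)
    (h₁ : vert ϖ 𝒪₁ (chart (A.comap (algebraMap L Qb)) ({t} : Set (FF L N))) ≤ 𝔪)
    (h₂ : vert ϖ 𝒪₂ (chart (A.comap (algebraMap L Qb)) ({t} : Set (FF L N))) ≤ 𝔪)
    (φ : FF L N →ₐ[A.comap (algebraMap L Qb)] F1 L N z1) (hφ : ∀ f, φ f = incL L N z1 f) :
    ∃ t' : F1 L N z1,
      @ASGen (locAt (chart (A.comap (algebraMap L Qb)) ({t} : Set (FF L N))) 𝔪) (F1 L N z1) _ _
        (algBE φ (locAt (chart (A.comap (algebraMap L Qb)) ({t} : Set (FF L N))) 𝔪)) p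
        gL.toRingEquiv t' := by
  classical
  obtain ⟨ϖK, hϖK⟩ := IsDiscreteValuationRing.exists_irreducible (A.comap (algebraMap K Qb))
  have hsL := AsmMain_fix hL hlift
  -- the node above
  obtain ⟨𝔪K, hmaxK, hv₁, hv₂, hover⟩ := hs.exists_node hL hsL MD hϖK t ht hG₁ hG₂ hle₁ hle₂
    hO₁ hO₂ 𝔪 h𝔪 h₁ h₂
  haveI : 𝔪K.IsPrime := hmaxK.isPrime
  -- the tower
  obtain ⟨g₂, Z, δ, hg₂, hZ, T, hfixed, hδ⟩ := exists_towerG hline hz hg hgL hL hζK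
  set B := locAt (chart (A.comap (algebraMap L Qb)) ({t} : Set (FF L N))) 𝔪 with hB
  set ψ : FF K N →+* F1 K N z1 := (incL K N z1 : FF K N →+* F1 K N z1) with hψdef
  have hψ : ∀ f : FF K N, ((ψ f : F1 K N z1) : LaurentSeries K) = (f : LaurentSeries K) :=
    fun _ => rfl
  letI : Algebra B (F1 K N z1) := algBE₁ φ (upF1 hL N z1) B
  have halg : ∀ b : B, algebraMap B (F1 K N z1) b = ψ (upFF hL N (b : FF L N)) := by
    intro b
    show upF1 hL N z1 (φ (b : FF L N)) = _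
    rw [hφ]
    rfl
  have hζc : (ζK : K) = ⟨ζ, hζK⟩ := Subtype.ext hζK'
  have hψζ : ψ (algebraMap (A.comap (algebraMap K Qb)) (FF K N) ζK) = zF1G N z1 hζK := by
    show incL K N z1 _ = _
    rw [AsmMain_incL_const, hζc]
    rfl
  have hζR : IsPrimitiveRoot ζK p := by
    have hinj2 : Function.Injective
        ((algebraMap K Qb).comp (A.comap (algebraMap K Qb)).subtype) :=
      (algebraMap K Qb).injective.comp Subtype.val_injective
    refine IsPrimitiveRoot.of_map_of_injective ?_ hinj2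
    show IsPrimitiveRoot (algebraMap K Qb (ζK : K)) p
    rw [hζK']
    exact hline.root
  have hδψ : ∀ i f, δ i (ψ f) = ψ (famFF K s N i f) := by
    intro i f
    apply Subtype.ext
    rw [hδ, hψ, hψ, AsmMain_coe_famFF hlift]
  have hSB : ∀ x ∈ locAt (chart (A.comap (algebraMap K Qb)) ({hK} : Set (FF K N))) 𝔪K,
      IsIntegral B (ψ x) := by
    intro x hx
    obtain ⟨P, hP, hPx⟩ := hs.isIntegralElem_node hL N t hK ht (hs.map_mem_chart0 MD)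
      (fun i => (hs.frobLike MD hϖK i).1) 𝔪K hv₁ hv₂ 𝔪 hover hx
    refine ⟨P, hP, ?_⟩
    have e : Polynomial.eval₂ (algebraMap B (F1 K N z1)) (ψ x) P =
        ψ (Polynomial.eval₂ ((upFF hL N).comp (algebraMap B (FF L N))) x P) := by
      rw [Polynomial.hom_eval₂]
      congr 1
      exact RingHom.ext halg
    rw [e, hPx, map_zero]
  have hzp : Z ^ p = ψ yK := by
    apply toQ_injective K N z1
    apply Subtype.ext
    rw [map_pow, hZ, coe_toQ, hψ, hyK]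
    rfl
  have hδz : ∀ i, ∃ (c : ℕ) (x : FF K N),
      famFF K s N i (algebraMap (A.comap (algebraMap K Qb)) (FF K N) ζK) =
        algebraMap (A.comap (algebraMap K Qb)) (FF K N) ζK ^ c ∧ δ i Z = Z ^ c * ψ x := by
    intro i
    obtain ⟨c, y, -, hgy, hδζ, hδZ⟩ := T.hδZ i
    refine ⟨c, ⟨y, (hfixed y).1 hgy⟩, ?_, hδZ⟩
    apply ψ.injective
    rw [← hδψ, map_pow, hψζ, hδζ]
  have key : ∀ (Cc : Subalgebra (A.comap (algebraMap K Qb)) (FF K N)),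
      NodalChart ϖK 𝒪₁' 𝒪₂' Cc → (∀ x ∈ Cc, ψ x ∈ cuspW A K N z1) →
      (∀ (𝔫 : Ideal Cc) [𝔫.IsPrime], 𝔫.IsMaximal →
        algebraMap (A.comap (algebraMap K Qb)) Cc ϖK ∈ 𝔫 →
        ∃ α : FF K N, α ≠ 0 ∧ (α ^ p * yK - 1) /
          algebraMap (A.comap (algebraMap K Qb)) (FF K N) ((ζK - 1) ^ p * ϖK) ∈ locAt Cc 𝔫) →
      (∀ i, ∀ x ∈ Cc, famFF K s N i x ∈ Cc) →
      ∃ t₁ : F1 K N z1, ASGen B p g₂.toRingEquiv t₁ ∧ ∀ i, Small B p (δ i t₁ - t₁) := by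
    intro Cc hCc hCcW hcusp hSgCc
    exact Psi_node_asGen (AsmNode_algebraMap_injective A K N) hϖK hp hp2
      (BR5_not_isUnit_natCast A p hA K) hζR (MD.gauss₁ ϖK hϖK) (MD.gauss₂ ϖK hϖK)
      (MD.nodal0 ϖK hϖK) hCc 𝔪K hv₁ hv₂ ψ (cuspW A K N z1) hCcW
      (natCast_mem_cuspW_nonunits hA)
      (fun x hx => exists_const_sub_mem ψ hψ (hCcW x hx)) hSB
      ((hnode ϖK hϖK).1 𝔪K hmaxK (hv₁ (algebraMap_mem_vert (MD.gauss₁ ϖK hϖK) _)))
      hcusp hzp g₂.toRingEquiv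
      (fun f => (hfixed (ψ f)).2 f.2)
      (by rw [hψζ]; exact T.hgZ)
      δ (famFF K s N) hδψ
      (fun i b => T.hδψ i _)
      (hs.chartAut MD) (hs.map_mem_chart0 MD) hSgCc (fun i => (hs.frobLike MD hϖK i).1)
      (fun i e he => sub_mem_cuspW_nonunits (σ := s i) (hs.inert i)
        (τ := (((i : K ≃ₐ[ℚ] K) : K →+* K))) (fun x => (hlift i x).symm) (δ i) (hδ i) he)
      hδz
  obtain ⟨t₁, T₁, hpsi⟩ : ∃ t₁ : F1 K N z1, ASGen B p g₂.toRingEquiv t₁ ∧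
      ∀ i, Small B p (δ i t₁ - t₁) := by
    rcases (cuspW A K N z1).mem_or_inv_mem (ψ hK) with hW | hW
    · exact key _ (MD.nodal0 ϖK hϖK) (chart_le_cuspW ψ hψ hW) (hnode ϖK hϖK).1
        (hs.map_mem_chart0 MD)
    · rw [← map_inv₀] at hW
      exact key _ (MD.nodal1 ϖK hϖK) (chart_le_cuspW ψ hψ hW) (hnode ϖK hϖK).2
        (hs.map_mem_chart1 MD)
  haveI : Nonempty (TowGrp L K) := ⟨1⟩
  exact AsmMain_descend hp B φ gL.toRingEquiv
    (fun f => by rw [hφ]; exact (deckL_inputs hline hz hg hgL).1 f) T.hp0 (upF1 hL N z1)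
    g₂.toRingEquiv T.hg₁ δ T.hδψ T.hδfix T.hperm T₁ hpsi

end Fermat.Agent.LP.PL
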