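import Fermat.Agent.LP.PL.Loc.AsmUp
import Fermat.Agent.LP.PL.Loc.AsmArt
import Fermat.Agent.LP.PL.Loc.PsiLoc

/-!
# LP-PL-LOC, file `AsmNode`: a node of the chart over `A ∩ K` above a node of the chart over `A ∩ L`
-/

set_option autoImplicit false
set_option synthInstance.maxHeartbeats 400000

noncomputable section

namespace Fermat.Agent.LP.PL

open Fermat.Agent.GR Fermat.Agent.GR.E Fermat.Agent.GS ModularCurve IntermediateField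

section abs

variable {R : Type*} [CommRing R] [IsDomain R] [IsDiscreteValuationRing R]
variable {F : Type*} [Field F] [Algebra R F] {ϖ : R}

/-- the vertical ideals are stable under chart automorphisms. -/
theorem AsmNode_vert_stable (hinj : Function.Injective (algebraMap R F)) (hϖ : Irreducible ϖ)
    {𝒪 : ValuationSubring F} {C : Subalgebra R F} (hle : ∀ x ∈ C, x ∈ 𝒪)
    {τ : F ≃+* F} (hτR : ∀ r : R, ∃ r' : R, τ (algebraMap R F r) = algebraMap R F r')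
    (hτR' : ∀ r : R, ∃ r' : R, τ.symm (algebraMap R F r) = algebraMap R F r')
    (hτ𝒪 : ∀ x, τ x ∈ 𝒪 ↔ x ∈ 𝒪) (hτC : ∀ x ∈ C, τ x ∈ C) (x : C) (hx : x ∈ vert ϖ 𝒪 C) :
    (⟨τ x, hτC x x.2⟩ : C) ∈ vert ϖ 𝒪 C := by
  rw [mem_vert hle] at hx ⊢
  have hϖ0 : algebraMap R F ϖ ≠ 0 := fun h => hϖ.ne_zero (hinj (by rw [h, map_zero]))
  have hR : ∀ r : R, algebraMap R F r ∈ 𝒪.toSubring := fun r => hle _ (C.algebraMap_mem r)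
  have h1 := (PsiAut_of (ζ := (1 : R)) (c := 1) hinj hϖ hτR hτR' (by simp) hR
    (fun x hx => (hτ𝒪 x).2 hx)).unif
  have hτϖ0 : τ (algebraMap R F ϖ) ≠ 0 := (map_ne_zero τ).2 hϖ0
  have e : (τ (x : F)) / algebraMap R F ϖ =
      τ ((x : F) / algebraMap R F ϖ) * (τ (algebraMap R F ϖ) / algebraMap R F ϖ) := by
    rw [map_div₀]
    field_simp
  show (τ (x : F)) / algebraMap R F ϖ ∈ 𝒪
  rw [e]
  exact 𝒪.mul_mem _ _ ((hτ𝒪 _).2 hx) h1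

end abs

/-- descent of the vertical condition. -/
theorem AsmNode_vert_down {R F R' F' : Type*} [CommRing R] [Field F] [Algebra R F] [CommRing R']
    [Field F'] [Algebra R' F'] (ι : F →+* F') {ϖ : R} {ϖ' : R'} {𝒪 : ValuationSubring F}
    {𝒪' : ValuationSubring F'} (hG : GaussRing ϖ 𝒪) (hG' : GaussRing ϖ' 𝒪')
    (hO : ∀ f ∈ 𝒪, ι f ∈ 𝒪') {c : F} (hc : c ∈ 𝒪) (h : ι c / algebraMap R' F' ϖ' ∈ 𝒪') :
    c / algebraMap R F ϖ ∈ 𝒪 := by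
  by_cases hc0 : c = 0
  · rw [hc0, zero_div]; exact 𝒪.zero_mem
  rcases hG.unif c hc with h1 | h1
  · exact h1
  · exfalso
    apply hG'.inv_not_mem
    have h2 : ι c⁻¹ ∈ 𝒪' := hO _ h1
    have hιc : ι c ≠ 0 := (map_ne_zero ι).2 hc0
    have e : (algebraMap R' F' ϖ')⁻¹ = ι c / algebraMap R' F' ϖ' * ι c⁻¹ := by
      rw [map_inv₀]
      field_simp
    rw [e]
    exact 𝒪'.mul_mem _ _ h h2

/-- **NODE ABOVE NODE**, abstract, with vertical ideals. -/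
theorem AsmNode_exists_node {R F R' F' : Type*} [CommRing R] [IsDomain R]
    [IsDiscreteValuationRing R] [Field F] [Algebra R F] [CommRing R'] [IsDomain R']
    [IsDiscreteValuationRing R'] [Field F'] [Algebra R' F'] (ι : F →+* F') (C : Subalgebra R F)
    (hCic : ∀ x : F, IsIntegral C x → x ∈ C) (C' : Subalgebra R' F')
    (hιC : ∀ c ∈ C, ι c ∈ C')
    (hint : ∀ x ∈ C', (ι.comp (algebraMap C F)).IsIntegralElem x)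
    {κ : Type*} [Fintype κ] (δ : κ → F' ≃+* F') (i₀ : κ) (hid : ∀ e, δ i₀ e = e)
    (hperm : ∀ i, ∃ π : Equiv.Perm κ, ∀ k e, δ i (δ k e) = δ (π k) e)
    (hfix : ∀ x : F', (∀ i, δ i x = x) → ∃ f : F, ι f = x)
    (hδι : ∀ i f, δ i (ι f) = ι f)
    (hδC : ∀ i, ∀ x ∈ C', δ i x ∈ C')
    {ϖ : R} {ϖ' : R'} (hinj' : Function.Injective (algebraMap R' F')) (hϖ' : Irreducible ϖ')
    {𝒪₁ 𝒪₂ : ValuationSubring F} {𝒪₁' 𝒪₂' : ValuationSubring F'}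
    (hG₁ : GaussRing ϖ 𝒪₁) (hG₂ : GaussRing ϖ 𝒪₂) (hG₁' : GaussRing ϖ' 𝒪₁')
    (hG₂' : GaussRing ϖ' 𝒪₂') (hle₁ : ∀ x ∈ C, x ∈ 𝒪₁) (hle₂ : ∀ x ∈ C, x ∈ 𝒪₂)
    (hle₁' : ∀ x ∈ C', x ∈ 𝒪₁') (hle₂' : ∀ x ∈ C', x ∈ 𝒪₂')
    (hO₁ : ∀ f ∈ 𝒪₁, ι f ∈ 𝒪₁') (hO₂ : ∀ f ∈ 𝒪₂, ι f ∈ 𝒪₂')
    {h : F'} (haut : ∀ i, ChartAut R' 𝒪₁' 𝒪₂' h (δ i))
    (𝔪 : Ideal C) (h𝔪 : 𝔪.IsMaximal) (h₁ : vert ϖ 𝒪₁ C ≤ 𝔪) (h₂ : vert ϖ 𝒪₂ C ≤ 𝔪) :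
    ∃ 𝔪' : Ideal C', 𝔪'.IsMaximal ∧ vert ϖ' 𝒪₁' C' ≤ 𝔪' ∧ vert ϖ' 𝒪₂' C' ≤ 𝔪' ∧
      ∀ (c : C) (hc : ι c ∈ C'), c ∈ 𝔪 → (⟨ι c, hc⟩ : C') ∈ 𝔪' := by
  obtain ⟨𝔪2, hmax, hv₁, hv₂, hover⟩ := AsmUp_exists_node ι C hCic C' hιC hint δ i₀ hid hperm hfix
    hδι hδC (vert ϖ' 𝒪₁' C') (vert ϖ' 𝒪₂' C')
    (fun i x hx => AsmNode_vert_stable hinj' hϖ' hle₁' (haut i).mapR (haut i).mapR_symm
      (haut i).mem₁ (hδC i) x hx)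
    (fun i x hx => AsmNode_vert_stable hinj' hϖ' hle₂' (haut i).mapR (haut i).mapR_symm
      (haut i).mem₂ (hδC i) x hx)
    𝔪 h𝔪
    (fun c hc => h₁ ((mem_vert hle₁ c).2 (AsmNode_vert_down ι hG₁ hG₁' hO₁
      (hle₁ c c.2) ((mem_vert hle₁' _).1 hc))))
    (fun c hc => h₂ ((mem_vert hle₂ c).2 (AsmNode_vert_down ι hG₂ hG₂' hO₂
      (hle₂ c c.2) ((mem_vert hle₂' _).1 hc))))
  exact ⟨𝔪2, hmax, hv₁, hv₂, fun c _ hc => hover c hc⟩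

variable {A : ValuationSubring Qb} {L L2 : IntermediateField ℚ Qb} [Normal ℚ L2] {κ : Type*}
  {s : κ → Qb ≃ₐ[ℚ] Qb} {i₀ : κ}

/-- the family fixes the functions with coefficients in `L`. -/
theorem famFF_upFF (hL : L ≤ L2) (hsL : ∀ i, ∀ x ∈ L, s i x = x) (N : ℕ) (i : κ) (f : FF L N) :
    famFF L2 s N i (upFF hL N f) = upFF hL N f := by
  apply NodeBConc_ext
  intro n
  rw [NodeBConc_coeff]
  exact hsL i _ (SetLike.coe_mem ((f : LaurentSeries L).coeff n))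

theorem AsmNode_algebraMap_injective (A : ValuationSubring Qb) (L : IntermediateField ℚ Qb)
    (N : ℕ) : Function.Injective (algebraMap (A.comap (algebraMap L Qb)) (FF L N)) := by
  intro a b hab
  have h1 : algebraMap L (FF L N) (a : L) = algebraMap L (FF L N) (b : L) := hab
  exact Subtype.ext ((algebraMap L (FF L N)).injective h1)

set_option maxHeartbeats 1000000 in
/-- **NODE ABOVE NODE**. -/
theorem InertFam.exists_node [Fintype κ] (hs : InertFam A L L2 s i₀) (hL : L ≤ L2)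
    (hsL : ∀ i, ∀ x ∈ L, s i x = x)
    [IsDiscreteValuationRing (A.comap (algebraMap L2 Qb))]
    [IsDiscreteValuationRing (A.comap (algebraMap L Qb))] {p N : ℕ} {h2 : FF L2 N}
    {w2 : FF L2 N ≃ₐ[L2] FF L2 N} {𝒪₁' 𝒪₂' : ValuationSubring (FF L2 N)}
    (MD : NodalModelData (A.comap (algebraMap L2 Qb)) p N h2 w2 𝒪₁' 𝒪₂')
    {ϖ2 : A.comap (algebraMap L2 Qb)} (hϖ2 : Irreducible ϖ2)
    (t : FF L N) (ht : upFF hL N t = h2)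
    {ϖ : A.comap (algebraMap L Qb)} {𝒪₁ 𝒪₂ : ValuationSubring (FF L N)}
    (hG₁ : GaussRing ϖ 𝒪₁) (hG₂ : GaussRing ϖ 𝒪₂)
    (hle₁ : ∀ x ∈ chart (A.comap (algebraMap L Qb)) ({t} : Set (FF L N)), x ∈ 𝒪₁)
    (hle₂ : ∀ x ∈ chart (A.comap (algebraMap L Qb)) ({t} : Set (FF L N)), x ∈ 𝒪₂)
    (hO₁ : ∀ f ∈ 𝒪₁, upFF hL N f ∈ 𝒪₁') (hO₂ : ∀ f ∈ 𝒪₂, upFF hL N f ∈ 𝒪₂')
    (𝔪 : Ideal (chart (A.comap (algebraMap L Qb)) ({t} : Set (FF L N)))) (h𝔪 : 𝔪.IsMaximal)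
    (h₁ : vert ϖ 𝒪₁ (chart (A.comap (algebraMap L Qb)) ({t} : Set (FF L N))) ≤ 𝔪)
    (h₂ : vert ϖ 𝒪₂ (chart (A.comap (algebraMap L Qb)) ({t} : Set (FF L N))) ≤ 𝔪) :
    ∃ 𝔪2 : Ideal (chart (A.comap (algebraMap L2 Qb)) ({h2} : Set (FF L2 N))), 𝔪2.IsMaximal ∧
      vert ϖ2 𝒪₁' (chart (A.comap (algebraMap L2 Qb)) ({h2} : Set (FF L2 N))) ≤ 𝔪2 ∧
      vert ϖ2 𝒪₂' (chart (A.comap (algebraMap L2 Qb)) ({h2} : Set (FF L2 N))) ≤ 𝔪2 ∧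
      ∀ (c : chart (A.comap (algebraMap L Qb)) ({t} : Set (FF L N)))
        (hc : upFF hL N c ∈ chart (A.comap (algebraMap L2 Qb)) ({h2} : Set (FF L2 N))),
        c ∈ 𝔪 → (⟨upFF hL N c, hc⟩ :
          chart (A.comap (algebraMap L2 Qb)) ({h2} : Set (FF L2 N))) ∈ 𝔪2 := by
  subst ht
  have hN0 := MD.nodal0 ϖ2 hϖ2
  exact AsmNode_exists_node (upFF hL N) _ (NodeBConc_chart_closed _) _
    (fun c hc => upFF_mem_chart A hL N t hc)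
    (fun _ hy => isIntegralElem_of_mem_chart (upFF hL N) t (hs.const_isIntegralElem hL N) hy)
    (famFF L2 s N) i₀ (hs.hid N) (hs.hperm N) (hs.hfix hL N) (famFF_upFF hL hsL N)
    (hs.map_mem_chart0 MD) (AsmNode_algebraMap_injective A L2 N) hϖ2 hG₁ hG₂ (MD.gauss₁ ϖ2 hϖ2)
    (MD.gauss₂ ϖ2 hϖ2) hle₁ hle₂ hN0.le₁ hN0.le₂ hO₁ hO₂ (hs.chartAut MD) 𝔪 h𝔪 h₁ h₂

end Fermat.Agent.LP.PL
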