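import Fermat.Agent.LP.PL.Loc.Defs
import Fermat.Agent.GT.Val.Conc.Ctx

/-!
# Project LP (S44), module PL-LOC, file Base (A): the nodal charts over a good field

For a good field `L` (`GT.Brg.GoodField A S L`), `R = RL A L`: `p` is a uniformizer of `R`, the two charts
`chL p N0 A L hr0 (± 1)` are nodal charts for `𝒪₁ = gaussO R (p N0)`, `𝒪₂ = Val.Ozero' R p N0`, all the nodes are
regular, and `h₂ ^ ε` is a unit at every node.
-/

set_option autoImplicit false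
set_option synthInstance.maxHeartbeats 400000
set_option linter.unusedSectionVars false

noncomputable section

namespace Fermat.Agent.LP.PL

open Fermat.Agent.GR Fermat.Agent.GR.E Fermat.Agent.GR.D.Vert Fermat.Agent.GS Fermat.Agent.GS.Inst
  Fermat.Agent.GT Fermat.Agent.GT.Brg Fermat.Agent.GT.Loc Fermat.Agent.C36.Unit ModularCurve

variable {p N0 : ℕ} [NeZero p] [NeZero N0] [NeZero (p * N0)] {A : ValuationSubring Qb}
  {S : Finset Qb} {L : IntermediateField ℚ Qb}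

theorem Base_dvr (hp : p.Prime) (hA : A.LiesOverPrime p) (hL : GoodField A S L) :
    IsDiscreteValuationRing (RL A L) :=
  haveI := hL.fin
  isDiscreteValuationRing_comap A p hp hA L

theorem Base_irreducible (hp : p.Prime) (hA : A.LiesOverPrime p) (hL : GoodField A S L)
    [IsDiscreteValuationRing (RL A L)] : Irreducible ((p : ℕ) : RL A L) :=
  haveI := hL.fin
  irreducible_natCast_of_unramAt hA hp.ne_zero (W.Unram_unramAt_of_inertFixed hp A hA L hL.inert)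

theorem Base_gauss₁ (hp : p.Prime) (hA : A.LiesOverPrime p) (hL : GoodField A S L)
    [IsDiscreteValuationRing (RL A L)] (N : ℕ) :
    GaussRing ((p : ℕ) : RL A L) (gaussO (RL A L) N) :=
  gaussRing (RL A L) N (Base_irreducible hp hA hL)

theorem Base_gauss₂ (hp : p.Prime) (hA : A.LiesOverPrime p) (hL : GoodField A S L)
    [IsDiscreteValuationRing (RL A L)] :
    GaussRing ((p : ℕ) : RL A L) (Val.Ozero' (RL A L) p N0) := by
  rw [← N1C_opp_eq]
  exact gaussRing_opp (Base_gauss₁ hp hA hL (p * N0))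

theorem Base_nodalChart (hp : p.Prime) (hpN : ¬ p ∣ N0) (hA : A.LiesOverPrime p)
    (hL : GoodField A S L) [IsDiscreteValuationRing (RL A L)] (hr0 : BaseCase.two.r ∣ N0)
    (ε : ℤ) (hε : ε = 1 ∨ ε = -1) :
    NodalChart ((p : ℕ) : RL A L) (gaussO (RL A L) (p * N0)) (Val.Ozero' (RL A L) p N0)
      (chL p N0 A L hr0 ε) := by
  have := hL.fin
  obtain ⟨σ, hσ, hfr⟩ := Brg.exists_frobLift hp hA hL
  have : CharP (IsLocalRing.ResidueField (Brg.RL A L)) p :=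
    D.Top.charP_residueField A p hp hA L
  obtain ⟨ι⟩ : Nonempty (Qb →+* ℂ) := S24.nonempty_iotaC
  have hϖ := Base_irreducible hp hA hL
  exact nodalChart_of_tower hϖ hp.one_lt
    (towerData (ι.comp (algebraMap L Qb)) hp hpN hϖ (N1C_isWq hp hpN))
    (towerFrob (ι.comp (algebraMap L Qb)) hp hpN hϖ (N1C_isWQ hp hpN) σ.toRingEquiv
      (fun x => (hσ x).symm) hfr)
    (N1C_towerChart BaseCase.two hp hpN hr0 A hA L hϖ ε hε)
    (N1C_phi_tau BaseCase.two σ.toRingEquiv hr0 ε)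

theorem Base_regNode (hp : p.Prime) (hpN : ¬ p ∣ N0) (hA : A.LiesOverPrime p)
    (hL : GoodField A S L) [IsDiscreteValuationRing (RL A L)] (hl0 : BaseCase.two.lvl ∣ N0)
    (hr0 : BaseCase.two.r ∣ N0) (ε : ℤ) (hε : ε = 1 ∨ ε = -1)
    (𝔫 : Ideal (chL p N0 A L hr0 ε)) (h𝔫 : 𝔫.IsMaximal)
    (h₁ : vert ((p : ℕ) : RL A L) (gaussO (RL A L) (p * N0)) (chL p N0 A L hr0 ε) ≤ 𝔫)
    (h₂ : vert ((p : ℕ) : RL A L) (Val.Ozero' (RL A L) p N0) (chL p N0 A L hr0 ε) ≤ 𝔫) :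
    RegNode ((p : ℕ) : RL A L) (gaussO (RL A L) (p * N0)) (Val.Ozero' (RL A L) p N0)
      (chL p N0 A L hr0 ε) 𝔫 :=
  N1C_node_good BaseCase.two hp hpN hl0 hr0 A hA hL (Base_irreducible hp hA hL) rfl ε hε 𝔫 h𝔫 h₁ h₂

theorem Base_tau_mem (A : ValuationSubring Qb) (L : IntermediateField ℚ Qb)
    [IsDiscreteValuationRing (RL A L)]
    (hr0 : BaseCase.two.r ∣ N0) (ε : ℤ) : tauL p N0 L hr0 ε ∈ chL p N0 A L hr0 ε :=
  GR.E.subset_chart _ (Set.mem_singleton _)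

set_option maxHeartbeats 2000000 in
theorem Base_tau_not_mem (hp : p.Prime) (hpN : ¬ p ∣ N0) (hA : A.LiesOverPrime p)
    (hL : GoodField A S L) [IsDiscreteValuationRing (RL A L)] (hl0 : BaseCase.two.lvl ∣ N0)
    (hr0 : BaseCase.two.r ∣ N0) (ε : ℤ) (hε : ε = 1 ∨ ε = -1)
    (𝔫 : Ideal (chL p N0 A L hr0 ε)) [𝔫.IsPrime]
    (h₁ : vert ((p : ℕ) : RL A L) (gaussO (RL A L) (p * N0)) (chL p N0 A L hr0 ε) ≤ 𝔫)
    (h₂ : vert ((p : ℕ) : RL A L) (Val.Ozero' (RL A L) p N0) (chL p N0 A L hr0 ε) ≤ 𝔫) :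
    (⟨tauL p N0 L hr0 ε, Base_tau_mem A L hr0 ε⟩ : chL p N0 A L hr0 ε) ∉ 𝔫 := by
  have := hL.fin
  obtain ⟨σ, hσ, hfr⟩ := Brg.exists_frobLift hp hA hL
  have : CharP (IsLocalRing.ResidueField (Brg.RL A L)) p :=
    D.Top.charP_residueField A p hp hA L
  obtain ⟨ι⟩ : Nonempty (Qb →+* ℂ) := S24.nonempty_iotaC
  have hϖ := Base_irreducible hp hA hL
  have hl : BaseCase.two.lvl ∣ p * N0 := hl0.mul_left p
  have hN : BaseCase.two.lvl * p ∣ p * N0 := by rw [mul_comm]; exact mul_dvd_mul_left p hl0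
  let 𝔫' : Ideal (chart (RL A L) ({algebraMap (FF L N0) (FF L (p * N0))
    (BaseCase.two.tF L hr0 ^ ε)} : Set (FF L (p * N0)))) := 𝔫
  haveI : 𝔫'.IsPrime := ‹𝔫.IsPrime›
  have key := N1_t_not_mem (towerData (ι.comp (algebraMap L Qb)) hp hpN hϖ (N1C_isWq hp hpN))
    (N1C_towerChart BaseCase.two hp hpN hr0 A hA L hϖ ε hε) hp.one_lt
    (N1C_unitData BaseCase.two hp hpN hl0 hr0 hl hN hϖ rfl σ.toRingEquiv ε hε) 𝔫' h₁ h₂
  exact key

theorem Base_nonunit_aux {K : Type*} [Field K] (O : ValuationSubring K) {P X Y : K}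
    (hP : P ∈ O.nonunits) (hX : X ∈ O) (hY : Y ∈ O) (h : P * (X * Y) = 1) : False := by
  rcases (GR.E.BR7_mem_nonunits_iff O P).1 hP with h0 | h0
  · rw [h0, zero_mul] at h
    exact zero_ne_one h
  · apply h0
    rw [inv_eq_of_mul_eq_one_right h]
    exact O.mul_mem _ _ hX hY

/-- (←) of `Base_toQb_mem_iff`. -/
theorem Base_toQb_mem_of_mem [IsDiscreteValuationRing (RL A L)] {N : ℕ}
    {𝒪 : ValuationSubring (FF Qb N)} (h𝒪 : GR.S.R.IsGaussRing A N 𝒪) {f : FF L N}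
    (hf : f ∈ gaussO (RL A L) N) : toQb L N f ∈ 𝒪 := by
  obtain ⟨f1, g, hf1, hg, hi, hpr, hmul⟩ := (gaussO_spec (RL A L) N f).1 hf
  rw [h𝒪.spec]
  refine ⟨coeffMap (algebraMap L Qb) f1, coeffMap (algebraMap L Qb) g,
    GR.E.coeffMap_mem_FF _ N hf1, GR.E.coeffMap_mem_FF _ N hg, fun n => ?_, ⟨fun n => ?_, ?_⟩, ?_⟩
  · rw [coeffMap_coeff]
    exact hi n
  · rw [coeffMap_coeff]
    exact hpr.1 n
  · obtain ⟨n, hn⟩ := hpr.2
    refine ⟨n, fun h => hn ?_⟩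
    rw [coeffMap_coeff] at h
    exact (GR.E.BR7_mem_nonunits_comap _ A _).2 h
  · rw [GR.E.coe_mapFF, ← map_mul, hmul]

/-- the image of a uniformizer is a nonunit of the Gauss ring over `Q̄`. -/
theorem Base_toQb_unif_mem_nonunits [IsDiscreteValuationRing (RL A L)] {N : ℕ}
    {𝒪 : ValuationSubring (FF Qb N)} (h𝒪 : GR.S.R.IsGaussRing A N 𝒪) {ϖ : RL A L}
    (hϖ : Irreducible ϖ) {P : FF L N} (hC : (P : LaurentSeries L) = HahnSeries.C (ϖ : L)) :
    toQb L N P ∈ 𝒪.nonunits := by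
  rw [h𝒪.spec']
  have hnon : (ϖ : L) ∈ (RL A L).nonunits :=
    ValuationSubring.coe_mem_nonunits_iff.2 ((IsLocalRing.mem_maximalIdeal _).2 hϖ.not_isUnit)
  have hnon' : algebraMap L Qb (ϖ : L) ∈ A.nonunits := (GR.E.BR7_mem_nonunits_comap _ A _).1 hnon
  refine ⟨(toQb L N P : LaurentSeries Qb), 1, SetLike.coe_mem _,
    (FF Qb N).one_mem, fun n => ?_, ⟨fun n => ?_, 0, ?_⟩, mul_one _⟩
  · rw [GR.E.coe_mapFF, coeffMap_coeff, hC]
    by_cases hn : n = 0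
    · subst hn
      simpa using hnon'
    · rw [HahnSeries.C_apply, HahnSeries.coeff_single_of_ne hn, map_zero]
      exact (GR.E.BR7_mem_nonunits_iff A 0).2 (Or.inl rfl)
  · rw [HahnSeries.coeff_one]
    split_ifs
    · exact A.one_mem
    · exact A.zero_mem
  · rw [HahnSeries.coeff_one, if_pos rfl]
    intro h
    rw [GR.E.BR7_mem_nonunits_iff] at h
    rcases h with h | h
    · exact one_ne_zero h
    · exact h (by rw [inv_one]; exact A.one_mem)

/-- (→) of `Base_toQb_mem_iff`, with the uniformizer `P` of the Gauss ring as a variable. -/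
theorem Base_mem_of_toQb_mem [IsDiscreteValuationRing (RL A L)] {N : ℕ}
    {𝒪 : ValuationSubring (FF Qb N)} (h𝒪 : GR.S.R.IsGaussRing A N 𝒪) (f : FF L N) (P : FF L N)
    {ϖ : RL A L} (hϖ : Irreducible ϖ) (hC : (P : LaurentSeries L) = HahnSeries.C (ϖ : L))
    (hne : P ≠ 0)
    (hun : ∀ x ∈ gaussO (RL A L) N, x / P ∈ gaussO (RL A L) N ∨ x⁻¹ ∈ gaussO (RL A L) N)
    (h : toQb L N f ∈ 𝒪) : f ∈ gaussO (RL A L) N := by
  by_contra hcon
  have hf0 : f ≠ 0 := by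
    rintro rfl
    exact hcon (gaussO (RL A L) N).zero_mem
  have hinv : f⁻¹ ∈ gaussO (RL A L) N := ((gaussO (RL A L) N).mem_or_inv_mem f).resolve_left hcon
  rcases hun _ hinv with h1 | h1
  · have h2 := Base_toQb_mem_of_mem h𝒪 h1
    have h3 := Base_toQb_unif_mem_nonunits (N := N) h𝒪 hϖ hC
    have h4 : toQb L N P * (toQb L N f * toQb L N (f⁻¹ / P)) = 1 := by
      rw [← map_mul, ← map_mul]
      have h6 : P * (f * (f⁻¹ / P)) = 1 := by
        field_simp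
      rw [h6, map_one]
    exact Base_nonunit_aux 𝒪 h3 h h2 h4
  · rw [inv_inv] at h1
    exact hcon h1

/-- the Gauss ring over `Q̄` restricts to the Gauss ring over `L`. -/
theorem Base_toQb_mem_iff (hp : p.Prime) (hA : A.LiesOverPrime p)
    [IsDiscreteValuationRing (RL A L)] {N : ℕ} {𝒪 : ValuationSubring (FF Qb N)}
    (h𝒪 : GR.S.R.IsGaussRing A N 𝒪) (f : FF L N) :
    toQb L N f ∈ 𝒪 ↔ f ∈ gaussO (RL A L) N := by
  refine ⟨fun h => ?_, fun h => Base_toQb_mem_of_mem h𝒪 h⟩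
  obtain ⟨ϖ, hϖ⟩ := IsDiscreteValuationRing.exists_irreducible (RL A L)
  have G := gaussRing (RL A L) N hϖ
  exact Base_mem_of_toQb_mem h𝒪 f _ hϖ (coe_algebraMap_C (RL A L) N ϖ) G.ne_zero G.unif h

end Fermat.Agent.LP.PL
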