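import Fermat.Agent.LP.PL.Loc.AsmMain
import Fermat.Agent.LP.PL.Loc.Base
import Fermat.Agent.LP.PL.Loc2.Defs
import Fermat.Agent.LP.Dep.DepthQ
import Fermat.Agent.GS.Inst.Main
import Fermat.Agent.GR.D.Top.CaseH2

/-!
# LP-PL-LOC, file `AsmOut`: EXPORT of (B)

`asm_main`: there is a finite normal `K ⊇ L0` such that over `L = baseL A K = K ∩ Q̄ ^ I` every node of the chart
`chL p N0 A L hr0 1` carries an Artin-Schreier generator of `F1 L N z1`.
-/

set_option autoImplicit false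
set_option synthInstance.maxHeartbeats 400000

noncomputable section

namespace Fermat.Agent.LP.PL

open Fermat.Agent.GR Fermat.Agent.GR.E Fermat.Agent.GR.D.Vert Fermat.Agent.GS Fermat.Agent.GT
  Fermat.Agent.GT.Brg Fermat.Agent.C36.Unit ModularCurve IntermediateField
open Fermat.Agent.LP

/-- `baseL A K` is finite over `ℚ`. -/
theorem AsmOut_finiteDimensional (A : ValuationSubring Qb) (K : IntermediateField ℚ Qb)
    [FiniteDimensional ℚ K] : FiniteDimensional ℚ (baseL A K) :=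
  FiniteDimensional.of_injective (IntermediateField.inclusion (baseL_le A K)).toLinearMap
    (IntermediateField.inclusion (baseL_le A K)).injective

/-- `baseL A K` is a good field. -/
theorem AsmOut_goodField (A : ValuationSubring Qb) (K : IntermediateField ℚ Qb) [Normal ℚ K]
    [FiniteDimensional ℚ K] : GoodField A ∅ (baseL A K) where
  fin := AsmOut_finiteDimensional A K
  inert := inertFixed_baseL A K
  dstable := by
    intro τ hτ x hx
    obtain ⟨h1, h2⟩ := IntermediateField.mem_inf.1 hx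
    refine IntermediateField.mem_inf.2 ⟨?_, map_mem_inertField hτ h2⟩
    have hQ : Normal ℚ Qb := base_normal_Qb
    have := (IntermediateField.normal_iff_forall_map_le'.1 (inferInstance : Normal ℚ K)) τ
    exact this ⟨x, h1, rfl⟩
  big := by
    intro x hx
    simp at hx

/-- the Gauss rings are compatible with the extension of constants. -/
theorem AsmOut_isGaussInt {A : ValuationSubring Qb} {L K : IntermediateField ℚ Qb} (hL : L ≤ K)
    {N : ℕ} {f : FF L N} (hf : IsGaussInt (A.comap (algebraMap L Qb)) N f) :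
    IsGaussInt (A.comap (algebraMap K Qb)) N (upFF hL N f) := by
  obtain ⟨f1, g, hf1, hg, hi, hpr, hmul⟩ := hf
  refine ⟨(upFF hL N ⟨f1, hf1⟩ : FF K N), (upFF hL N ⟨g, hg⟩ : FF K N), SetLike.coe_mem _,
    SetLike.coe_mem _, fun n => hi n, ⟨fun n => hpr.1 n, ?_⟩, ?_⟩
  · obtain ⟨n, hn⟩ := hpr.2
    refine ⟨n, fun h => hn ?_⟩
    rw [BR7_mem_nonunits_comap] at h ⊢
    exact h
  · have h1 : f * (⟨g, hg⟩ : FF L N) = ⟨f1, hf1⟩ := Subtype.ext hmul
    have h2 := congrArg (upFF hL N) h1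
    rw [map_mul] at h2
    exact congrArg Subtype.val h2

theorem AsmOut_upFF_tauL {p N0 : ℕ} [NeZero (p * N0)] {L K : IntermediateField ℚ Qb} (hL : L ≤ K)
    (hr0 : BaseCase.two.r ∣ N0)
    (hmem : baseFn K Fermat.Agent.Lib.Hauptmodul.h2 ∈ FF K (p * N0)) :
    upFF hL (p * N0) (tauL p N0 L hr0 1) =
      (⟨baseFn K Fermat.Agent.Lib.Hauptmodul.h2, hmem⟩ : FF K (p * N0)) := by
  apply Subtype.ext
  show coeffMap (IntermediateField.inclusion hL : L →+* K)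
    ((tauL p N0 L hr0 1 : FF L (p * N0)) : LaurentSeries L) = _
  rw [Val.coe_up, zpow_one, BaseCase.coe_tF, BaseCase.coeffMap_t, BaseCase.t_two]
  exact (GR.D.Top.CaseH2_baseFn K).symm

set_option maxHeartbeats 4000000 in
/-- **EXPORT of (B)**. -/
theorem asm_main {p N0 : ℕ} [NeZero p] [NeZero N0] [NeZero (p * N0)] {A : ValuationSubring Qb}
    (hp : p.Prime) (hp2 : p ≠ 2) (hpN : ¬ p ∣ N0) (hA : A.LiesOverPrime p)
    (w : FF Qb (p * N0) ≃ₐ[Qb] FF Qb (p * N0)) (hw : IsWQ Qb p N0 w) (u1 : FF Qb (p * N0))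
    (hK1 : IsKummer (N := p * N0) p (u1 : LaurentSeries Qb))
    (hD1 : DeepAt (p * N0) p A u1) (hD2 : DeepAt (p * N0) p A (w u1 : FF Qb (p * N0)))
    {ζ : Qb} (hζ : IsPrimitiveRoot ζ p) {z1 : LaurentSeries Qb}
    {L0 : IntermediateField ℚ Qb} [FiniteDimensional ℚ L0] (hL0 : GT.InertFixed A L0)
    (hz : IsCoverRoot p (p * N0) ζ L0 u1 z1)
    (hline : ∀ L, L0 ≤ L → LineData p (p * N0) ζ L u1) (hr0 : BaseCase.two.r ∣ N0) :
    ∃ K : IntermediateField ℚ Qb, ∃ (_ : Normal ℚ K) (_ : FiniteDimensional ℚ K), L0 ≤ K ∧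
      L0 ≤ baseL A K ∧
      ∀ (g : F1Q (p * N0) z1 ≃ₐ[Qb] F1Q (p * N0) z1) (_ : IsDeck (p * N0) ζ z1 g)
        (gL : F1 (baseL A K) (p * N0) z1 ≃ₐ[baseL A K] F1 (baseL A K) (p * N0) z1)
        (_ : ∀ x, toQ (baseL A K) (p * N0) z1 (gL x) = g (toQ (baseL A K) (p * N0) z1 x))
        [IsDiscreteValuationRing (RL A (baseL A K))],
        ∀ (𝔪 : Ideal (chL p N0 A (baseL A K) hr0 1)) [𝔪.IsPrime], 𝔪.IsMaximal →
          vert ((p : ℕ) : RL A (baseL A K)) (gaussO (RL A (baseL A K)) (p * N0))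
            (chL p N0 A (baseL A K) hr0 1) ≤ 𝔪 →
          vert ((p : ℕ) : RL A (baseL A K)) (Val.Ozero' (RL A (baseL A K)) p N0)
            (chL p N0 A (baseL A K) hr0 1) ≤ 𝔪 →
          ∃ t, ASGenL A (baseL A K) (p * N0) z1 p gL (locAt (chL p N0 A (baseL A K) hr0 1) 𝔪) t := by
  classical
  haveI : Fact p.Prime := ⟨hp⟩
  have hcop : p.Coprime N0 := (Nat.Prime.coprime_iff_not_dvd hp).2 hpN
  have hM := GS.Inst.hasNodalModel_h2 hp hpN hr0 A hA
  -- the function `y = z1 ^ p`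
  obtain ⟨x, hx, hx0, hxe⟩ := hz.pow
  have hymem : z1 ^ p ∈ FF Qb (p * N0) := by
    rw [hxe]
    exact mul_mem u1.2 (pow_mem hx p)
  set y : FF Qb (p * N0) := ⟨z1 ^ p, hymem⟩ with hy
  have hyK : IsKummer (N := p * N0) p (y : LaurentSeries Qb) :=
    GR.C.isKummer_of_kummerEquiv hK1 hz.pow
  have hyD1 : DeepAt (p * N0) p A y := Dep.DeepAt.congr hz.pow hD1
  have hye : y = u1 * (⟨x, hx⟩ : FF Qb (p * N0)) ^ p := Subtype.ext hxe
  have hyD2 : DeepAt (p * N0) p A (w y : FF Qb (p * N0)) := by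
    refine Dep.DeepAt.congr ?_ hD2
    refine ⟨(w ⟨x, hx⟩ : FF Qb (p * N0)), SetLike.coe_mem _, ?_, ?_⟩
    · intro h0
      have h1 : w (⟨x, hx⟩ : FF Qb (p * N0)) = 0 := Subtype.ext h0
      rw [map_eq_zero_iff w w.injective] at h1
      exact hx0 (congrArg Subtype.val h1)
    · rw [hye, map_mul, map_pow]
      rfl
  obtain ⟨K₀, hK₀fin, hK₀⟩ := AsmLevel_nodeP A p N0 hp hA hcop _ hM w hw y hyK hyD1 hyD2 hζ
  have hQ : Normal ℚ Qb := base_normal_Qb
  have hfin2 : FiniteDimensional ℚ (K₀ ⊔ L0 : IntermediateField ℚ Qb) :=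
    IntermediateField.finiteDimensional_sup K₀ L0
  set K : IntermediateField ℚ Qb := IntermediateField.normalClosure ℚ (K₀ ⊔ L0 :
    IntermediateField ℚ Qb) Qb with hKdef
  have hKn : Normal ℚ K := normalClosure.normal ℚ _ Qb
  have hKf : FiniteDimensional ℚ K := normalClosure.is_finiteDimensional ℚ _ Qb
  have hle : (K₀ ⊔ L0 : IntermediateField ℚ Qb) ≤ K := IntermediateField.le_normalClosure _
  have hK₀K : K₀ ≤ K := le_trans le_sup_left hle
  have hL0K : L0 ≤ K := le_trans le_sup_right hle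
  have hL0L : L0 ≤ baseL A K := le_inf hL0K (inertFixed_iff.1 hL0)
  refine ⟨K, hKn, hKf, hL0K, hL0L, ?_⟩
  intro g hg gL hgL _ 𝔪 _ hmax h₁ h₂
  obtain ⟨hζK, ⟨yK, hyK'⟩, hnode⟩ := hK₀ K hK₀K
  have hζA : (⟨ζ, hζK⟩ : K) ∈ A.comap (algebraMap K Qb) :=
    mem_of_pow_eq_one A hp.pos hζ.pow_eq_one
  haveI hdvr := isDiscreteValuationRing_comap A p hp hA K
  obtain ⟨𝒪₁', 𝒪₂', MD⟩ := hM.model K hdvr (GT.EMB.wQ K p N0) (GT.Loc.N1C_isWQ hp hpN)
  have hGF := AsmOut_goodField A K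
  have hC := Base_nodalChart hp hpN hA hGF hr0 1 (Or.inl rfl)
  obtain ⟨ι⟩ : Nonempty (Qb →+* ℂ) := S24.nonempty_iotaC
  have hO₁ : ∀ f ∈ gaussO (RL A (baseL A K)) (p * N0), upFF (baseL_le A K) (p * N0) f ∈ 𝒪₁' := by
    intro f hf
    rw [MD.spec]
    exact AsmOut_isGaussInt (baseL_le A K) ((gaussO_spec _ _ f).1 hf)
  have hO₂ : ∀ f ∈ Val.Ozero' (RL A (baseL A K)) p N0,
      upFF (baseL_le A K) (p * N0) f ∈ 𝒪₂' := by
    intro f hf
    rw [MD.opp]
    have h1 : GT.EMB.wQ (baseL A K) p N0 f ∈ gaussO (RL A (baseL A K)) (p * N0) := hf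
    have h2 := hO₁ _ h1
    have h3 := GT.EMB.mapFF_wQ (ι.comp (algebraMap K Qb))
      (IntermediateField.inclusion (baseL_le A K) : baseL A K →+* K) p N0 hcop f
    rw [← h3]
    exact h2
  exact Asm_node_asGen hp hp2 hA (baseL_le A K) (inertFam_inertLift A K) (inertLift_apply A K)
    hζK (hline _ hL0L) (hz.mono hL0L) hg hgL MD ⟨⟨ζ, hζK⟩, hζA⟩ rfl yK
    (congrArg Subtype.val hyK') (hnode ⟨⟨ζ, hζK⟩, hζA⟩ yK rfl hyK')
    (tauL p N0 (baseL A K) hr0 1) (AsmOut_upFF_tauL (baseL_le A K) hr0 (hM.mem K))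
    (Base_gauss₁ hp hA hGF (p * N0)) (Base_gauss₂ hp hA hGF) hC.le₁ hC.le₂ hO₁ hO₂ 𝔪 hmax h₁ h₂
    (phiL A (baseL A K) (p * N0) z1) (fun _ => rfl)

end Fermat.Agent.LP.PL
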