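import Fermat.Agent.LP.PL.Loc.NodeBInt

/-!
# LP-PL-LOC, file `AsmUp`: a node above a node (abstract)

`ι : F → F'` an extension of fields, `δ` a finite family of automorphisms of `F'` (a group) with fixed
field `ι F`; `C ⊆ F` integrally closed, `C' ⊆ F'` integral over `ι C` and stable under `δ`;
`V₁, V₂` two `δ`-stable ideals of `C'`; `𝔪` a maximal ideal of `C` containing `V₁ ∩ C` and `V₂ ∩ C`.
Then there is a maximal ideal `𝔪'` of `C'` above `𝔪` which contains `V₁` and `V₂`.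
-/

set_option autoImplicit false

namespace Fermat.Agent.LP.PL

open Fermat.Agent.GS

variable {R F R' F' : Type*} [CommRing R] [Field F] [Algebra R F] [CommRing R'] [Field F']
  [Algebra R' F']

/-- an element of `C'` fixed by the family comes from `C`. -/
theorem AsmUp_descend (ι : F →+* F') (C : Subalgebra R F)
    (hCic : ∀ x : F, IsIntegral C x → x ∈ C) (C' : Subalgebra R' F')
    (hint : ∀ x ∈ C', (ι.comp (algebraMap C F)).IsIntegralElem x)
    {κ : Type*} (δ : κ → F' ≃+* F')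
    (hfix : ∀ x : F', (∀ i, δ i x = x) → ∃ f : F, ι f = x) {x : F'} (hx : x ∈ C')
    (hxf : ∀ i, δ i x = x) : ∃ c : C, ι c = x := by
  obtain ⟨f, hf⟩ := hfix x hxf
  have hfC : f ∈ C := by
    apply hCic
    obtain ⟨P, hP, hPx⟩ := hint _ hx
    refine ⟨P, hP, ?_⟩
    apply ι.injective
    rw [map_zero, ← hPx, ← hf, Polynomial.hom_eval₂]
  exact ⟨⟨f, hfC⟩, hf⟩

theorem AsmUp_exists_node (ι : F →+* F') (C : Subalgebra R F)
    (hCic : ∀ x : F, IsIntegral C x → x ∈ C) (C' : Subalgebra R' F')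
    (hιC : ∀ c ∈ C, ι c ∈ C')
    (hint : ∀ x ∈ C', (ι.comp (algebraMap C F)).IsIntegralElem x)
    {κ : Type*} [Fintype κ] (δ : κ → F' ≃+* F') (i₀ : κ) (hid : ∀ e, δ i₀ e = e)
    (hperm : ∀ i, ∃ π : Equiv.Perm κ, ∀ k e, δ i (δ k e) = δ (π k) e)
    (hfix : ∀ x : F', (∀ i, δ i x = x) → ∃ f : F, ι f = x)
    (hδι : ∀ i f, δ i (ι f) = ι f)
    (hδC : ∀ i, ∀ x ∈ C', δ i x ∈ C')
    (V₁ V₂ : Ideal C')
    (hV₁ : ∀ i (x : C'), x ∈ V₁ → (⟨δ i x, hδC i x x.2⟩ : C') ∈ V₁)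
    (hV₂ : ∀ i (x : C'), x ∈ V₂ → (⟨δ i x, hδC i x x.2⟩ : C') ∈ V₂)
    (𝔪 : Ideal C) (h𝔪 : 𝔪.IsMaximal)
    (h₁ : ∀ c : C, (⟨ι c, hιC c c.2⟩ : C') ∈ V₁ → c ∈ 𝔪)
    (h₂ : ∀ c : C, (⟨ι c, hιC c c.2⟩ : C') ∈ V₂ → c ∈ 𝔪) :
    ∃ 𝔪' : Ideal C', 𝔪'.IsMaximal ∧ V₁ ≤ 𝔪' ∧ V₂ ≤ 𝔪' ∧
      ∀ c : C, c ∈ 𝔪 → (⟨ι c, hιC c c.2⟩ : C') ∈ 𝔪' := by
  classical
  let f : C →+* C' :=
    { toFun := fun c => ⟨ι c, hιC c c.2⟩
      map_one' := Subtype.ext (by simp)
      map_mul' := fun a b => Subtype.ext (by simp)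
      map_zero' := Subtype.ext (by simp)
      map_add' := fun a b => Subtype.ext (by simp) }
  have hfv : ∀ c : C, ((f c : C') : F') = ι c := fun _ => rfl
  have hfinj : Function.Injective f := by
    intro a b hab
    apply Subtype.ext
    apply ι.injective
    exact congrArg Subtype.val hab
  letI : Algebra C C' := f.toAlgebra
  have hInt : Algebra.IsIntegral C C' := by
    refine ⟨fun x => ?_⟩
    obtain ⟨P, hP, hPx⟩ := hint _ x.2
    refine ⟨P, hP, ?_⟩
    apply Subtype.ext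
    have e : ((Polynomial.eval₂ (algebraMap C C') x P : C') : F') =
        Polynomial.eval₂ (ι.comp (algebraMap C F)) (x : F') P := by
      have := Polynomial.hom_eval₂ P (algebraMap C C') (C'.val : C' →+* F') x
      rw [show ((Polynomial.eval₂ (algebraMap C C') x P : C') : F') =
        (C'.val : C' →+* F') (Polynomial.eval₂ (algebraMap C C') x P) from rfl, this]
      rfl
    rw [e, hPx]
    rfl
  have hprime : 𝔪.IsPrime := h𝔪.isPrime
  let δC : κ → C' → C' := fun i x => ⟨δ i x, hδC i x x.2⟩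
  have hcomap : (V₁ ⊔ V₂).comap (algebraMap C C') ≤ 𝔪 := by
    intro c hc
    rw [Ideal.mem_comap] at hc
    obtain ⟨y₁, hy₁, y₂, hy₂, hy⟩ := Submodule.mem_sup.1 hc
    have hy' : y₁ + y₂ = f c := hy
    set P : C' := ∏ i, (f c - δC i y₁) with hP
    have hfac : ∀ i, f c - δC i y₁ = δC i y₂ := by
      intro i
      apply Subtype.ext
      show ι c - δ i y₁ = δ i y₂
      have : (y₂ : F') = ι c - y₁ := by
        have := congrArg Subtype.val hy'
        simp only [Subalgebra.coe_add, hfv] at this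
        rw [← this]; ring
      rw [this, map_sub, hδι]
    have hPv : (P : F') = ∏ i, δ i (y₂ : F') := by
      rw [hP]
      simp only [hfac]
      simp [δC]
    have hPfix : ∀ j, δ j (P : F') = P := by
      intro j
      obtain ⟨π, hπ⟩ := hperm j
      rw [hPv, map_prod]
      simp only [hπ]
      exact Equiv.prod_comp π (fun k => δ k (y₂ : F'))
    have hPV₂ : P ∈ V₂ := by
      rw [hP, ← Finset.mul_prod_erase Finset.univ _ (Finset.mem_univ i₀), hfac]
      exact V₂.mul_mem_right _ (hV₂ i₀ y₂ hy₂)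
    have hQV₁ : f c ^ Fintype.card κ - P ∈ V₁ := by
      rw [← Ideal.Quotient.eq, hP, map_pow, map_prod]
      have : ∀ i, Ideal.Quotient.mk V₁ (f c - δC i y₁) = Ideal.Quotient.mk V₁ (f c) := by
        intro i
        rw [map_sub, Ideal.Quotient.eq_zero_iff_mem.2 (hV₁ i y₁ hy₁), sub_zero]
      simp only [this]
      rw [Finset.prod_const, Finset.card_univ]
    obtain ⟨b, hb⟩ := AsmUp_descend ι C hCic C' hint δ hfix P.2 hPfix
    have hQfix : ∀ j, δ j ((f c ^ Fintype.card κ - P : C') : F') =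
        ((f c ^ Fintype.card κ - P : C') : F') := by
      intro j
      simp only [Subalgebra.coe_sub, Subalgebra.coe_pow, map_sub, map_pow, hfv, hδι, hPfix]
    obtain ⟨a, ha⟩ := AsmUp_descend ι C hCic C' hint δ hfix (f c ^ Fintype.card κ - P).2 hQfix
    have hb𝔪 : b ∈ 𝔪 := h₂ b (by
      have e : (⟨ι b, hιC b b.2⟩ : C') = P := Subtype.ext hb
      rw [e]; exact hPV₂)
    have ha𝔪 : a ∈ 𝔪 := h₁ a (by
      have e : (⟨ι a, hιC a a.2⟩ : C') = f c ^ Fintype.card κ - P := Subtype.ext ha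
      rw [e]; exact hQV₁)
    have hsum : c ^ Fintype.card κ = a + b := by
      apply hfinj
      apply Subtype.ext
      rw [map_pow, map_add]
      show ((f c ^ Fintype.card κ : C') : F') = ι a + ι b
      rw [ha, hb]
      simp
    exact hprime.mem_of_pow_mem _ (hsum ▸ 𝔪.add_mem ha𝔪 hb𝔪)
  obtain ⟨Q, hQ, hQp, hQc⟩ := Ideal.exists_ideal_over_prime_of_isIntegral 𝔪 (V₁ ⊔ V₂) hcomap
  have hQmax : Q.IsMaximal := by
    apply Ideal.isMaximal_of_isIntegral_of_isMaximal_comap (R := C) Q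
    rw [hQc]
    exact h𝔪
  refine ⟨Q, hQmax, le_trans le_sup_left hQ, le_trans le_sup_right hQ, fun c hc => ?_⟩
  have : c ∈ Q.comap (algebraMap C C') := by rw [hQc]; exact hc
  exact this

end Fermat.Agent.LP.PL
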