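import Fermat.Agent.LP.PL.Loc.Base
import Fermat.Agent.LP.EIS.VDefs
import Fermat.Agent.EL.ValQ

/-!
# Project LP (S44), module PL-LOC, file Cst: constants, charts and the cusps

`V ≤ 𝒪` a valuation subring of `FF Q̄ N` below the Gauss ring of `A`.

* `Cst_mem` : `V` contains the constants of `A`.
* `Cst_pdiv` : every nonzero constant is a `p`-th power.
* `Cst_chart_le` : if `h₂ ^ ε ∈ V` then `V` contains the chart `chL .. ε`.
* `Cst_comap_le` : `V ∩ FF L N` is below the Gauss ring of `A ∩ L`.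
* `Cst_jj_mem_iff` : `j ∈ V ↔ h₂ ∈ Vˣ`.
-/

set_option autoImplicit false
set_option synthInstance.maxHeartbeats 400000
set_option linter.unusedSectionVars false

noncomputable section

namespace Fermat.Agent.LP.PL

open Fermat.Agent.GR Fermat.Agent.GR.E Fermat.Agent.GR.D.Vert Fermat.Agent.GS
  Fermat.Agent.GT Fermat.Agent.GT.Brg Fermat.Agent.C36.Unit ModularCurve

variable {p : ℕ} {A : ValuationSubring Qb}

theorem Cst_coeff (c : Qb) (N : ℕ) (n : ℤ) :
    ((algebraMap Qb (FF Qb N) c : FF Qb N) : LaurentSeries Qb).coeff n = if n = 0 then c else 0 := by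
  show (algebraMap Qb (LaurentSeries Qb) c).coeff n = _
  rw [algebraMap_laurentSeries_eq_single, HahnSeries.coeff_single]
  split_ifs <;> rfl

/-- the constants of `𝔪_A` are nonunits of the Gauss ring. -/
theorem Cst_mem_nonunits {N : ℕ} {𝒪 : ValuationSubring (FF Qb N)}
    (h𝒪 : GR.S.R.IsGaussRing A N 𝒪) {c : Qb} (hc : c ∈ A.nonunits) :
    algebraMap Qb (FF Qb N) c ∈ 𝒪.nonunits := by
  rw [h𝒪.spec']
  refine ⟨(algebraMap Qb (FF Qb N) c : FF Qb N), 1, (algebraMap Qb (FF Qb N) c).2,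
    (FF Qb N).one_mem, fun n => ?_, ⟨fun n => ?_, 0, ?_⟩, mul_one _⟩
  · rw [Cst_coeff]
    split_ifs
    · exact hc
    · rw [ValuationSubring.mem_nonunits_iff, map_zero]
      exact zero_lt_one
  · rw [HahnSeries.coeff_one]
    split_ifs
    · exact A.one_mem
    · exact A.zero_mem
  · rw [HahnSeries.coeff_one, if_pos rfl, ValuationSubring.mem_nonunits_iff, map_one]
    exact lt_irrefl _

/-- a unit of `A` is a root of unity modulo `𝔪_A` (the residue field is algebraic over `𝔽_p`). -/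
theorem Cst_exists_pow_sub_one (hp : p.Prime) (hA : A.LiesOverPrime p) {x : Qb} (hx : x ∈ A)
    (hx' : x ∉ A.nonunits) : ∃ m : ℕ, 0 < m ∧ x ^ m - 1 ∈ A.nonunits := by
  classical
  have : Fact p.Prime := ⟨hp⟩
  have := EL.charP_residueField hp hA
  let _ : Algebra (ZMod p) (IsLocalRing.ResidueField A) := ZMod.algebra _ p
  have halg := EL.isAlgebraic_residueField (ℓ := p) hA
  obtain ⟨xb, hxbdef⟩ : ∃ xb, xb = IsLocalRing.residue A ⟨x, hx⟩ := ⟨_, rfl⟩
  have hxb : xb ≠ 0 := by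
    intro h
    rw [hxbdef, IsLocalRing.residue_eq_zero_iff] at h
    exact hx' ((ValuationSubring.mem_nonunits_iff_exists_mem_maximalIdeal).2 ⟨hx, h⟩)
  have : FiniteDimensional (ZMod p) (IntermediateField.adjoin (ZMod p) {xb}) :=
    IntermediateField.adjoin.finiteDimensional (halg.isAlgebraic xb).isIntegral
  have : Finite (IntermediateField.adjoin (ZMod p) {xb}) := Module.finite_of_finite (ZMod p)
  have := Fintype.ofFinite (IntermediateField.adjoin (ZMod p) {xb})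
  have hxF : (⟨xb, IntermediateField.mem_adjoin_simple_self _ xb⟩ :
      IntermediateField.adjoin (ZMod p) {xb}) ≠ 0 := fun h => hxb (congrArg Subtype.val h)
  have h1 := FiniteField.pow_card_sub_one_eq_one _ hxF
  have h2 : xb ^ (Fintype.card (IntermediateField.adjoin (ZMod p) {xb}) - 1) = 1 :=
    congrArg Subtype.val h1
  refine ⟨Fintype.card (IntermediateField.adjoin (ZMod p) {xb}) - 1,
    Nat.sub_pos_of_lt Fintype.one_lt_card, ?_⟩
  rw [ValuationSubring.mem_nonunits_iff_exists_mem_maximalIdeal]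
  refine ⟨sub_mem (pow_mem hx _) A.one_mem, ?_⟩
  rw [← IsLocalRing.residue_eq_zero_iff]
  have h3 : (⟨x ^ (Fintype.card (IntermediateField.adjoin (ZMod p) {xb}) - 1) - 1,
      sub_mem (pow_mem hx _) A.one_mem⟩ : A) =
      (⟨x, hx⟩ : A) ^ (Fintype.card (IntermediateField.adjoin (ZMod p) {xb}) - 1) - 1 := rfl
  rw [h3, map_sub, map_pow, map_one, ← hxbdef, h2, sub_self]

/-- `V` contains the constants of `A`. -/
theorem Cst_mem (hp : p.Prime) (hA : A.LiesOverPrime p) {N : ℕ} {𝒪 : ValuationSubring (FF Qb N)}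
    (h𝒪 : GR.S.R.IsGaussRing A N 𝒪) {V : ValuationSubring (FF Qb N)} (hV : V ≤ 𝒪) {c : Qb}
    (hc : c ∈ A) : algebraMap Qb (FF Qb N) c ∈ V := by
  by_cases hc' : c ∈ A.nonunits
  · exact ValuationSubring.nonunits_subset
      (ValuationSubring.nonunits_le_nonunits.2 hV (Cst_mem_nonunits h𝒪 hc'))
  · obtain ⟨m, hm, h⟩ := Cst_exists_pow_sub_one hp hA hc hc'
    have h2 : algebraMap Qb (FF Qb N) (c ^ m - 1) ∈ V :=
      ValuationSubring.nonunits_subset
        (ValuationSubring.nonunits_le_nonunits.2 hV (Cst_mem_nonunits h𝒪 h))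
    have h3 : (algebraMap Qb (FF Qb N) c) ^ m ∈ V := by
      have e : (algebraMap Qb (FF Qb N) c) ^ m = algebraMap Qb (FF Qb N) (c ^ m - 1) + 1 := by
        rw [map_sub, map_pow, map_one]
        ring
      rw [e]
      exact V.add_mem _ _ h2 V.one_mem
    rw [← V.valuation_le_one_iff] at h3 ⊢
    rw [map_pow] at h3
    exact (pow_le_one_iff hm.ne').1 h3

/-- every nonzero constant is a `p`-th power. -/
theorem Cst_pdiv (hp : p ≠ 0) {N : ℕ} (V : ValuationSubring (FF Qb N)) {c : Qb} (hc : c ≠ 0) :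
    PDivAt V p (algebraMap Qb (FF Qb N) c) := by
  obtain ⟨b, hb⟩ := IsAlgClosed.exists_pow_nat_eq c (Nat.pos_of_ne_zero hp)
  have hb0 : b ≠ 0 := by
    rintro rfl
    rw [zero_pow hp] at hb
    exact hc hb.symm
  have e : algebraMap Qb (FF Qb N) b⁻¹ ^ p * algebraMap Qb (FF Qb N) c = 1 := by
    rw [← map_pow, ← map_mul, ← hb, inv_pow, inv_mul_cancel₀ (pow_ne_zero p hb0), map_one]
  refine ⟨algebraMap Qb (FF Qb N) b⁻¹, (map_ne_zero _).2 (inv_ne_zero hb0), ?_, ?_⟩
  · rw [e]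
    exact V.one_mem
  · rw [e, inv_one]
    exact V.one_mem

/-- transport of `PDivAt` along the extension of constants. -/
theorem Cst_pdiv_map {L : IntermediateField ℚ Qb} {N : ℕ} (V : ValuationSubring (FF Qb N))
    {y : FF L N} (h : PDivAt (V.comap (toQb L N)) p y) : PDivAt V p (toQb L N y) := by
  obtain ⟨a, ha, h1, h2⟩ := h
  refine ⟨toQb L N a, (map_ne_zero _).2 ha, ?_, ?_⟩
  · rw [← map_pow, ← map_mul]; exact h1
  · rw [← map_pow, ← map_mul, ← map_inv₀]; exact h2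

/-- `V ∩ FF L N` is below the Gauss ring of `A ∩ L`. -/
theorem Cst_comap_le (hp : p.Prime) (hA : A.LiesOverPrime p) {L : IntermediateField ℚ Qb}
    [IsDiscreteValuationRing (RL A L)] {N : ℕ} {𝒪 : ValuationSubring (FF Qb N)}
    (h𝒪 : GR.S.R.IsGaussRing A N 𝒪) {V : ValuationSubring (FF Qb N)} (hV : V ≤ 𝒪) :
    V.comap (toQb L N) ≤ gaussO (RL A L) N :=
  haveI : NeZero p := ⟨hp.ne_zero⟩
  fun f hf => (Base_toQb_mem_iff hp hA h𝒪 f).1 (hV hf)

variable {N0 : ℕ} [NeZero p] [NeZero N0] [NeZero (p * N0)]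

theorem Cst_toQb_algebraMap (A : ValuationSubring Qb) (N : ℕ) (L : IntermediateField ℚ Qb)
    (r : RL A L) :
    toQb L N (algebraMap (RL A L) (FF L N) r) = algebraMap Qb (FF Qb N) (algebraMap L Qb (r : L)) := by
  apply Subtype.ext
  change coeffMap (algebraMap L Qb) (algebraMap L (LaurentSeries L) (r : L)) =
    algebraMap Qb (LaurentSeries Qb) (algebraMap L Qb (r : L))
  rw [algebraMap_laurentSeries_eq_single, algebraMap_laurentSeries_eq_single, coeffMap_single]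

/-- copy of `GS.Cert_mem_of_mem_chart` without the assumption that `R` is a DVR. -/
theorem Cst_mem_of_mem_chart {R F : Type*} [CommRing R] [Field F] [Algebra R F]
    (V : ValuationSubring F) (hR : ∀ r : R, algebraMap R F r ∈ V) {x : F}
    (hx : x ∈ V) {y : F} (hy : y ∈ chart R ({x} : Set F)) : y ∈ V := by
  let S' : Subalgebra R F := { V.toSubring.toSubsemiring with algebraMap_mem' := hR }
  have hle : Algebra.adjoin R ({x} : Set F) ≤ S' := by
    apply Algebra.adjoin_le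
    intro z hz
    rw [Set.mem_singleton_iff] at hz
    rw [hz]
    exact hx
  let f : ↥(Algebra.adjoin R ({x} : Set F)) →+* ↥V :=
    RingHom.codRestrict (algebraMap (↥(Algebra.adjoin R ({x} : Set F))) F) V (fun a => hle a.2)
  obtain ⟨q, hpm, hpe⟩ := mem_chart.1 hy
  have hint : IsIntegral ↥V y := by
    refine ⟨q.map f, hpm.map f, ?_⟩
    rw [Polynomial.eval₂_map]
    exact hpe
  obtain ⟨v, hv⟩ := (IsIntegrallyClosed.isIntegral_iff (R := ↥V) (K := F)).mp hint
  rw [← hv]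
  exact v.2

/-- if `h₂ ^ ε ∈ V` then `V` contains the chart. -/
theorem Cst_chart_le (hp : p.Prime) (hA : A.LiesOverPrime p) {L : IntermediateField ℚ Qb}
    {𝒪 : ValuationSubring (FF Qb (p * N0))}
    (h𝒪 : GR.S.R.IsGaussRing A (p * N0) 𝒪) {V : ValuationSubring (FF Qb (p * N0))} (hV : V ≤ 𝒪)
    (hr0 : BaseCase.two.r ∣ N0) (ε : ℤ) (hτ : toQb L (p * N0) (tauL p N0 L hr0 ε) ∈ V) :
    ∀ x ∈ chL p N0 A L hr0 ε, x ∈ V.comap (toQb L (p * N0)) := by
  intro x hx
  refine Cst_mem_of_mem_chart (V.comap (toQb L (p * N0))) (fun r => ?_) (x := tauL p N0 L hr0 ε)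
    hτ hx
  rw [ValuationSubring.mem_comap, Cst_toQb_algebraMap]
  exact Cst_mem hp hA h𝒪 hV r.2

theorem Cst_tau_ne_zero (L : IntermediateField ℚ Qb) (hr0 : BaseCase.two.r ∣ N0) (ε : ℤ) :
    tauL p N0 L hr0 ε ≠ 0 := by
  have h0 : BaseCase.two.tF L hr0 ≠ 0 := by
    intro h
    apply BaseCase.two.tF_transcendental L hr0
    rw [h]
    exact isAlgebraic_zero
  show IntermediateField.inclusion (EMB.FF_mono L (Val.dvd_q0 p N0)) (BaseCase.two.tF L hr0 ^ ε) ≠ 0
  exact (map_ne_zero _).2 (zpow_ne_zero _ h0)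

theorem Cst_tau_neg (L : IntermediateField ℚ Qb) (hr0 : BaseCase.two.r ∣ N0) :
    tauL p N0 L hr0 (-1) = (tauL p N0 L hr0 1)⁻¹ := by
  show IntermediateField.inclusion (EMB.FF_mono L (Val.dvd_q0 p N0)) (BaseCase.two.tF L hr0 ^ (-1 : ℤ))
    = (IntermediateField.inclusion (EMB.FF_mono L (Val.dvd_q0 p N0)) (BaseCase.two.tF L hr0 ^ (1 : ℤ)))⁻¹
  rw [zpow_neg_one, zpow_one, map_inv₀]

/-- abstract form of `Cst_jj_mem_iff`: `j t² = (t + c)³`, `c ∈ Vˣ`. -/
theorem Cst_abs_mem_iff {K : Type*} [Field K] (V : ValuationSubring K) {j t c : K} (ht : t ≠ 0)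
    (hc : c ∈ V) (hc' : c⁻¹ ∈ V) (hc0 : c ≠ 0) (h : j * t ^ 2 = (t + c) ^ 3) :
    j ∈ V ↔ t ∈ V ∧ t⁻¹ ∈ V := by
  constructor
  · intro hj
    constructor
    · rcases V.mem_or_inv_mem t with h1 | h1
      · exact h1
      · have h2 : t = j - 3 * c - 3 * c ^ 2 * t⁻¹ - c ^ 3 * t⁻¹ ^ 2 := by
          have h3 : j = (t + c) ^ 3 * t⁻¹ ^ 2 := by
            rw [← h]
            field_simp
          rw [h3]
          field_simp
          ring
        rw [h2]
        have h3V : (3 : K) ∈ V := by exact_mod_cast natCast_mem V 3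
        exact sub_mem (sub_mem (sub_mem hj (mul_mem h3V hc))
          (mul_mem (mul_mem h3V (pow_mem hc 2)) h1))
          (mul_mem (pow_mem hc 3) (pow_mem h1 2))
    · rcases V.mem_or_inv_mem t with h1 | h1
      · have h2 : t⁻¹ = (j * t - t ^ 2 - 3 * t * c - 3 * c ^ 2) * c⁻¹ ^ 3 := by
          have h3 : c ^ 3 = t * (j * t - t ^ 2 - 3 * t * c - 3 * c ^ 2) := by
            linear_combination (-1 : K) * h
          have h4 : j * t - t ^ 2 - 3 * t * c - 3 * c ^ 2 = c ^ 3 * t⁻¹ := by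
            rw [h3]
            field_simp
          rw [h4]
          field_simp
        rw [h2]
        have h3V : (3 : K) ∈ V := by exact_mod_cast natCast_mem V 3
        exact mul_mem (sub_mem (sub_mem (sub_mem (mul_mem hj h1) (pow_mem h1 2))
          (mul_mem (mul_mem h3V h1) hc)) (mul_mem h3V (pow_mem hc 2))) (pow_mem hc' 3)
      · exact h1
  · rintro ⟨h1, h2⟩
    have h3 : j = (t + c) ^ 3 * t⁻¹ ^ 2 := by
      rw [← h]
      field_simp
    rw [h3]
    exact mul_mem (pow_mem (add_mem h1 hc) 3) (pow_mem h2 2)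

/-- the series of `h₂` over `Q̄`. -/
theorem Cst_coe_tau_one (L : IntermediateField ℚ Qb) (hr0 : BaseCase.two.r ∣ N0) :
    ((toQb L (p * N0) (tauL p N0 L hr0 1) : FF Qb (p * N0)) : LaurentSeries Qb) =
      BaseCase.two.t Qb := by
  rw [coe_mapFF, Val.coe_up, zpow_one, BaseCase.coe_tF, BaseCase.coeffMap_t]

/-- `j ∈ V ↔ h₂ ∈ Vˣ` (`j h₂² = (h₂ + 256)³`, `2 ∈ Vˣ`). -/
theorem Cst_jj_mem_iff (hp : p.Prime) (hp2 : p ≠ 2) (hA : A.LiesOverPrime p)
    {L : IntermediateField ℚ Qb} {𝒪 : ValuationSubring (FF Qb (p * N0))}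
    (h𝒪 : GR.S.R.IsGaussRing A (p * N0) 𝒪) {V : ValuationSubring (FF Qb (p * N0))} (hV : V ≤ 𝒪)
    (hr0 : BaseCase.two.r ∣ N0) {jj : FF Qb (p * N0)}
    (hjj : (jj : LaurentSeries Qb) = jqModC Qb) :
    jj ∈ V ↔ toQb L (p * N0) (tauL p N0 L hr0 1) ∈ V ∧
      (toQb L (p * N0) (tauL p N0 L hr0 1))⁻¹ ∈ V := by
  have h256 : ((256 : ℤ) : Qb) ∉ A.nonunits := by
    refine Lib.Frobenius.intCast_not_mem_nonunits A hp hA ?_
    intro hd
    have h1 : (p : ℤ) ∣ 2 ^ 8 := by norm_num; exact hd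
    have h2 : (p : ℤ) ∣ 2 := (Nat.prime_iff_prime_int.mp hp).dvd_of_dvd_pow h1
    have h3 : p ∣ 2 := by exact_mod_cast h2
    exact hp2 ((Nat.prime_dvd_prime_iff_eq hp Nat.prime_two).1 h3)
  have hA1 : ((256 : ℤ) : Qb) ∈ A := intCast_mem A 256
  have hA2 : (((256 : ℤ) : Qb))⁻¹ ∈ A := by
    rw [ValuationSubring.mem_nonunits_iff, not_lt] at h256
    rw [← ValuationSubring.valuation_le_one_iff, map_inv₀]
    exact inv_le_one_of_one_le₀ h256
  have hne : ((256 : ℤ) : Qb) ≠ 0 := by norm_num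
  refine Cst_abs_mem_iff V (c := algebraMap Qb (FF Qb (p * N0)) ((256 : ℤ) : Qb))
    ((map_ne_zero _).2 (Cst_tau_ne_zero L hr0 1)) (Cst_mem hp hA h𝒪 hV hA1) ?_
    ((map_ne_zero _).2 hne) ?_
  · rw [← map_inv₀]
    exact Cst_mem hp hA h𝒪 hV hA2
  · apply Subtype.ext
    have h1 := BaseCase.two.j_mul_t Qb
    have h2 : (algebraMap Qb (FF Qb (p * N0)) ((256 : ℤ) : Qb)) = (256 : FF Qb (p * N0)) := by
      rw [map_intCast]
      norm_num
    rw [h2]
    push_cast
    rw [hjj, Cst_coe_tau_one]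
    exact h1

end Fermat.Agent.LP.PL
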