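import Fermat.Agent.GS.Abs.Unit

/-!
# Project LP (S44), module PL-LOC, file Ctr (abstract): the center of a valuation subring on a nodal chart

`R` a DVR with uniformizer `ϖ`, `F` a field over `R`, `𝒪₁ 𝒪₂` the two vertical valuation subrings, `C` a nodal
chart, `W ≤ 𝒪₁` a valuation subring of `F` containing `C`.

* `ctr C W hC` : the center `{x ∈ C : x ∈ 𝔪_W}`; it is prime, contains `𝔭₁`, and `locAt C (ctr ..) ⊆ W`.
* `ctr_cases` : either the center is a node (maximal, contains `𝔭₁ + 𝔭₂`), or some `e ∈ 𝔭₂` is a unit of `W`.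
* `good_abs` : (E1) at a point which is not a node, a Gauss unit whose horizontal divisor is divisible by `n` is
  a unit of `W` times an `n`-th power.
* `dd_good_abs`, `dd_node_abs` : (F) a function `d` with `d φ = ϖ ^ m`, `v₁(d) = 0`, `v₂(d) = m` is a unit of `W`
  outside the nodes, and `d = unit * X₂ ^ m` at a regular node `X₁ X₂ = ϖ G`.
-/

set_option autoImplicit false

namespace Fermat.Agent.LP.PL

open Fermat.Agent.GR.E Fermat.Agent.GS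

variable {R : Type*} [CommRing R] {F : Type*} [Field F] [Algebra R F]

/-- the center of `W` on `C`. -/
def ctr (C : Subalgebra R F) (W : ValuationSubring F) (hC : ∀ x ∈ C, x ∈ W) : Ideal C where
  carrier := {x | (x : F) ∈ W.nonunits}
  add_mem' := by
    intro a b ha hb
    simp only [Set.mem_ofPred_eq, ValuationSubring.mem_nonunits_iff] at ha hb ⊢
    push_cast
    exact lt_of_le_of_lt (W.valuation.map_add _ _) (max_lt ha hb)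
  zero_mem' := by
    simp [ValuationSubring.mem_nonunits_iff]
  smul_mem' := by
    intro c x hx
    simp only [Set.mem_ofPred_eq, ValuationSubring.mem_nonunits_iff, smul_eq_mul] at hx ⊢
    push_cast
    rw [map_mul]
    have hc : W.valuation (c : F) ≤ 1 := (W.valuation_le_one_iff _).2 (hC _ c.2)
    exact mul_lt_one_of_nonneg_of_lt_one_right hc zero_le hx

theorem mem_ctr {C : Subalgebra R F} {W : ValuationSubring F} (hC : ∀ x ∈ C, x ∈ W) (x : C) :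
    x ∈ ctr C W hC ↔ (x : F) ∈ W.nonunits := Iff.rfl

theorem ctr_isPrime {C : Subalgebra R F} {W : ValuationSubring F} (hC : ∀ x ∈ C, x ∈ W) :
    (ctr C W hC).IsPrime := by
  refine ⟨?_, ?_⟩
  · rw [Ideal.ne_top_iff_one, mem_ctr, ValuationSubring.mem_nonunits_iff]
    simp
  · intro x y hxy
    rw [mem_ctr, ValuationSubring.mem_nonunits_iff] at hxy ⊢
    rw [mem_ctr, ValuationSubring.mem_nonunits_iff]
    by_contra hcon
    push Not at hcon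
    obtain ⟨hx, hy⟩ := hcon
    push_cast at hxy
    rw [map_mul] at hxy
    exact absurd hxy (not_lt.2 (one_le_mul_of_one_le_of_one_le hx hy))

theorem inv_mem_of_not_mem_ctr {C : Subalgebra R F} {W : ValuationSubring F}
    (hC : ∀ x ∈ C, x ∈ W) {x : C} (hx : x ∉ ctr C W hC) : (x : F)⁻¹ ∈ W := by
  rw [mem_ctr, ValuationSubring.mem_nonunits_iff, not_lt] at hx
  rw [← ValuationSubring.valuation_le_one_iff, map_inv₀]
  exact inv_le_one_of_one_le₀ hx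

theorem locAt_ctr_le {C : Subalgebra R F} {W : ValuationSubring F} (hC : ∀ x ∈ C, x ∈ W)
    [(ctr C W hC).IsPrime] : ∀ x ∈ locAt C (ctr C W hC), x ∈ W := by
  rintro x ⟨s, hs, hx⟩
  have hs0 : (s : F) ≠ 0 := by
    intro h
    apply hs
    rw [mem_ctr, h, ValuationSubring.mem_nonunits_iff]
    simp
  have : x = (x * s) * (s : F)⁻¹ := by
    field_simp
  rw [this]
  exact W.mul_mem _ _ (hC _ hx) (inv_mem_of_not_mem_ctr hC hs)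

variable {ϖ : R} {𝒪₁ 𝒪₂ : ValuationSubring F}

theorem vert_le_ctr (hG : GaussRing ϖ 𝒪₁) {C : Subalgebra R F} {W : ValuationSubring F}
    (hC : ∀ x ∈ C, x ∈ W) (hW : W ≤ 𝒪₁) : vert ϖ 𝒪₁ C ≤ ctr C W hC := by
  refine Ideal.span_le.2 ?_
  intro x hx
  have hx' : (x : F) / algebraMap R F ϖ ∈ 𝒪₁ := hx
  change (x : F) ∈ W.nonunits
  apply ValuationSubring.nonunits_le_nonunits.2 hW
  rw [ValuationSubring.mem_nonunits_iff]
  have hϖ : 𝒪₁.valuation (algebraMap R F ϖ) < 1 := by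
    by_contra hcon
    rw [not_lt] at hcon
    apply hG.inv_not_mem
    rw [← ValuationSubring.valuation_le_one_iff, map_inv₀]
    exact inv_le_one_of_one_le₀ hcon
  have : (x : F) = ((x : F) / algebraMap R F ϖ) * algebraMap R F ϖ := by
    have := hG.ne_zero
    field_simp
  rw [this, map_mul]
  exact mul_lt_one_of_nonneg_of_lt_one_right ((𝒪₁.valuation_le_one_iff _).2 hx') zero_le hϖ

theorem Ctr_sat_pow {C : Subalgebra R F} (hC : SatChart2 ϖ 𝒪₁ 𝒪₂ C) (m : ℕ) {x : F}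
    (hx : x ∈ C) (h₁ : x / algebraMap R F ϖ ^ m ∈ 𝒪₁) (h₂ : x / algebraMap R F ϖ ^ m ∈ 𝒪₂) :
    x / algebraMap R F ϖ ^ m ∈ C := by
  induction m with
  | zero => simpa using hx
  | succ m ih =>
    by_cases h0 : algebraMap R F ϖ = 0
    · rw [h0, zero_pow (Nat.succ_ne_zero m), div_zero]; exact C.zero_mem
    · have hϖ₁ : algebraMap R F ϖ ∈ 𝒪₁ := hC.le₁ _ (C.algebraMap_mem ϖ)
      have hϖ₂ : algebraMap R F ϖ ∈ 𝒪₂ := hC.le₂ _ (C.algebraMap_mem ϖ)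
      have e1 : x / algebraMap R F ϖ ^ m = x / algebraMap R F ϖ ^ (m + 1) * algebraMap R F ϖ := by
        rw [pow_succ]; field_simp
      have e2 : x / algebraMap R F ϖ ^ (m + 1) = x / algebraMap R F ϖ ^ m / algebraMap R F ϖ := by
        rw [pow_succ]; field_simp
      have h1 : x / algebraMap R F ϖ ^ m ∈ C :=
        ih (by rw [e1]; exact mul_mem h₁ hϖ₁) (by rw [e1]; exact mul_mem h₂ hϖ₂)
      rw [e2]
      refine hC.sat _ h1 ?_ ?_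
      · rw [← e2]; exact h₁
      · rw [← e2]; exact h₂

/-- (F), outside the nodes. -/
theorem dd_good_abs {C : Subalgebra R F} (hS : SatChart2 ϖ 𝒪₁ 𝒪₂ C) (hϖ0 : algebraMap R F ϖ ≠ 0)
    {W : ValuationSubring F}
    (hC : ∀ x ∈ C, x ∈ W) {τ e d φ : F} {k m : ℕ} (hτ : τ ∈ C) (hτ0 : τ ≠ 0) (hτW : τ⁻¹ ∈ W)
    (he : e ∈ C) (he0 : e ≠ 0) (he2 : e / algebraMap R F ϖ ∈ 𝒪₂) (heW : e⁻¹ ∈ W) (hd : τ ^ k * d ∈ C) (hφ : τ ^ k * φ ∈ C)
    (hdφ : d * φ = algebraMap R F ϖ ^ m) (hd1 : d⁻¹ ∈ 𝒪₁) : d ∈ W ∧ d⁻¹ ∈ W := by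
  have hpm : algebraMap R F ϖ ^ m ≠ 0 := pow_ne_zero _ hϖ0
  have hd0 : d ≠ 0 := by
    rintro rfl
    rw [zero_mul] at hdφ
    exact hpm hdφ.symm
  have hφ0 : φ ≠ 0 := by
    rintro rfl
    rw [mul_zero] at hdφ
    exact hpm hdφ.symm
  have hφe : φ = algebraMap R F ϖ ^ m * d⁻¹ := by
    rw [← hdφ]; field_simp
  refine ⟨?_, ?_⟩
  · have : d = (τ⁻¹) ^ k * (τ ^ k * d) := by
      rw [inv_pow]; field_simp
    rw [this]
    exact mul_mem (pow_mem hτW k) (hC _ hd)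
  · have hx : τ ^ k * φ * e ^ m ∈ C := mul_mem hφ (pow_mem he m)
    have h1 : τ ^ k * φ * e ^ m / algebraMap R F ϖ ^ m ∈ 𝒪₁ := by
      have : τ ^ k * φ * e ^ m / algebraMap R F ϖ ^ m = τ ^ k * d⁻¹ * e ^ m := by
        rw [hφe]; field_simp
      rw [this]
      exact mul_mem (mul_mem (pow_mem (hS.le₁ _ hτ) k) hd1) (pow_mem (hS.le₁ _ he) m)
    have h2 : τ ^ k * φ * e ^ m / algebraMap R F ϖ ^ m ∈ 𝒪₂ := by
      have : τ ^ k * φ * e ^ m / algebraMap R F ϖ ^ m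
          = τ ^ k * φ * (e / algebraMap R F ϖ) ^ m := by
        rw [div_pow]; field_simp
      rw [this]
      exact mul_mem (hS.le₂ _ hφ) (pow_mem he2 m)
    have h3 := hC _ (Ctr_sat_pow hS m hx h1 h2)
    have : d⁻¹ = τ ^ k * φ * e ^ m / algebraMap R F ϖ ^ m * (τ⁻¹) ^ k * (e⁻¹) ^ m := by
      rw [hφe, inv_pow, inv_pow]; field_simp
    rw [this]
    exact mul_mem (mul_mem h3 (pow_mem hτW k)) (pow_mem heW m)

/-- (F), at a regular node. -/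
theorem dd_node_abs {C : Subalgebra R F} (hS : SatChart2 ϖ 𝒪₁ 𝒪₂ C) (hϖ0 : algebraMap R F ϖ ≠ 0)
    {W : ValuationSubring F}
    (hC : ∀ x ∈ C, x ∈ W) {τ d φ X₁ X₂ G : F} {k m : ℕ} (hτ : τ ∈ C) (hτ0 : τ ≠ 0)
    (hτW : τ⁻¹ ∈ W) (hX₁ : X₁ ∈ C) (hX₂ : X₂ ∈ C) (hG : G ∈ C) (hG0 : G ≠ 0) (hGW : G⁻¹ ∈ W)
    (h1 : X₁ / algebraMap R F ϖ ∈ 𝒪₁) (h2 : X₂ / algebraMap R F ϖ ∈ 𝒪₂)
    (hX : X₁ * X₂ = algebraMap R F ϖ * G)
    (hd : τ ^ k * d ∈ C) (hφ : τ ^ k * φ ∈ C)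
    (hdφ : d * φ = algebraMap R F ϖ ^ m) (hd1 : d⁻¹ ∈ 𝒪₁)
    (hd2 : d / algebraMap R F ϖ ^ m ∈ 𝒪₂) :
    d / X₂ ^ m ∈ W ∧ (d / X₂ ^ m)⁻¹ ∈ W := by
  have hpm : algebraMap R F ϖ ^ m ≠ 0 := pow_ne_zero _ hϖ0
  have hd0 : d ≠ 0 := by
    rintro rfl
    rw [zero_mul] at hdφ
    exact hpm hdφ.symm
  have hφe : φ = algebraMap R F ϖ ^ m * d⁻¹ := by
    rw [← hdφ]; field_simp
  have hXX : X₁ * X₂ ≠ 0 := by rw [hX]; exact mul_ne_zero hϖ0 hG0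
  have hX₁0 : X₁ ≠ 0 := left_ne_zero_of_mul hXX
  have hX₂0 : X₂ ≠ 0 := right_ne_zero_of_mul hXX
  have hXm : X₁ ^ m * X₂ ^ m = algebraMap R F ϖ ^ m * G ^ m := by
    rw [← mul_pow, hX, mul_pow]
  refine ⟨?_, ?_⟩
  · have hx : τ ^ k * d * X₁ ^ m ∈ C := mul_mem hd (pow_mem hX₁ m)
    have a1 : τ ^ k * d * X₁ ^ m / algebraMap R F ϖ ^ m ∈ 𝒪₁ := by
      have : τ ^ k * d * X₁ ^ m / algebraMap R F ϖ ^ m
          = τ ^ k * d * (X₁ / algebraMap R F ϖ) ^ m := by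
        rw [div_pow]; field_simp
      rw [this]
      exact mul_mem (hS.le₁ _ hd) (pow_mem h1 m)
    have a2 : τ ^ k * d * X₁ ^ m / algebraMap R F ϖ ^ m ∈ 𝒪₂ := by
      have : τ ^ k * d * X₁ ^ m / algebraMap R F ϖ ^ m
          = τ ^ k * (d / algebraMap R F ϖ ^ m) * X₁ ^ m := by
        field_simp
      rw [this]
      exact mul_mem (mul_mem (pow_mem (hS.le₂ _ hτ) k) hd2) (pow_mem (hS.le₂ _ hX₁) m)
    have a3 := hC _ (Ctr_sat_pow hS m hx a1 a2)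
    have : d / X₂ ^ m
        = τ ^ k * d * X₁ ^ m / algebraMap R F ϖ ^ m * (τ⁻¹) ^ k * (G⁻¹) ^ m := by
      rw [inv_pow, inv_pow]
      have hX₂m : X₂ ^ m ≠ 0 := pow_ne_zero _ hX₂0
      have hGm : G ^ m ≠ 0 := pow_ne_zero _ hG0
      have hτk : τ ^ k ≠ 0 := pow_ne_zero _ hτ0
      rw [div_eq_iff hX₂m]
      have : τ ^ k * d * X₁ ^ m / algebraMap R F ϖ ^ m * (τ ^ k)⁻¹ * (G ^ m)⁻¹ * X₂ ^ m
          = d * (X₁ ^ m * X₂ ^ m) / (algebraMap R F ϖ ^ m * G ^ m) := by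
        field_simp
      rw [this, hXm]
      field_simp
    rw [this]
    exact mul_mem (mul_mem a3 (pow_mem hτW k)) (pow_mem hGW m)
  · have hy : τ ^ k * φ * X₂ ^ m ∈ C := mul_mem hφ (pow_mem hX₂ m)
    have b2 : τ ^ k * φ * X₂ ^ m / algebraMap R F ϖ ^ m ∈ 𝒪₂ := by
      have : τ ^ k * φ * X₂ ^ m / algebraMap R F ϖ ^ m
          = τ ^ k * φ * (X₂ / algebraMap R F ϖ) ^ m := by
        rw [div_pow]; field_simp
      rw [this]
      exact mul_mem (hS.le₂ _ hφ) (pow_mem h2 m)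
    have b1 : τ ^ k * φ * X₂ ^ m / algebraMap R F ϖ ^ m ∈ 𝒪₁ := by
      have : τ ^ k * φ * X₂ ^ m / algebraMap R F ϖ ^ m = τ ^ k * d⁻¹ * X₂ ^ m := by
        rw [hφe]; field_simp
      rw [this]
      exact mul_mem (mul_mem (pow_mem (hS.le₁ _ hτ) k) hd1) (pow_mem (hS.le₁ _ hX₂) m)
    have b3 := hC _ (Ctr_sat_pow hS m hy b1 b2)
    have : (d / X₂ ^ m)⁻¹ = τ ^ k * φ * X₂ ^ m / algebraMap R F ϖ ^ m * (τ⁻¹) ^ k := by
      rw [hφe, inv_pow]; field_simp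
    rw [this]
    exact mul_mem b3 (pow_mem hτW k)

variable [IsDomain R] [IsDiscreteValuationRing R]

/-- the center is a node, or some element of `𝔭₂` is a unit of `W`. -/
theorem ctr_cases (hG₁ : GaussRing ϖ 𝒪₁) {C : Subalgebra R F} (hCh : NodalChart ϖ 𝒪₁ 𝒪₂ C)
    {W : ValuationSubring F} (hC : ∀ x ∈ C, x ∈ W) (hW : W ≤ 𝒪₁) :
    ((ctr C W hC).IsMaximal ∧ vert ϖ 𝒪₁ C ≤ ctr C W hC ∧ vert ϖ 𝒪₂ C ≤ ctr C W hC) ∨
      ∃ e ∈ C, e ≠ 0 ∧ e / algebraMap R F ϖ ∈ 𝒪₂ ∧ e⁻¹ ∈ W := by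
  have h₁ : vert ϖ 𝒪₁ C ≤ ctr C W hC := vert_le_ctr hG₁ hC hW
  by_cases h₂ : vert ϖ 𝒪₂ C ≤ ctr C W hC
  · left
    refine ⟨?_, h₁, h₂⟩
    obtain ⟨e, heC, he₂, he₁⟩ := hCh.sep₁
    have := hCh.ded₁
    have := ctr_isPrime hC
    refine Loc_isMaximal_of_lt (vert ϖ 𝒪₁ C) (ctr C W hC) h₁ (e := ⟨e, heC⟩) ?_ ?_
    · exact h₂ (Ideal.subset_span he₂)
    · rw [mem_vert hCh.le₁]
      exact he₁
  · right
    have h3 : ¬ {x : C | (x : F) / algebraMap R F ϖ ∈ 𝒪₂} ⊆ (ctr C W hC : Set C) := by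
      intro h
      exact h₂ (Ideal.span_le.2 h)
    obtain ⟨e, he, hne⟩ := Set.not_subset.1 h3
    refine ⟨e, e.2, ?_, he, inv_mem_of_not_mem_ctr hC hne⟩
    intro h0
    apply hne
    change (e : F) ∈ W.nonunits
    rw [h0, ValuationSubring.mem_nonunits_iff]
    simp

/-- copy of `GS.Unit_one_component` with the hypotheses `hw hw' hw0` instead of `hw₁`. -/
theorem Ctr_one_component (hϖ : Irreducible ϖ) (hG₁ : GaussRing ϖ 𝒪₁) (hG₂ : GaussRing ϖ 𝒪₂)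
    {C : Subalgebra R F} (hC : NodalChart ϖ 𝒪₁ 𝒪₂ C) {n : ℕ} (hn : 0 < n) {w : F}
    (hw : w ∈ 𝒪₁) (hw' : w⁻¹ ∈ 𝒪₁) (hw0 : w ≠ 0)
    (hdiv : DivisibleAtPlaces R n w)
    (𝔪 : Ideal C) (h𝔪 : 𝔪.IsMaximal) (hϖ𝔪 : algebraMap R C ϖ ∈ 𝔪)
    (h₁ : vert ϖ 𝒪₁ C ≤ 𝔪) (h₂ : ¬ vert ϖ 𝒪₂ C ≤ 𝔪) :
    ∃ a : F, ∃ h : a ^ n * w ∈ C, (⟨a ^ n * w, h⟩ : C) ∉ 𝔪 := by
  have : 𝔪.IsPrime := h𝔪.isPrime
  have hgood := locAt_goodChart hϖ hG₁ hG₂ hC 𝔪 h𝔪 h₁ h₂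
  let _ : Algebra C (locAt C 𝔪) := (Subalgebra.inclusion (le_locAt C 𝔪)).toRingHom.toAlgebra
  have hloc : IsLocalization.AtPrime (locAt C 𝔪) 𝔪 := isLocalization_locAt 𝔪
  have hlocal : IsLocalRing (locAt C 𝔪) := IsLocalization.AtPrime.isLocalRing (locAt C 𝔪) 𝔪
  have hinv : ∀ x : locAt C 𝔪, IsUnit x → (x : F)⁻¹ ∈ locAt C 𝔪 := by
    rintro x ⟨u, rfl⟩
    have h1 : ((u : locAt C 𝔪) : F) * (((u⁻¹ : (locAt C 𝔪)ˣ) : locAt C 𝔪) : F) = 1 :=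
      congrArg Subtype.val u.mul_inv
    rw [← eq_inv_of_mul_eq_one_right h1]
    exact (((u⁻¹ : (locAt C 𝔪)ˣ) : locAt C 𝔪)).2
  have hϖmem : algebraMap R (locAt C 𝔪) ϖ ∈ IsLocalRing.maximalIdeal (locAt C 𝔪) := by
    rw [IsLocalRing.mem_maximalIdeal, mem_nonunits_iff]
    intro hu
    have h1 := hinv _ hu
    have h2 : ((algebraMap R C ϖ : C) : F)⁻¹ ∈ locAt C 𝔪 := h1
    have h3 : (algebraMap R C ϖ : C) ≠ 0 := fun h0 => hG₁.ne_zero (congrArg Subtype.val h0)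
    exact (inv_mem_locAt_iff 𝔪 h3).1 h2 hϖ𝔪
  obtain ⟨a, ha, ha'⟩ := exists_mem_rootSet_not_mem hϖ hG₁ hgood hn hw hw' hw0 hdiv
    (IsLocalRing.maximalIdeal (locAt C 𝔪)) (IsLocalRing.maximalIdeal.isMaximal _) hϖmem
  rw [IsLocalRing.mem_maximalIdeal, mem_nonunits_iff, not_not] at ha'
  exact exists_of_unit_locAt 𝔪 hn ha (hinv _ ha') (fun h0 => ha'.ne_zero (Subtype.ext h0))

/-- (E1) -/
theorem good_abs (hϖ : Irreducible ϖ) (hG₁ : GaussRing ϖ 𝒪₁) (hG₂ : GaussRing ϖ 𝒪₂)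
    {C : Subalgebra R F} (hCh : NodalChart ϖ 𝒪₁ 𝒪₂ C)
    {W : ValuationSubring F} (hC : ∀ x ∈ C, x ∈ W) (hW : W ≤ 𝒪₁) {e : F} (he : e ∈ C)
    (he0 : e ≠ 0) (he2 : e / algebraMap R F ϖ ∈ 𝒪₂) (heW : e⁻¹ ∈ W) {n : ℕ} (hn : 0 < n) {w : F}
    (hw : w ∈ 𝒪₁) (hw' : w⁻¹ ∈ 𝒪₁) (hw0 : w ≠ 0) (hdiv : DivisibleAtPlaces R n w) :
    ∃ a : F, a ≠ 0 ∧ a ^ n * w ∈ W ∧ (a ^ n * w)⁻¹ ∈ W := by
  have hP : (ctr C W hC).IsPrime := ctr_isPrime hC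
  have h₁ : vert ϖ 𝒪₁ C ≤ ctr C W hC := vert_le_ctr hG₁ hC hW
  have he𝔪 : (⟨e, he⟩ : C) ∉ ctr C W hC := by
    intro h
    rw [mem_ctr] at h
    have h1 : W.valuation e < 1 := (ValuationSubring.mem_nonunits_iff W).1 h
    have h2 : W.valuation e⁻¹ ≤ 1 := (W.valuation_le_one_iff _).2 heW
    rw [map_inv₀] at h2
    exact absurd h2 (not_le.2
      ((one_lt_inv₀ (zero_lt_iff.2 ((W.valuation.ne_zero_iff).2 he0))).2 h1))
  have h₂ : ¬ vert ϖ 𝒪₂ C ≤ ctr C W hC :=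
    fun h => he𝔪 (h ((mem_vert hCh.le₂ (⟨e, he⟩ : C)).2 he2))
  by_cases h𝔪 : (ctr C W hC).IsMaximal
  · have hϖ𝔪 : algebraMap R C ϖ ∈ ctr C W hC := by
      refine h₁ ((mem_vert hCh.le₁ _).2 ?_)
      have : ((algebraMap R C ϖ : C) : F) / algebraMap R F ϖ = 1 := div_self hG₁.ne_zero
      rw [this]
      exact one_mem _
    obtain ⟨a, h, hnot⟩ := Ctr_one_component hϖ hG₁ hG₂ hCh hn hw hw' hw0 hdiv (ctr C W hC) h𝔪 hϖ𝔪
      h₁ h₂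
    refine ⟨a, ?_, hC _ h, inv_mem_of_not_mem_ctr hC hnot⟩
    rintro rfl
    apply hnot
    have : (⟨0 ^ n * w, h⟩ : C) = 0 :=
      Subtype.ext (show (0 : F) ^ n * w = 0 by rw [zero_pow hn.ne', zero_mul])
    rw [this]
    exact zero_mem _
  · have heq : ∀ x : C, x ∈ ctr C W hC → x ∈ vert ϖ 𝒪₁ C := by
      intro x hx
      by_contra hx'
      have := hCh.ded₁
      exact h𝔪 (Loc_isMaximal_of_lt (vert ϖ 𝒪₁ C) (ctr C W hC) h₁ hx hx')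
    have hle : ∀ x ∈ 𝒪₁, x ∈ W := by
      intro x hx
      obtain ⟨b, hb, hb1, hxb⟩ := hCh.frac₁ x hx
      have hb𝔪 : (⟨b, hb⟩ : C) ∉ ctr C W hC :=
        fun h => hb1 ((mem_vert hCh.le₁ (⟨b, hb⟩ : C)).1 (heq _ h))
      have hbinv : b⁻¹ ∈ W := inv_mem_of_not_mem_ctr hC hb𝔪
      have hb0 : b ≠ 0 := by
        rintro rfl
        apply hb1
        rw [zero_div]
        exact zero_mem _
      have : x = (x * b) * b⁻¹ := by field_simp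
      rw [this]
      exact W.mul_mem _ _ (hC _ hxb) hbinv
    exact ⟨1, one_ne_zero, by simpa using hle w hw, by simpa using hle _ hw'⟩

end Fermat.Agent.LP.PL
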