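import Fermat.Agent.GS.Abs.Basic

/-!
# Project LP (S44), module PL-LOC, file DdInt (abstract): clearing denominators in an integrality relation

* `DdInt_exists_pow_isIntegral` : `A0 ≤ B0` subrings of a field, `s ∈ A0` such that every element of `B0` is
  multiplied into `A0` by a power of `s`; then an element integral over `B0` becomes integral over `A0` after
  multiplication by a power of `s`.
* `DdInt_exists_mem_chart` : `R` a discrete valuation subring of `L`, `F` a field over `L`, `y` an element of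
  `F` which lies in all the valuation subrings of `F` containing `L`, `τ`, `τ⁻¹`; then `(ϖ τ) ^ n y` lies in the
  chart of `τ`.
* `DdInt_mem_chart` : if moreover `y` is integral at the two vertical valuations, then `τ ^ n y` lies in the
  chart.
-/

set_option autoImplicit false

namespace Fermat.Agent.LP.PL

open Fermat.Agent.GR.E Fermat.Agent.GS Polynomial

theorem DdInt_exists_pow_isIntegral {F : Type*} [Field F] {A0 B0 : Subring F} (hle : A0 ≤ B0)
    {s : F} (hs : s ∈ A0) (h : ∀ b ∈ B0, ∃ n : ℕ, s ^ n * b ∈ A0) {y : F} (hy : IsIntegral B0 y) :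
    ∃ n : ℕ, IsIntegral A0 (s ^ n * y) := by
  obtain ⟨P, hP, hPy⟩ := hy
  choose! ν hν using h
  set N : ℕ := P.support.sup (fun i => ν (P.coeff i : F)) with hN
  have hmem : ∀ i, s ^ N * (P.coeff i : F) ∈ A0 := by
    intro i
    by_cases hi : i ∈ P.support
    · have h1 : ν (P.coeff i : F) ≤ N := Finset.le_sup (f := fun i => ν (P.coeff i : F)) hi
      obtain ⟨k, hk⟩ := Nat.exists_eq_add_of_le h1
      rw [hk, add_comm, pow_add, mul_assoc]
      exact A0.mul_mem (A0.pow_mem hs k) (hν _ (P.coeff i).2)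
    · rw [Polynomial.notMem_support_iff.1 hi]
      simp
  let f : A0 →+* B0 := Subring.inclusion hle
  let sB : B0 := ⟨s ^ N, hle (A0.pow_mem hs N)⟩
  have hl : P.scaleRoots sB ∈ Polynomial.lifts f := by
    rw [Polynomial.lifts_iff_coeff_lifts]
    intro i
    rw [Polynomial.coeff_scaleRoots]
    rcases lt_trichotomy i P.natDegree with hi | hi | hi
    · obtain ⟨k, hk⟩ : ∃ k, P.natDegree - i = k + 1 := ⟨P.natDegree - i - 1, by omega⟩
      have h2 : (P.coeff i : F) * (s ^ N) ^ (k + 1) ∈ A0 := by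
        have : (P.coeff i : F) * (s ^ N) ^ (k + 1) = s ^ N * (P.coeff i : F) * (s ^ N) ^ k := by ring
        rw [this]
        exact A0.mul_mem (hmem i) (A0.pow_mem (A0.pow_mem hs N) k)
      refine ⟨⟨_, h2⟩, ?_⟩
      apply Subtype.ext
      rw [hk]
      rfl
    · refine ⟨1, ?_⟩
      rw [hi, Nat.sub_self, pow_zero, mul_one, map_one]
      exact hP.coeff_natDegree.symm
    · refine ⟨0, ?_⟩
      rw [Polynomial.coeff_eq_zero_of_natDegree_lt hi, zero_mul, map_zero]
  obtain ⟨Q, hQ, -, hQm⟩ := Polynomial.lifts_and_natDegree_eq_and_monic hl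
    ((Polynomial.monic_scaleRoots_iff sB).2 hP)
  refine ⟨N, Q, hQm, ?_⟩
  have h3 : (algebraMap A0 F) = (algebraMap B0 F).comp f := rfl
  rw [h3, ← Polynomial.eval₂_map, hQ]
  exact Polynomial.scaleRoots_eval₂_eq_zero (algebraMap B0 F) (s := sB) hPy

theorem DdInt_exists_pow_mul_mem {L : Type*} [Field L] (R : ValuationSubring L)
    [IsDiscreteValuationRing R] {ϖ : R} (hϖ : Irreducible ϖ) (c : L) :
    ∃ n : ℕ, (ϖ : L) ^ n * c ∈ R := by
  rcases R.mem_or_inv_mem c with hc | hc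
  · exact ⟨0, by simpa using hc⟩
  · by_cases h0 : c = 0
    · exact ⟨0, by simp [h0, R.zero_mem]⟩
    have h1 : (⟨c⁻¹, hc⟩ : R) ≠ 0 := by
      intro h
      exact (inv_ne_zero h0) (congrArg Subtype.val h)
    obtain ⟨n, u, hu⟩ := IsDiscreteValuationRing.eq_unit_mul_pow_irreducible h1 hϖ
    refine ⟨n, ?_⟩
    have h2 : c⁻¹ = (u : R) * (ϖ : L) ^ n := by
      have := congrArg Subtype.val hu
      simpa using this
    have h3 : ((u : R) : L) * ((u⁻¹ : Rˣ) : R) = 1 :=
      congrArg Subtype.val (Units.mul_inv u)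
    have hu0 : ((u : R) : L) ≠ 0 := left_ne_zero_of_mul_eq_one h3
    have h4 : (ϖ : L) ^ n * c = (((u⁻¹ : Rˣ) : R) : L) := by
      have h5 : (ϖ : L) ^ n = c⁻¹ * (((u⁻¹ : Rˣ) : R) : L) := by
        rw [h2]
        calc (ϖ : L) ^ n = (ϖ : L) ^ n * (((u : R) : L) * ((u⁻¹ : Rˣ) : R)) := by rw [h3, mul_one]
          _ = _ := by ring
      rw [h5]
      field_simp
    rw [h4]
    exact ((u⁻¹ : Rˣ) : R).2

theorem DdInt_exists_mem_chart {L : Type*} [Field L] (R : ValuationSubring L)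
    [IsDiscreteValuationRing R] {F : Type*} [Field F] [Algebra L F] {ϖ : R} (hϖ : Irreducible ϖ)
    {τ y : F} (hτ : τ ≠ 0)
    (h : ∀ V : ValuationSubring F, (∀ a : L, algebraMap L F a ∈ V) → τ ∈ V → τ⁻¹ ∈ V → y ∈ V) :
    ∃ n : ℕ, (algebraMap R F ϖ * τ) ^ n * y ∈ chart R ({τ} : Set F) := by
  set S : Set F := Set.range (algebraMap L F) ∪ {τ, τ⁻¹} with hS
  have hy : y ∈ (⨅ V : {V : ValuationSubring F // S ⊆ V.toSubring}, V.1.toSubring) := by
    rw [Subring.mem_iInf]
    rintro ⟨V, hV⟩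
    exact h V (fun a => hV (Or.inl ⟨a, rfl⟩)) (hV (Or.inr (Or.inl rfl)))
      (hV (Or.inr (Or.inr rfl)))
  rw [iInf_valuationSubring_superset] at hy
  have hy' : IsIntegral (Subring.closure S) y := hy
  set A0 : Subring F := (Algebra.adjoin R ({τ} : Set F)).toSubring with hA0
  have hτA : τ ∈ A0 := Algebra.subset_adjoin (Set.mem_singleton τ)
  have hRA : ∀ r : R, algebraMap R F r ∈ A0 := fun r =>
    (Algebra.adjoin R ({τ} : Set F)).algebraMap_mem r
  have hle : A0 ≤ Subring.closure S := by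
    have key : ∀ z ∈ Algebra.adjoin R ({τ} : Set F), z ∈ Subring.closure S := by
      intro z hz'
      induction hz' using Algebra.adjoin_induction with
      | mem z hz =>
        rw [Set.mem_singleton_iff.1 hz]
        exact Subring.subset_closure (Or.inr (Or.inl rfl))
      | algebraMap a => exact Subring.subset_closure (Or.inl ⟨(a : L), rfl⟩)
      | add a b _ _ ha hb => exact Subring.add_mem _ ha hb
      | mul a b _ _ ha hb => exact Subring.mul_mem _ ha hb
    exact fun z hz => key z hz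
  set s : F := algebraMap R F ϖ * τ with hs
  have hsA : s ∈ A0 := A0.mul_mem (hRA ϖ) hτA
  have hclear : ∀ b ∈ Subring.closure S, ∃ n : ℕ, s ^ n * b ∈ A0 := by
    intro b hb
    induction hb using Subring.closure_induction with
    | mem x hx =>
      rcases hx with ⟨c, rfl⟩ | hx | hx
      · obtain ⟨n, hn⟩ := DdInt_exists_pow_mul_mem R hϖ c
        refine ⟨n, ?_⟩
        have : s ^ n * algebraMap L F c = τ ^ n * algebraMap R F ⟨_, hn⟩ := by
          have h1 : algebraMap R F ⟨_, hn⟩ = algebraMap L F ((ϖ : L) ^ n * c) := rfl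
          have h2 : algebraMap R F ϖ = algebraMap L F (ϖ : L) := rfl
          rw [h1, hs, h2, map_mul, map_pow]
          ring
        rw [this]
        exact A0.mul_mem (A0.pow_mem hτA n) (hRA _)
      · exact ⟨0, by rw [hx]; simpa using hτA⟩
      · refine ⟨1, ?_⟩
        rw [Set.mem_singleton_iff.1 hx, pow_one, hs, mul_assoc, mul_inv_cancel₀ hτ, mul_one]
        exact hRA ϖ
    | zero => exact ⟨0, by simp [A0.zero_mem]⟩
    | one => exact ⟨0, by simp [A0.one_mem]⟩
    | add a b _ _ ha hb =>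
      obtain ⟨n, hn⟩ := ha
      obtain ⟨m, hm⟩ := hb
      refine ⟨n + m, ?_⟩
      have : s ^ (n + m) * (a + b) = s ^ m * (s ^ n * a) + s ^ n * (s ^ m * b) := by
        rw [pow_add]; ring
      rw [this]
      exact A0.add_mem (A0.mul_mem (A0.pow_mem hsA m) hn) (A0.mul_mem (A0.pow_mem hsA n) hm)
    | neg a _ ha =>
      obtain ⟨n, hn⟩ := ha
      exact ⟨n, by rw [mul_neg]; exact A0.neg_mem hn⟩
    | mul a b _ _ ha hb =>
      obtain ⟨n, hn⟩ := ha
      obtain ⟨m, hm⟩ := hb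
      refine ⟨n + m, ?_⟩
      have : s ^ (n + m) * (a * b) = (s ^ n * a) * (s ^ m * b) := by
        rw [pow_add]; ring
      rw [this]
      exact A0.mul_mem hn hm
  obtain ⟨n, hn⟩ := DdInt_exists_pow_isIntegral hle hsA hclear hy'
  exact ⟨n, hn⟩

theorem DdInt_mem_chart {L : Type*} [Field L] (R : ValuationSubring L)
    [IsDiscreteValuationRing R] {F : Type*} [Field F] [Algebra L F] {ϖ : R} (hϖ : Irreducible ϖ)
    {𝒪₁ 𝒪₂ : ValuationSubring F} {τ y : F} (hτ : τ ≠ 0)
    (hC : SatChart2 ϖ 𝒪₁ 𝒪₂ (chart R ({τ} : Set F))) (hϖ0 : algebraMap R F ϖ ≠ 0)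
    (h : ∀ V : ValuationSubring F, (∀ a : L, algebraMap L F a ∈ V) → τ ∈ V → τ⁻¹ ∈ V → y ∈ V)
    (h₁ : y ∈ 𝒪₁) (h₂ : y ∈ 𝒪₂) :
    ∃ n : ℕ, ∀ m : ℕ, n ≤ m → τ ^ m * y ∈ chart R ({τ} : Set F) := by
  obtain ⟨n, hn⟩ := DdInt_exists_mem_chart R hϖ hτ h
  have hτC : τ ∈ chart R ({τ} : Set F) := by
    rw [mem_chart]
    exact isIntegral_algebraMap (x := (⟨τ, Algebra.subset_adjoin (Set.mem_singleton τ)⟩ :
      Algebra.adjoin R ({τ} : Set F)))
  have e : (algebraMap R F ϖ * τ) ^ n * y / algebraMap R F ϖ ^ n = τ ^ n * y := by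
    rw [mul_pow]
    field_simp
  have h3 := hC.sat_pow n hn (by rw [e]; exact mul_mem (pow_mem (hC.le₁ _ hτC) n) h₁)
    (by rw [e]; exact mul_mem (pow_mem (hC.le₂ _ hτC) n) h₂)
  rw [e] at h3
  refine ⟨n, fun m hm => ?_⟩
  obtain ⟨k, rfl⟩ := Nat.exists_eq_add_of_le hm
  rw [add_comm, pow_add, mul_assoc]
  exact mul_mem (pow_mem hτC k) h3

end Fermat.Agent.LP.PL
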