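import Fermat.Agent.LP.PL.Loc.Defs
import Fermat.Agent.LP.PL.Loc.DdInt
import Fermat.Agent.LP.EIS.DUnit

/-!
# Project LP (S44), module PL-LOC, file DdCore: part (F), concrete inputs for `d = Δ(q) / Δ(q ^ p)`

`ddL p N0 L : FF L (p * N0)` is the function `d` over `L`; `phiL = p ^ 12 / d`.

* `DdC_toQb_ddL` : `toQb (ddL) = dd`.
* `DdC_mem₁`, `DdC_inv_mem₁` : `d` is a unit at the Gauss valuation of the component `∞`.
* `DdC_div_mem₂`, `DdC_div_inv_mem₂` : `d / p ^ 12` is a unit at the Gauss valuation of the component `0`.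
* `DdC_main` : `τ ^ k d` and `τ ^ k (p ^ 12 / d)` lie in the chart of `τ = h₂ ^ ε`.
-/

set_option autoImplicit false
set_option synthInstance.maxHeartbeats 400000

noncomputable section

namespace Fermat.Agent.LP.PL

open Fermat.Agent.GR Fermat.Agent.GR.E Fermat.Agent.GR.D.Vert Fermat.Agent.GS Fermat.Agent.GT
  Fermat.Agent.GT.Brg Fermat.Agent.C36.Unit ModularCurve

variable (p N0 : ℕ) [NeZero p] [NeZero (p * N0)]

/-- the function `d = Δ(q) / Δ(q ^ p)` over `L`. -/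
def ddL (L : IntermediateField ℚ Qb) : FF L (p * N0) :=
  ⟨EIS.dS L p, EIS.dS_mem_FF p L (Dvd.intro _ rfl)⟩

theorem DdC_coe_ddL (L : IntermediateField ℚ Qb) :
    ((ddL p N0 L : FF L (p * N0)) : LaurentSeries L) = EIS.dS L p := rfl

theorem DdC_ddL_ne_zero (L : IntermediateField ℚ Qb) : ddL p N0 L ≠ 0 := by
  intro h
  have h1 := congrArg (fun x : FF L (p * N0) => (x : LaurentSeries L)) h
  exact EIS.dS_ne_zero (Λ := L) p h1

theorem DdC_coe_ddL_inv (L : IntermediateField ℚ Qb) :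
    (((ddL p N0 L)⁻¹ : FF L (p * N0)) : LaurentSeries L) = EIS.dInvS L p := by
  rw [EIS.dInvS_eq_inv]
  rfl

theorem DdC_toQb_ddL (L : IntermediateField ℚ Qb) {dd : FF Qb (p * N0)}
    (hdd : (dd : LaurentSeries Qb) = EIS.dS Qb p) : toQb L (p * N0) (ddL p N0 L) = dd := by
  apply Subtype.ext
  rw [coe_mapFF, hdd, DdC_coe_ddL, EIS.coeffMap_dS]

section Vert

variable {L : IntermediateField ℚ Qb} (R : ValuationSubring L) [IsDiscreteValuationRing R]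

theorem DdC_mem₁ : ddL p N0 L ∈ gaussO R (p * N0) := by
  obtain ⟨y, hy⟩ := exists_embL_eq (EIS.isInt_dS R p)
  rw [mem_gaussO, DdC_coe_ddL, ← hy]
  exact isGInt_emb y

theorem DdC_inv_mem₁ : (ddL p N0 L)⁻¹ ∈ gaussO R (p * N0) := by
  obtain ⟨y, hy⟩ := exists_embL_eq (EIS.isInt_dInvS R p)
  rw [mem_gaussO, DdC_coe_ddL_inv, ← hy]
  exact isGInt_emb y

theorem DdC_wQ_ddL (hp : p.Prime) (hpN : ¬ p ∣ N0) :
    GT.EMB.wQ L p N0 (ddL p N0 L) = (p : FF L (p * N0)) ^ 12 * (ddL p N0 L)⁻¹ := by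
  haveI : NeZero N0 := ⟨right_ne_zero_of_mul (NeZero.ne (p * N0))⟩
  obtain ⟨ι⟩ : Nonempty (Qb →+* ℂ) := S24.nonempty_iotaC
  apply Subtype.ext
  rw [EIS.isWQ_dS (ι.comp (algebraMap L Qb)) ((Nat.Prime.coprime_iff_not_dvd hp).2 hpN)
    (GT.Loc.N1C_isWQ hp hpN) (DdC_coe_ddL p N0 L)]
  rw [IntermediateField.coe_mul, DdC_coe_ddL_inv, IntermediateField.coe_pow, map_pow, map_natCast]
  rfl

theorem DdC_div_mem₂ (hp : p.Prime) (hpN : ¬ p ∣ N0) :
    ddL p N0 L / (p : FF L (p * N0)) ^ 12 ∈ Val.Ozero' R p N0 := by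
  have hp0 : (p : FF L (p * N0)) ≠ 0 := Nat.cast_ne_zero.2 hp.ne_zero
  change GT.EMB.wQ L p N0 (ddL p N0 L / (p : FF L (p * N0)) ^ 12) ∈ gaussO R (p * N0)
  rw [map_div₀, map_pow, map_natCast, DdC_wQ_ddL p N0 hp hpN, mul_div_cancel_left₀ _ (pow_ne_zero _ hp0)]
  exact DdC_inv_mem₁ p N0 R

theorem DdC_div_inv_mem₂ (hp : p.Prime) (hpN : ¬ p ∣ N0) :
    (ddL p N0 L / (p : FF L (p * N0)) ^ 12)⁻¹ ∈ Val.Ozero' R p N0 := by
  have hp0 : (p : FF L (p * N0)) ≠ 0 := Nat.cast_ne_zero.2 hp.ne_zero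
  change GT.EMB.wQ L p N0 ((ddL p N0 L / (p : FF L (p * N0)) ^ 12)⁻¹) ∈ gaussO R (p * N0)
  rw [map_inv₀, map_div₀, map_pow, map_natCast, DdC_wQ_ddL p N0 hp hpN,
    mul_div_cancel_left₀ _ (pow_ne_zero _ hp0), inv_inv]
  exact DdC_mem₁ p N0 R

end Vert

section Hor

variable {L : IntermediateField ℚ Qb}

theorem DdC_j_mem (V : ValuationSubring (FF L (p * N0))) {t : FF L (p * N0)}
    (ht : (t : LaurentSeries L) = BaseCase.two.t L) (h1 : t ∈ V) (h2 : t⁻¹ ∈ V) :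
    (⟨jqModC L, jqModC_mem_full L (p * N0)⟩ : FF L (p * N0)) ∈ V := by
  set j : FF L (p * N0) := ⟨jqModC L, jqModC_mem_full L (p * N0)⟩ with hj
  have hrel : j * t ^ 2 = (t + 256) ^ 3 := by
    apply Subtype.ext
    have h := BaseCase.two.j_mul_t L
    rw [IntermediateField.coe_mul, IntermediateField.coe_pow, IntermediateField.coe_pow,
      IntermediateField.coe_add, ht]
    exact h
  have ht0 : t ≠ 0 := by
    intro h
    have h3 : BaseCase.two.t L = 0 := by rw [← ht, h]; rfl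
    have h4 := BaseCase.two.t_order L
    rw [h3, HahnSeries.order_zero] at h4
    omega
  have h5 : j = (t + 256) ^ 3 * (t⁻¹) ^ 2 := by
    rw [← hrel]
    field_simp
  rw [h5]
  exact mul_mem (pow_mem (add_mem h1 (ofNat_mem V 256)) 3) (pow_mem h2 2)

theorem DdC_tauL_cases (hr0 : BaseCase.two.r ∣ N0) (ε : ℤ) (hε : ε = 1 ∨ ε = -1) :
    tauL p N0 L hr0 ε = Val.up (Val.dvd_q0 p N0) (BaseCase.two.tF L hr0) ∨
      tauL p N0 L hr0 ε = (Val.up (Val.dvd_q0 p N0) (BaseCase.two.tF L hr0))⁻¹ := by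
  rcases hε with rfl | rfl
  · left
    rw [tauL, zpow_one]
  · right
    rw [tauL, zpow_neg_one]
    apply Subtype.ext
    rw [Val.coe_up]
    rfl

theorem DdC_tauL_ne_zero (hr0 : BaseCase.two.r ∣ N0) (ε : ℤ) (hε : ε = 1 ∨ ε = -1) :
    tauL p N0 L hr0 ε ≠ 0 := by
  have ht0 : Val.up (Val.dvd_q0 p N0) (BaseCase.two.tF L hr0) ≠ 0 := by
    intro h
    have h3 : BaseCase.two.t L = 0 := by
      have := congrArg (fun x : FF L (p * N0) => (x : LaurentSeries L)) h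
      simpa using this
    have h4 := BaseCase.two.t_order L
    rw [h3, HahnSeries.order_zero] at h4
    omega
  rcases DdC_tauL_cases p N0 (L := L) hr0 ε hε with h | h
  · rw [h]; exact ht0
  · rw [h]; exact inv_ne_zero ht0

/-- (F1) in terms of the parameter of the chart. -/
theorem DdC_hor (hr0 : BaseCase.two.r ∣ N0) (ε : ℤ) (hε : ε = 1 ∨ ε = -1)
    (V : ValuationSubring (FF L (p * N0))) (hV : ∀ c : L, algebraMap L (FF L (p * N0)) c ∈ V)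
    (h1 : tauL p N0 L hr0 ε ∈ V) (h2 : (tauL p N0 L hr0 ε)⁻¹ ∈ V) :
    ddL p N0 L ∈ V ∧ (ddL p N0 L)⁻¹ ∈ V := by
  obtain ⟨ι⟩ : Nonempty (Qb →+* ℂ) := S24.nonempty_iotaC
  have hT : Val.up (Val.dvd_q0 p N0) (BaseCase.two.tF L hr0) ∈ V ∧
      (Val.up (Val.dvd_q0 p N0) (BaseCase.two.tF L hr0))⁻¹ ∈ V := by
    rcases DdC_tauL_cases p N0 (L := L) hr0 ε hε with h | h
    · rw [h] at h1 h2
      exact ⟨h1, h2⟩
    · rw [h] at h1 h2
      rw [inv_inv] at h2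
      exact ⟨h2, h1⟩
  exact EIS.dd_mem_of_j_mem (ι.comp (algebraMap L Qb)) V hV rfl (DdC_coe_ddL p N0 L)
    (DdC_j_mem p N0 V (by rw [Val.coe_up]; rfl) hT.1 hT.2)

end Hor

/-- (F), concrete input of `dd_good_abs`, `dd_node_abs`. -/
theorem DdC_main (A : ValuationSubring Qb) (L : IntermediateField ℚ Qb)
    [IsDiscreteValuationRing (RL A L)] (hp : p.Prime) (hpN : ¬ p ∣ N0)
    (hr0 : BaseCase.two.r ∣ N0) (hϖ : Irreducible ((p : ℕ) : RL A L)) (ε : ℤ)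
    (hε : ε = 1 ∨ ε = -1)
    (hS : SatChart2 ((p : ℕ) : RL A L) (gaussO (RL A L) (p * N0)) (Val.Ozero' (RL A L) p N0)
      (chL p N0 A L hr0 ε)) :
    ∃ k : ℕ, tauL p N0 L hr0 ε ^ k * ddL p N0 L ∈ chL p N0 A L hr0 ε ∧
      tauL p N0 L hr0 ε ^ k * (piL p N0 A L ^ 12 * (ddL p N0 L)⁻¹) ∈ chL p N0 A L hr0 ε := by
  have hpi : piL p N0 A L = (p : FF L (p * N0)) := map_natCast _ p
  have hp0 : (p : FF L (p * N0)) ≠ 0 := Nat.cast_ne_zero.2 hp.ne_zero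
  have hpi0 : piL p N0 A L ≠ 0 := by rw [hpi]; exact hp0
  have hτ0 := DdC_tauL_ne_zero p N0 (L := L) hr0 ε hε
  have hd0 := DdC_ddL_ne_zero p N0 L
  have hpi₁ : piL p N0 A L ∈ gaussO (RL A L) (p * N0) :=
    hS.le₁ _ ((chL p N0 A L hr0 ε).algebraMap_mem _)
  have hpi₂ : piL p N0 A L ∈ Val.Ozero' (RL A L) p N0 :=
    hS.le₂ _ ((chL p N0 A L hr0 ε).algebraMap_mem _)
  obtain ⟨n, hn⟩ := DdInt_mem_chart (RL A L) hϖ hτ0 hS hpi0
    (y := ddL p N0 L) (fun V hV h1 h2 => (DdC_hor p N0 hr0 ε hε V hV h1 h2).1)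
    (DdC_mem₁ p N0 (RL A L))
    (by
      have e : ddL p N0 L = ddL p N0 L / (p : FF L (p * N0)) ^ 12 * piL p N0 A L ^ 12 := by
        rw [hpi]; field_simp
      rw [e]
      exact mul_mem (DdC_div_mem₂ p N0 (RL A L) hp hpN) (pow_mem hpi₂ 12))
  obtain ⟨m, hm⟩ := DdInt_mem_chart (RL A L) hϖ hτ0 hS hpi0
    (y := piL p N0 A L ^ 12 * (ddL p N0 L)⁻¹)
    (fun V hV h1 h2 => mul_mem (pow_mem (hV _) 12) (DdC_hor p N0 hr0 ε hε V hV h1 h2).2)
    (mul_mem (pow_mem hpi₁ 12) (DdC_inv_mem₁ p N0 (RL A L)))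
    (by
      have e : piL p N0 A L ^ 12 * (ddL p N0 L)⁻¹ = (ddL p N0 L / (p : FF L (p * N0)) ^ 12)⁻¹ := by
        rw [hpi]; field_simp
      rw [e]
      exact DdC_div_inv_mem₂ p N0 (RL A L) hp hpN)
  exact ⟨n + m, hn _ (Nat.le_add_right n m), hm _ (Nat.le_add_left m n)⟩

end Fermat.Agent.LP.PL
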