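import Fermat.Agent.LP.PL.Loc.Base
import Fermat.Agent.LP.PL.Loc.DdCore

/-!
# Project LP (S44), module PL-LOC, file DdC (F, concrete inputs): `d = Δ(q) / Δ(q^p)` on the chart of `h₂`

(`ddL` is defined in `DdCore.lean`.)
-/

set_option autoImplicit false
set_option synthInstance.maxHeartbeats 400000
set_option linter.unusedSectionVars false

noncomputable section

namespace Fermat.Agent.LP.PL

open Fermat.Agent.GR Fermat.Agent.GR.E Fermat.Agent.GR.D.Vert Fermat.Agent.GS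
  Fermat.Agent.GT Fermat.Agent.GT.Brg Fermat.Agent.C36.Unit ModularCurve

variable (p N0 : ℕ) [NeZero p] [NeZero N0] [NeZero (p * N0)]

variable {p N0} {A : ValuationSubring Qb} {S : Finset Qb} {L : IntermediateField ℚ Qb}

theorem DdC_toQb {dd : FF Qb (p * N0)} (hdd : (dd : LaurentSeries Qb) = EIS.dS Qb p) :
    toQb L (p * N0) (ddL p N0 L) = dd :=
  DdC_toQb_ddL p N0 L hdd

theorem DdC_ne_zero : ddL p N0 L ≠ 0 :=
  DdC_ddL_ne_zero p N0 L

/-- `v₁(d) = 0`, `v₂(d) = 12`. -/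
theorem DdC_gauss (hp : p.Prime) (hpN : ¬ p ∣ N0) [IsDiscreteValuationRing (RL A L)] :
    (ddL p N0 L)⁻¹ ∈ gaussO (RL A L) (p * N0) ∧
      ddL p N0 L / piL p N0 A L ^ 12 ∈ Val.Ozero' (RL A L) p N0 := by
  have hpi : piL p N0 A L = (p : FF L (p * N0)) := map_natCast _ p
  rw [hpi]
  exact ⟨DdC_inv_mem₁ p N0 (RL A L), DdC_div_mem₂ p N0 (RL A L) hp hpN⟩

/-- `d` and `p ^ 12 / d` are regular on the chart of `h₂` outside `h₂ = 0`. -/
theorem DdC_int (hp : p.Prime) (hpN : ¬ p ∣ N0) (hA : A.LiesOverPrime p)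
    (hL : GoodField A S L) [IsDiscreteValuationRing (RL A L)] (hr0 : BaseCase.two.r ∣ N0) :
    ∃ k : ℕ, tauL p N0 L hr0 1 ^ k * ddL p N0 L ∈ chL p N0 A L hr0 1 ∧
      tauL p N0 L hr0 1 ^ k * (piL p N0 A L ^ 12 * (ddL p N0 L)⁻¹) ∈ chL p N0 A L hr0 1 :=
  DdC_main p N0 A L hp hpN hr0 (Base_irreducible hp hA hL) 1 (Or.inl rfl)
    (Base_nodalChart hp hpN hA hL hr0 1 (Or.inl rfl)).toSatChart2

end Fermat.Agent.LP.PL
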