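import Fermat.Agent.LP.PL.Loc.Defs

/-!
# Project LP (S44), module PL-LOC: the target `NodeAll` of the parts (B), (C), (D)

Under the hypotheses of `LP.PLOut` there is a good field `L` over which `NodeOut` holds.
-/

set_option autoImplicit false
set_option synthInstance.maxHeartbeats 400000

noncomputable section

namespace Fermat.Agent.LP.PL

open Fermat.Agent.GR Fermat.Agent.GR.E Fermat.Agent.GT Fermat.Agent.GT.Brg Fermat.Agent.C36.Unit ModularCurve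

/-- TARGET of the parts (B), (C), (D). -/
def NodeAll (p M0 : ℕ) [NeZero p] [NeZero (p * (4 * M0))] (A : ValuationSubring Qb) : Prop :=
  ∀ 𝒪 : ValuationSubring (FF Qb (p * (4 * M0))), GR.S.R.IsGaussRing A (p * (4 * M0)) 𝒪 →
  ∀ w : FF Qb (p * (4 * M0)) ≃ₐ[Qb] FF Qb (p * (4 * M0)), GS.IsWQ Qb p (4 * M0) w →
  ∀ u1 u2 : FF Qb (p * (4 * M0)),
    IsKummer (N := p * (4 * M0)) p (u1 : LaurentSeries Qb) →
    IsKummer (N := p * (4 * M0)) p (u2 : LaurentSeries Qb) →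
    DeepAt (p * (4 * M0)) p A u1 → DeepAt (p * (4 * M0)) p A (w u1 : FF Qb (p * (4 * M0))) →
    ¬ KummerEquiv (p * (4 * M0)) p 1 (u1 : LaurentSeries Qb) →
    (∀ σ ∈ A.inertiaSubgroupIn ℚ, ∀ c : ℕ, (∀ μ : Qb, μ ^ p = 1 → σ μ = μ ^ c) →
      KummerEquiv (p * (4 * M0)) p ((u1 : LaurentSeries Qb) ^ c) (gal σ u1)) →
    (∀ σ ∈ A.inertiaSubgroupIn ℚ, ∃ b : ℕ,
      KummerEquiv (p * (4 * M0)) p ((u2 : LaurentSeries Qb) * (u1 : LaurentSeries Qb) ^ b)
        (gal σ u2)) →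
    PeuAt (p * (4 * M0)) p A u1 u2 →
    ∀ hr0 : BaseCase.two.r ∣ 4 * M0,
    ∃ (L : IntermediateField ℚ Qb) (S : Finset Qb) (_ : GoodField A S L)
      (_ : IsDiscreteValuationRing (RL A L)), NodeOut p (4 * M0) A L hr0 𝒪 u2

end Fermat.Agent.LP.PL
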