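import Fermat.Agent.LP.PL.Loc.GlueA
import Fermat.Agent.LP.PL.Loc.Defs2
import Fermat.Agent.LP.PL.Loc.Base
import Fermat.Agent.LP.PL.Loc2.Main
import Fermat.Agent.LP.PL.Loc.AsmOut

/-!
# LP-PL-LOC, file `Glue`: `NodeAll` from FORM, (B) and (D)
-/

set_option autoImplicit false
set_option synthInstance.maxHeartbeats 400000

noncomputable section

namespace Fermat.Agent.LP.PL

open Fermat.Agent.GR Fermat.Agent.GR.E Fermat.Agent.GR.D.Vert Fermat.Agent.GS Fermat.Agent.GT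
  Fermat.Agent.GT.Brg Fermat.Agent.C36.Unit ModularCurve IntermediateField

/-- **`NodeAll`.** -/
theorem nodeAll (p : ℕ) [NeZero p] (M0 : ℕ) (A : ValuationSubring Qb) (hp : p.Prime)
    (h5 : 5 ≤ p) (hM0 : M0 ≠ 0) (hpM : ¬ p ∣ M0) (hA : A.LiesOverPrime p)
    [NeZero (p * (4 * M0))] : NodeAll p M0 A := by
  intro 𝒪 h𝒪 w hw u1 u2 hu1 hu2 hd1 hd2 hne hcyc hb hpeu hr0
  have : NeZero (4 * M0) := ⟨mul_ne_zero (by norm_num) hM0⟩
  have hpN : ¬ p ∣ 4 * M0 := by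
    intro h
    rcases (Nat.Prime.dvd_mul hp).1 h with h1 | h1
    · have := Nat.le_of_dvd (by norm_num) h1
      omega
    · exact hpM h1
  haveI : NeZero (p : Qb) := ⟨by exact_mod_cast hp.ne_zero⟩
  obtain ⟨ζ, hζ⟩ := HasEnoughRootsOfUnity.exists_primitiveRoot Qb p
  obtain ⟨L₀, z1, hfin, hin, hz, hall⟩ := form_main_inertia_root A hp hζ hu1 hne hu2
    (fun σ hσ c hc => hcyc σ hσ c (Glue_root_act hp.ne_zero hζ σ hc)) hb
  obtain ⟨K, hKn, hKf, hLK, hLB, hgen⟩ := asm_main hp (by omega) hpN hA w hw u1 hu1 hd1 hd2 hζ hin hz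
    (fun L hL => (hall L hL).1.toLineData) hr0
  have hG : GoodField A ∅ (baseL A K) := Glue_goodField_baseL A K
  have hdvr : IsDiscreteValuationRing (RL A (baseL A K)) := Base_dvr hp hA hG
  obtain ⟨hpair, -, g, gL, Y, U, H, η, θ, F⟩ := hall (baseL A K) hLB
  have := hG.fin
  refine ⟨baseL A K, ∅, hG, hdvr, ?_⟩
  exact nodeOut_of_asGen hr0 hA hG.inert h𝒪 hpair F hpeu (Base_irreducible hp hA hG)
    (Base_gauss₁ hp hA hG _) (Base_gauss₂ hp hA hG)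
    (Base_nodalChart hp hpN hA hG hr0 1 (Or.inl rfl)) (Base_toQb_mem_iff hp hA h𝒪)
    (fun 𝔪 _ h𝔪 h₁ h₂ => hgen g F.deck gL F.deckL 𝔪 h𝔪 h₁ h₂)

end Fermat.Agent.LP.PL
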