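import Fermat.Agent.LP.PL.Loc.AsmArt
import Fermat.Agent.LP.PL.Loc.Defs
import Fermat.Agent.LP.PL.Form.MainRoot

/-!
# LP-PL-LOC, file `GlueA`: the base field `K ⊓ inertField A` is a good field; the input of FORM
-/

set_option autoImplicit false
set_option synthInstance.maxHeartbeats 400000

noncomputable section

namespace Fermat.Agent.LP.PL

open Fermat.Agent.GR Fermat.Agent.GR.E Fermat.Agent.GS Fermat.Agent.GT Fermat.Agent.GT.Brg ModularCurve
  IntermediateField

theorem Glue_finiteDimensional_baseL (A : ValuationSubring Qb) (K : IntermediateField ℚ Qb)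
    [FiniteDimensional ℚ K] : FiniteDimensional ℚ (baseL A K) :=
  FiniteDimensional.of_injective (IntermediateField.inclusion (baseL_le A K)).toLinearMap
    (IntermediateField.inclusion (baseL_le A K)).injective

/-- `K ⊓ inertField A` is a good field. -/
theorem Glue_goodField_baseL (A : ValuationSubring Qb) (K : IntermediateField ℚ Qb) [Normal ℚ K]
    [FiniteDimensional ℚ K] : GoodField A ∅ (baseL A K) where
  fin := Glue_finiteDimensional_baseL A K
  inert := inertFixed_baseL A K
  dstable := by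
    intro τ hτ x hx
    obtain ⟨h1, h2⟩ := IntermediateField.mem_inf.1 hx
    refine IntermediateField.mem_inf.2 ⟨?_, map_mem_inertField hτ h2⟩
    have hQ : Normal ℚ Qb := base_normal_Qb
    have := (IntermediateField.normal_iff_forall_map_le'.1 (inferInstance : Normal ℚ K)) τ
    exact this ⟨x, h1, rfl⟩
  big := by simp

theorem Glue_le_baseL {A : ValuationSubring Qb} {L₀ K : IntermediateField ℚ Qb}
    (h : InertFixed A L₀) (hK : L₀ ≤ K) : L₀ ≤ baseL A K :=
  le_inf hK (inertFixed_iff.1 h)

/-- the action on all the `p`-th roots of unity from the action on a primitive one. -/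
theorem Glue_root_act {p : ℕ} (hp : p ≠ 0) {ζ : Qb} (hζ : IsPrimitiveRoot ζ p)
    (σ : Qb ≃ₐ[ℚ] Qb) {c : ℕ} (hc : σ ζ = ζ ^ c) (μ : Qb) (hμ : μ ^ p = 1) : σ μ = μ ^ c := by
  haveI : NeZero p := ⟨hp⟩
  obtain ⟨i, -, rfl⟩ := hζ.eq_pow_of_pow_eq_one hμ
  rw [map_pow, hc, ← pow_mul, ← pow_mul, mul_comm]

end Fermat.Agent.LP.PL
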