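import Fermat.Agent.LP.PL.Good.Adapt
import Fermat.Agent.LP.Nod.BrMain
import Fermat.Agent.GS.Inst.Out

/-!
# Project LP (S44), module PL-LOC, file Good (E): points of the component `∞` which are not nodes

`good_pdiv` : `V ≤ 𝒪` contains the chart of `h₂ ^ ε` over `A ∩ L` and some element `e` of the vertical prime `𝔭₂`
of this chart is a unit of `V` (i.e. the center of `V` is not a node).  Then every Kummer function `u2`
(divisor divisible by `p` on the generic fibre) is a unit of `V` times a `p`-th power.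
-/

set_option autoImplicit false
set_option synthInstance.maxHeartbeats 400000
set_option linter.unusedSectionVars false

noncomputable section

namespace Fermat.Agent.LP.PL

open Fermat.Agent.GR Fermat.Agent.GR.E Fermat.Agent.GR.D.Vert Fermat.Agent.GS
  Fermat.Agent.GT Fermat.Agent.GT.Brg Fermat.Agent.C36.Unit ModularCurve

variable {p N0 : ℕ} [NeZero p] [NeZero N0] [NeZero (p * N0)] {A : ValuationSubring Qb}

/-- (E) -/
theorem good_pdiv (hp : p.Prime) (hpN : ¬ p ∣ N0) (hA : A.LiesOverPrime p)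
    {L : IntermediateField ℚ Qb} [FiniteDimensional ℚ L] [IsDiscreteValuationRing (RL A L)]
    {𝒪 : ValuationSubring (FF Qb (p * N0))} (h𝒪 : GR.S.R.IsGaussRing A (p * N0) 𝒪)
    (hr0 : BaseCase.two.r ∣ N0) (ε : ℤ) (hε : ε = 1 ∨ ε = -1)
    {u2 : FF Qb (p * N0)} (hu2 : IsKummer (N := p * N0) p (u2 : LaurentSeries Qb))
    {V : ValuationSubring (FF Qb (p * N0))} (hV : V ≤ 𝒪)
    (hτ : toQb L (p * N0) (tauL p N0 L hr0 ε) ∈ V)
    {e : FF L (p * N0)} (he : e ∈ chL p N0 A L hr0 ε) (he0 : e ≠ 0)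
    (he2 : e / piL p N0 A L ∈ Val.Ozero' (RL A L) p N0)
    (heV : (toQb L (p * N0) e)⁻¹ ∈ V) : PDivAt V p u2 :=
  Good.good_pdiv hp hpN hr0 hA h𝒪 hV L hr0 hε hτ he he0 he2 heV hp.pos hu2

end Fermat.Agent.LP.PL
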