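import Fermat.Agent.LP.Nod.BrNodal
import Fermat.Agent.LP.Nod.NodeP

/-!
# LP-PL-LOC, file `NodeB`: NODE-p over a field of definition `L ∋ ζ_p`

Twin of `LP.nodal_coreP` (`LP/Nod/BrNodal.lean`): same hypotheses (without the automorphism `τ`),
the conclusion is the output of `LP.nodeP` at every closed point of the special fibre of both charts:
`∃ α ≠ 0, (α ^ p * y - 1) / ((ζ - 1) ^ p * ϖ) ∈ locAt C 𝔪`.
-/

set_option autoImplicit false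
set_option synthInstance.maxHeartbeats 400000

noncomputable section

namespace Fermat.Agent.LP.PL

open Fermat.Agent.GR Fermat.Agent.GR.E Fermat.Agent.GS ModularCurve IntermediateField
open Fermat.Agent.LP

theorem node_coreP {L : Type*} [Field L] (φ : L →+* Qb) (A : ValuationSubring Qb) (p N : ℕ)
    (h : FF L N) (w : FF L N ≃ₐ[L] FF L N) (𝒪₁ 𝒪₂ : ValuationSubring (FF L N))
    [IsDiscreteValuationRing (A.comap φ)]
    (MD : NodalModelData (A.comap φ) p N h w 𝒪₁ 𝒪₂) (hp : p.Prime)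
    (hpA : ¬ IsUnit ((p : ℕ) : A.comap φ))
    (ζ d d' : A.comap φ) (hζ : IsPrimitiveRoot ζ p) (hd0 : d ≠ 0) (hd : ¬ IsUnit d)
    (hd0' : d' ≠ 0) (hd' : ¬ IsUnit d')
    (y z₁ z₂ a b a' b' : FF L N) (hz₁ : z₁ ≠ 0) (hz₂ : z₂ ≠ 0) (hb0 : b ≠ 0)
    (hb0' : b' ≠ 0) (h₁ : a / b = y * z₁ ^ p) (h₂ : a' / b' = w y * z₂ ^ p)
    (hpa : IsPrim A (coeffMap φ (a : LaurentSeries L)))
    (hib : IsInt A (coeffMap φ (b : LaurentSeries L)))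
    (hab : ∀ m : ℤ, ∃ r ∈ A, (coeffMap φ (a : LaurentSeries L)).coeff m -
      (coeffMap φ (b : LaurentSeries L)).coeff m = φ (((ζ - 1) ^ p * d : A.comap φ) : L) * r)
    (hpa' : IsPrim A (coeffMap φ (a' : LaurentSeries L)))
    (hib' : IsInt A (coeffMap φ (b' : LaurentSeries L)))
    (hab' : ∀ m : ℤ, ∃ r ∈ A, (coeffMap φ (a' : LaurentSeries L)).coeff m -
      (coeffMap φ (b' : LaurentSeries L)).coeff m = φ (((ζ - 1) ^ p * d' : A.comap φ) : L) * r)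
    (c0 : Certificate L h p y) (c1 : Certificate L h⁻¹ p y)
    (ϖ : A.comap φ) (hϖ : Irreducible ϖ) :
    (∀ (𝔪 : Ideal (chart (A.comap φ) ({h} : Set (FF L N)))) [𝔪.IsPrime], 𝔪.IsMaximal →
      algebraMap (A.comap φ) (chart (A.comap φ) ({h} : Set (FF L N))) ϖ ∈ 𝔪 →
      ∃ α : FF L N, α ≠ 0 ∧
        (α ^ p * y - 1) / algebraMap (A.comap φ) (FF L N) ((ζ - 1) ^ p * ϖ) ∈
          locAt (chart (A.comap φ) ({h} : Set (FF L N))) 𝔪) ∧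
    (∀ (𝔪 : Ideal (chart (A.comap φ) ({h⁻¹} : Set (FF L N)))) [𝔪.IsPrime], 𝔪.IsMaximal →
      algebraMap (A.comap φ) (chart (A.comap φ) ({h⁻¹} : Set (FF L N))) ϖ ∈ 𝔪 →
      ∃ α : FF L N, α ≠ 0 ∧
        (α ^ p * y - 1) / algebraMap (A.comap φ) (FF L N) ((ζ - 1) ^ p * ϖ) ∈
          locAt (chart (A.comap φ) ({h⁻¹} : Set (FF L N))) 𝔪) := by
  have hG₁ := MD.gauss₁ ϖ hϖ
  have hG₂ := MD.gauss₂ ϖ hϖ
  have hn0 : p ≠ 0 := hp.ne_zero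
  have hdvd : ∀ x : A.comap φ, ¬ IsUnit x → ϖ ∣ x := by
    intro x hx
    have h1 : x ∈ IsLocalRing.maximalIdeal (A.comap φ) := (IsLocalRing.mem_maximalIdeal x).2 hx
    rwa [hϖ.maximalIdeal_eq, Ideal.mem_span_singleton] at h1
  have hU : PUnif ϖ p (ζ - 1) := punif_of_primitiveRoot hϖ.prime hp (hdvd _ hpA) hζ
  have hR₁ : ∀ r : A.comap φ, algebraMap (A.comap φ) (FF L N) r ∈ 𝒪₁ := fun r =>
    (MD.nodal0 ϖ hϖ).le₁ _ (Subalgebra.algebraMap_mem _ r)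
  have hlam0 : ζ - 1 ≠ 0 := hU.ne_zero
  -- step 1
  have key : ∀ (d : A.comap φ), d ≠ 0 → ¬ IsUnit d → ∀ a b : FF L N, b ≠ 0 →
      IsPrim A (coeffMap φ (a : LaurentSeries L)) → IsInt A (coeffMap φ (b : LaurentSeries L)) →
      (∀ m : ℤ, ∃ r ∈ A, (coeffMap φ (a : LaurentSeries L)).coeff m -
        (coeffMap φ (b : LaurentSeries L)).coeff m = φ (((ζ - 1) ^ p * d : A.comap φ) : L) * r) →
      Cg 𝒪₁ ((ζ - 1) ^ p * ϖ) (a / b) 1 := by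
    intro d hd0 hd a b hb0 hpa hib hab
    have hc0 : (ζ - 1) ^ p * d ≠ 0 := mul_ne_zero (pow_ne_zero _ hlam0) hd0
    have hcu : ¬ IsUnit ((ζ - 1) ^ p * d) := fun h => hd (isUnit_of_mul_isUnit_right h)
    have h1 : Cg 𝒪₁ ((ζ - 1) ^ p * d) (a / b) 1 := by
      unfold Cg
      rw [MD.spec]
      exact BrGauss_isGaussInt φ A N _ hc0 hcu a b hb0 hpa hib hab
    exact h1.of_dvd hR₁ (mul_dvd_mul_left _ (hdvd d hd)) (Cg_algebraMap_ne_zero hϖ hG₁ hc0)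
  have e₁ : Cg 𝒪₁ ((ζ - 1) ^ p * ϖ) (y * z₁ ^ p) 1 := by
    rw [← h₁]
    exact key d hd0 hd a b hb0 hpa hib hab
  have e₂' : Cg 𝒪₁ ((ζ - 1) ^ p * ϖ) (w y * z₂ ^ p) 1 := by
    rw [← h₂]
    exact key d' hd0' hd' a' b' hb0' hpa' hib' hab'
  have hwP : ∀ r : A.comap φ, w (algebraMap (A.comap φ) (FF L N) r) =
      algebraMap (A.comap φ) (FF L N) r := fun r => w.commutes (r : L)
  have e₂ : Cg 𝒪₂ ((ζ - 1) ^ p * ϖ) (y * (w.symm z₂) ^ p) 1 := by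
    unfold Cg at e₂' ⊢
    rw [MD.opp, map_div₀, map_sub, map_mul, map_pow, w.apply_symm_apply, map_one, hwP]
    exact e₂'
  have hz₂' : w.symm z₂ ≠ 0 := by
    simpa using hz₂
  -- step 2
  obtain ⟨z, hz0, hw₁, hw₂⟩ := exists_common_powP hϖ hG₁ hG₂ (MD.arch₁ hϖ) (MD.arch₂ hϖ)
    (MD.nodal0 ϖ hϖ) hU hz₁ hz₂' e₁ e₂
  -- step 3
  have cert0 : CertAt ϖ (chart (A.comap φ) ({h} : Set (FF L N))) p (y * z ^ p) :=
    (certAt_of_certificate (A.comap φ) hϖ h p hn0 y c0).mul_pow hz0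
  have cert1 : CertAt ϖ (chart (A.comap φ) ({h⁻¹} : Set (FF L N))) p (y * z ^ p) :=
    (certAt_of_certificate (A.comap φ) hϖ h⁻¹ p hn0 y c1).mul_pow hz0
  have hdiv : DivisibleAtPlaces (A.comap φ) p (y * z ^ p) :=
    divisibleAtPlaces_of_certAt hG₁.ne_zero hp.pos cert0 cert1
  have hζ1 : (1 + (ζ - 1)) ^ p = 1 := by
    rw [add_sub_cancel]; exact hζ.pow_eq_one
  constructor
  · intro 𝔪 _ h𝔪 hϖ𝔪
    obtain ⟨α, hα0, hα⟩ := nodeP hϖ hG₁ hG₂ (MD.nodal0 ϖ hϖ) hU hζ1 hw₁ hw₂ hdiv cert0 𝔪 h𝔪 hϖ𝔪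
    refine ⟨α * z, mul_ne_zero hα0 hz0, ?_⟩
    have e : (α * z) ^ p * y = α ^ p * (y * z ^ p) := by ring
    rw [e]
    exact hα
  · intro 𝔪 _ h𝔪 hϖ𝔪
    obtain ⟨α, hα0, hα⟩ := nodeP hϖ hG₁ hG₂ (MD.nodal1 ϖ hϖ) hU hζ1 hw₁ hw₂ hdiv cert1 𝔪 h𝔪 hϖ𝔪
    refine ⟨α * z, mul_ne_zero hα0 hz0, ?_⟩
    have e : (α * z) ^ p * y = α ^ p * (y * z ^ p) := by ring
    rw [e]
    exact hα

end Fermat.Agent.LP.PL
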