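import Fermat.Agent.LP.PL.Loc.NodeBInt

/-!
# LP-PL-LOC, file `NodeBChart`: `chart R' {ι h}` is integral over `chart R {h}`

* `NodeBChart_const` : `R'` is integral over `R` if a finite family of automorphisms `δ` (closed under
  composition, containing the identity) preserves the constants `R'` and the `δ`-invariant constants
  come from `R` (polynomial `∏ (X - δ i r')`).
* `isIntegralElem_of_mem_chart` : hence `chart R' {ι h}` is integral over `ι (chart R {h})`
  (hypothesis `hint` of `isIntegralElem_of_mem_locAt`).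
-/

set_option autoImplicit false

noncomputable section

namespace Fermat.Agent.LP.PL

open Fermat.Agent.GS Fermat.Agent.GR.E Polynomial

variable {R F R' F' : Type*} [CommRing R] [Field F] [Algebra R F] [CommRing R'] [Field F']
  [Algebra R' F']

/-- `R'` is integral over `R`. -/
theorem NodeBChart_const (ι : F →+* F')
    {κ : Type*} [Fintype κ] (δ : κ → F' ≃+* F') (i₀ : κ) (hid : ∀ e, δ i₀ e = e)
    (hperm : ∀ i, ∃ π : Equiv.Perm κ, ∀ k e, δ i (δ k e) = δ (π k) e)
    (hδR : ∀ i (r : R'), ∃ r' : R', δ i (algebraMap R' F' r) = algebraMap R' F' r')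
    (hdesc : ∀ r' : R', (∀ i, δ i (algebraMap R' F' r') = algebraMap R' F' r') →
      ∃ r : R, ι (algebraMap R F r) = algebraMap R' F' r')
    (r' : R') : (ι.comp (algebraMap R F)).IsIntegralElem (algebraMap R' F' r') := by
  classical
  choose c hc using fun i => hδR i r'
  -- the polynomial over `R'`
  set P' : R'[X] := ∏ i, (X - C (c i)) with hP'
  have hP'm : P'.Monic := monic_prod_of_monic _ _ fun i _ => monic_X_sub_C _
  set P : F'[X] := P'.map (algebraMap R' F') with hP
  have hPe : P = ∏ i, (X - C (δ i (algebraMap R' F' r'))) := by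
    rw [hP, hP', Polynomial.map_prod]
    refine Finset.prod_congr rfl fun i _ => ?_
    rw [Polynomial.map_sub, map_X, map_C, hc]
  have hPfix : ∀ j, P.map (δ j : F' →+* F') = P := by
    intro j
    obtain ⟨π, hπ⟩ := hperm j
    rw [hPe, Polynomial.map_prod]
    have : ∀ i, (X - C (δ i (algebraMap R' F' r'))).map (δ j : F' →+* F') =
        X - C (δ (π i) (algebraMap R' F' r')) := by
      intro i
      rw [Polynomial.map_sub, map_X, map_C]
      congr 2
      exact hπ i _
    simp only [this]
    exact Equiv.prod_comp π (fun k => X - C (δ k (algebraMap R' F' r')))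
  have hlift : P ∈ lifts (ι.comp (algebraMap R F)) := by
    rw [lifts_iff_coeff_lifts]
    intro n
    have h1 : P.coeff n = algebraMap R' F' (P'.coeff n) := by rw [hP, coeff_map]
    obtain ⟨r, hr⟩ := hdesc (P'.coeff n) (by
      intro j
      rw [← h1]
      have := congrArg (fun Q => Q.coeff n) (hPfix j)
      simpa [coeff_map] using this)
    exact ⟨r, by rw [h1, ← hr]; rfl⟩
  have hPm : P.Monic := hP'm.map _
  obtain ⟨Q, hQ, -, hQm⟩ := lifts_and_degree_eq_and_monic hlift hPm
  refine ⟨Q, hQm, ?_⟩
  rw [← eval_map, hQ, hPe, eval_prod]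
  apply Finset.prod_eq_zero (Finset.mem_univ i₀)
  rw [hid]
  simp

/-- the ring hom version of: integral over a subalgebra `A₀ ≤ C` implies integral over `C`. -/
theorem NodeBChart_adjoin (ι : F →+* F') (h : F)
    (hR' : ∀ r' : R', (ι.comp (algebraMap R F)).IsIntegralElem (algebraMap R' F' r'))
    {x : F'} (hx : x ∈ Algebra.adjoin R' ({ι h} : Set F')) :
    (ι.comp (algebraMap (Algebra.adjoin R ({h} : Set F)) F)).IsIntegralElem x := by
  induction hx using Algebra.adjoin_induction with
  | mem y hy =>
    rw [Set.mem_singleton_iff] at hy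
    rw [hy]
    exact (ι.comp (algebraMap (Algebra.adjoin R ({h} : Set F)) F)).isIntegralElem_map
      (x := (⟨h, Algebra.subset_adjoin rfl⟩ : Algebra.adjoin R ({h} : Set F)))
  | algebraMap r =>
    obtain ⟨P, hP, hPx⟩ := hR' r
    refine ⟨P.map (algebraMap R (Algebra.adjoin R ({h} : Set F))), hP.map _, ?_⟩
    rw [eval₂_map]
    exact hPx
  | add y z _ _ hy hz => exact RingHom.IsIntegralElem.add _ hy hz
  | mul y z _ _ hy hz => exact RingHom.IsIntegralElem.mul _ hy hz

/-- **(B2c)** `chart R' {ι h}` is integral over `ι (chart R {h})`. -/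
theorem isIntegralElem_of_mem_chart (ι : F →+* F') (h : F)
    (hR' : ∀ r' : R', (ι.comp (algebraMap R F)).IsIntegralElem (algebraMap R' F' r'))
    {x : F'} (hx : x ∈ chart R' ({ι h} : Set F')) :
    (ι.comp (algebraMap (chart R ({h} : Set F)) F)).IsIntegralElem x := by
  have hle : Algebra.adjoin R ({h} : Set F) ≤ chart R ({h} : Set F) := by
    intro y hy
    rw [mem_chart]
    exact isIntegral_algebraMap (x := (⟨y, hy⟩ : Algebra.adjoin R ({h} : Set F)))
  apply NodeBInt_isIntegralElem_of_le ι hle
  -- transitivity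
  set f : Algebra.adjoin R ({h} : Set F) →+* F' :=
    ι.comp (algebraMap (Algebra.adjoin R ({h} : Set F)) F) with hf
  let _ : Algebra (Algebra.adjoin R ({h} : Set F)) F' := f.toAlgebra
  have hx' : IsIntegral (Algebra.adjoin R' ({ι h} : Set F')) x := mem_chart.1 hx
  obtain ⟨P, hP, hPx⟩ := hx'
  -- `x` is integral over the integral closure of `A₀` in `F'`
  have hcoef : ∀ n, IsIntegral (Algebra.adjoin R ({h} : Set F))
      ((P.map (algebraMap (Algebra.adjoin R' ({ι h} : Set F')) F')).coeff n) := by
    intro n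
    rw [coeff_map]
    exact NodeBChart_adjoin ι h hR' (P.coeff n).2
  have hroot : (P.map (algebraMap (Algebra.adjoin R' ({ι h} : Set F')) F')).eval x = 0 := by
    rw [eval_map]; exact hPx
  have hlift : P.map (algebraMap (Algebra.adjoin R' ({ι h} : Set F')) F') ∈
      lifts (algebraMap (integralClosure (Algebra.adjoin R ({h} : Set F)) F') F') := by
    rw [lifts_iff_coeff_lifts]
    intro n
    exact ⟨⟨_, hcoef n⟩, rfl⟩
  obtain ⟨Q, hQ, -, hQm⟩ := lifts_and_degree_eq_and_monic hlift (hP.map _)
  have hxint : IsIntegral (integralClosure (Algebra.adjoin R ({h} : Set F)) F') x :=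
    ⟨Q, hQm, by rw [← eval_map, hQ]; exact hroot⟩
  exact isIntegral_trans x hxint

end Fermat.Agent.LP.PL
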