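import Fermat.Agent.GS.Abs.Defs

/-!
# LP-PL-LOC, file `NodeBInt`: integrality of `locAt C' 𝔪'` over `locAt C 𝔪` (norm trick)

`ι : F → F'` fields, `δ` a finite family of automorphisms of `F'`, closed under composition,
containing the identity, with fixed field `ι F`.  `C` integrally closed in `F`, `C'` integral over
`ι C` and stable under `δ`, `𝔪'` a `δ`-stable prime of `C'`, `𝔪 = 𝔪' ∩ C`.  Then every element of
`locAt C' 𝔪'` is integral over `locAt C 𝔪`:  `x = a / s = a ∏_{i ≠ i₀} δ i s / N s`, `N s ∈ ι (C ∖ 𝔪)`.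
-/

set_option autoImplicit false

noncomputable section

namespace Fermat.Agent.LP.PL

open Fermat.Agent.GS

variable {R F R' F' : Type*} [CommRing R] [Field F] [Algebra R F] [CommRing R'] [Field F']
  [Algebra R' F']

theorem NodeBInt_isIntegralElem_of_le (ι : F →+* F') {C B : Subalgebra R F} (hCB : C ≤ B) {x : F'}
    (hx : (ι.comp (algebraMap C F)).IsIntegralElem x) :
    (ι.comp (algebraMap B F)).IsIntegralElem x := by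
  obtain ⟨P, hP, hPx⟩ := hx
  refine ⟨P.map (Subalgebra.inclusion hCB).toRingHom, hP.map _, ?_⟩
  rw [Polynomial.eval₂_map]
  exact hPx

theorem isIntegralElem_of_mem_locAt (ι : F →+* F') (C : Subalgebra R F)
    (hCic : ∀ x : F, IsIntegral C x → x ∈ C) (C' : Subalgebra R' F')
    (hint : ∀ x ∈ C', (ι.comp (algebraMap C F)).IsIntegralElem x)
    {κ : Type*} [Fintype κ] (δ : κ → F' ≃+* F') (i₀ : κ) (hid : ∀ e, δ i₀ e = e)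
    (hperm : ∀ i, ∃ π : Equiv.Perm κ, ∀ k e, δ i (δ k e) = δ (π k) e)
    (hfix : ∀ x : F', (∀ i, δ i x = x) → ∃ f : F, ι f = x)
    (hδC : ∀ i, ∀ x ∈ C', δ i x ∈ C')
    (𝔪' : Ideal C') [𝔪'.IsPrime]
    (hδ𝔪 : ∀ i (x : C'), (⟨δ i x, hδC i x x.2⟩ : C') ∈ 𝔪' → x ∈ 𝔪')
    (𝔪 : Ideal C) [𝔪.IsPrime]
    (h𝔪 : ∀ (c : C) (hc : ι c ∈ C'), c ∈ 𝔪 → (⟨ι c, hc⟩ : C') ∈ 𝔪')
    {x : F'} (hx : x ∈ locAt C' 𝔪') :
    (ι.comp (algebraMap (locAt C 𝔪) F)).IsIntegralElem x := by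
  classical
  obtain ⟨s, hs, hxs⟩ := hx
  -- the norm
  set Ns : C' := ∏ i, (⟨δ i s, hδC i s s.2⟩ : C') with hNs
  have hNsv : (Ns : F') = ∏ i, δ i s := by
    rw [hNs]
    simp
  have hNs𝔪 : Ns ∉ 𝔪' := by
    intro h
    obtain ⟨i, -, hi⟩ := (Ideal.IsPrime.prod_mem_iff (hp := inferInstance)).1 h
    exact hs (hδ𝔪 i s hi)
  have hNsfix : ∀ j, δ j (Ns : F') = Ns := by
    intro j
    obtain ⟨π, hπ⟩ := hperm j
    rw [hNsv, map_prod]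
    simp only [hπ]
    exact Equiv.prod_comp π (fun k => δ k (s : F'))
  obtain ⟨f, hf⟩ := hfix _ hNsfix
  have hfC : f ∈ C := by
    apply hCic
    obtain ⟨P, hP, hPx⟩ := hint _ Ns.2
    refine ⟨P, hP, ?_⟩
    apply ι.injective
    rw [map_zero, ← hPx, ← hf, Polynomial.hom_eval₂]
  have hf𝔪 : (⟨f, hfC⟩ : C) ∉ 𝔪 := by
    intro h
    have h1 := h𝔪 ⟨f, hfC⟩ (by show ι f ∈ C'; rw [hf]; exact Ns.2) h
    apply hNs𝔪
    have e : (⟨ι ((⟨f, hfC⟩ : C) : F), by show ι f ∈ C'; rw [hf]; exact Ns.2⟩ : C') = Ns :=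
      Subtype.ext hf
    rwa [e] at h1
  have hf0 : f ≠ 0 := by
    rintro rfl
    exact hf𝔪 (by
      have : (⟨0, hfC⟩ : C) = 0 := rfl
      rw [this]; exact 𝔪.zero_mem)
  -- `x * Ns ∈ C'`
  have hsplit : (Ns : F') = s * ∏ i ∈ Finset.univ.erase i₀, δ i s := by
    rw [hNsv, ← Finset.mul_prod_erase Finset.univ (fun i => δ i (s : F')) (Finset.mem_univ i₀), hid]
  have hrest : ∏ i ∈ Finset.univ.erase i₀, δ i (s : F') ∈ C' :=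
    Subalgebra.prod_mem _ fun i _ => hδC i s s.2
  have hxN : x * Ns ∈ C' := by
    rw [hsplit, ← mul_assoc]
    exact C'.mul_mem hxs hrest
  have hinv : f⁻¹ ∈ locAt C 𝔪 := ⟨⟨f, hfC⟩, hf𝔪, by
    show f⁻¹ * f ∈ C
    rw [inv_mul_cancel₀ hf0]; exact C.one_mem⟩
  have e : x = (x * Ns) * ι f⁻¹ := by
    rw [map_inv₀, hf, mul_assoc, mul_inv_cancel₀, mul_one]
    rw [← hf]
    exact (map_ne_zero ι).2 hf0
  rw [e]
  apply RingHom.IsIntegralElem.mul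
  · exact NodeBInt_isIntegralElem_of_le ι (le_locAt C 𝔪) (hint _ hxN)
  · exact (ι.comp (algebraMap (locAt C 𝔪) F)).isIntegralElem_map (x := (⟨f⁻¹, hinv⟩ : locAt C 𝔪))

/-- At a node (a prime containing both vertical ideals) an automorphism which is `FrobLike` with
exponent `1` preserves the prime. -/
theorem NodeBInt_mem_of_frobLike {ϖ' : R'} {𝒪₁ 𝒪₂ : ValuationSubring F'} {C' : Subalgebra R' F'}
    {τ : F' ≃+* F'} (hτ : FrobLike ϖ' 𝒪₁ 𝒪₂ C' τ 1) (hτC : ∀ x ∈ C', τ x ∈ C')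
    (𝔪' : Ideal C') (h₁ : vert ϖ' 𝒪₁ C' ≤ 𝔪') (h₂ : vert ϖ' 𝒪₂ C' ≤ 𝔪') (x : C')
    (hx : (⟨τ x, hτC x x.2⟩ : C') ∈ 𝔪') : x ∈ 𝔪' := by
  obtain ⟨y₁, hy₁, y₂, hy₂, hv₁, hv₂, e⟩ := hτ x x.2
  have m₁ : (⟨y₁, hy₁⟩ : C') ∈ 𝔪' := h₁ (Ideal.subset_span hv₁)
  have m₂ : (⟨y₂, hy₂⟩ : C') ∈ 𝔪' := h₂ (Ideal.subset_span hv₂)
  have e' : x = (⟨τ x, hτC x x.2⟩ : C') - (⟨y₁, hy₁⟩ + ⟨y₂, hy₂⟩) := by
    apply Subtype.ext
    show (x : F') = τ x - (y₁ + y₂)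
    rw [← e, pow_one]; ring
  rw [e']
  exact 𝔪'.sub_mem hx (𝔪'.add_mem m₁ m₂)

/-- **(B2b) at a node.** -/
theorem isIntegralElem_of_mem_locAt_node (ι : F →+* F') (C : Subalgebra R F)
    (hCic : ∀ x : F, IsIntegral C x → x ∈ C) (C' : Subalgebra R' F')
    (hint : ∀ x ∈ C', (ι.comp (algebraMap C F)).IsIntegralElem x)
    {κ : Type*} [Fintype κ] (δ : κ → F' ≃+* F') (i₀ : κ) (hid : ∀ e, δ i₀ e = e)
    (hperm : ∀ i, ∃ π : Equiv.Perm κ, ∀ k e, δ i (δ k e) = δ (π k) e)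
    (hfix : ∀ x : F', (∀ i, δ i x = x) → ∃ f : F, ι f = x)
    (hδC : ∀ i, ∀ x ∈ C', δ i x ∈ C')
    {ϖ' : R'} {𝒪₁ 𝒪₂ : ValuationSubring F'} (hδ : ∀ i, FrobLike ϖ' 𝒪₁ 𝒪₂ C' (δ i) 1)
    (𝔪' : Ideal C') [𝔪'.IsPrime] (h₁ : vert ϖ' 𝒪₁ C' ≤ 𝔪') (h₂ : vert ϖ' 𝒪₂ C' ≤ 𝔪')
    (𝔪 : Ideal C) [𝔪.IsPrime]
    (h𝔪 : ∀ (c : C) (hc : ι c ∈ C'), c ∈ 𝔪 → (⟨ι c, hc⟩ : C') ∈ 𝔪')
    {x : F'} (hx : x ∈ locAt C' 𝔪') :
    (ι.comp (algebraMap (locAt C 𝔪) F)).IsIntegralElem x :=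
  isIntegralElem_of_mem_locAt ι C hCic C' hint δ i₀ hid hperm hfix hδC 𝔪'
    (fun i x hx => NodeBInt_mem_of_frobLike (hδ i) (hδC i) 𝔪' h₁ h₂ x hx) 𝔪 h𝔪 hx

end Fermat.Agent.LP.PL
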