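import Fermat.Agent.LP.PL.Loc.Top
import Fermat.Agent.LP.PL.Loc.Defs2

/-!
# Project LP (S44), module PL-LOC, file Out: `LP.PLOut` from `NodeAll`
-/

set_option autoImplicit false
set_option synthInstance.maxHeartbeats 400000

noncomputable section

namespace Fermat.Agent.LP.PL

open Fermat.Agent.GR Fermat.Agent.GR.E Fermat.Agent.GT Fermat.Agent.GT.Brg Fermat.Agent.C36.Unit
  ModularCurve

/-- `PLOut` from the Picard-Lefschetz formula at the nodes. -/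
theorem plOut_of_nodeAll (p : ℕ) [NeZero p] (M0 : ℕ) (A : ValuationSubring Qb) (hp : p.Prime)
    (h5 : 5 ≤ p) (hM0 : M0 ≠ 0) (hpM : ¬ p ∣ M0) (hA : A.LiesOverPrime p)
    [NeZero (p * (4 * M0))] (hN : NodeAll p M0 A) : PLOut p M0 A := by
  intro 𝒪 h𝒪 w hw u1 u2 dd jj hdd hjj hu1 hu2 hd1 hd2 hne hcyc hb hpeu
  have : NeZero (4 * M0) := ⟨mul_ne_zero (by norm_num) hM0⟩
  have hr0 : BaseCase.two.r ∣ 4 * M0 := Dvd.dvd.mul_right (by decide : BaseCase.two.r ∣ 4) M0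
  have hl0 : BaseCase.two.lvl ∣ 4 * M0 := Dvd.intro M0 rfl
  have hpN : ¬ p ∣ 4 * M0 := by
    intro h
    rcases (Nat.Prime.dvd_mul hp).1 h with h1 | h1
    · have := Nat.le_of_dvd (by norm_num) h1
      omega
    · exact hpM h1
  obtain ⟨L, S, hL, hdvr, hNO⟩ := hN 𝒪 h𝒪 w hw u1 u2 hu1 hu2 hd1 hd2 hne hcyc hb hpeu hr0
  exact plOut_of_nodeOut hp (by omega) hpN hA hL h𝒪 hl0 hr0 hdd hjj hu2 hNO

end Fermat.Agent.LP.PL
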