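import Fermat.Agent.LP.PL.Loc.PsiRoot

/-!
# LP-PL-LOC, LOC-PSI, file `PsiComp`: the residue `k` of an inertia automorphism at a point, and its
independence of the point on a component

`Sg` is a ring automorphism of `F = F_K` (an element of the inertia group acting on the coefficients),
`Sg ζ = ζ ^ c`.  `y = z1 ^ p ∈ F`, `Sg y = y ^ c x ^ p`.
-/

set_option autoImplicit false

namespace Fermat.Agent.LP.PL

variable {F : Type*} [Field F] {p : ℕ} {ζ ϖ : F} {S : Subring F} {Sg : F ≃+* F} {c : ℕ}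

/-- `Sg` preserves the local data. -/
structure PsiAut (Sg : F ≃+* F) (ζ ϖ : F) (c : ℕ) (S : Subring F) : Prop where
  stable : ∀ x ∈ S, Sg x ∈ S
  zeta : Sg ζ = ζ ^ c
  unif : Sg ϖ / ϖ ∈ S

theorem PsiComp_mem_iff {a x : F} (ha : a ≠ 0) : x / a ∈ S ↔ ∃ s ∈ S, x = a * s := by
  constructor
  · intro h
    exact ⟨x / a, h, by field_simp⟩
  · rintro ⟨s, hs, rfl⟩
    rwa [mul_div_cancel_left₀ _ ha]

theorem PsiComp_unif_ne (H : PsiCtx p ζ ϖ S) : ϖ ≠ 0 := by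
  intro h
  apply H.unif_inv
  rw [h, inv_zero]
  exact S.zero_mem

theorem PsiComp_lam_ne (hp : p.Prime) (hζ : IsPrimitiveRoot ζ p) : ζ - 1 ≠ 0 :=
  sub_ne_zero.2 (hζ.ne_one hp.one_lt)

theorem PsiComp_one_add_ne (H : PsiCtx p ζ ϖ S) {x : F} (hx : x ∈ S) : 1 + ϖ * x ≠ 0 := by
  intro h
  apply H.unif_inv
  have h1 : ϖ * (-x) = 1 := by linear_combination -h
  rw [inv_eq_of_mul_eq_one_right h1]
  exact S.neg_mem hx

/-- `(1 + a t) ^ c = 1 + a (c t + a w)`. -/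
theorem PsiComp_one_add_pow {a t : F} (ha : a ∈ S) (ht : t ∈ S) (c : ℕ) :
    ∃ w ∈ S, (1 + a * t) ^ c = 1 + a * ((c : F) * t + a * w) := by
  induction c with
  | zero => exact ⟨0, S.zero_mem, by simp⟩
  | succ c ih =>
    obtain ⟨w, hw, h⟩ := ih
    refine ⟨w + t * ((c : F) * t + a * w), ?_, ?_⟩
    · exact S.add_mem hw (S.mul_mem ht (S.add_mem (S.mul_mem (natCast_mem S c) ht)
        (S.mul_mem ha hw)))
    · rw [pow_succ, h]
      push_cast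
      ring

/-- `Sg u / u ^ c ∈ 1 + lam ^ p ϖ S` for `u ∈ 1 + lam ^ p ϖ S`. -/
theorem Psi_quot_mem (hp : p.Prime) (hζ : IsPrimitiveRoot ζ p) (H : PsiCtx p ζ ϖ S)
    (HS : PsiAut Sg ζ ϖ c S) {u : F} (hu : (u - 1) / ((ζ - 1) ^ p * ϖ) ∈ S) :
    (Sg u / u ^ c - 1) / ((ζ - 1) ^ p * ϖ) ∈ S := by
  have hϖ := PsiComp_unif_ne H
  have hl := PsiComp_lam_ne hp hζ
  have hlS : ζ - 1 ∈ S := S.sub_mem H.zeta S.one_mem
  have ha : (ζ - 1) ^ p * ϖ ≠ 0 := mul_ne_zero (pow_ne_zero _ hl) hϖ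
  obtain ⟨s, hs, hus⟩ := (PsiComp_mem_iff ha).1 hu
  obtain ⟨r, hr, hrr⟩ := (PsiComp_mem_iff hϖ).1 HS.unif
  obtain ⟨m, hm, hmm⟩ := PsiComp_one_add_pow hlS S.one_mem c
  have hz : Sg (ζ - 1) = (ζ - 1) * ((c : F) * 1 + (ζ - 1) * m) := by
    rw [map_sub, map_one, HS.zeta]
    have : ζ = 1 + (ζ - 1) * 1 := by ring
    calc ζ ^ c - 1 = (1 + (ζ - 1) * 1) ^ c - 1 := by rw [← this]
      _ = _ := by rw [hmm]; ring
  have hu1 : u = 1 + ((ζ - 1) ^ p * ϖ) * s := by linear_combination hus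
  have haS : (ζ - 1) ^ p * ϖ ∈ S := S.mul_mem (S.pow_mem hlS _) H.unif
  obtain ⟨w, hw, hww⟩ := PsiComp_one_add_pow haS hs c
  have hu2 : u = 1 + ϖ * ((ζ - 1) ^ p * s) := by rw [hu1]; ring
  have hxS : (ζ - 1) ^ p * s ∈ S := S.mul_mem (S.pow_mem hlS _) hs
  have hune : u ≠ 0 := by rw [hu2]; exact PsiComp_one_add_ne H hxS
  have huinv : u⁻¹ ∈ S := by rw [hu2]; exact H.one_add_inv_mem hxS
  rw [PsiComp_mem_iff ha]
  set M : F := (c : F) * 1 + (ζ - 1) * m with hM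
  have hMS : M ∈ S := S.add_mem (S.mul_mem (natCast_mem S c) S.one_mem) (S.mul_mem hlS hm)
  refine ⟨(M ^ p * r * Sg s - ((c : F) * s + (ζ - 1) ^ p * ϖ * w)) * (u⁻¹) ^ c, ?_, ?_⟩
  · exact S.mul_mem (S.sub_mem (S.mul_mem (S.mul_mem (S.pow_mem hMS _) hr) (HS.stable _ hs))
      (S.add_mem (S.mul_mem (natCast_mem S c) hs) (S.mul_mem haS hw))) (S.pow_mem huinv _)
  · have hSu : Sg u = 1 + ((ζ - 1) ^ p * ϖ) * (M ^ p * r * Sg s) := by
      rw [hu1]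
      simp only [map_add, map_mul, map_pow, map_one, hz, hrr, mul_pow]
      ring
    have huc : u ^ c = 1 + (ζ - 1) ^ p * ϖ * ((c : F) * s + (ζ - 1) ^ p * ϖ * w) := by
      rw [hu1]; exact hww
    have hucne : u ^ c ≠ 0 := pow_ne_zero _ hune
    rw [inv_pow, div_sub_one hucne, div_eq_mul_inv, hSu]
    rw [show (1 + (ζ - 1) ^ p * ϖ * (M ^ p * r * Sg s) - u ^ c)
      = (ζ - 1) ^ p * ϖ * (M ^ p * r * Sg s - ((c : F) * s + (ζ - 1) ^ p * ϖ * w)) by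
        rw [huc]; ring]
    ring

/-- the residue `k` at a point. -/
theorem Psi_exists_k (hp : p.Prime) (hp2 : p ≠ 2) (hζ : IsPrimitiveRoot ζ p) (H : PsiCtx p ζ ϖ S)
    (HS : PsiAut Sg ζ ϖ c S) {u b : F} (hu : (u - 1) / ((ζ - 1) ^ p * ϖ) ∈ S)
    (hb : b ^ p = Sg u / u ^ c) :
    ∃ k < p, ((b - 1) / (ζ - 1) - (k : F)) / ϖ ∈ S := by
  apply Psi_root hp hp2 hζ H
  rw [hb]
  exact Psi_quot_mem hp hζ H HS hu

/-- `Sg f / f ^ c ∈ 1 + lam ϖ S` if `f ∈ 1 + lam (k + ϖ S)`. -/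
theorem Psi_quot_mem' (hp : p.Prime) (hζ : IsPrimitiveRoot ζ p) (H : PsiCtx p ζ ϖ S)
    (HS : PsiAut Sg ζ ϖ c S) {f : F} {k : ℕ} (hf : ((f - 1) / (ζ - 1) - (k : F)) / ϖ ∈ S) :
    (Sg f / f ^ c - 1) / ((ζ - 1) * ϖ) ∈ S := by
  have hϖ := PsiComp_unif_ne H
  have hl := PsiComp_lam_ne hp hζ
  have hlS : ζ - 1 ∈ S := S.sub_mem H.zeta S.one_mem
  have ha : (ζ - 1) * ϖ ≠ 0 := mul_ne_zero hl hϖ
  obtain ⟨s, hs, hfs⟩ := (PsiComp_mem_iff hϖ).1 hf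
  obtain ⟨r, hr, hrr⟩ := (PsiComp_mem_iff hϖ).1 HS.unif
  obtain ⟨l, hlm, hll⟩ := (PsiComp_mem_iff hϖ).1 H.lam_div
  obtain ⟨m, hm, hmm⟩ := PsiComp_one_add_pow hlS S.one_mem c
  have hz : Sg (ζ - 1) = (ζ - 1) * ((c : F) * 1 + (ζ - 1) * m) := by
    rw [map_sub, map_one, HS.zeta]
    have : ζ = 1 + (ζ - 1) * 1 := by ring
    calc ζ ^ c - 1 = (1 + (ζ - 1) * 1) ^ c - 1 := by rw [← this]
      _ = _ := by rw [hmm]; ring
  have hf1 : f = 1 + (ζ - 1) * ((k : F) + ϖ * s) := by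
    have h1 : (f - 1) / (ζ - 1) = (k : F) + ϖ * s := by linear_combination hfs
    rw [div_eq_iff hl] at h1
    linear_combination h1
  have htS : (k : F) + ϖ * s ∈ S := S.add_mem (natCast_mem S k) (S.mul_mem H.unif hs)
  obtain ⟨w, hw, hww⟩ := PsiComp_one_add_pow hlS htS c
  have hf2 : f = 1 + ϖ * (l * ((k : F) + ϖ * s)) := by rw [hf1, hll]; ring
  have hxS : l * ((k : F) + ϖ * s) ∈ S := S.mul_mem hlm htS
  have hfne : f ≠ 0 := by rw [hf2]; exact PsiComp_one_add_ne H hxS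
  have hfinv : f⁻¹ ∈ S := by rw [hf2]; exact H.one_add_inv_mem hxS
  rw [PsiComp_mem_iff ha]
  refine ⟨((c : F) * r * Sg s + l * m * ((k : F) + ϖ * r * Sg s) - ((c : F) * s + l * w))
    * (f⁻¹) ^ c, ?_, ?_⟩
  · refine S.mul_mem (S.sub_mem (S.add_mem (S.mul_mem (S.mul_mem (natCast_mem S c) hr)
      (HS.stable _ hs)) (S.mul_mem (S.mul_mem hlm hm) (S.add_mem (natCast_mem S k)
      (S.mul_mem (S.mul_mem H.unif hr) (HS.stable _ hs)))))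
      (S.add_mem (S.mul_mem (natCast_mem S c) hs) (S.mul_mem hlm hw))) (S.pow_mem hfinv _)
  · have hSf : Sg f = 1 + (ζ - 1) * ((c : F) * 1 + (ζ - 1) * m) * ((k : F) + ϖ * r * Sg s) := by
      rw [hf1]
      simp only [map_add, map_mul, map_one, hz, hrr, map_natCast]
    have hfc : f ^ c = 1 + (ζ - 1) * ((c : F) * ((k : F) + ϖ * s) + (ζ - 1) * w) := by
      rw [hf1]; exact hww
    have hfcne : f ^ c ≠ 0 := pow_ne_zero _ hfne
    rw [inv_pow, div_sub_one hfcne, div_eq_mul_inv, hSf]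
    rw [show (1 + (ζ - 1) * ((c : F) * 1 + (ζ - 1) * m) * ((k : F) + ϖ * r * Sg s) - f ^ c)
      = (ζ - 1) * ϖ * ((c : F) * r * Sg s + l * m * ((k : F) + ϖ * r * Sg s)
          - ((c : F) * s + l * w)) by
        rw [hfc]
        linear_combination ((ζ - 1) * m * ((k : F) + ϖ * r * Sg s) - (ζ - 1) * w) * hll]
    ring

/-- comparison of two normalisations `u = f ^ p u'`. -/
theorem Psi_compare (hp : p.Prime) (hp2 : p ≠ 2) (hζ : IsPrimitiveRoot ζ p) (H : PsiCtx p ζ ϖ S)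
    (HS : PsiAut Sg ζ ϖ c S) {u u' f : F} (hu : (u - 1) / ((ζ - 1) ^ p * ϖ) ∈ S)
    (hu' : (u' - 1) / ((ζ - 1) ^ p * ϖ) ∈ S) (hf : f ^ p * u' = u) :
    (Sg f / f ^ c - 1) / ((ζ - 1) * ϖ) ∈ S := by
  have hϖ := PsiComp_unif_ne H
  have hl := PsiComp_lam_ne hp hζ
  have hlS : ζ - 1 ∈ S := S.sub_mem H.zeta S.one_mem
  have ha : (ζ - 1) ^ p * ϖ ≠ 0 := mul_ne_zero (pow_ne_zero _ hl) hϖ
  obtain ⟨s, hs, hus⟩ := (PsiComp_mem_iff ha).1 hu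
  obtain ⟨s', hs', hus'⟩ := (PsiComp_mem_iff ha).1 hu'
  have hu2 : u' = 1 + ϖ * ((ζ - 1) ^ p * s') := by linear_combination hus'
  have hxS : (ζ - 1) ^ p * s' ∈ S := S.mul_mem (S.pow_mem hlS _) hs'
  have hune : u' ≠ 0 := by rw [hu2]; exact PsiComp_one_add_ne H hxS
  have huinv : u'⁻¹ ∈ S := by rw [hu2]; exact H.one_add_inv_mem hxS
  have hfp : (f ^ p - 1) / ((ζ - 1) ^ p * ϖ) ∈ S := by
    rw [PsiComp_mem_iff ha]
    refine ⟨(s - s') * u'⁻¹, S.mul_mem (S.sub_mem hs hs') huinv, ?_⟩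
    have h1 : f ^ p = u * u'⁻¹ := by rw [← hf]; field_simp
    rw [h1]
    have h2 : u'  * u'⁻¹ = 1 := mul_inv_cancel₀ hune
    linear_combination u'⁻¹ * hus - u'⁻¹ * hus' + h2
  obtain ⟨k, -, hk⟩ := Psi_root hp hp2 hζ H hfp
  exact Psi_quot_mem' hp hζ H HS hk

/-- **COMPARE**: the residue `k` does not depend on the normalisation `α`. -/
theorem Psi_k_eq (hp : p.Prime) (hp2 : p ≠ 2) (hζ : IsPrimitiveRoot ζ p) (H : PsiCtx p ζ ϖ S)
    (HS : PsiAut Sg ζ ϖ c S) {x y α α' : F} (hα0 : α ≠ 0) (hα0' : α' ≠ 0)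
    (hα : (α ^ p * y - 1) / ((ζ - 1) ^ p * ϖ) ∈ S)
    (hα' : (α' ^ p * y - 1) / ((ζ - 1) ^ p * ϖ) ∈ S) {k k' : ℕ} (hk : k < p) (hk' : k' < p)
    (h : ((Sg α / α ^ c * x - 1) / (ζ - 1) - (k : F)) / ϖ ∈ S)
    (h' : ((Sg α' / α' ^ c * x - 1) / (ζ - 1) - (k' : F)) / ϖ ∈ S) : k = k' := by
  have hϖ := PsiComp_unif_ne H
  have hl := PsiComp_lam_ne hp hζ
  have hlS : ζ - 1 ∈ S := S.sub_mem H.zeta S.one_mem
  have ha : (ζ - 1) * ϖ ≠ 0 := mul_ne_zero hl hϖ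
  have hcmp : (Sg (α / α') / (α / α') ^ c - 1) / ((ζ - 1) * ϖ) ∈ S := by
    refine Psi_compare hp hp2 hζ H HS hα hα' ?_
    rw [div_pow]
    field_simp
  obtain ⟨e, he, hee⟩ := (PsiComp_mem_iff ha).1 hcmp
  obtain ⟨s, hs, hss⟩ := (PsiComp_mem_iff hϖ).1 h
  obtain ⟨s', hs', hss'⟩ := (PsiComp_mem_iff hϖ).1 h'
  have hb : Sg α / α ^ c * x = 1 + (ζ - 1) * ((k : F) + ϖ * s) := by
    have h1 : (Sg α / α ^ c * x - 1) / (ζ - 1) = (k : F) + ϖ * s := by linear_combination hss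
    rw [div_eq_iff hl] at h1
    linear_combination h1
  have hb' : Sg α' / α' ^ c * x = 1 + (ζ - 1) * ((k' : F) + ϖ * s') := by
    have h1 : (Sg α' / α' ^ c * x - 1) / (ζ - 1) = (k' : F) + ϖ * s' := by
      linear_combination hss'
    rw [div_eq_iff hl] at h1
    linear_combination h1
  have hSα' : Sg α' ≠ 0 := by simpa using hα0'
  have hrel : Sg α / α ^ c * x = (Sg α' / α' ^ c * x) * (Sg (α / α') / (α / α') ^ c) := by
    rw [map_div₀, div_pow]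
    field_simp
  have hq : Sg (α / α') / (α / α') ^ c = 1 + (ζ - 1) * ϖ * e := by linear_combination hee
  apply Psi_k_unique hp hζ H hk hk'
  rw [PsiComp_mem_iff hϖ]
  refine ⟨s' - s + e * (1 + (ζ - 1) * ((k' : F) + ϖ * s')), ?_, ?_⟩
  · exact S.add_mem (S.sub_mem hs' hs) (S.mul_mem he (S.add_mem S.one_mem (S.mul_mem hlS
      (S.add_mem (natCast_mem S k') (S.mul_mem H.unif hs')))))
  · rw [hb, hb', hq] at hrel
    apply mul_left_cancel₀ hl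
    linear_combination hrel

end Fermat.Agent.LP.PL
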