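import Fermat.Agent.LP.PL.Loc.PsiNode
import Fermat.Agent.LP.PL.Loc.PsiCuspW
import Fermat.Agent.LP.PL.Loc.AsmArt
import Fermat.Agent.LP.PL.Loc.NodeBConc
import Fermat.Agent.LP.PL.Loc2.Defs
import Fermat.Agent.LP.PL.Form.Tower4
import Fermat.Agent.GR.E.BR5

/-!
# LP-PL-LOC, LOC-PSI, file `PsiInst`: the Artin-Schreier generator at a node over `L = K ∩ Q̄ ^ I`

Concrete instance of `Psi_node_asGen` + `Psi_exists_asGen_fixed` + `ASGen.of_map` for the tower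
`F1 L N z1 ⊆ F1 K N z1`, `K` a finite normal extension of `ℚ`, `L = baseL A K`.
-/

set_option autoImplicit false
set_option synthInstance.maxHeartbeats 400000

noncomputable section

namespace Fermat.Agent.LP.PL

open Fermat.Agent.GR Fermat.Agent.GR.E Fermat.Agent.GS Fermat.Agent.GT.Brg ModularCurve
  IntermediateField

section abs

variable {R : Type*} [CommRing R] {F E : Type*} [Field F] [Field E] [Algebra R F] [Algebra R E]

/-- descent of an Artin-Schreier generator on which the group `δ` acts trivially modulo `Small`. -/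
theorem PsiInst_descend {p : ℕ} (hp : p.Prime) (B : Subalgebra R F) (φ : F →ₐ[R] E)
    (g : E ≃+* E) {E₁ : Type*} [Field E₁] (hp0 : (p : E₁) ≠ 0) (ψ : E →+* E₁) (g₁ : E₁ ≃+* E₁)
    (hg₁ : ∀ e : E, ψ (g e) = g₁ (ψ e)) (hg₁φ : ∀ f : F, g₁ (ψ (φ f)) = ψ (φ f))
    {ι : Type*} [Fintype ι] [Nonempty ι] (δ : ι → E₁ ≃+* E₁)
    (hδψ : ∀ i (e : E), δ i (ψ e) = ψ e) (hδfix : ∀ x : E₁, (∀ i, δ i x = x) → ∃ e : E, ψ e = x)
    (hperm : ∀ i, ∃ π : Equiv.Perm ι, ∀ k e, δ i (δ k e) = δ (π k) e)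
    (h : ∀ [Algebra B E₁], (∀ b : B, algebraMap B E₁ b = ψ (φ (b : F))) →
      ∃ t₁ : E₁, ASGen B p g₁ t₁ ∧ ∀ i, Small B p (δ i t₁ - t₁)) :
    ∃ t : E, @ASGen B E _ _ (algBE φ B) p g t := by
  let _ := algBE φ B
  let _ : Algebra B E₁ := algBE₁ φ ψ B
  let ψ' : E →ₐ[B] E₁ := { ψ with commutes' := fun _ => rfl }
  obtain ⟨t₁, T, hpsi⟩ := h (fun _ => rfl)
  obtain ⟨t, ht, T', -⟩ := Psi_exists_asGen_fixed (B := B) hp g₁ (fun b => hg₁φ (b : F)) δ
    (fun i b => hδψ i _) hperm T hpsi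
  obtain ⟨e, rfl⟩ := hδfix t ht
  exact ⟨e, ASGen.of_map ψ' hp0 hg₁ T'⟩

end abs

variable {A : ValuationSubring Qb} {K : IntermediateField ℚ Qb} {p N : ℕ} {ζ : Qbar}
  {u1 z1 : LaurentSeries Qbar}

/-- the conclusion of `node_coreP` for the chart of `t`. -/
def PsiNodeAll (A : ValuationSubring Qb) (K : IntermediateField ℚ Qb) (p N : ℕ)
    (ζR ϖ : A.comap (algebraMap K Qb)) (y t : FF K N) : Prop :=
  ∀ (𝔪 : Ideal (chart (A.comap (algebraMap K Qb)) ({t} : Set (FF K N)))) [𝔪.IsPrime],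
    𝔪.IsMaximal → algebraMap (A.comap (algebraMap K Qb))
      (chart (A.comap (algebraMap K Qb)) ({t} : Set (FF K N))) ϖ ∈ 𝔪 →
    ∃ α : FF K N, α ≠ 0 ∧
      (α ^ p * y - 1) / algebraMap (A.comap (algebraMap K Qb)) (FF K N) ((ζR - 1) ^ p * ϖ) ∈
        locAt (chart (A.comap (algebraMap K Qb)) ({t} : Set (FF K N))) 𝔪

theorem PsiInst_injective (K : IntermediateField ℚ Qb) (N : ℕ) :
    Function.Injective (algebraMap (A.comap (algebraMap K Qb)) (FF K N)) := by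
  intro a b hab
  have h1 := congrArg (fun x : FF K N => (x : LaurentSeries K)) hab
  simp only [BR7_coe_algebraMap] at h1
  exact Subtype.ext (HahnSeries.C_injective h1)

/-- compatibility of the two paths `FF L N → F1 K N z1`. -/
theorem PsiInst_comm {L : IntermediateField ℚ Qb} (hL : L ≤ K) (f : FF L N) :
    upF1 hL N z1 (incL L N z1 f) = incL K N z1 (upFF hL N f) := rfl

variable [Normal ℚ K] [FiniteDimensional ℚ K] {g : F1Q N z1 ≃ₐ[Qbar] F1Q N z1}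

set_option maxHeartbeats 1000000 in
/-- the generator upstairs, with the action of the inertia group. -/
theorem psi_inst_up (hp2 : p ≠ 2) (hA : A.LiesOverPrime p)
    (h : LineData p N ζ (baseL A K) u1)
    (hζK : ζ ∈ K) [IsDiscreteValuationRing (A.comap (algebraMap K Qb))]
    {hK : FF K N} {wK : FF K N ≃ₐ[K] FF K N} {𝒪₁ 𝒪₂ : ValuationSubring (FF K N)}
    (MD : NodalModelData (A.comap (algebraMap K Qb)) p N hK wK 𝒪₁ 𝒪₂)
    {ϖ ζR : A.comap (algebraMap K Qb)} (hϖ : Irreducible ϖ) (hζR : ((ζR : K) : Qb) = ζ)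
    {yK : FF K N} (hyK : coeffMap (algebraMap K Qb) (yK : LaurentSeries K) = z1 ^ p)
    (hn0 : PsiNodeAll A K p N ζR ϖ yK hK) (hn1 : PsiNodeAll A K p N ζR ϖ yK hK⁻¹)
    (g₂ : F1 K N z1 ≃ₐ[K] F1 K N z1) (Z : F1 K N z1)
    (δ : TowGrp (baseL A K) K → F1 K N z1 ≃+* F1 K N z1)
    (hZ : toQ K N z1 Z = zF1 N z1)
    (hgZ : g₂ Z = zF1G N z1 hζK * Z)
    (hδZ : ∀ i, ∃ (c : ℕ) (y : F1 K N z1), y ≠ 0 ∧ g₂ y = y ∧
      δ i (zF1G N z1 hζK) = zF1G N z1 hζK ^ c ∧ δ i Z = Z ^ c * y)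
    (hfix : ∀ x, g₂ x = x ↔ (x : LaurentSeries K) ∈ FF K N)
    (hδ : ∀ (τ : TowGrp (baseL A K) K) (x : F1 K N z1), ((δ τ x : F1 K N z1) : LaurentSeries K) =
        coeffMap (((τ : K ≃ₐ[ℚ] K) : K →+* K)) (x : LaurentSeries K))
    {B : Type*} [CommRing B] [Algebra B (F1 K N z1)]
    (hδB : ∀ i (b : B), δ i (algebraMap B (F1 K N z1) b) = algebraMap B (F1 K N z1) b)
    {t2 : FF K N} (ht2 : t2 = hK ∨ t2 = hK⁻¹)
    (𝔪K : Ideal (chart (A.comap (algebraMap K Qb)) ({t2} : Set (FF K N)))) [𝔪K.IsPrime]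
    (hmax : 𝔪K.IsMaximal)
    (h₁ : vert ϖ 𝒪₁ (chart (A.comap (algebraMap K Qb)) ({t2} : Set (FF K N))) ≤ 𝔪K)
    (h₂ : vert ϖ 𝒪₂ (chart (A.comap (algebraMap K Qb)) ({t2} : Set (FF K N))) ≤ 𝔪K)
    (hSB : ∀ x ∈ locAt (chart (A.comap (algebraMap K Qb)) ({t2} : Set (FF K N))) 𝔪K,
      IsIntegral B (incL K N z1 x)) :
    ∃ t₁ : F1 K N z1, ASGen B p g₂.toRingEquiv t₁ ∧ ∀ i, Small B p (δ i t₁ - t₁) := by
  classical
  have hp := h.prime
  have hF := inertFam_inertLift A K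
  let ψ : FF K N →+* F1 K N z1 := (incL K N z1 : FF K N →+* F1 K N z1)
  have hψ : ∀ f : FF K N, ((ψ f : F1 K N z1) : LaurentSeries K) = (f : LaurentSeries K) :=
    fun _ => rfl
  have hζp : IsPrimitiveRoot ζR p := by
    have hinj2 : Function.Injective
        ((algebraMap K Qb).comp (A.comap (algebraMap K Qb)).subtype) :=
      (algebraMap K Qb).injective.comp Subtype.val_injective
    refine IsPrimitiveRoot.of_map_of_injective ?_ hinj2
    show IsPrimitiveRoot ((ζR : K) : Qb) p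
    rw [hζR]
    exact h.root
  have hζψ : ψ (algebraMap (A.comap (algebraMap K Qb)) (FF K N) ζR) = zF1G N z1 hζK := by
    apply Subtype.ext
    rw [hψ, BR7_coe_algebraMap]
    have e : (ζR : K) = ⟨ζ, hζK⟩ := Subtype.ext hζR
    rw [e]
    show _ = algebraMap K (LaurentSeries K) ⟨ζ, hζK⟩
    rw [algebraMap_laurentSeries_eq_single]
    rfl
  let Sg : TowGrp (baseL A K) K → FF K N ≃+* FF K N := famFF K (inertLift A K) N
  have hδψ : ∀ i f, δ i (ψ f) = ψ (Sg i f) := by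
    intro i f
    apply Subtype.ext
    rw [hδ, hψ, hψ]
    show _ = coeffMap ((resL K (inertLift A K i) : K ≃+* K) : K →+* K) (f : LaurentSeries K)
    rw [resL_inertLift]
    rfl
  have hC : NodalChart ϖ 𝒪₁ 𝒪₂ (chart (A.comap (algebraMap K Qb)) ({t2} : Set (FF K N))) := by
    rcases ht2 with rfl | rfl
    · exact MD.nodal0 ϖ hϖ
    · exact MD.nodal1 ϖ hϖ
  have hSgC : ∀ i, ∀ x ∈ chart (A.comap (algebraMap K Qb)) ({t2} : Set (FF K N)),
      Sg i x ∈ chart (A.comap (algebraMap K Qb)) ({t2} : Set (FF K N)) := by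
    rcases ht2 with rfl | rfl
    · exact fun i => hF.map_mem_chart0 MD i
    · exact fun i => hF.map_mem_chart1 MD i
  have hfrob : ∀ i, FrobLike ϖ 𝒪₁ 𝒪₂ (chart (A.comap (algebraMap K Qb)) ({t2} : Set (FF K N)))
      (Sg i) 1 := by
    rcases ht2 with rfl | rfl
    · exact fun i => (hF.frobLike MD hϖ i).1
    · exact fun i => (hF.frobLike MD hϖ i).2
  have hnt : PsiNodeAll A K p N ζR ϖ yK t2 := by
    rcases ht2 with rfl | rfl
    · exact hn0
    · exact hn1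
  have hϖ𝔪 : algebraMap (A.comap (algebraMap K Qb))
      (chart (A.comap (algebraMap K Qb)) ({t2} : Set (FF K N))) ϖ ∈ 𝔪K := by
    apply h₁
    rw [mem_vert hC.le₁]
    show algebraMap (A.comap (algebraMap K Qb)) (FF K N) ϖ /
      algebraMap (A.comap (algebraMap K Qb)) (FF K N) ϖ ∈ 𝒪₁
    rw [div_self (MD.gauss₁ ϖ hϖ).ne_zero]
    exact 𝒪₁.one_mem
  have hnode := hnt 𝔪K hmax hϖ𝔪
  have hzp : Z ^ p = ψ yK := by
    apply toQ_injective K N z1
    rw [map_pow, hZ]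
    apply Subtype.ext
    rw [coe_toQ, hψ, hyK]
    rfl
  have hg₂ψ : ∀ f, g₂.toRingEquiv (ψ f) = ψ f := fun f => (hfix (ψ f)).2 f.2
  have hg₂z : g₂.toRingEquiv Z = ψ (algebraMap (A.comap (algebraMap K Qb)) (FF K N) ζR) * Z := by
    rw [hζψ]
    exact hgZ
  have hδW : ∀ i, ∀ e ∈ cuspW A K N z1, δ i e - e ∈ (cuspW A K N z1).nonunits := fun i e he =>
    sub_mem_cuspW_nonunits (σ := inertLift A K i) (inertia_spec A (inertLift_mem A K i)).2
      (τ := ((i : K ≃ₐ[ℚ] K) : K →+* K)) (fun x => (inertLift_apply A K i x).symm) (δ i) (hδ i) he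
  have hδz : ∀ i, ∃ (c : ℕ) (x : FF K N),
      Sg i (algebraMap (A.comap (algebraMap K Qb)) (FF K N) ζR) =
        algebraMap (A.comap (algebraMap K Qb)) (FF K N) ζR ^ c ∧ δ i Z = Z ^ c * ψ x := by
    intro i
    obtain ⟨c, y, -, hgy, hζc, hZc⟩ := hδZ i
    refine ⟨c, ⟨y, (hfix y).1 hgy⟩, ?_, hZc⟩
    apply ψ.injective
    rw [← hδψ, map_pow, hζψ]
    exact hζc
  have key : ∀ tc : FF K N,
      NodalChart ϖ 𝒪₁ 𝒪₂ (chart (A.comap (algebraMap K Qb)) ({tc} : Set (FF K N))) →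
      PsiNodeAll A K p N ζR ϖ yK tc →
      (∀ i, ∀ x ∈ chart (A.comap (algebraMap K Qb)) ({tc} : Set (FF K N)),
        Sg i x ∈ chart (A.comap (algebraMap K Qb)) ({tc} : Set (FF K N))) →
      ψ tc ∈ cuspW A K N z1 →
      ∃ t₁ : F1 K N z1, ASGen B p g₂.toRingEquiv t₁ ∧ ∀ i, Small B p (δ i t₁ - t₁) := by
    intro tc hCc hnc hSgCc htc
    have hCcW := chart_le_cuspW ψ hψ htc
    exact Psi_node_asGen (PsiInst_injective K N) hϖ hp hp2 (BR5_not_isUnit_natCast A p hA K) hζp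
      (MD.gauss₁ ϖ hϖ) (MD.gauss₂ ϖ hϖ) hC hCc 𝔪K h₁ h₂ ψ (cuspW A K N z1) hCcW
      (natCast_mem_cuspW_nonunits hA) (fun x hx => exists_const_sub_mem ψ hψ (hCcW x hx)) hSB
      hnode hnc hzp g₂.toRingEquiv hg₂ψ hg₂z δ Sg hδψ hδB (fun i => hF.chartAut MD i) hSgC hSgCc
      hfrob hδW hδz
  rcases (cuspW A K N z1).mem_or_inv_mem (ψ hK) with hc | hc
  · exact key hK (MD.nodal0 ϖ hϖ) hn0 (fun i => hF.map_mem_chart0 MD i) hc
  · exact key hK⁻¹ (MD.nodal1 ϖ hϖ) hn1 (fun i => hF.map_mem_chart1 MD i) (by rw [map_inv₀]; exact hc)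

end Fermat.Agent.LP.PL
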