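import Fermat.Agent.LP.PL.Loc.PsiInst

/-!
# LP-PL-LOC, LOC-PSI, file `PsiInst2`: the Artin-Schreier generator at a node over `L = K ∩ Q̄ ^ I`
-/

set_option autoImplicit false
set_option synthInstance.maxHeartbeats 400000

noncomputable section

namespace Fermat.Agent.LP.PL

open Fermat.Agent.GR Fermat.Agent.GR.E Fermat.Agent.GS Fermat.Agent.GT.Brg ModularCurve
  IntermediateField

variable {A : ValuationSubring Qb} {K : IntermediateField ℚ Qb} {p N : ℕ} {ζ : Qbar}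
  {u1 z1 : LaurentSeries Qbar}
variable [Normal ℚ K] [FiniteDimensional ℚ K] {g : F1Q N z1 ≃ₐ[Qbar] F1Q N z1}

/-- push forward of integrality. -/
theorem PsiInst2_isIntegral {B F' E₁ : Type*} [CommRing B] [CommRing F'] [CommRing E₁]
    [Algebra B E₁] (f : B →+* F') (j : F' →+* E₁) (hcomp : ∀ b, algebraMap B E₁ b = j (f b))
    {x : F'} (hx : f.IsIntegralElem x) : IsIntegral B (j x) := by
  obtain ⟨P, hP, hPx⟩ := hx
  refine ⟨P, hP, ?_⟩
  have e : algebraMap B E₁ = j.comp f := RingHom.ext hcomp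
  rw [e, ← Polynomial.hom_eval₂, hPx, map_zero]

set_option maxHeartbeats 1000000 in
/-- **(B)**: the Artin-Schreier generator at a node of the chart over `A ∩ L`, `L = baseL A K`, given a node
`𝔪K` above it of the chart over `A ∩ K` and the output of NODE-p over `K`. -/
theorem psi_inst (hp2 : p ≠ 2) (hA : A.LiesOverPrime p)
    (h : LineData p N ζ (baseL A K) u1) (hz : IsCoverRoot p N ζ (baseL A K) u1 z1)
    (hg : IsDeck N ζ z1 g) {gL : F1 (baseL A K) N z1 ≃ₐ[baseL A K] F1 (baseL A K) N z1}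
    (hgL : ∀ x, toQ (baseL A K) N z1 (gL x) = g (toQ (baseL A K) N z1 x))
    (hζK : ζ ∈ K) [IsDiscreteValuationRing (A.comap (algebraMap K Qb))]
    {hK : FF K N} {wK : FF K N ≃ₐ[K] FF K N} {𝒪₁ 𝒪₂ : ValuationSubring (FF K N)}
    (MD : NodalModelData (A.comap (algebraMap K Qb)) p N hK wK 𝒪₁ 𝒪₂)
    {ϖ ζR : A.comap (algebraMap K Qb)} (hϖ : Irreducible ϖ) (hζR : ((ζR : K) : Qb) = ζ)
    {yK : FF K N} (hyK : coeffMap (algebraMap K Qb) (yK : LaurentSeries K) = z1 ^ p)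
    (hn0 : PsiNodeAll A K p N ζR ϖ yK hK) (hn1 : PsiNodeAll A K p N ζR ϖ yK hK⁻¹)
    (t : FF (baseL A K) N) {t2 : FF K N} (ht : upFF (baseL_le A K) N t = t2)
    (ht2 : t2 = hK ∨ t2 = hK⁻¹)
    (𝔪 : Ideal (chart (A.comap (algebraMap (baseL A K) Qb)) ({t} : Set (FF (baseL A K) N))))
    [𝔪.IsPrime]
    (𝔪K : Ideal (chart (A.comap (algebraMap K Qb)) ({t2} : Set (FF K N)))) [𝔪K.IsPrime]
    (hmax : 𝔪K.IsMaximal)
    (h₁ : vert ϖ 𝒪₁ (chart (A.comap (algebraMap K Qb)) ({t2} : Set (FF K N))) ≤ 𝔪K)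
    (h₂ : vert ϖ 𝒪₂ (chart (A.comap (algebraMap K Qb)) ({t2} : Set (FF K N))) ≤ 𝔪K)
    (h𝔪 : ∀ (c : chart (A.comap (algebraMap (baseL A K) Qb)) ({t} : Set (FF (baseL A K) N)))
      (hc : upFF (baseL_le A K) N c ∈ chart (A.comap (algebraMap K Qb)) ({t2} : Set (FF K N))),
      c ∈ 𝔪 → (⟨upFF (baseL_le A K) N c, hc⟩ :
        chart (A.comap (algebraMap K Qb)) ({t2} : Set (FF K N))) ∈ 𝔪K) :
    ∃ t' : F1 (baseL A K) N z1, ASGenL A (baseL A K) N z1 p gL
      (locAt (chart (A.comap (algebraMap (baseL A K) Qb)) ({t} : Set (FF (baseL A K) N))) 𝔪) t' := by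
  classical
  have hF := inertFam_inertLift A K
  obtain ⟨g₂, Z, δ, -, hZ, T, hfix, hδ⟩ := exists_towerG h hz hg hgL (baseL_le A K) hζK
  have hδC : ∀ i, ∀ x ∈ chart (A.comap (algebraMap K Qb)) ({t2} : Set (FF K N)),
      famFF K (inertLift A K) N i x ∈ chart (A.comap (algebraMap K Qb)) ({t2} : Set (FF K N)) := by
    rcases ht2 with rfl | rfl
    · exact fun i => hF.map_mem_chart0 MD i
    · exact fun i => hF.map_mem_chart1 MD i
  have hfrob : ∀ i, FrobLike ϖ 𝒪₁ 𝒪₂ (chart (A.comap (algebraMap K Qb)) ({t2} : Set (FF K N)))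
      (famFF K (inertLift A K) N i) 1 := by
    rcases ht2 with rfl | rfl
    · exact fun i => (hF.frobLike MD hϖ i).1
    · exact fun i => (hF.frobLike MD hϖ i).2
  unfold ASGenL
  refine PsiInst_descend h.prime _ (phiL A (baseL A K) N z1) gL.toRingEquiv T.hp0
    (upF1 (baseL_le A K) N z1) g₂.toRingEquiv T.hg₁ ?_ δ T.hδψ T.hδfix T.hperm ?_
  · intro f
    have h1 : ((upF1 (baseL_le A K) N z1 (incL (baseL A K) N z1 f) : F1 K N z1) :
        LaurentSeries K) ∈ FF K N := upF1_mem_FF (baseL_le A K) _ f.2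
    exact (hfix _).2 h1
  · intro inst hinst
    refine psi_inst_up hp2 hA h hζK MD hϖ hζR hyK hn0 hn1 g₂ Z δ hZ T.hgZ T.hδZ hfix hδ
      (fun i b => by rw [hinst]; exact T.hδψ i _) ht2 𝔪K hmax h₁ h₂ ?_
    intro x hx
    exact PsiInst2_isIntegral _ (incL K N z1 : FF K N →+* F1 K N z1)
      (fun b => (hinst b).trans (PsiInst_comm (baseL_le A K) _))
      (hF.isIntegralElem_node (baseL_le A K) N t t2 ht hδC hfrob 𝔪K h₁ h₂ 𝔪 h𝔪 hx)

end Fermat.Agent.LP.PL
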