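import Fermat.Agent.LP.PL.Abs.Descent
import Fermat.Agent.LP.Nod.Poly

/-!
# LP-PL-LOC, LOC-PSI, file `PsiRoot`: `p`-th roots of `1 + lam ^ p ϖ S` in a normal local ring

`F` is a field (`F_K`, `K` a big number field), `S` a local subring of `F`, integrally closed in `F`
(the local ring of the chart over `R_K` at a closed point of the special fibre, or a Gauss valuation
ring), `ζ ∈ S` a primitive `p`-th root of unity, `lam = ζ - 1`, `ϖ ∈ S` a non unit dividing `lam`.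
-/

set_option autoImplicit false

namespace Fermat.Agent.LP.PL

variable {F : Type*} [Field F] {p : ℕ} {ζ ϖ : F} {S : Subring F}

/-- the local data. -/
structure PsiCtx (p : ℕ) (ζ ϖ : F) (S : Subring F) : Prop where
  loc : IsLocalRing S
  closed : ∀ x : F, IsIntegral S x → x ∈ S
  zeta : ζ ∈ S
  unif : ϖ ∈ S
  unif_inv : ϖ⁻¹ ∉ S
  lam_div : (ζ - 1) / ϖ ∈ S
  unif_pow : ∃ n : ℕ, ϖ ^ n / (p : F) ∈ S

/-- auxiliary: the inverse of a unit of `S` lies in `S`. -/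
theorem PsiRoot_inv_mem {u : S} (hu : IsUnit u) : ((u : F))⁻¹ ∈ S := by
  obtain ⟨v, hv⟩ := hu.exists_right_inv
  have h1 : (u : F) * (v : F) = 1 := by
    have := congrArg (Subtype.val) hv
    simpa using this
  rw [← eq_inv_of_mul_eq_one_right h1]
  exact v.2

/-- auxiliary: an element of `S` whose inverse lies in `S` is a unit. -/
theorem PsiRoot_isUnit {u : S} (h0 : (u : F) ≠ 0) (hu : ((u : F))⁻¹ ∈ S) : IsUnit u := by
  refine IsUnit.of_mul_eq_one (⟨_, hu⟩ : S) ?_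
  apply Subtype.ext
  simp [h0]

theorem PsiRoot_unif_ne_zero (H : PsiCtx p ζ ϖ S) : ϖ ≠ 0 := by
  intro h
  apply H.unif_inv
  rw [h, inv_zero]
  exact S.zero_mem

/-- auxiliary: `ϖ` is in the maximal ideal. -/
theorem PsiRoot_unif_mem_nonunits (H : PsiCtx p ζ ϖ S) : (⟨ϖ, H.unif⟩ : S) ∈ nonunits S := by
  intro hu
  exact H.unif_inv (PsiRoot_inv_mem hu)

/-- auxiliary: multiples of `ϖ` are non units. -/
theorem PsiRoot_mul_mem_nonunits (H : PsiCtx p ζ ϖ S) (y : S) :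
    (⟨ϖ, H.unif⟩ : S) * y ∈ nonunits S := by
  intro hu
  exact PsiRoot_unif_mem_nonunits H (isUnit_of_mul_isUnit_left hu)

/-- `ϖ x` is not a unit: `1 + ϖ x` is a unit of `S`. -/
theorem PsiCtx.one_add_inv_mem (H : PsiCtx p ζ ϖ S) {x : F} (hx : x ∈ S) :
    (1 + ϖ * x)⁻¹ ∈ S := by
  have := H.loc
  have h1 : IsUnit (1 - (⟨ϖ, H.unif⟩ : S) * (-⟨x, hx⟩)) :=
    IsLocalRing.isUnit_one_sub_self_of_mem_nonunits _ (PsiRoot_mul_mem_nonunits H _)
  have h2 := PsiRoot_inv_mem h1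
  have e : ((1 - (⟨ϖ, H.unif⟩ : S) * (-⟨x, hx⟩) : S) : F) = 1 + ϖ * x := by
    push_cast
    ring
  rwa [e] at h2

/-- auxiliary: `p ∈ ϖ S`. -/
theorem PsiRoot_natCast_div_mem (H : PsiCtx p ζ ϖ S) (hp : p.Prime) (hζ : IsPrimitiveRoot ζ p) :
    (p : F) / ϖ ∈ S := by
  have hζS : IsPrimitiveRoot (⟨ζ, H.zeta⟩ : S) p :=
    IsPrimitiveRoot.of_map_of_injective (f := S.subtype) hζ Subtype.val_injective
  obtain ⟨z, -, hz⟩ := hζS.self_sub_one_pow_dvd_order (k := 1) hp.one_lt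
  have hz' : (p : F) = (z : F) * (ζ - 1) := by
    have := congrArg (Subtype.val) hz
    simpa using this
  rw [hz', mul_div_assoc]
  exact S.mul_mem z.2 H.lam_div

/-- integers prime to `p` are units of `S`. -/
theorem PsiCtx.intCast_inv_mem (H : PsiCtx p ζ ϖ S) (hp : p.Prime) (hζ : IsPrimitiveRoot ζ p)
    {n : ℤ} (hn : ¬ (p : ℤ) ∣ n) : ((n : F))⁻¹ ∈ S := by
  have hcop : IsCoprime n (p : ℤ) := by
    have := (Nat.prime_iff_prime_int.1 hp)
    exact ((Prime.coprime_iff_not_dvd this).2 hn).symm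
  obtain ⟨a, b, hab⟩ := hcop
  have hϖ := PsiRoot_unif_ne_zero H
  -- `a n = 1 - b p = 1 + ϖ (- b p / ϖ)`
  have h1 : (a : F) * (n : F) = 1 + ϖ * (-(b : F) * ((p : F) / ϖ)) := by
    have : ((a * n + b * (p : ℤ) : ℤ) : F) = 1 := by rw [hab]; simp
    push_cast at this
    field_simp
    linear_combination this
  have h2 : (1 + ϖ * (-(b : F) * ((p : F) / ϖ)))⁻¹ ∈ S :=
    H.one_add_inv_mem (S.mul_mem (S.neg_mem (intCast_mem S b)) (PsiRoot_natCast_div_mem H hp hζ))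
  rw [← h1, mul_inv] at h2
  have h3 := S.mul_mem (intCast_mem S a) h2
  have ha0 : (a : F) ≠ 0 := by
    intro h0
    rw [h0, zero_mul] at h1
    have h4 := H.one_add_inv_mem
      (S.mul_mem (S.neg_mem (intCast_mem S b)) (PsiRoot_natCast_div_mem H hp hζ))
    -- `0 = 1 + ϖ x` is impossible: `ϖ⁻¹ = - x`
    apply H.unif_inv
    have : ϖ⁻¹ = -(-(b : F) * ((p : F) / ϖ)) := by
      field_simp
      field_simp at h1
      linear_combination -h1
    rw [this]
    exact S.neg_mem (S.mul_mem (S.neg_mem (intCast_mem S b)) (PsiRoot_natCast_div_mem H hp hζ))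
  rwa [mul_inv_cancel_left₀ ha0] at h3

/-- the residue `k` is unique. -/
theorem Psi_k_unique (hp : p.Prime) (hζ : IsPrimitiveRoot ζ p) (H : PsiCtx p ζ ϖ S) {k k' : ℕ}
    (hk : k < p) (hk' : k' < p) (h : ((k : F) - (k' : F)) / ϖ ∈ S) : k = k' := by
  by_contra hne
  have hn : ¬ (p : ℤ) ∣ ((k : ℤ) - (k' : ℤ)) := by
    intro hd
    have h1 : |(k : ℤ) - (k' : ℤ)| < (p : ℤ) := by
      rw [abs_lt]
      constructor <;> omega
    have h2 := Int.eq_zero_of_abs_lt_dvd hd h1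
    omega
  have h1 := H.intCast_inv_mem hp hζ hn
  have h2 := S.mul_mem h h1
  apply H.unif_inv
  have h0 : (((k : ℤ) - (k' : ℤ) : ℤ) : F) ≠ 0 := by
    intro h0
    -- then the inverse is `0`; use that `n` is a unit times ... directly: `n = 0` in `F` forces
    -- `p ∣ n` since `1 = a n + b p` would give `1 = b p ∈ ϖ S`
    have hcop : IsCoprime ((k : ℤ) - (k' : ℤ)) (p : ℤ) :=
      ((Prime.coprime_iff_not_dvd (Nat.prime_iff_prime_int.1 hp)).2 hn).symm
    obtain ⟨a, b, hab⟩ := hcop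
    have : ((a * ((k : ℤ) - (k' : ℤ)) + b * (p : ℤ) : ℤ) : F) = 1 := by rw [hab]; simp
    rw [Int.cast_add, Int.cast_mul, h0, mul_zero, zero_add] at this
    push_cast at this
    apply H.unif_inv
    have e : ϖ⁻¹ = (b : F) * ((p : F) / ϖ) := by
      rw [← mul_div_assoc, this, one_div]
    rw [e]
    exact S.mul_mem (intCast_mem S b) (PsiRoot_natCast_div_mem H hp hζ)
  have e : ((k : F) - (k' : F)) / ϖ * ((((k : ℤ) - (k' : ℤ) : ℤ) : F))⁻¹ = ϖ⁻¹ := by
    push_cast at h0 ⊢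
    field_simp
  rwa [e] at h2

/-- auxiliary: Fermat's little theorem. -/
theorem PsiRoot_fermat (hp : p.Prime) (k : ℕ) : ∃ c : ℤ, ((k : ℤ)) ^ p - k = p * c := by
  have : Fact p.Prime := ⟨hp⟩
  have h : (((k : ℤ) ^ p - k : ℤ) : ZMod p) = 0 := by
    push_cast
    rw [ZMod.pow_card, sub_self]
  exact (ZMod.intCast_zmod_eq_zero_iff_dvd _ p).1 h

/-- **ROOT**: if `b ^ p ∈ 1 + lam ^ p ϖ S` then `b ∈ 1 + lam (k + ϖ S)` for some `k < p`.
(`t = (b - 1) / lam` is integral by `Descent_isIntegral` with `B := S`, so `t ∈ S`;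
`Descent_core`: `t ^ p - t ∈ ϖ S`; `t ^ p - t ≡ ∏_{k < p} (t - k)` modulo `p`; `S` is local and the
factors differ by units, so exactly one factor is a non unit and it lies in `ϖ S`.) -/
theorem Psi_root (hp : p.Prime) (hp2 : p ≠ 2) (hζ : IsPrimitiveRoot ζ p) (H : PsiCtx p ζ ϖ S)
    {b : F} (hb : (b ^ p - 1) / ((ζ - 1) ^ p * ϖ) ∈ S) :
    ∃ k < p, ((b - 1) / (ζ - 1) - (k : F)) / ϖ ∈ S := by
  have hloc := H.loc
  have hlam0 : ζ - 1 ≠ 0 := sub_ne_zero.2 (hζ.ne_one hp.one_lt)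
  have hϖ := PsiRoot_unif_ne_zero H
  have hp0 : (p : F) ≠ 0 := by
    intro h0
    obtain ⟨g, hg⟩ := Descent_lam_pow hp hζ
    rw [h0, neg_zero, zero_mul] at hg
    exact hlam0 (pow_eq_zero_iff (Nat.sub_ne_zero_of_lt hp.one_lt) |>.1 hg)
  have hZ : b ^ p = 1 + (ζ - 1) ^ p * (ϖ * ((b ^ p - 1) / ((ζ - 1) ^ p * ϖ))) := by
    field_simp
    ring
  generalize (b ^ p - 1) / ((ζ - 1) ^ p * ϖ) = h' at hb hZ
  have hint : ∀ x ∈ S, IsIntegral S x := fun x hx =>
    isIntegral_algebraMap (R := S) (A := F) (x := ⟨x, hx⟩)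
  have hh : IsIntegral S (ϖ * h') := hint _ (S.mul_mem H.unif hb)
  have ht : (b - 1) / (ζ - 1) ∈ S := H.closed _ (Descent_isIntegral hp hp2 hp0 hζ hZ hh)
  obtain ⟨s, γ, hs, hγ, hxi, e⟩ := Descent_core hp hp2 hζ hZ hh
  have hsS := H.closed _ hs
  have hγS := H.closed _ hγ
  have hbS := H.closed _ hxi
  have hx : b - 1 = (ζ - 1) * ((b - 1) / (ζ - 1)) := by rw [mul_div_cancel₀ _ hlam0]
  generalize (b - 1) / (ζ - 1) = t at ht e hx ⊢
  have hl : ζ - 1 = ϖ * ((ζ - 1) / ϖ) := by rw [mul_div_cancel₀ _ hϖ]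
  have hlS := H.lam_div
  generalize (ζ - 1) / ϖ = l at hl hlS
  have hpS := PsiRoot_natCast_div_mem H hp hζ
  have hpϖ : (p : F) = ϖ * ((p : F) / ϖ) := by rw [mul_div_cancel₀ _ hϖ]
  generalize (p : F) / ϖ = P at hpϖ hpS
  -- `t ^ p - t ∈ ϖ S`
  obtain ⟨A, hA, key⟩ : ∃ A ∈ S, t ^ p - t = ϖ * A := by
    refine ⟨h' + l * t * t * γ - l * s * t * (1 + (b - 1) * γ), ?_, ?_⟩
    · exact S.sub_mem (S.add_mem hb (S.mul_mem (S.mul_mem (S.mul_mem hlS ht) ht) hγS))
        (S.mul_mem (S.mul_mem (S.mul_mem hlS hsS) ht) (S.add_mem S.one_mem (S.mul_mem hbS hγS)))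
    · have e1 : t ^ p - t = ϖ * h' + t * (b - 1) * γ - (ζ - 1) * s * t * (1 + (b - 1) * γ) := by
        linear_combination -e
      rw [e1]
      have e2 : t * (b - 1) * γ = ϖ * (l * t * t * γ) := by
        rw [hx, hl]; ring
      rw [e2]
      conv_lhs => rw [hl]
      ring
  -- the residue field
  have hres : ∃ j : ℕ, IsLocalRing.residue S ⟨t, ht⟩ = (j : IsLocalRing.ResidueField S) := by
    apply Fermat.Agent.LP.Poly_frob_fixed hp
    · have h1 : ((p : ℕ) : S) = ⟨ϖ, H.unif⟩ * ⟨P, hpS⟩ := by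
        apply Subtype.ext
        simpa using hpϖ
      have h2 : IsLocalRing.residue S ((p : ℕ) : S) = 0 := by
        rw [IsLocalRing.residue_eq_zero_iff, IsLocalRing.mem_maximalIdeal, h1]
        exact PsiRoot_mul_mem_nonunits H _
      simpa using h2
    · have h1 : (⟨t, ht⟩ : S) ^ p - ⟨t, ht⟩ = ⟨ϖ, H.unif⟩ * ⟨A, hA⟩ := by
        apply Subtype.ext
        simpa using key
      have h2 : IsLocalRing.residue S ((⟨t, ht⟩ : S) ^ p - ⟨t, ht⟩) = 0 := by
        rw [IsLocalRing.residue_eq_zero_iff, IsLocalRing.mem_maximalIdeal, h1]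
        exact PsiRoot_mul_mem_nonunits H _
      rw [map_sub, map_pow, sub_eq_zero] at h2
      exact h2
  obtain ⟨j, hj⟩ := hres
  have hpres : ((p : ℕ) : IsLocalRing.ResidueField S) = 0 := by
    have h1 : ((p : ℕ) : S) = ⟨ϖ, H.unif⟩ * ⟨P, hpS⟩ := by
      apply Subtype.ext
      simpa using hpϖ
    have h2 : IsLocalRing.residue S ((p : ℕ) : S) = 0 := by
      rw [IsLocalRing.residue_eq_zero_iff, IsLocalRing.mem_maximalIdeal, h1]
      exact PsiRoot_mul_mem_nonunits H _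
    simpa using h2
  refine ⟨j % p, Nat.mod_lt _ hp.pos, ?_⟩
  have hk : IsLocalRing.residue S ⟨t, ht⟩ = ((j % p : ℕ) : IsLocalRing.ResidueField S) := by
    rw [hj]
    conv_lhs => rw [← Nat.mod_add_div j p]
    push_cast
    rw [hpres]
    ring
  generalize j % p = k at hk ⊢
  -- `y = t - k` is a non unit
  have hyS : t - (k : F) ∈ S := S.sub_mem ht (natCast_mem S k)
  have hy : (⟨t - (k : F), hyS⟩ : S) ∈ nonunits S := by
    rw [← IsLocalRing.mem_maximalIdeal, ← IsLocalRing.residue_eq_zero_iff]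
    have : (⟨t - (k : F), hyS⟩ : S) = ⟨t, ht⟩ - ((k : ℕ) : S) := by
      apply Subtype.ext
      simp
    rw [this, map_sub, hk, map_natCast, sub_self]
  have hy' : (⟨t - (k : F), hyS⟩ : S) ^ (p - 1) ∈ nonunits S := by
    intro hu
    exact hy ((isUnit_pow_iff (Nat.sub_ne_zero_of_lt hp.one_lt)).1 hu)
  have hu := PsiRoot_inv_mem (IsLocalRing.isUnit_one_sub_self_of_mem_nonunits _ hy')
  have hu0 : (1 - (t - (k : F)) ^ (p - 1)) ≠ 0 := by
    have := (IsLocalRing.isUnit_one_sub_self_of_mem_nonunits _ hy').ne_zero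
    intro h0
    apply this
    apply Subtype.ext
    simpa using h0
  have hu' : (1 - (t - (k : F)) ^ (p - 1))⁻¹ ∈ S := by simpa using hu
  obtain ⟨r, hr⟩ := exists_add_pow_prime_eq hp (⟨t - (k : F), hyS⟩ : S) ((k : ℕ) : S)
  have hr' : (t - (k : F) + k) ^ p = (t - (k : F)) ^ p + (k : F) ^ p
      + p * (t - (k : F)) * k * (r : F) := by
    have := congrArg Subtype.val hr
    simpa using this
  obtain ⟨c, hc⟩ := PsiRoot_fermat hp k
  have hc' : (k : F) ^ p - k = p * (c : F) := by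
    have := congrArg (Int.cast : ℤ → F) hc
    simpa using this
  have hpp : (t - (k : F)) ^ p = (t - (k : F)) * (t - (k : F)) ^ (p - 1) := by
    rw [← pow_succ', Nat.sub_add_cancel hp.one_le]
  have hfin : (t - (k : F)) / ϖ = (1 - (t - (k : F)) ^ (p - 1))⁻¹ *
      (-A + P * ((c : F) + (t - (k : F)) * k * (r : F))) := by
    rw [sub_add_cancel] at hr'
    rw [eq_inv_mul_iff_mul_eq₀ hu0, ← mul_div_assoc, div_eq_iff hϖ]
    linear_combination -key + ((c : F) + (t - (k : F)) * k * (r : F)) * hpϖ + hr' + hpp + hc'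
  rw [hfin]
  exact S.mul_mem hu' (S.add_mem (S.neg_mem hA) (S.mul_mem hpS (S.add_mem (intCast_mem S c)
    (S.mul_mem (S.mul_mem hyS (natCast_mem S k)) r.2))))

end Fermat.Agent.LP.PL
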