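import Fermat.Agent.GR.Defs

/-!
# PL-LOC, file `PsiW`: the rank two valuation subring of `K((q))` at the cusp `∞`

`PsiW A = {x ∈ K[[q]] : x(0) ∈ A}` for a valuation subring `A` of `K`: the composite of the `q`-adic
valuation with `A`.  An automorphism `σ` of `K` which acts trivially on the residue field of `A`
(`σ a - a ∈ 𝔪_A` for `a ∈ A`) acts trivially on the residue field of `PsiW A`.
-/

set_option autoImplicit false

noncomputable section

namespace Fermat.Agent.LP.PL

open Fermat.Agent.GR ModularCurve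

variable {K : Type*} [Field K]

/-- A Laurent series without negative terms is a power series. -/
theorem PsiW_exists_powerSeries {x : LaurentSeries K} (h : ∀ n : ℤ, n < 0 → x.coeff n = 0) :
    ∃ f : PowerSeries K, (f : LaurentSeries K) = x ∧ PowerSeries.constantCoeff f = x.coeff 0 := by
  refine ⟨PowerSeries.mk fun n => x.coeff n, ?_, ?_⟩
  · ext i
    rw [PowerSeries.coeff_coe]
    split_ifs with hi
    · exact (h i hi).symm
    · rw [PowerSeries.coeff_mk]
      congr 1
      omega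
  · rw [← PowerSeries.coeff_zero_eq_constantCoeff_apply, PowerSeries.coeff_mk]
    rfl

theorem PsiW_coeff_coe_neg (f : PowerSeries K) {n : ℤ} (hn : n < 0) :
    (f : LaurentSeries K).coeff n = 0 := by
  rw [PowerSeries.coeff_coe, if_pos hn]

theorem PsiW_coeff_coe_zero (f : PowerSeries K) :
    (f : LaurentSeries K).coeff 0 = PowerSeries.constantCoeff f := by
  rw [PowerSeries.coeff_coe, if_neg (lt_irrefl 0)]
  simp

/-- The inverse of a power series with nonzero constant term. -/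
theorem PsiW_coe_inv {f : PowerSeries K} (hf : PowerSeries.constantCoeff f ≠ 0) :
    ((f : LaurentSeries K))⁻¹ = ((f⁻¹ : PowerSeries K) : LaurentSeries K) := by
  have h := PowerSeries.mul_inv_cancel f hf
  have h2 : (f : LaurentSeries K) * ((f⁻¹ : PowerSeries K) : LaurentSeries K) = 1 := by
    rw [← PowerSeries.coe_mul, h, PowerSeries.coe_one]
  exact inv_eq_of_mul_eq_one_right h2

/-- Every nonzero Laurent series is `q ^ n` times a power series with nonzero constant term. -/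
theorem PsiW_exists_eq_single_mul {x : LaurentSeries K} (hx : x ≠ 0) :
    ∃ (n : ℤ) (f : PowerSeries K), PowerSeries.constantCoeff f ≠ 0 ∧
      x = HahnSeries.single n (1 : K) * (f : LaurentSeries K) := by
  refine ⟨x.order, x.powerSeriesPart, ?_, (LaurentSeries.single_order_mul_powerSeriesPart x).symm⟩
  rw [← PowerSeries.coeff_zero_eq_constantCoeff_apply, LaurentSeries.powerSeriesPart_coeff]
  simpa using (not_iff_not.2 HahnSeries.coeff_order_eq_zero).2 hx

theorem PsiW_single_eq_coe (n : ℕ) :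
    (HahnSeries.single (n : ℤ) (1 : K) : LaurentSeries K)
      = ((PowerSeries.X ^ n : PowerSeries K) : LaurentSeries K) := by
  rw [PowerSeries.coe_pow, PowerSeries.coe_X, HahnSeries.single_pow]
  simp

/-- The valuation subring `{x ∈ K[[q]] : x(0) ∈ A}` of `K((q))`. -/
def PsiW (A : ValuationSubring K) : ValuationSubring (LaurentSeries K) where
  carrier := {x | ∃ f : PowerSeries K, (f : LaurentSeries K) = x ∧ PowerSeries.constantCoeff f ∈ A}
  mul_mem' := by
    rintro _ _ ⟨f, rfl, hf⟩ ⟨g, rfl, hg⟩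
    exact ⟨f * g, PowerSeries.coe_mul f g, by rw [map_mul]; exact A.mul_mem _ _ hf hg⟩
  one_mem' := ⟨1, PowerSeries.coe_one, by rw [map_one]; exact A.one_mem⟩
  add_mem' := by
    rintro _ _ ⟨f, rfl, hf⟩ ⟨g, rfl, hg⟩
    exact ⟨f + g, PowerSeries.coe_add f g, by rw [map_add]; exact A.add_mem _ _ hf hg⟩
  zero_mem' := ⟨0, PowerSeries.coe_zero, by rw [map_zero]; exact A.zero_mem⟩
  neg_mem' := by
    rintro _ ⟨f, rfl, hf⟩
    exact ⟨-f, PowerSeries.coe_neg f, by rw [map_neg]; exact A.neg_mem _ hf⟩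
  mem_or_inv_mem' := by
    intro x
    by_cases hx : x = 0
    · exact Or.inl ⟨0, by rw [hx, PowerSeries.coe_zero], by rw [map_zero]; exact A.zero_mem⟩
    obtain ⟨n, f, hf, rfl⟩ := PsiW_exists_eq_single_mul hx
    rcases lt_trichotomy n 0 with hn | hn | hn
    · right
      obtain ⟨m, rfl⟩ : ∃ m : ℕ, n = -((m : ℤ) + 1) := ⟨(-n - 1).toNat, by omega⟩
      refine ⟨PowerSeries.X ^ (m + 1) * f⁻¹, ?_, ?_⟩
      · rw [PowerSeries.coe_mul, ← PsiW_single_eq_coe, ← PsiW_coe_inv hf, mul_inv,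
          HahnSeries.inv_single]
        simp
      · rw [map_mul, map_pow, PowerSeries.constantCoeff_X, zero_pow (Nat.succ_ne_zero m), zero_mul]
        exact A.zero_mem
    · subst hn
      rcases A.mem_or_inv_mem (PowerSeries.constantCoeff f) with h | h
      · left
        refine ⟨f, ?_, h⟩
        rw [HahnSeries.single_zero_one, one_mul]
      · right
        refine ⟨f⁻¹, ?_, ?_⟩
        · rw [HahnSeries.single_zero_one, one_mul, PsiW_coe_inv hf]
        · rw [PowerSeries.constantCoeff_inv]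
          exact h
    · left
      obtain ⟨m, rfl⟩ : ∃ m : ℕ, n = (m : ℤ) + 1 := ⟨(n - 1).toNat, by omega⟩
      refine ⟨PowerSeries.X ^ (m + 1) * f, ?_, ?_⟩
      · rw [PowerSeries.coe_mul, ← PsiW_single_eq_coe]
        simp
      · rw [map_mul, map_pow, PowerSeries.constantCoeff_X, zero_pow (Nat.succ_ne_zero m), zero_mul]
        exact A.zero_mem

variable (A : ValuationSubring K)

theorem PsiW_mem_iff {x : LaurentSeries K} :
    x ∈ PsiW A ↔ (∀ n : ℤ, n < 0 → x.coeff n = 0) ∧ x.coeff 0 ∈ A := by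
  constructor
  · rintro ⟨f, rfl, hf⟩
    exact ⟨fun n hn => PsiW_coeff_coe_neg f hn, by rw [PsiW_coeff_coe_zero]; exact hf⟩
  · rintro ⟨h1, h2⟩
    obtain ⟨f, hf, hf0⟩ := PsiW_exists_powerSeries h1
    exact ⟨f, hf, by rw [hf0]; exact h2⟩

theorem PsiW_mem_nonunits_iff {x : LaurentSeries K} :
    x ∈ (PsiW A).nonunits ↔ (∀ n : ℤ, n < 0 → x.coeff n = 0) ∧ x.coeff 0 ∈ A.nonunits := by
  rw [ValuationSubring.mem_nonunits_iff_or, ValuationSubring.mem_nonunits_iff_or]
  constructor
  · rintro (rfl | hx)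
    · exact ⟨fun _ _ => rfl, Or.inl rfl⟩
    · obtain ⟨f, rfl, hf⟩ := ((PsiW A).mem_or_inv_mem x).resolve_right hx
      refine ⟨fun n hn => PsiW_coeff_coe_neg f hn, ?_⟩
      rw [PsiW_coeff_coe_zero]
      by_cases h0 : PowerSeries.constantCoeff f = 0
      · exact Or.inl h0
      · refine Or.inr fun h => hx ⟨f⁻¹, (PsiW_coe_inv h0).symm, ?_⟩
        rw [PowerSeries.constantCoeff_inv]
        exact h
  · rintro ⟨h1, h2⟩
    obtain ⟨f, rfl, hf0⟩ := PsiW_exists_powerSeries h1
    by_cases hx : (f : LaurentSeries K) = 0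
    · exact Or.inl hx
    refine Or.inr ?_
    rintro ⟨g, hg, hg0⟩
    have h3 : ((f * g : PowerSeries K) : LaurentSeries K) = 1 := by
      rw [PowerSeries.coe_mul, hg, mul_inv_cancel₀ hx]
    have h4 : PowerSeries.constantCoeff f * PowerSeries.constantCoeff g = 1 := by
      rw [← map_mul, ← PsiW_coeff_coe_zero, h3]
      simp
    rw [← hf0] at h2
    rcases h2 with h2 | h2
    · rw [h2, zero_mul] at h4
      exact zero_ne_one h4
    · exact h2 (by rw [inv_eq_of_mul_eq_one_right h4]; exact hg0)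

/-- constants. -/
theorem PsiW_C_mem_iff {c : K} : (HahnSeries.C c : LaurentSeries K) ∈ PsiW A ↔ c ∈ A := by
  rw [PsiW_mem_iff]
  constructor
  · rintro ⟨-, h⟩
    simpa using h
  · intro h
    refine ⟨fun n hn => ?_, by simpa using h⟩
    rw [HahnSeries.C_apply, HahnSeries.coeff_single_of_ne hn.ne]

theorem PsiW_C_mem_nonunits_iff {c : K} :
    (HahnSeries.C c : LaurentSeries K) ∈ (PsiW A).nonunits ↔ c ∈ A.nonunits := by
  rw [PsiW_mem_nonunits_iff]
  constructor
  · rintro ⟨-, h⟩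
    simpa using h
  · intro h
    refine ⟨fun n hn => ?_, by simpa using h⟩
    rw [HahnSeries.C_apply, HahnSeries.coeff_single_of_ne hn.ne]

/-- a series of positive order lies in the maximal ideal. -/
theorem PsiW_mem_nonunits_of_coeff {x : LaurentSeries K} (h : ∀ n : ℤ, n ≤ 0 → x.coeff n = 0) :
    x ∈ (PsiW A).nonunits := by
  rw [PsiW_mem_nonunits_iff]
  refine ⟨fun n hn => h n hn.le, ?_⟩
  rw [h 0 le_rfl, ValuationSubring.mem_nonunits_iff_or]
  exact Or.inl rfl

theorem PsiW_mem_nonunits_of_order {x : LaurentSeries K} (h : 0 < x.order) :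
    x ∈ (PsiW A).nonunits :=
  PsiW_mem_nonunits_of_coeff A fun _ hn => HahnSeries.coeff_eq_zero_of_lt_order (lt_of_le_of_lt hn h)

/-- **inertia-like action**: if `σ a - a ∈ 𝔪_A` for all `a ∈ A` then `σ x - x ∈ 𝔪_W` for all
`x ∈ W`. -/
theorem PsiW_coeffMap_sub_mem (σ : K →+* K) (hσ : ∀ a ∈ A, σ a - a ∈ A.nonunits)
    {x : LaurentSeries K} (hx : x ∈ PsiW A) : coeffMap σ x - x ∈ (PsiW A).nonunits := by
  rw [PsiW_mem_iff] at hx
  rw [PsiW_mem_nonunits_iff]
  refine ⟨fun n hn => ?_, ?_⟩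
  · rw [HahnSeries.coeff_sub, coeffMap_coeff, hx.1 n hn, map_zero, sub_zero]
  · rw [HahnSeries.coeff_sub, coeffMap_coeff]
    exact hσ _ hx.2

/-- the same for `gal σ`. -/
theorem PsiW_gal_sub_mem {k : Type*} [Field k] [Algebra k K] (σ : K ≃ₐ[k] K)
    (hσ : ∀ a ∈ A, σ a - a ∈ A.nonunits) {x : LaurentSeries K} (hx : x ∈ PsiW A) :
    gal σ x - x ∈ (PsiW A).nonunits :=
  PsiW_coeffMap_sub_mem A (σ : K →+* K) hσ hx

/-- `W` is stable under `σ` as soon as `A` is. -/
theorem PsiW_coeffMap_mem (σ : K →+* K) (hσ : ∀ a ∈ A, σ a ∈ A)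
    {x : LaurentSeries K} (hx : x ∈ PsiW A) : coeffMap σ x ∈ PsiW A := by
  rw [PsiW_mem_iff] at hx ⊢
  refine ⟨fun n hn => ?_, ?_⟩
  · rw [coeffMap_coeff, hx.1 n hn, map_zero]
  · rw [coeffMap_coeff]
    exact hσ _ hx.2

/-- An element of `K((q))` which is integral over a subring of `W` lies in `W`. -/
theorem PsiW_mem_of_isIntegral {S : Type*} [CommRing S] (f : S →+* LaurentSeries K)
    (hf : ∀ s, f s ∈ PsiW A) {x : LaurentSeries K} (hx : f.IsIntegralElem x) : x ∈ PsiW A := by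
  obtain ⟨P, hP, hPx⟩ := hx
  have h1 : IsIntegral (PsiW A) x := by
    let f' : S →+* PsiW A := f.codRestrict (PsiW A).toSubring hf
    refine ⟨P.map f', hP.map _, ?_⟩
    rw [Polynomial.eval₂_map]
    exact hPx
  obtain ⟨y, hy⟩ := (IsIntegrallyClosed.isIntegral_iff (R := PsiW A) (K := LaurentSeries K)).1 h1
  rw [← hy]
  exact y.2

/-- The same valuation subring with the carrier in coefficient form. -/
def serW (A : ValuationSubring K) : ValuationSubring (LaurentSeries K) :=
  { (PsiW A).toSubring.copy {x | (∀ n : ℤ, n < 0 → x.coeff n = 0) ∧ x.coeff 0 ∈ A}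
      (Set.ext fun _ => (PsiW_mem_iff A).symm) with
    mem_or_inv_mem' := fun x =>
      ((PsiW A).mem_or_inv_mem x).imp (PsiW_mem_iff A).1 (PsiW_mem_iff A).1 }

theorem mem_serW {x : LaurentSeries K} :
    x ∈ serW A ↔ (∀ n : ℤ, n < 0 → x.coeff n = 0) ∧ x.coeff 0 ∈ A := Iff.rfl

theorem serW_eq : serW A = PsiW A :=
  SetLike.ext fun _ => (PsiW_mem_iff A).symm

theorem mem_serW_nonunits {x : LaurentSeries K} :
    x ∈ (serW A).nonunits ↔ (∀ n : ℤ, n < 0 → x.coeff n = 0) ∧ x.coeff 0 ∈ A.nonunits := by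
  rw [serW_eq]
  exact PsiW_mem_nonunits_iff A

theorem C_mem_serW {c : K} : (HahnSeries.C c : LaurentSeries K) ∈ serW A ↔ c ∈ A := by
  rw [serW_eq]
  exact PsiW_C_mem_iff A

theorem C_mem_serW_nonunits {c : K} :
    (HahnSeries.C c : LaurentSeries K) ∈ (serW A).nonunits ↔ c ∈ A.nonunits := by
  rw [serW_eq]
  exact PsiW_C_mem_nonunits_iff A

theorem mem_serW_nonunits_of_order {x : LaurentSeries K} (h : 0 < x.order) :
    x ∈ (serW A).nonunits := by
  rw [serW_eq]
  exact PsiW_mem_nonunits_of_order A h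

theorem serW_coeffMap_sub (τ : K ≃+* K) (h : ∀ a ∈ A, τ a - a ∈ A.nonunits)
    {x : LaurentSeries K} (hx : x ∈ serW A) :
    coeffMap (τ : K →+* K) x - x ∈ (serW A).nonunits := by
  rw [serW_eq] at hx ⊢
  exact PsiW_coeffMap_sub_mem A (τ : K →+* K) h hx

theorem serW_gal_sub {k : Type*} [Field k] [Algebra k K] (σ : K ≃ₐ[k] K)
    (h : ∀ a ∈ A, σ a - a ∈ A.nonunits) {x : LaurentSeries K} (hx : x ∈ serW A) :
    gal σ x - x ∈ (serW A).nonunits := by
  rw [serW_eq] at hx ⊢
  exact PsiW_gal_sub_mem A σ h hx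

theorem serW_coeffMap_mem (σ : K →+* K) (hσ : ∀ a ∈ A, σ a ∈ A)
    {x : LaurentSeries K} (hx : x ∈ serW A) : coeffMap σ x ∈ serW A := by
  rw [serW_eq] at hx ⊢
  exact PsiW_coeffMap_mem A σ hσ hx

/-- An element of `K((q))` which is integral over a subring of `serW A` lies in `serW A`. -/
theorem serW_mem_of_isIntegral {S : Type*} [CommRing S] (f : S →+* LaurentSeries K)
    (hf : ∀ s, f s ∈ serW A) {x : LaurentSeries K} (hx : f.IsIntegralElem x) : x ∈ serW A := by
  rw [serW_eq] at hf ⊢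
  exact PsiW_mem_of_isIntegral A f hf hx

end Fermat.Agent.LP.PL
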