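import Fermat.Agent.LP.PL.Loc.Good
import Fermat.Agent.LP.PL.Loc.DdC
import Fermat.Agent.LP.PL.Loc.Ctr
import Fermat.Agent.LP.PL.Loc.Cst

/-!
# Project LP (S44), module PL-LOC, file Top (G): `PLOut` from `NodeOut`
-/

set_option autoImplicit false
set_option synthInstance.maxHeartbeats 400000
set_option linter.unusedSectionVars false
set_option linter.style.haveILetI false

noncomputable section

namespace Fermat.Agent.LP.PL

open Fermat.Agent.GR Fermat.Agent.GR.E Fermat.Agent.GR.D.Vert Fermat.Agent.GS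
  Fermat.Agent.GT Fermat.Agent.GT.Brg Fermat.Agent.GT.Loc Fermat.Agent.C36.Unit ModularCurve

variable {p N0 : ℕ} [NeZero p] [NeZero N0] [NeZero (p * N0)] {A : ValuationSubring Qb}
  {S : Finset Qb} {L : IntermediateField ℚ Qb}

/-- a unit of `V` is divisible by `p`. -/
theorem Top_pdiv_of_unit {F : Type*} [Field F] {V : ValuationSubring F} {n : ℕ} {x : F}
    (h : x ∈ V) (h' : x⁻¹ ∈ V) : PDivAt V n x :=
  ⟨1, one_ne_zero, by simpa using h, by simpa using h'⟩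

/-- the cusps. -/
theorem Top_cusp (hp : p.Prime) (hp2 : p ≠ 2) (hpN : ¬ p ∣ N0) (hA : A.LiesOverPrime p)
    (hL : GoodField A S L) [IsDiscreteValuationRing (RL A L)]
    {𝒪 : ValuationSubring (FF Qb (p * N0))} (h𝒪 : GR.S.R.IsGaussRing A (p * N0) 𝒪)
    (hl0 : BaseCase.two.lvl ∣ N0) (hr0 : BaseCase.two.r ∣ N0)
    {u2 jj : FF Qb (p * N0)} (hjj : (jj : LaurentSeries Qb) = jqModC Qb)
    (hu2 : IsKummer (N := p * N0) p (u2 : LaurentSeries Qb))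
    {V : ValuationSubring (FF Qb (p * N0))} (hV : V ≤ 𝒪) (hj : jj ∉ V) : PDivAt V p u2 := by
  have := hL.fin
  -- choose `ε` with `τ = h₂ ^ ε` a nonunit of `V`
  obtain ⟨ε, hε, hτV, hτV'⟩ : ∃ ε : ℤ, (ε = 1 ∨ ε = -1) ∧
      toQb L (p * N0) (tauL p N0 L hr0 ε) ∈ V ∧ (toQb L (p * N0) (tauL p N0 L hr0 ε))⁻¹ ∉ V := by
    have h1 := (Cst_jj_mem_iff (L := L) hp hp2 hA h𝒪 hV hr0 hjj).not.1 hj
    by_cases h2 : toQb L (p * N0) (tauL p N0 L hr0 1) ∈ V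
    · exact ⟨1, Or.inl rfl, h2, fun h3 => h1 ⟨h2, h3⟩⟩
    · refine ⟨-1, Or.inr rfl, ?_, ?_⟩
      · rw [Cst_tau_neg, map_inv₀]
        exact (V.mem_or_inv_mem _).resolve_left h2
      · rw [Cst_tau_neg, map_inv₀, inv_inv]
        exact h2
  have hC := Cst_chart_le hp hA h𝒪 hV hr0 ε hτV
  have hW := Cst_comap_le (L := L) hp hA h𝒪 hV
  rcases ctr_cases (Base_gauss₁ hp hA hL (p * N0)) (Base_nodalChart hp hpN hA hL hr0 ε hε) hC hW
    with ⟨hmax, h₁, h₂⟩ | ⟨e, he, he0, he2, heW⟩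
  · exfalso
    haveI := hmax.isPrime
    have h3 := Base_tau_not_mem hp hpN hA hL hl0 hr0 ε hε _ h₁ h₂
    have h4 := inv_mem_of_not_mem_ctr hC h3
    apply hτV'
    rw [← map_inv₀]
    exact h4
  · refine good_pdiv hp hpN hA h𝒪 hr0 ε hε hu2 hV hτV he he0 he2 ?_
    rw [← map_inv₀]
    exact heW

set_option maxHeartbeats 4000000 in
/-- the points of the component `∞` which are not cusps. -/
theorem Top_fin (hp : p.Prime) (hp2 : p ≠ 2) (hpN : ¬ p ∣ N0) (hA : A.LiesOverPrime p)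
    (hL : GoodField A S L) [IsDiscreteValuationRing (RL A L)]
    {𝒪 : ValuationSubring (FF Qb (p * N0))} (h𝒪 : GR.S.R.IsGaussRing A (p * N0) 𝒪)
    (hl0 : BaseCase.two.lvl ∣ N0) (hr0 : BaseCase.two.r ∣ N0)
    {u2 dd jj : FF Qb (p * N0)} (hdd : (dd : LaurentSeries Qb) = EIS.dS Qb p)
    (hjj : (jj : LaurentSeries Qb) = jqModC Qb)
    (hu2 : IsKummer (N := p * N0) p (u2 : LaurentSeries Qb))
    {r0 : ℤ}
    (hN : ∀ (𝔪 : Ideal (chL p N0 A L hr0 1)) [𝔪.IsPrime], 𝔪.IsMaximal →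
      vert ((p : ℕ) : RL A L) (gaussO (RL A L) (p * N0)) (chL p N0 A L hr0 1) ≤ 𝔪 →
      vert ((p : ℕ) : RL A L) (Val.Ozero' (RL A L) p N0) (chL p N0 A L hr0 1) ≤ 𝔪 →
      ∀ X₁ X₂ G : chL p N0 A L hr0 1,
        (X₁ : FF L (p * N0)) / piL p N0 A L ∈ gaussO (RL A L) (p * N0) →
        (X₂ : FF L (p * N0)) / piL p N0 A L ∈ Val.Ozero' (RL A L) p N0 →
        G ∉ 𝔪 → X₁ * X₂ = algebraMap (RL A L) (chL p N0 A L hr0 1) ((p : ℕ) : RL A L) * G →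
        ∀ V : ValuationSubring (FF Qb (p * N0)), V ≤ 𝒪 →
          (∀ x ∈ locAt (chL p N0 A L hr0 1) 𝔪, toQb L (p * N0) x ∈ V) →
          PDivAt V p (u2 / toQb L (p * N0) (X₂ : FF L (p * N0)) ^ r0))
    {V : ValuationSubring (FF Qb (p * N0))} (hV : V ≤ 𝒪) (hj : jj ∈ V) :
    PDivAt V p (u2 ^ 12 / dd ^ r0) := by
  have := hL.fin
  obtain ⟨hτV, hτV'⟩ := (Cst_jj_mem_iff (L := L) hp hp2 hA h𝒪 hV hr0 hjj).1 hj
  have hC := Cst_chart_le hp hA h𝒪 hV hr0 1 hτV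
  have hW := Cst_comap_le (L := L) hp hA h𝒪 hV
  have hNC := Base_nodalChart hp hpN hA hL hr0 1 (Or.inl rfl)
  have hG₁ := Base_gauss₁ hp hA hL (p * N0)
  obtain ⟨k, hk1, hk2⟩ := DdC_int hp hpN hA hL hr0
  obtain ⟨hg1, hg2⟩ := DdC_gauss (A := A) (L := L) hp hpN
  have hdφ : ddL p N0 L * (piL p N0 A L ^ 12 * (ddL p N0 L)⁻¹) = piL p N0 A L ^ 12 := by
    field_simp [DdC_ne_zero (p := p) (N0 := N0) (L := L)]
  have hτW' : (tauL p N0 L hr0 1)⁻¹ ∈ V.comap (toQb L (p * N0)) := by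
    rw [ValuationSubring.mem_comap, map_inv₀]
    exact hτV'
  rcases ctr_cases hG₁ hNC hC hW with ⟨hmax, h₁, h₂⟩ | ⟨e, he, he0, he2, heW⟩
  · -- a node
    haveI := hmax.isPrime
    obtain ⟨X₁, X₂, G, hX₁, hX₂, hG, hX⟩ :=
      Base_regNode hp hpN hA hL hl0 hr0 1 (Or.inl rfl) _ hmax h₁ h₂
    have h5 := hN _ hmax h₁ h₂ X₁ X₂ G hX₁ hX₂ hG hX V hV (fun x hx => locAt_ctr_le hC x hx)
    have hG0 : (G : FF L (p * N0)) ≠ 0 := by
      intro h0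
      apply hG
      have : G = 0 := Subtype.ext h0
      rw [this]
      exact Ideal.zero_mem _
    obtain ⟨h6, h7⟩ := dd_node_abs hNC.toSatChart2 hG₁.ne_zero hC (Base_tau_mem A L hr0 1)
      (Cst_tau_ne_zero L hr0 1) hτW' X₁.2 X₂.2 G.2 hG0 (inv_mem_of_not_mem_ctr hC hG) hX₁ hX₂
      (congrArg Subtype.val hX) hk1 hk2 hdφ hg1 hg2
    have h8 : PDivAt V p (dd / toQb L (p * N0) (X₂ : FF L (p * N0)) ^ 12) := by
      rw [← DdC_toQb (L := L) hdd, ← map_pow, ← map_div₀]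
      refine Top_pdiv_of_unit h6 ?_
      rw [← map_inv₀]
      exact h7
    have h9 : u2 ^ 12 / dd ^ r0 = (u2 / toQb L (p * N0) (X₂ : FF L (p * N0)) ^ r0) ^ 12 *
        ((dd / toQb L (p * N0) (X₂ : FF L (p * N0)) ^ 12) ^ r0)⁻¹ := by
      have hX0 : toQb L (p * N0) (X₂ : FF L (p * N0)) ≠ 0 := by
        rw [map_ne_zero]
        intro h0
        have h10 := congrArg Subtype.val hX
        have h11 : (X₁ : FF L (p * N0)) * (X₂ : FF L (p * N0)) =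
            piL p N0 A L * (G : FF L (p * N0)) := h10
        rw [h0, mul_zero] at h11
        exact mul_ne_zero hG₁.ne_zero hG0 h11.symm
      rw [div_pow, div_zpow, ← zpow_natCast (toQb L (p * N0) (X₂ : FF L (p * N0)) ^ r0) 12,
        ← zpow_natCast (toQb L (p * N0) (X₂ : FF L (p * N0))) 12, ← zpow_mul, ← zpow_mul,
        mul_comm r0]
      have hZ : toQb L (p * N0) (X₂ : FF L (p * N0)) ^ (((12 : ℕ) : ℤ) * r0) ≠ 0 :=
        zpow_ne_zero _ hX0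
      field_simp
    rw [h9]
    exact EIS.VDiv.mul (EIS.VDiv.pow h5 12) (EIS.VDiv.inv (EIS.VDiv.zpow h8 r0))
  · -- not a node
    have h5 : PDivAt V p u2 := by
      refine good_pdiv hp hpN hA h𝒪 hr0 1 (Or.inl rfl) hu2 hV hτV he he0 he2 ?_
      rw [← map_inv₀]
      exact heW
    obtain ⟨h6, h7⟩ := dd_good_abs hNC.toSatChart2 hG₁.ne_zero hC (Base_tau_mem A L hr0 1)
      (Cst_tau_ne_zero L hr0 1) hτW' he he0 he2 heW hk1 hk2 hdφ hg1
    have h8 : PDivAt V p dd := by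
      rw [← DdC_toQb (L := L) hdd]
      refine Top_pdiv_of_unit h6 ?_
      rw [← map_inv₀]
      exact h7
    rw [div_eq_mul_inv]
    exact EIS.VDiv.mul (EIS.VDiv.pow h5 12) (EIS.VDiv.inv (EIS.VDiv.zpow h8 r0))

/-- (G): the conclusion of `PLOut` from `NodeOut`. -/
theorem plOut_of_nodeOut (hp : p.Prime) (hp2 : p ≠ 2) (hpN : ¬ p ∣ N0) (hA : A.LiesOverPrime p)
    (hL : GoodField A S L) [IsDiscreteValuationRing (RL A L)]
    {𝒪 : ValuationSubring (FF Qb (p * N0))} (h𝒪 : GR.S.R.IsGaussRing A (p * N0) 𝒪)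
    (hl0 : BaseCase.two.lvl ∣ N0) (hr0 : BaseCase.two.r ∣ N0)
    {u2 dd jj : FF Qb (p * N0)} (hdd : (dd : LaurentSeries Qb) = EIS.dS Qb p)
    (hjj : (jj : LaurentSeries Qb) = jqModC Qb)
    (hu2 : IsKummer (N := p * N0) p (u2 : LaurentSeries Qb))
    (hN : NodeOut p N0 A L hr0 𝒪 u2) :
    ∃ r : ℕ, (∀ V : ValuationSubring (FF Qb (p * N0)), V ≤ 𝒪 → jj ∈ V →
        PDivAt V p (u2 ^ 12 / dd ^ r)) ∧
      ∀ V : ValuationSubring (FF Qb (p * N0)), V ≤ 𝒪 → jj ∉ V → PDivAt V p u2 := by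
  obtain ⟨r0, hN⟩ := hN
  refine ⟨(r0 % p).toNat, fun V hV hj => ?_, fun V hV hj =>
    Top_cusp hp hp2 hpN hA hL h𝒪 hl0 hr0 hjj hu2 hV hj⟩
  have h1 := Top_fin hp hp2 hpN hA hL h𝒪 hl0 hr0 hdd hjj hu2 hN hV hj
  have hp0 : (p : ℤ) ≠ 0 := by exact_mod_cast hp.ne_zero
  have h2 : ((r0 % p).toNat : ℤ) = r0 % p := Int.toNat_of_nonneg (Int.emod_nonneg _ hp0)
  have hdd0 : dd ≠ 0 := by
    rw [← DdC_toQb (L := L) hdd, map_ne_zero]
    exact DdC_ne_zero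
  have h3 : u2 ^ 12 / dd ^ (r0 % p).toNat = u2 ^ 12 / dd ^ r0 * (dd ^ (r0 / p)) ^ p := by
    rw [← zpow_natCast dd, h2, ← zpow_natCast (dd ^ (r0 / p)) p, ← zpow_mul]
    have h4 : r0 = r0 % p + r0 / p * p := by
      rw [mul_comm]
      exact (Int.emod_add_mul_ediv r0 p).symm
    have h5 : dd ^ r0 = dd ^ (r0 % p) * dd ^ (r0 / p * p) := by
      rw [← zpow_add₀ hdd0, ← h4]
    rw [h5]
    have h6 : dd ^ (r0 % p) ≠ 0 := zpow_ne_zero _ hdd0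
    have h7 : dd ^ (r0 / p * p) ≠ 0 := zpow_ne_zero _ hdd0
    field_simp
  rw [h3]
  exact EIS.VDiv.mul h1 (EIS.vdiv_pow_self V p _)

end Fermat.Agent.LP.PL
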