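import Mathlib

/-!
# LP-PL-LOC, piece X2 (INV_∞): the abstract argument

`F` a field, `𝒪` a valuation subring, `ζ ∈ F` a primitive `p`-th root of unity, `lam = ζ - 1`.
`X2Near 𝒪 d f` : `f ∈ 1 + d 𝔪`, i.e. `(f - 1) / d ∈ 𝔪 = 𝒪.nonunits`.

`τ` an automorphism of `F` preserving `𝔪` and fixing `ζ`; `n : F →* F` (`= U_p ^ 2`) commutes with
`τ`, kills `ζ`, and preserves `1 + lam 𝔪` and `1 + lam ^ p 𝔪`.  `U, y` fixed by `τ`,
`n U = U y ^ p`.  If `b ^ p U ∈ 1 + lam ^ p 𝔪` then `τ b / b ∈ 1 + lam 𝔪`.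

Paper proof of `X2_abs`.  `G₁ = 1 + lam 𝔪`, `G_p = 1 + lam ^ p 𝔪` are subgroups of `Fˣ`, stable under
`τ` and `n`.  `x := τ b / b`.  `x ^ p = τ (b ^ p U) / (b ^ p U) ∈ G_p`, so (`X2_root`) `x = ζ ^ i t`,
`t ∈ G₁`, and `n x = n t ∈ G₁`.  `b'' := n b * y`: `b'' ^ p U = n (b ^ p U) ∈ G_p`, so
`(b'' / b) ^ p ∈ G_p`, `b'' / b = ζ ^ k s`, `s ∈ G₁`, and `τ (b'' / b) / (b'' / b) = τ s / s ∈ G₁`.
But `τ (b'' / b) / (b'' / b) = (τ b'' / b'') / x = n x / x`.  Hence `x ∈ G₁`.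
-/

set_option autoImplicit false

namespace Fermat.Agent.LP.PL

variable {F : Type*} [Field F] (𝒪 : ValuationSubring F)

/-- `f ∈ 1 + d 𝔪`. -/
def X2Near (d f : F) : Prop := (f - 1) / d ∈ 𝒪.nonunits

variable {𝒪}

theorem X2Near.one (d : F) : X2Near 𝒪 d 1 := by
  unfold X2Near
  rw [sub_self, zero_div, ValuationSubring.mem_nonunits_iff, map_zero]
  exact zero_lt_one

theorem X2Abs_add_mem {a b : F} (ha : a ∈ 𝒪.nonunits) (hb : b ∈ 𝒪.nonunits) :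
    a + b ∈ 𝒪.nonunits := by
  rw [ValuationSubring.mem_nonunits_iff] at *
  exact lt_of_le_of_lt (𝒪.valuation.map_add a b) (max_lt ha hb)

theorem X2Abs_mul_mem {a b : F} (ha : a ∈ 𝒪) (hb : b ∈ 𝒪.nonunits) : a * b ∈ 𝒪.nonunits := by
  rw [ValuationSubring.mem_nonunits_iff] at *
  rw [← 𝒪.valuation_le_one_iff] at ha
  rw [map_mul]
  exact lt_of_le_of_lt (mul_le_of_le_one_left' ha) hb

theorem X2Abs_mem_of_nonunits {a : F} (ha : a ∈ 𝒪.nonunits) : a ∈ 𝒪 := by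
  rw [ValuationSubring.mem_nonunits_iff] at ha
  exact (𝒪.valuation_le_one_iff a).mp ha.le

theorem X2Abs_zero (f : F) : X2Near 𝒪 0 f := by
  unfold X2Near
  rw [div_zero, ValuationSubring.mem_nonunits_iff, map_zero]
  exact zero_lt_one

/-- `f g - 1 = (f - 1) + (g - 1) + (f - 1) (g - 1)`. -/
theorem X2Near.mul {d f g : F} (hd : d ∈ 𝒪) (hf : X2Near 𝒪 d f) (hg : X2Near 𝒪 d g) :
    X2Near 𝒪 d (f * g) := by
  by_cases hd0 : d = 0
  · subst hd0; exact X2Abs_zero _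
  unfold X2Near at *
  have e : (f * g - 1) / d = (f - 1) / d + (g - 1) / d + d * (((f - 1) / d) * ((g - 1) / d)) := by
    field_simp
    ring
  rw [e]
  exact X2Abs_add_mem (X2Abs_add_mem hf hg)
    (X2Abs_mul_mem hd (X2Abs_mul_mem (X2Abs_mem_of_nonunits hf) hg))

/-- `f = 1 + d m` is a unit of `𝒪`, `f⁻¹ - 1 = - d m / f`. -/
theorem X2Near.inv {d f : F} (hd : d ∈ 𝒪) (hf : X2Near 𝒪 d f) : X2Near 𝒪 d f⁻¹ := by
  by_cases hd0 : d = 0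
  · subst hd0; exact X2Abs_zero _
  unfold X2Near at *
  have h1 : f - 1 ∈ 𝒪.nonunits := by
    have := X2Abs_mul_mem hd hf
    rwa [mul_div_cancel₀ _ hd0] at this
  have hv : 𝒪.valuation f = 1 := by
    have h2 : 𝒪.valuation (f - 1) < 𝒪.valuation (1 : F) := by
      rw [map_one]; exact (ValuationSubring.mem_nonunits_iff 𝒪).mp h1
    have h3 := 𝒪.valuation.map_add_eq_of_lt_left h2
    rw [add_sub_cancel, map_one] at h3
    exact h3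
  have hf0 : f ≠ 0 := by
    rintro rfl
    rw [map_zero] at hv
    exact zero_ne_one hv
  have e : (f⁻¹ - 1) / d = -((f - 1) / d) / f := by
    field_simp
    ring
  rw [e, ValuationSubring.mem_nonunits_iff, map_div₀, hv, div_one, Valuation.map_neg]
  exact (ValuationSubring.mem_nonunits_iff 𝒪).mp hf

theorem X2Near.div {d f g : F} (hd : d ∈ 𝒪) (hf : X2Near 𝒪 d f) (hg : X2Near 𝒪 d g) :
    X2Near 𝒪 d (f / g) := by
  rw [div_eq_mul_inv]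
  exact hf.mul hd (hg.inv hd)

theorem X2Near.map {d f : F} (τ : F ≃+* F) (hτ : ∀ x, x ∈ 𝒪.nonunits → τ x ∈ 𝒪.nonunits)
    (hd : τ d = d) (hf : X2Near 𝒪 d f) : X2Near 𝒪 d (τ f) := by
  unfold X2Near at *
  have := hτ _ hf
  rwa [map_div₀, map_sub, map_one, hd] at this

/-- a root of unity is a unit of `𝒪`. -/
theorem X2_mem_of_pow_eq_one {p : ℕ} (hp : 0 < p) {ζ : F} (hζ : ζ ^ p = 1) : ζ ∈ 𝒪 ∧ ζ⁻¹ ∈ 𝒪 := by
  obtain ⟨k, rfl⟩ : ∃ k, p = k + 1 := ⟨p - 1, by omega⟩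
  have hζ0 : ζ ≠ 0 := by
    rintro rfl
    simp at hζ
  have h1 : ζ⁻¹ = ζ ^ k := by
    rw [pow_succ] at hζ
    exact (eq_inv_of_mul_eq_one_left hζ).symm
  have h2 : ζ = ζ⁻¹ ^ k := by
    rw [h1, ← pow_mul]
    have : ζ ^ (k * k) * ζ ^ k = ζ * ζ ^ k := by
      rw [← pow_add, ← pow_succ', show k * k + k = (k + 1) * k by ring, pow_mul, hζ, one_pow]
    exact (mul_right_cancel₀ (pow_ne_zero k hζ0) this).symm
  rcases 𝒪.mem_or_inv_mem ζ with h | h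
  · exact ⟨h, h1 ▸ pow_mem h k⟩
  · exact ⟨h2 ▸ pow_mem h k, h⟩

/-- ROOT lemma: `∏_{i < p} (x - ζ ^ i) / lam = (x ^ p - 1) / lam ^ p ∈ 𝔪`, so one of the factors is in
`𝔪` (valuation of a product; `IsPrimitiveRoot.pow_sub_one_eq_prod` or `X_pow_sub_one_eq_prod`). -/
theorem X2_root {p : ℕ} (hp : 0 < p) {ζ : F} (hζ : IsPrimitiveRoot ζ p) {x : F}
    (hx : X2Near 𝒪 ((ζ - 1) ^ p) (x ^ p)) : ∃ i : ℕ, X2Near 𝒪 (ζ - 1) (x / ζ ^ i) := by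
  classical
  by_cases hl : ζ - 1 = 0
  · exact ⟨0, by rw [hl]; exact X2Abs_zero _⟩
  unfold X2Near at hx
  have h1 := hζ.pow_sub_pow_eq_prod_sub_mul x 1 hp
  rw [one_pow] at h1
  have h2 : (x ^ p - 1) / (ζ - 1) ^ p =
      ∏ μ ∈ Polynomial.nthRootsFinset p (1 : F), ((x - μ * 1) / (ζ - 1)) := by
    rw [Finset.prod_div_distrib, Finset.prod_const, hζ.card_nthRootsFinset, h1]
  rw [h2, ValuationSubring.mem_nonunits_iff, map_prod] at hx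
  have h3 : ∃ μ ∈ Polynomial.nthRootsFinset p (1 : F), 𝒪.valuation ((x - μ * 1) / (ζ - 1)) < 1 := by
    by_contra hcon
    push Not at hcon
    exact absurd hx (not_lt.mpr (Finset.one_le_prod' hcon))
  obtain ⟨μ, hμ, hv⟩ := h3
  rw [Polynomial.mem_nthRootsFinset hp] at hμ
  haveI : NeZero p := ⟨hp.ne'⟩
  obtain ⟨i, _, rfl⟩ := hζ.eq_pow_of_pow_eq_one hμ
  refine ⟨i, ?_⟩
  have hζ0 : ζ ≠ 0 := hζ.ne_zero hp.ne'
  have hi : (ζ ^ i) ^ p = 1 := by rw [← pow_mul, mul_comm, pow_mul, hζ.pow_eq_one, one_pow]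
  obtain ⟨_, hinv⟩ := X2_mem_of_pow_eq_one (𝒪 := 𝒪) hp hi
  unfold X2Near
  have e : (x / ζ ^ i - 1) / (ζ - 1) = (ζ ^ i)⁻¹ * ((x - ζ ^ i * 1) / (ζ - 1)) := by
    have := pow_ne_zero i hζ0
    field_simp
  rw [e]
  exact X2Abs_mul_mem hinv ((ValuationSubring.mem_nonunits_iff 𝒪).mpr hv)

end Fermat.Agent.LP.PL
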