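import Fermat.Agent.LP.PL.Loc.X2Abs

/-!
# LP-PL-LOC, piece X2 (INV_∞): the abstract argument (main lemma)

Paper proof of `X2_abs` (see also the header of `X2Abs.lean`).  `G₁ = 1 + lam 𝔪`, `G_p = 1 + lam ^ p 𝔪`
(`X2Near 𝒪 lam`, `X2Near 𝒪 (lam ^ p)`) are stable under products, inverses (`X2Near.mul/inv/div`, with
`lam ∈ 𝒪` from `X2_mem_of_pow_eq_one`), under `τ` (`X2Near.map`) and `n` (`hn1`, `hnp`).
`x := τ b / b`.  `x ^ p = τ (b ^ p U) / (b ^ p U) ∈ G_p`, so (`X2_root`) `x = ζ ^ i t`, `t ∈ G₁`, and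
`n x = n t ∈ G₁` (`hnζ`).  `b'' := n b * y`: `b'' ^ p U = n (b ^ p U) ∈ G_p`, so `(b'' / b) ^ p ∈ G_p`,
`b'' / b = ζ ^ k s`, `s ∈ G₁`, and `τ (b'' / b) / (b'' / b) = τ s / s ∈ G₁`.
But `τ (b'' / b) / (b'' / b) = (τ b'' / b'') / x = n x / x`.  Hence `x = n x / (n x / x) ∈ G₁`.
-/

set_option autoImplicit false

namespace Fermat.Agent.LP.PL

variable {F : Type*} [Field F] {𝒪 : ValuationSubring F}

theorem X2_abs {p : ℕ} (hp : 0 < p) {ζ : F} (hζ : IsPrimitiveRoot ζ p) (τ : F ≃+* F)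
    (hτ : ∀ x, x ∈ 𝒪.nonunits → τ x ∈ 𝒪.nonunits) (hτζ : τ ζ = ζ) (n : F →* F)
    (hnτ : ∀ x, n (τ x) = τ (n x)) (hnζ : n ζ = 1)
    (hn1 : ∀ f, X2Near 𝒪 (ζ - 1) f → X2Near 𝒪 (ζ - 1) (n f))
    (hnp : ∀ f, X2Near 𝒪 ((ζ - 1) ^ p) f → X2Near 𝒪 ((ζ - 1) ^ p) (n f))
    {U y b : F} (hU : U ≠ 0) (hy : y ≠ 0) (hb : b ≠ 0) (hτU : τ U = U) (hτy : τ y = y)
    (hnU : n U = U * y ^ p) (hw : X2Near 𝒪 ((ζ - 1) ^ p) (b ^ p * U)) :
    X2Near 𝒪 (ζ - 1) (τ b / b) := by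
  have hζ0 : ζ ≠ 0 := hζ.ne_zero hp.ne'
  have hlam : ζ - 1 ∈ 𝒪 := sub_mem (X2_mem_of_pow_eq_one (𝒪 := 𝒪) hp hζ.pow_eq_one).1 (one_mem _)
  have hlamp : (ζ - 1) ^ p ∈ 𝒪 := pow_mem hlam p
  have hτlam : τ (ζ - 1) = ζ - 1 := by rw [map_sub, hτζ, map_one]
  have hτlamp : τ ((ζ - 1) ^ p) = (ζ - 1) ^ p := by rw [map_pow, hτlam]
  have hτb : τ b ≠ 0 := by simpa using hb
  have hn0 : ∀ z : F, z ≠ 0 → n z ≠ 0 := by
    intro z hz h
    have h1 : n z * n z⁻¹ = 1 := by rw [← map_mul, mul_inv_cancel₀ hz, map_one]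
    rw [h, zero_mul] at h1
    exact zero_ne_one h1
  have hnζi : ∀ i : ℕ, n (ζ ^ i) = 1 := fun i => by rw [map_pow, hnζ, one_pow]
  have hnb : n b ≠ 0 := hn0 b hb
  obtain ⟨x, hx⟩ : ∃ x : F, x = τ b / b := ⟨_, rfl⟩
  rw [← hx]
  have hx0 : x ≠ 0 := hx ▸ div_ne_zero hτb hb
  -- step 1
  have h1 : X2Near 𝒪 ((ζ - 1) ^ p) (x ^ p) := by
    have e : x ^ p = τ (b ^ p * U) / (b ^ p * U) := by
      rw [map_mul, map_pow, hτU, hx, div_pow]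
      field_simp
    rw [e]
    exact (hw.map τ hτ hτlamp).div hlamp hw
  obtain ⟨i, hi⟩ := X2_root hp hζ h1
  have hnx : X2Near 𝒪 (ζ - 1) (n x) := by
    have e : n x = n (x / ζ ^ i) := by
      have e2 : x = x / ζ ^ i * ζ ^ i := by
        rw [div_mul_cancel₀ _ (pow_ne_zero i hζ0)]
      conv_lhs => rw [e2, map_mul, hnζi, mul_one]
    rw [e]
    exact hn1 _ hi
  -- step 2
  have h2 : X2Near 𝒪 ((ζ - 1) ^ p) ((n b * y / b) ^ p) := by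
    have e : (n b * y / b) ^ p = n (b ^ p * U) / (b ^ p * U) := by
      rw [map_mul, map_pow, hnU, div_pow, mul_pow]
      field_simp
    rw [e]
    exact (hnp _ hw).div hlamp hw
  obtain ⟨k, hk⟩ := X2_root hp hζ h2
  have h3 : X2Near 𝒪 (ζ - 1) (n x / x) := by
    have e : n x / x = τ (n b * y / b / ζ ^ k) / (n b * y / b / ζ ^ k) := by
      have e1 : n (τ b) = n x * n b := by
        rw [← map_mul, hx, div_mul_cancel₀ _ hb]
      rw [map_div₀ τ, map_div₀ τ, map_mul τ, map_pow τ, hτζ, hτy, ← hnτ, e1]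
      have hτbx : τ b = x * b := by rw [hx, div_mul_cancel₀ _ hb]
      rw [hτbx]
      have := pow_ne_zero k hζ0
      field_simp
    rw [e]
    exact (hk.map τ hτ hτlam).div hlam hk
  have e : x = n x / (n x / x) := by
    have := hn0 x hx0
    field_simp
  rw [e]
  exact hnx.div hlam h3

end Fermat.Agent.LP.PL
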