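import Fermat.Agent.LP.PL.Loc.X2Abs
import Fermat.Agent.LP.Dep.ContractQ
import Fermat.Agent.S33.ND.UInt
import Fermat.Agent.GR.S.R.LDefs
import Fermat.Agent.GS.Conc.Model

/-!
# LP-PL-LOC, piece X2: the concrete inputs at the level of `Q̄`

`F = FF Q̄ N`, `p ∣ N`, `𝒪` the Gauss ring of `A` (`GR.S.R.IsGaussRing A N 𝒪`).

* `X2nT` : `normT p ζ` as a monoid endomorphism of `F`.
* `X2_gal_nonunits` : the decomposition group preserves `𝔪_𝒪` (`IsGaussRing.spec'`).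
* `X2_near_nT` : EXACT contraction: `f ∈ 1 + d 𝒪`, `d ∈ 𝔪_A` ⟹ `normT f ∈ 1 + d 𝔪_𝒪`.
  Proof = `LP.Dep.depthAt_normT` without the Kummer equivalence: `(f - 1) / d = g / s`,
  `g, s ∈ FF`, `IsInt A g`, `IsPrim A s` (`IsGaussRing.spec`, `IsGaussInt`); `f = (s + d g) / s`;
  over `A` (`isInt_iff`, `incl`): `normT (s + d g) = normT s + d ^ p normT g + p d s'`
  (`LP.Dep.exists_normT_add`), `normT s` is primitive (`S33.ND.isPrim_normT` or as in
  `depthAt_normT`), so `(normT f - 1) / d = (d ^ (p - 1) normT g + p s') / normT s` and the numerator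
  has all its coefficients in `𝔪_A` and lies in `FF` (it is `(normT (s + d g) - normT s) / d`).
  Conclude with `IsGaussRing.spec'`.
-/

set_option autoImplicit false
set_option synthInstance.maxHeartbeats 400000

noncomputable section

namespace Fermat.Agent.LP.PL

open Fermat.Agent.GR Fermat.Agent.LP ModularCurve

variable {N : ℕ} [NeZero N] {p : ℕ} [Fact p.Prime] {A : ValuationSubring Qbar}

/-- `U_p = normT p ζ` on `FF Q̄ N`, `p ∣ N`. -/
def X2nT (hpN : p ∣ N) (ζ : Qbarˣ) (hζ : IsPrimitiveRoot ζ p) : FF Qbar N →* FF Qbar N where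
  toFun x := ⟨normT p ζ (x : LaurentSeries Qbar), B.normT_mem_FF_Qbar p hpN ζ hζ x.2⟩
  map_one' := Subtype.ext (Dep.ContractQ_normT_one p ζ)
  map_mul' x y := Subtype.ext (normT_mul p ζ hζ _ _)

@[simp] theorem coe_X2nT (hpN : p ∣ N) (ζ : Qbarˣ) (hζ : IsPrimitiveRoot ζ p) (x : FF Qbar N) :
    ((X2nT hpN ζ hζ x : FF Qbar N) : LaurentSeries Qbar) = normT p ζ (x : LaurentSeries Qbar) := rfl

theorem X2Conc_coe_algebraMap (N : ℕ) (c : Qbar) :
    ((algebraMap Qbar (FF Qbar N) c : FF Qbar N) : LaurentSeries Qbar) = HahnSeries.single 0 c := by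
  rw [IntermediateField.coe_algebraMap_apply, algebraMap_laurentSeries_eq_single]

/-- `normT (C c) = C (c ^ p)` (`normT_C`). -/
theorem X2nT_algebraMap (hpN : p ∣ N) (ζ : Qbarˣ) (hζ : IsPrimitiveRoot ζ p) (c : Qbar) :
    X2nT hpN ζ hζ (algebraMap Qbar (FF Qbar N) c) = algebraMap Qbar (FF Qbar N) (c ^ p) := by
  apply Subtype.ext
  rw [coe_X2nT, X2Conc_coe_algebraMap, X2Conc_coe_algebraMap]
  exact normT_C p ζ c

/-- `coeffMap_normT`. -/
theorem X2nT_gal (hpN : p ∣ N) (ζ : Qbarˣ) (hζ : IsPrimitiveRoot ζ p) (τ : Qbar ≃ₐ[ℚ] Qbar)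
    (hτζ : τ ζ = ζ) (x : FF Qbar N) :
    X2nT hpN ζ hζ (GS.mapFFEquiv (τ : Qbar ≃+* Qbar) N x)
      = GS.mapFFEquiv (τ : Qbar ≃+* Qbar) N (X2nT hpN ζ hζ x) := by
  apply Subtype.ext
  rw [coe_X2nT, GS.coe_mapFFEquiv, GS.coe_mapFFEquiv, coe_X2nT, coeffMap_normT]
  congr 1
  apply Units.ext
  exact hτζ.symm

theorem X2_gal_algebraMap (τ : Qbar ≃ₐ[ℚ] Qbar) (c : Qbar) :
    GS.mapFFEquiv (τ : Qbar ≃+* Qbar) N (algebraMap Qbar (FF Qbar N) c)
      = algebraMap Qbar (FF Qbar N) (τ c) := by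
  apply Subtype.ext
  rw [GS.coe_mapFFEquiv, X2Conc_coe_algebraMap, X2Conc_coe_algebraMap, coeffMap_single]
  rfl

variable {𝒪 : ValuationSubring (FF Qbar N)}

/-- the decomposition group preserves the maximal ideal of the Gauss ring. -/
theorem X2_gal_nonunits (h𝒪 : GR.S.R.IsGaussRing A N 𝒪) (τ : Qbar ≃ₐ[ℚ] Qbar)
    (hτ : ∀ x, τ x ∈ A ↔ x ∈ A) (u : FF Qbar N) (hu : u ∈ 𝒪.nonunits) :
    GS.mapFFEquiv (τ : Qbar ≃+* Qbar) N u ∈ 𝒪.nonunits := by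
  rw [h𝒪.spec'] at hu ⊢
  obtain ⟨f, g, hf, hg, hfA, hgP, hfg⟩ := hu
  have hnu : ∀ x : Qbar, τ x ∈ A.nonunits ↔ x ∈ A.nonunits := by
    intro x
    rw [ValuationSubring.mem_nonunits_iff_or, ValuationSubring.mem_nonunits_iff_or, ← map_inv₀, hτ,
      EmbeddingLike.map_eq_zero_iff]
  refine ⟨coeffMap ((τ : Qbar ≃+* Qbar) : Qbar →+* Qbar) f,
    coeffMap ((τ : Qbar ≃+* Qbar) : Qbar →+* Qbar) g, GR.E.coeffMap_mem_FF _ N hf,
    GR.E.coeffMap_mem_FF _ N hg, ?_, ⟨?_, ?_⟩, ?_⟩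
  · intro n
    rw [coeffMap_coeff]
    exact (hnu _).2 (hfA n)
  · intro n
    rw [coeffMap_coeff]
    exact (hτ _).2 (hgP.1 n)
  · obtain ⟨n, hn⟩ := hgP.2
    refine ⟨n, ?_⟩
    rw [coeffMap_coeff]
    exact fun h => hn ((hnu _).1 h)
  · rw [GS.coe_mapFFEquiv, ← map_mul, hfg]

/-- constants of `A` are in `𝒪`. -/
theorem X2_algebraMap_mem (h𝒪 : GR.S.R.IsGaussRing A N 𝒪) {c : Qbar} (hc : c ∈ A) :
    algebraMap Qbar (FF Qbar N) c ∈ 𝒪 := by
  rw [h𝒪.spec]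
  refine ⟨HahnSeries.single 0 c, 1, ?_, (FF Qbar N).one_mem, ?_, ⟨?_, 0, ?_⟩, ?_⟩
  · rw [← X2Conc_coe_algebraMap N c]
    exact (algebraMap Qbar (FF Qbar N) c).2
  · intro n
    rw [HahnSeries.coeff_single]
    split_ifs
    · exact hc
    · exact A.zero_mem
  · intro n
    rw [HahnSeries.coeff_one]
    split_ifs
    · exact A.one_mem
    · exact A.zero_mem
  · rw [HahnSeries.coeff_one, if_pos rfl, ValuationSubring.mem_nonunits_iff, map_one]
    exact lt_irrefl _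
  · rw [mul_one, X2Conc_coe_algebraMap]

end Fermat.Agent.LP.PL
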