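import Fermat.Agent.LP.PL.Loc.X2Near
import Fermat.Agent.LP.PL.Loc.X2Abs2
import Fermat.Agent.S33.Ram0
import Fermat.Agent.GS.Bridge.Gal

/-!
# LP-PL-LOC, piece X2 (INV_∞): export
-/

set_option autoImplicit false
set_option synthInstance.maxHeartbeats 400000

noncomputable section

namespace Fermat.Agent.LP.PL

open Fermat.Agent.GR Fermat.Agent.LP ModularCurve

variable {N : ℕ} [NeZero N] {p : ℕ} [Fact p.Prime] {A : ValuationSubring Qbar}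
  {𝒪 : ValuationSubring (FF Qbar N)}

/-- `ζ - 1 ∈ 𝔪_A`. -/
theorem X2_lam_mem (hA : A.LiesOverPrime p) {ζ : Qbar} (hζ : IsPrimitiveRoot ζ p) :
    ζ - 1 ∈ A.nonunits :=
  S33.Ram_sub_one_mem A (Fact.out : p.Prime) hA hζ

/-- **X2 (INV_∞)**.  `U` and `y` are fixed by `τ` (an element of the decomposition group of `A` which
fixes `ζ`), `U_p ^ 2 U = U y ^ p`; then for every witness `b` (`b ^ p U ∈ 1 + lam ^ p 𝔪`)
`τ b / b ∈ 1 + lam 𝔪`. -/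
theorem X2_main (h𝒪 : GR.S.R.IsGaussRing A N 𝒪) (hpN : p ∣ N) (hA : A.LiesOverPrime p)
    (ζ : Qbarˣ) (hζ : IsPrimitiveRoot ζ p) (τ : Qbar ≃ₐ[ℚ] Qbar) (hτ : ∀ x, τ x ∈ A ↔ x ∈ A)
    (hτζ : τ ζ = ζ) {U y b : FF Qbar N} (hU : U ≠ 0) (hy : y ≠ 0) (hb : b ≠ 0)
    (hτU : gal τ (U : LaurentSeries Qbar) = U) (hτy : gal τ (y : LaurentSeries Qbar) = y)
    (hnU : normT p ζ (normT p ζ (U : LaurentSeries Qbar))
      = (U : LaurentSeries Qbar) * (y : LaurentSeries Qbar) ^ p)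
    (hw : (b ^ p * U - 1) / algebraMap Qbar (FF Qbar N) (((ζ : Qbar) - 1) ^ p) ∈ 𝒪.nonunits) :
    (GS.mapFFEquiv (τ : Qbar ≃+* Qbar) N b / b - 1) / algebraMap Qbar (FF Qbar N) ((ζ : Qbar) - 1)
      ∈ 𝒪.nonunits := by
  have hp : p.Prime := Fact.out
  have hζQ : IsPrimitiveRoot (ζ : Qbar) p :=
    hζ.map_of_injective (f := Units.coeHom Qbar) Units.val_injective
  have hζF : IsPrimitiveRoot (algebraMap Qbar (FF Qbar N) (ζ : Qbar)) p :=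
    hζQ.map_of_injective (algebraMap Qbar (FF Qbar N)).injective
  have hlam : (ζ : Qbar) - 1 ∈ A.nonunits := X2_lam_mem hA hζQ
  have hlam0 : (ζ : Qbar) - 1 ≠ 0 := sub_ne_zero.mpr (hζQ.ne_one hp.one_lt)
  have hlamp : ((ζ : Qbar) - 1) ^ p ∈ A.nonunits := by
    rw [ValuationSubring.mem_nonunits_iff] at hlam ⊢
    rw [map_pow]
    exact pow_lt_one₀ zero_le hlam hp.ne_zero
  have e1 : algebraMap Qbar (FF Qbar N) (ζ : Qbar) - 1
      = algebraMap Qbar (FF Qbar N) ((ζ : Qbar) - 1) := by rw [map_sub, map_one]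
  have ep : (algebraMap Qbar (FF Qbar N) (ζ : Qbar) - 1) ^ p
      = algebraMap Qbar (FF Qbar N) (((ζ : Qbar) - 1) ^ p) := by rw [e1, map_pow]
  have hnear : ∀ {d : Qbar}, d ∈ A.nonunits → d ≠ 0 → ∀ f : FF Qbar N,
      X2Near 𝒪 (algebraMap Qbar (FF Qbar N) d) f →
      X2Near 𝒪 (algebraMap Qbar (FF Qbar N) d)
        (((X2nT hpN ζ hζ).comp (X2nT hpN ζ hζ)) f) := by
    intro d hd hd0 f hf
    have h1 := X2_near_nT h𝒪 hpN hA ζ hζ hd hd0 (𝒪.nonunits_subset hf)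
    exact X2_near_nT h𝒪 hpN hA ζ hζ hd hd0 (𝒪.nonunits_subset h1)
  have key := X2_abs (𝒪 := 𝒪) hp.pos hζF (GS.mapFFEquiv (τ : Qbar ≃+* Qbar) N)
    (X2_gal_nonunits h𝒪 τ hτ) (by rw [X2_gal_algebraMap, hτζ])
    ((X2nT hpN ζ hζ).comp (X2nT hpN ζ hζ))
    (fun x => by
      rw [MonoidHom.comp_apply, MonoidHom.comp_apply, X2nT_gal hpN ζ hζ τ hτζ,
        X2nT_gal hpN ζ hζ τ hτζ])
    (by
      rw [MonoidHom.comp_apply, X2nT_algebraMap, hζQ.pow_eq_one, map_one, map_one])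
    (by rw [e1]; exact hnear hlam hlam0)
    (by rw [ep]; exact hnear hlamp (pow_ne_zero _ hlam0))
    hU hy hb (Subtype.ext hτU) (Subtype.ext hτy) (Subtype.ext hnU)
    (by rw [ep]; exact hw)
  rw [e1] at key
  exact key

end Fermat.Agent.LP.PL
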