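import Fermat.Agent.LP.PL.Loc.X2Conc

/-!
# LP-PL-LOC, piece X2: EXACT contraction at the level of `Q̄`

`f ∈ 1 + d 𝒪`, `d ∈ 𝔪_A` ⟹ `normT f ∈ 1 + d 𝔪_𝒪`.
Proof = `LP.Dep.depthAt_normT` (file `LP/Dep/ContractQ.lean`: COPY IT) without the Kummer equivalence:
`(f - 1) / d = g / s`, `g, s ∈ FF`, `IsInt A g`, `IsPrim A s` (`IsGaussRing.spec`, `IsGaussInt`);
`f = (s + d g) / s`; over `A` (`isInt_iff`, `incl`):
`normT (s + d g) = normT s + d ^ p normT g + p d s'` (`LP.Dep.exists_normT_add`), `normT s` is primitive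
(`S33.ND.isPrim_normT`, or as in `depthAt_normT`), so
`(normT f - 1) / d = (d ^ (p - 1) normT g + p s') / normT s`; the numerator has all its coefficients in
`𝔪_A` (`d, p ∈ 𝔪_A`, `p ≥ 2`) and lies in `FF` (it is `(normT (s + d g) - normT s) / C d`).
Conclude with `IsGaussRing.spec'`.
-/

set_option autoImplicit false
set_option synthInstance.maxHeartbeats 400000

noncomputable section

namespace Fermat.Agent.LP.PL

open Fermat.Agent.GR Fermat.Agent.LP ModularCurve

variable {N : ℕ} [NeZero N] {p : ℕ} [Fact p.Prime] {A : ValuationSubring Qbar}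
  {𝒪 : ValuationSubring (FF Qbar N)}

/-- EXACT contraction. -/
theorem X2_near_nT (h𝒪 : GR.S.R.IsGaussRing A N 𝒪) (hpN : p ∣ N) (hA : A.LiesOverPrime p)
    (ζ : Qbarˣ) (hζ : IsPrimitiveRoot ζ p) {d : Qbar} (hd : d ∈ A.nonunits) (hd0 : d ≠ 0)
    {f : FF Qbar N} (hf : (f - 1) / algebraMap Qbar (FF Qbar N) d ∈ 𝒪) :
    X2Near 𝒪 (algebraMap Qbar (FF Qbar N) d) (X2nT hpN ζ hζ f) := by
  have hp : p.Prime := Fact.out
  have hdA : d ∈ A := A.nonunits_subset hd
  obtain ⟨g, s, hgF, hsF, hgI, hsP, hgs⟩ := (h𝒪.spec _).mp hf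
  obtain ⟨g', rfl⟩ := (isInt_iff A).mp hgI
  obtain ⟨s', rfl⟩ := (isInt_iff A).mp hsP.1
  have := charP_residueField A hA
  obtain ⟨ξ, hξ, hξ1⟩ := exists_unit_of_pow_eq_one A hA ζ hζ.pow_eq_one
  have hξp : IsPrimitiveRoot ξ p := by
    apply (IsPrimitiveRoot.map_iff_of_injective (f := Units.map (A.subtype : ↥A →* Qbar))
      (Units.map_injective A.subtype_injective)).mp
    rw [hξ]
    exact hζ
  have hi : ∀ x : LaurentSeries A, incl A (normT p ξ x) = normT p ζ (incl A x) := by
    intro x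
    rw [incl, coeffMap_normT, hξ]
  have hr : ∀ x : LaurentSeries A, red A (normT p ξ x) =
      coeffMap (frobenius (IsLocalRing.ResidueField A) p) (red A x) := by
    intro x
    rw [red, coeffMap_normT, hξ1, normT_one_char]
  have hfrobinj : Function.Injective
      (coeffMap (frobenius (IsLocalRing.ResidueField A) p)) := by
    intro x y hxy
    ext k
    have := congrArg (fun s => s.coeff k) hxy
    exact (frobenius (IsLocalRing.ResidueField A) p).injective this
  obtain ⟨t, ht⟩ := Dep.exists_normT_add p ξ hξp (Dep.ContractQ_isUnit_natCast hA) s' g' ⟨d, hdA⟩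
  -- the constant `D`
  set D : LaurentSeries Qbar := ((algebraMap Qbar (FF Qbar N) d : FF Qbar N) : LaurentSeries Qbar)
    with hD
  have hDC : D = HahnSeries.C d := by
    rw [hD, IntermediateField.coe_algebraMap_apply, algebraMap_laurentSeries_eq_single,
      HahnSeries.C_apply]
  have hD0 : D ≠ 0 := by
    rw [hDC]
    intro h
    exact hd0 (HahnSeries.C_injective (by rw [h, map_zero]))
  have hDF : D ∈ FF Qbar N := (algebraMap Qbar (FF Qbar N) d).2
  have hDi : D = incl A (HahnSeries.C (⟨d, hdA⟩ : A)) := by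
    rw [hDC]
    ext m
    change _ = (((HahnSeries.C (⟨d, hdA⟩ : A)).coeff m : A) : Qbar)
    rw [HahnSeries.C_apply, HahnSeries.C_apply, HahnSeries.coeff_single, HahnSeries.coeff_single]
    split_ifs <;> rfl
  -- `f s = s + D g`
  have hfs : (f : LaurentSeries Qbar) * incl A s' = incl A (s' + HahnSeries.C (⟨d, hdA⟩ : A) * g') := by
    have h1 : ((f : LaurentSeries Qbar) - 1) / D * incl A s' = incl A g' := hgs
    rw [map_add, map_mul, ← hDi, ← h1]
    field_simp
    ring
  -- the numerator over `A`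
  obtain ⟨k, hk⟩ : ∃ k, p = k + 2 := ⟨p - 2, by have := hp.two_le; omega⟩
  set W : LaurentSeries A := HahnSeries.C ((⟨d, hdA⟩ : A) ^ (p - 1)) * normT p ξ g'
    + HahnSeries.C (p : A) * t with hW
  have hsum : normT p ξ (s' + HahnSeries.C (⟨d, hdA⟩ : A) * g')
      = normT p ξ s' + HahnSeries.C (⟨d, hdA⟩ : A) * W := by
    rw [ht, hW, mul_add, ← mul_assoc, ← mul_assoc, ← map_mul, ← map_mul, ← pow_succ',
      Nat.sub_add_cancel hp.one_le, mul_comm (⟨d, hdA⟩ : A) (p : A), add_assoc]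
  have hnT : normT p ζ (f : LaurentSeries Qbar) * normT p ζ (incl A s')
      = normT p ζ (incl A s') + D * incl A W := by
    rw [← normT_mul p ζ hζ, hfs, ← hi, hsum, map_add, map_mul, ← hDi, hi]
  have hnsF : normT p ζ (incl A s') ∈ FF Qbar N := B.normT_mem_FF_Qbar p hpN ζ hζ hsF
  have hnfF : normT p ζ (f : LaurentSeries Qbar) ∈ FF Qbar N := B.normT_mem_FF_Qbar p hpN ζ hζ f.2
  have hWeq : incl A W = (normT p ζ (f : LaurentSeries Qbar) - 1) / D * normT p ζ (incl A s') := by
    have : (normT p ζ (f : LaurentSeries Qbar) - 1) * normT p ζ (incl A s') = D * incl A W := by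
      rw [sub_mul, one_mul, hnT]
      ring
    rw [div_mul_eq_mul_div, this, mul_div_cancel_left₀ _ hD0]
  unfold X2Near
  rw [h𝒪.spec']
  refine ⟨incl A W, normT p ζ (incl A s'), ?_, hnsF, ?_, ?_, hWeq.symm⟩
  · rw [hWeq]
    exact mul_mem (div_mem (sub_mem hnfF (one_mem _)) hDF) hnsF
  · intro m
    change (((W.coeff m : A)) : Qbar) ∈ A.nonunits
    rw [ValuationSubring.coe_mem_nonunits_iff, hW, HahnSeries.coeff_add, HahnSeries.C_apply,
      HahnSeries.C_apply, HahnSeries.coeff_single_zero_mul, HahnSeries.coeff_single_zero_mul]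
    have hdm : (⟨d, hdA⟩ : A) ∈ IsLocalRing.maximalIdeal A := by
      rw [← ValuationSubring.coe_mem_nonunits_iff]
      exact hd
    have hpm : (p : A) ∈ IsLocalRing.maximalIdeal A := by
      rw [← ValuationSubring.coe_mem_nonunits_iff]
      have : ((p : A) : Qbar) = (p : Qbar) := by simp
      rw [this]
      exact hA
    refine Ideal.add_mem _ (Ideal.mul_mem_right _ _ (Ideal.pow_mem_of_mem _ hdm _ ?_))
      (Ideal.mul_mem_right _ _ hpm)
    omega
  · rw [← hi, isPrim_incl_iff, hr]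
    intro h0
    exact (isPrim_incl_iff A s').mp hsP (hfrobinj (by rw [h0, map_zero]))

end Fermat.Agent.LP.PL
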